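/-
PT / G : basic facts on the decomposition group `A.decompositionSubgroup ℚ ≤ G_ℚ` of an arbitrary
valuation subring `A` of `ℚ̄`.

* `apply_mem_iff_of_mem_decomp` : `g x ∈ A ↔ x ∈ A` for `g ∈ D_A`.
* `valuation_apply_eq_of_mem_decomp` : `v_A (g x) = v_A x` for `g ∈ D_A`.
* `isClosed_decompositionSubgroup` : `D_A` is closed in the Krull topology.
* `fixingSubgroup_fixedField_decomp_inf` : `Gal(ℚ̄ / Fix(D_A ⊓ G_F)) = D_A ⊓ G_F`.
-/
import Mathlib
import Fermat.Agent.Lib.GalQbar

set_option autoImplicit false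
set_option linter.style.haveILetI false

namespace Fermat.Agent.PT.G

local notation "Qb" => AlgebraicClosure ℚ
local notation "GQ" => (AlgebraicClosure ℚ ≃ₐ[ℚ] AlgebraicClosure ℚ)

open scoped Pointwise

open Fermat.Agent.Lib.GalQbar

attribute [local instance] isAlgClosure_rat isGalois_rat Fermat.Agent.Lib.GalQbar.isAlgebraic_rat

theorem mem_decomp_iff (A : ValuationSubring Qb) (g : GQ) :
    g ∈ A.decompositionSubgroup ℚ ↔ g • A = A := MulAction.mem_stabilizer_iff

theorem apply_mem_iff_of_mem_decomp {A : ValuationSubring Qb} {g : GQ}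
    (hg : g ∈ A.decompositionSubgroup ℚ) (x : Qb) : g x ∈ A ↔ x ∈ A := by
  have hg' : g⁻¹ ∈ A.decompositionSubgroup ℚ := inv_mem hg
  rw [mem_decomp_iff] at hg'
  have h := ValuationSubring.mem_pointwise_smul_iff_inv_smul_mem (g := g⁻¹) (S := A) (x := x)
  rw [hg', inv_inv] at h
  exact h.symm

/-- Membership in the decomposition group, elementwise. -/
theorem mem_decomp_iff_forall (A : ValuationSubring Qb) (g : GQ) :
    g ∈ A.decompositionSubgroup ℚ ↔ ∀ x : Qb, g x ∈ A ↔ x ∈ A := by
  refine ⟨fun hg x => apply_mem_iff_of_mem_decomp hg x, fun h => ?_⟩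
  rw [mem_decomp_iff]
  ext x
  rw [ValuationSubring.mem_pointwise_smul_iff_inv_smul_mem]
  have := h (g⁻¹ x)
  rw [show g (g⁻¹ x) = x from AlgEquiv.apply_symm_apply g x] at this
  exact this.symm

/-- Elements of the decomposition group preserve the order of valuations. -/
theorem valuation_apply_le_iff_of_mem_decomp {A : ValuationSubring Qb} {g : GQ}
    (hg : g ∈ A.decompositionSubgroup ℚ) (x y : Qb) :
    A.valuation (g x) ≤ A.valuation (g y) ↔ A.valuation x ≤ A.valuation y := by
  rcases eq_or_ne y 0 with rfl | hy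
  · simp
  · have hgy : g y ≠ 0 := by simpa using hy
    have h1 : A.valuation (g x) ≤ A.valuation (g y) ↔ g x / g y ∈ A := by
      rw [← ValuationSubring.valuation_le_one_iff, map_div₀,
        div_le_one₀ ((Valuation.pos_iff _).2 hgy)]
    have h2 : A.valuation x ≤ A.valuation y ↔ x / y ∈ A := by
      rw [← ValuationSubring.valuation_le_one_iff, map_div₀,
        div_le_one₀ ((Valuation.pos_iff _).2 hy)]
    rw [h1, h2, ← map_div₀, apply_mem_iff_of_mem_decomp hg]

/-- Every element of `ℚ̄` is fixed by some positive power of a given automorphism. -/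
theorem exists_pow_apply_eq (g : GQ) (x : Qb) : ∃ k : ℕ, 0 < k ∧ (g ^ k) x = x := by
  have hx : IsIntegral ℚ x := Algebra.IsIntegral.isIntegral x
  have hfin : ((minpoly ℚ x).rootSet Qb).Finite := Polynomial.rootSet_finite _ _
  have hmem : ∀ k : ℕ, (g ^ k) x ∈ (minpoly ℚ x).rootSet Qb := by
    intro k
    rw [Polynomial.mem_rootSet]
    refine ⟨minpoly.ne_zero hx, ?_⟩
    have h := Polynomial.aeval_algHom_apply ((g ^ k : GQ) : Qb →ₐ[ℚ] Qb) x (minpoly ℚ x)
    rw [minpoly.aeval, map_zero] at h
    exact h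
  obtain ⟨i, j, hij, heq⟩ : ∃ i j : ℕ, i < j ∧ (g ^ i) x = (g ^ j) x := by
    by_contra hcon
    push Not at hcon
    have hinj : Function.Injective (fun k : ℕ => (⟨(g ^ k) x, hmem k⟩ : (minpoly ℚ x).rootSet Qb)) := by
      intro i j hij
      have hij' : (g ^ i) x = (g ^ j) x := congrArg Subtype.val hij
      rcases lt_trichotomy i j with h | h | h
      · exact absurd hij' (hcon i j h)
      · exact h
      · exact absurd hij'.symm (hcon j i h)
    haveI := hfin.to_subtype
    exact not_injective_infinite_finite _ hinj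
  refine ⟨j - i, Nat.sub_pos_of_lt hij, ?_⟩
  have hj : j = i + (j - i) := by omega
  rw [hj, pow_add] at heq
  have := (g ^ i).injective (heq.trans (by rfl : ((g ^ i) * g ^ (j - i)) x = (g ^ i) ((g ^ (j - i)) x)))
  exact this.symm

/-- Elements of the decomposition group preserve the valuation. -/
theorem valuation_apply_eq_of_mem_decomp {A : ValuationSubring Qb} {g : GQ}
    (hg : g ∈ A.decompositionSubgroup ℚ) (x : Qb) : A.valuation (g x) = A.valuation x := by
  obtain ⟨k, hk, hkx⟩ := exists_pow_apply_eq g x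
  have hpow : ∀ n : ℕ, (g ^ (n + 1)) x = g ((g ^ n) x) := fun n => by
    rw [pow_succ']; rfl
  rcases lt_trichotomy (A.valuation (g x)) (A.valuation x) with h | h | h
  · exfalso
    -- strictly decreasing along the orbit
    have hdec : ∀ n : ℕ, A.valuation ((g ^ (n + 1)) x) < A.valuation x := by
      intro n
      induction n with
      | zero => simpa using h
      | succ n ih =>
        have h1 : A.valuation (g ((g ^ (n + 1)) x)) < A.valuation (g x) := by
          rw [← not_le, valuation_apply_le_iff_of_mem_decomp hg, not_le]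
          exact ih
        rw [hpow (n + 1)]
        exact h1.trans h
    have := hdec (k - 1)
    rw [Nat.sub_add_cancel hk, hkx] at this
    exact lt_irrefl _ this
  · exact h
  · exfalso
    have hinc : ∀ n : ℕ, A.valuation x < A.valuation ((g ^ (n + 1)) x) := by
      intro n
      induction n with
      | zero => simpa using h
      | succ n ih =>
        have h1 : A.valuation (g x) < A.valuation (g ((g ^ (n + 1)) x)) := by
          rw [← not_le, valuation_apply_le_iff_of_mem_decomp hg, not_le]
          exact ih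
        rw [hpow (n + 1)]
        exact h.trans h1
    have := hinc (k - 1)
    rw [Nat.sub_add_cancel hk, hkx] at this
    exact lt_irrefl _ this

/-- `{σ | σ x ∈ s}` is clopen for the Krull topology; here: closed. -/
theorem isClosed_setOf_apply_mem (x : Qb) (s : Set Qb) : IsClosed {σ : GQ | σ x ∈ s} := by
  refine ⟨isOpen_iff_mem_nhds.2 fun σ hσ => ?_⟩
  have hopen : IsOpen (MulAction.stabilizer GQ x : Set GQ) := stabilizer_isOpen_of_isIntegral x
  have h1 : (MulAction.stabilizer GQ x : Set GQ) ∈ nhds (1 : GQ) :=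
    hopen.mem_nhds (Subgroup.one_mem _)
  have h2 : (fun τ : GQ => σ⁻¹ * τ) ⁻¹' (MulAction.stabilizer GQ x : Set GQ) ∈ nhds σ := by
    have hc : ContinuousAt (fun τ : GQ => σ⁻¹ * τ) σ := (continuous_const_mul σ⁻¹).continuousAt
    apply hc
    show (MulAction.stabilizer GQ x : Set GQ) ∈ nhds (σ⁻¹ * σ)
    rw [inv_mul_cancel]
    exact h1
  refine Filter.mem_of_superset h2 ?_
  intro τ hτ
  have hτ' : (σ⁻¹ * τ) x = x := MulAction.mem_stabilizer_iff.1 hτ
  have hτx : τ x = σ x := by
    have h3 : σ ((σ⁻¹ * τ) x) = τ x := by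
      show σ (σ⁻¹ (τ x)) = τ x
      exact AlgEquiv.apply_symm_apply σ (τ x)
    rw [← h3, hτ']
  show ¬ τ x ∈ s
  rw [hτx]
  exact hσ

/-- The decomposition group of any valuation subring of `ℚ̄` is closed. -/
theorem isClosed_decompositionSubgroup (A : ValuationSubring Qb) :
    IsClosed (A.decompositionSubgroup ℚ : Set GQ) := by
  have hset : (A.decompositionSubgroup ℚ : Set GQ)
      = (⋂ x ∈ (A : Set Qb), {σ : GQ | σ x ∈ (A : Set Qb)})
        ∩ (⋂ x ∈ (A : Set Qb)ᶜ, {σ : GQ | σ x ∈ (A : Set Qb)ᶜ}) := by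
    ext g
    simp only [SetLike.mem_coe, Set.mem_inter_iff, Set.mem_iInter, Set.mem_ofPred_eq,
      Set.mem_compl_iff]
    rw [mem_decomp_iff_forall]
    constructor
    · intro h
      exact ⟨fun x hx => (h x).2 hx, fun x hx hgx => hx ((h x).1 hgx)⟩
    · rintro ⟨h1, h2⟩ x
      exact ⟨fun hgx => by_contra fun hx => h2 x hx hgx, fun hx => h1 x hx⟩
  rw [hset]
  exact (isClosed_biInter fun x _ => isClosed_setOf_apply_mem x _).inter
    (isClosed_biInter fun x _ => isClosed_setOf_apply_mem x _)

/-- Galois correspondence for the local groups `D_A ⊓ G_F`. -/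
theorem fixingSubgroup_fixedField_decomp_inf (A : ValuationSubring Qb)
    (F : IntermediateField ℚ Qb) :
    (IntermediateField.fixedField (A.decompositionSubgroup ℚ ⊓ F.fixingSubgroup)).fixingSubgroup
      = A.decompositionSubgroup ℚ ⊓ F.fixingSubgroup := by
  have hcl : IsClosed ((A.decompositionSubgroup ℚ ⊓ F.fixingSubgroup : Subgroup GQ) : Set GQ) := by
    rw [Subgroup.coe_inf]
    exact (isClosed_decompositionSubgroup A).inter (InfiniteGalois.fixingSubgroup_isClosed F)
  exact InfiniteGalois.fixingSubgroup_fixedField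
    (⟨A.decompositionSubgroup ℚ ⊓ F.fixingSubgroup, hcl⟩ : ClosedSubgroup GQ)

end Fermat.Agent.PT.G
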