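import Mathlib

/-!
# Decomposition fields are henselian (PT, bridge to the local layer)

No completions: the "local field" at a place is the fixed field of (a subgroup of) the
decomposition group of a valuation subring `A` of an algebraically closed field, and its valuation
ring `A ∩ L^D` is a henselian local ring.

* `mem_maximalIdeal_comap_iff`: the maximal ideal of `A ∩ M` is cut out by `A.valuation < 1`.
* `henselianLocalRing_comap`: if `M` is the fixed field of a family of endomorphisms of the
  algebraically closed field `L` preserving the valuation ideal of `A`, then `A ∩ M` is henselian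
  (a root of `f` in `L` close to an approximate simple root is unique, hence fixed).
* `henselianLocalRing_fixedField`: the case `M = L^D`, `D ≤ A.decompositionSubgroup K`.
* `apply_mem_iff_of_mem_decompositionSubgroup`, `valuation_apply_lt_one_iff_of_mem_decompositionSubgroup`,
  `valuation_apply_le_one_iff_of_mem_decompositionSubgroup`: decomposition groups preserve `A`.
-/

set_option autoImplicit false
set_option linter.style.haveILetI false

namespace Fermat.Agent.PT.Kummer

open Polynomial

section General

variable {L : Type*} [Field L] (A : ValuationSubring L) {M : Type*} [Field M] [Algebra M L]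

/-- Elements of the maximal ideal of `A ∩ M`, via the valuation of `A`. -/
theorem mem_maximalIdeal_comap_iff (x : A.comap (algebraMap M L)) :
    x ∈ IsLocalRing.maximalIdeal (A.comap (algebraMap M L)) ↔
      A.valuation (algebraMap M L (x : M)) < 1 := by
  have hle : A.valuation (algebraMap M L (x : M)) ≤ 1 := (A.valuation_le_one_iff _).mpr x.2
  rw [IsLocalRing.mem_maximalIdeal, mem_nonunits_iff]
  constructor
  · intro h
    refine lt_of_le_of_ne hle fun h1 => h ?_
    have hx0 : (x : M) ≠ 0 := by
      intro h0
      rw [h0, map_zero, map_zero] at h1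
      exact zero_ne_one h1
    have hinv : (x : M)⁻¹ ∈ A.comap (algebraMap M L) := by
      rw [ValuationSubring.mem_comap, ← A.valuation_le_one_iff, map_inv₀, map_inv₀, h1, inv_one]
    refine IsUnit.of_mul_eq_one (⟨(x : M)⁻¹, hinv⟩ : A.comap (algebraMap M L)) ?_
    apply Subtype.ext
    exact mul_inv_cancel₀ hx0
  · intro h hu
    obtain ⟨y, hy⟩ := hu.exists_right_inv
    have h1 : A.valuation (algebraMap M L (x : M)) * A.valuation (algebraMap M L (y : M)) = 1 := by
      rw [← map_mul, ← map_mul]
      have h3 : (x : M) * (y : M) = 1 := congrArg Subtype.val hy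
      rw [h3, map_one, map_one]
    have hy1 : A.valuation (algebraMap M L (y : M)) ≤ 1 := (A.valuation_le_one_iff _).mpr y.2
    have h2 : A.valuation (algebraMap M L (x : M)) * A.valuation (algebraMap M L (y : M)) < 1 :=
      mul_lt_one_of_lt_of_le h hy1
    rw [h1] at h2
    exact lt_irrefl _ h2

/-- **Fixed fields of automorphisms preserving a valuation ring are henselian.** Let `L` be an
algebraically closed field with a valuation subring `A`, and let `M` be a subfield which is the
fixed field of a family of endomorphisms `σ i` of `L` preserving the maximal ideal of `A`. Then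
`A ∩ M` is a henselian local ring. -/
theorem henselianLocalRing_comap [IsAlgClosed L] {ι : Type*} (σ : ι → L →+* L)
    (hσA : ∀ i x, A.valuation x < 1 → A.valuation (σ i x) < 1)
    (hσM : ∀ i (m : M), σ i (algebraMap M L m) = algebraMap M L m)
    (hfix : ∀ x : L, (∀ i, σ i x = x) → x ∈ (algebraMap M L).range) :
    HenselianLocalRing (A.comap (algebraMap M L)) := by
  refine { toIsLocalRing := inferInstance, is_henselian := ?_ }
  intro f hf a₀ h₀ h₁
  -- the maps to `L` and to `A`
  let φ : A.comap (algebraMap M L) →+* L := (algebraMap M L).comp (A.comap (algebraMap M L)).subtype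
  have hφA : ∀ x, φ x ∈ A := fun x => x.2
  let φA : A.comap (algebraMap M L) →+* A := φ.codRestrict A.toSubring hφA
  have hφφ : A.subtype.comp φA = φ := rfl
  have hφinj : Function.Injective φ :=
    (algebraMap M L).injective.comp Subtype.val_injective
  obtain ⟨fA, hfA⟩ : ∃ fA : A[X], fA = f.map φA := ⟨_, rfl⟩
  obtain ⟨fL, hfL⟩ : ∃ fL : L[X], fL = f.map φ := ⟨_, rfl⟩
  have hfAL : fA.map A.subtype = fL := by rw [hfA, hfL, Polynomial.map_map, hφφ]
  have hfLm : fL.Monic := by rw [hfL]; exact hf.map φ
  have hfAm : fA.Monic := by rw [hfA]; exact hf.map φA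
  have hsplit : fL.Splits := IsAlgClosed.splits fL
  have ha₀ : A.valuation (φ a₀) ≤ 1 := (A.valuation_le_one_iff _).mpr (hφA a₀)
  -- hypotheses transported
  have hv₀ : A.valuation (fL.eval (φ a₀)) < 1 := by
    rw [hfL, Polynomial.eval_map, Polynomial.eval₂_at_apply]
    exact (mem_maximalIdeal_comap_iff A _).mp h₀
  have hv₁ : A.valuation (fL.derivative.eval (φ a₀)) = 1 := by
    rw [hfL, Polynomial.derivative_map, Polynomial.eval_map, Polynomial.eval₂_at_apply]
    refine le_antisymm ((A.valuation_le_one_iff _).mpr (hφA _)) (not_lt.mp fun h => ?_)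
    have := (mem_maximalIdeal_comap_iff A _).mpr h
    rw [IsLocalRing.mem_maximalIdeal, mem_nonunits_iff] at this
    exact this h₁
  -- a root close to `a₀`
  obtain ⟨α, hαroot, hα⟩ : ∃ α ∈ fL.roots, A.valuation (φ a₀ - α) < 1 := by
    by_contra hcon
    push Not at hcon
    rw [hsplit.eval_eq_prod_roots_of_monic hfLm, map_multiset_prod, Multiset.map_map] at hv₀
    refine absurd (Multiset.one_le_prod_of_one_le ?_) (not_le.mpr hv₀)
    intro x hx
    obtain ⟨β, hβ, rfl⟩ := Multiset.mem_map.mp hx
    exact hcon β hβ
  have hαr : fL.IsRoot α := (Polynomial.mem_roots hfLm.ne_zero).mp hαroot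
  -- elements close to `a₀` are in `A`
  have hmemA : ∀ β : L, A.valuation (φ a₀ - β) < 1 → β ∈ A := by
    intro β hβ
    rw [← A.valuation_le_one_iff]
    have e : β = φ a₀ - (φ a₀ - β) := by ring
    rw [e]
    exact le_trans (A.valuation.map_sub _ _) (max_le ha₀ hβ.le)
  let αA : A := ⟨α, hmemA α hα⟩
  have hrootA : ∀ (β : L) (hβ : β ∈ A), fL.IsRoot β → fA.IsRoot ⟨β, hβ⟩ := by
    intro β hβ h
    rw [Polynomial.IsRoot, ← hfAL, Polynomial.eval_map] at h
    have h2 : Polynomial.eval₂ A.subtype (A.subtype ⟨β, hβ⟩) fA = 0 := h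
    rw [Polynomial.eval₂_at_apply] at h2
    exact Subtype.ext h2
  have hαA : fA.IsRoot αA := hrootA α _ hαr
  -- factor out the root
  let gA : A[X] := fA /ₘ (X - C αA)
  have hfac : (X - C αA) * gA = fA := Polynomial.mul_divByMonic_eq_iff_isRoot.mpr hαA
  let a₀A : A := φA a₀
  have hg₁ : A.valuation ((gA.eval a₀A : A) : L) = 1 := by
    have hder : fA.derivative = gA + (X - C αA) * gA.derivative := by
      rw [← hfac, Polynomial.derivative_mul, Polynomial.derivative_sub, Polynomial.derivative_X,
        Polynomial.derivative_C, sub_zero, one_mul]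
    have h1 : ((fA.derivative.eval a₀A : A) : L) = fL.derivative.eval (φ a₀) := by
      have e1 : fL.derivative = fA.derivative.map A.subtype := by
        rw [← hfAL, Polynomial.derivative_map]
      rw [e1, Polynomial.eval_map]
      exact (Polynomial.eval₂_at_apply A.subtype a₀A).symm
    have h2 : ((gA.eval a₀A : A) : L) = ((fA.derivative.eval a₀A : A) : L)
        - (φ a₀ - α) * ((gA.derivative.eval a₀A : A) : L) := by
      rw [hder]
      simp only [Polynomial.eval_add, Polynomial.eval_mul, Polynomial.eval_sub, Polynomial.eval_X,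
        Polynomial.eval_C]
      push_cast
      show _ = _ + (φ a₀ - α) * _ - _
      ring
    rw [h2, h1]
    have h3 : A.valuation ((φ a₀ - α) * ((gA.derivative.eval a₀A : A) : L)) < 1 := by
      rw [map_mul]
      exact mul_lt_one_of_lt_of_le hα ((A.valuation_le_one_iff _).mpr (Subtype.mem _))
    rw [Valuation.map_sub_eq_of_lt_left _ (by rw [hv₁]; exact h3), hv₁]
  -- uniqueness of the root close to `a₀`
  have huniq : ∀ β : L, fL.IsRoot β → A.valuation (φ a₀ - β) < 1 → β = α := by
    intro β hβr hβ
    by_contra hne
    let βA : A := ⟨β, hmemA β hβ⟩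
    have hβA : fA.IsRoot βA := hrootA β _ hβr
    rw [Polynomial.IsRoot, ← hfac, Polynomial.eval_mul, Polynomial.eval_sub, Polynomial.eval_X,
      Polynomial.eval_C] at hβA
    have hg0 : gA.eval βA = 0 := by
      rcases mul_eq_zero.mp hβA with h | h
      · exact absurd (congrArg Subtype.val (sub_eq_zero.mp h)) hne
      · exact h
    obtain ⟨c, hc⟩ := Polynomial.sub_dvd_eval_sub a₀A βA gA
    rw [hg0, sub_zero] at hc
    have h4 : A.valuation ((gA.eval a₀A : A) : L) < 1 := by
      rw [hc]
      push_cast
      rw [map_mul]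
      exact mul_lt_one_of_lt_of_le hβ ((A.valuation_le_one_iff _).mpr (Subtype.mem _))
    rw [hg₁] at h4
    exact lt_irrefl _ h4
  -- the root is fixed, hence in `M`
  have hσφ : ∀ i x, σ i (φ x) = φ x := fun i x => hσM i _
  have hfixα : ∀ i, σ i α = α := by
    intro i
    refine huniq _ ?_ ?_
    · have h1 : fL.map (σ i) = fL := by
        rw [hfL, Polynomial.map_map]
        congr 1
        exact RingHom.ext fun x => hσφ i x
      rw [Polynomial.IsRoot, ← h1, Polynomial.eval_map, Polynomial.eval₂_at_apply, hαr.eq_zero,
        map_zero]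
    · rw [← hσφ i a₀, ← map_sub]
      exact hσA i _ hα
  obtain ⟨m, hm⟩ := hfix α hfixα
  let a : A.comap (algebraMap M L) := ⟨m, by
    rw [ValuationSubring.mem_comap, hm]
    exact hmemA α hα⟩
  have hφa : φ a = α := hm
  refine ⟨a, ?_, ?_⟩
  · apply hφinj
    rw [map_zero, ← Polynomial.eval₂_at_apply, ← Polynomial.eval_map, hφa, ← hfL]
    exact hαr
  · rw [mem_maximalIdeal_comap_iff]
    have h5 : algebraMap M L ((a - a₀ : A.comap (algebraMap M L)) : M) = -(φ a₀ - α) := by
      rw [← hφa]
      show φ (a - a₀) = _
      rw [map_sub]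
      ring
    rw [h5, Valuation.map_neg]
    exact hα

end General

section Decomposition

open scoped Pointwise

variable {K L : Type*} [Field K] [Field L] [Algebra K L] (A : ValuationSubring L)

/-- Elements of the decomposition group preserve `A`. -/
theorem apply_mem_iff_of_mem_decompositionSubgroup {σ : L ≃ₐ[K] L}
    (hσ : σ ∈ A.decompositionSubgroup K) (x : L) : σ x ∈ A ↔ x ∈ A := by
  have hσ' : σ⁻¹ ∈ A.decompositionSubgroup K := inv_mem hσ
  rw [ValuationSubring.decompositionSubgroup, MulAction.mem_stabilizer_iff] at hσ'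
  have h := ValuationSubring.mem_pointwise_smul_iff_inv_smul_mem (g := σ⁻¹) (S := A) (x := x)
  rw [hσ', inv_inv] at h
  exact h.symm

/-- Elements of the decomposition group preserve the valuation ideal of `A`. -/
theorem valuation_apply_lt_one_iff_of_mem_decompositionSubgroup {σ : L ≃ₐ[K] L}
    (hσ : σ ∈ A.decompositionSubgroup K) (x : L) :
    A.valuation (σ x) < 1 ↔ A.valuation x < 1 := by
  rcases eq_or_ne x 0 with rfl | hx
  · simp
  have hσx : σ x ≠ 0 := (map_ne_zero σ).mpr hx
  have h1 : ∀ y : L, y ≠ 0 → (A.valuation y < 1 ↔ y⁻¹ ∉ A) := by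
    intro y hy
    rw [← A.valuation_le_one_iff, map_inv₀, not_le]
    have h0 : A.valuation y ≠ 0 := (Valuation.ne_zero_iff _).mpr hy
    exact (one_lt_inv₀ (zero_lt_iff.mpr h0)).symm
  rw [h1 _ hσx, h1 _ hx, ← map_inv₀, apply_mem_iff_of_mem_decompositionSubgroup A hσ]

/-- Elements of the decomposition group preserve the valuation ring of `A` (valuation form). -/
theorem valuation_apply_le_one_iff_of_mem_decompositionSubgroup {σ : L ≃ₐ[K] L}
    (hσ : σ ∈ A.decompositionSubgroup K) (x : L) :
    A.valuation (σ x) ≤ 1 ↔ A.valuation x ≤ 1 := by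
  rw [A.valuation_le_one_iff, A.valuation_le_one_iff,
    apply_mem_iff_of_mem_decompositionSubgroup A hσ]

/-- **Decomposition fields are henselian.** For a valuation subring `A` of an algebraically
closed field `L` and a subgroup `D` of its decomposition group, the valuation ring `A ∩ L^D` of
the fixed field of `D` is a henselian local ring. -/
theorem henselianLocalRing_fixedField [IsAlgClosed L] (D : Subgroup (L ≃ₐ[K] L))
    (hD : D ≤ A.decompositionSubgroup K) :
    HenselianLocalRing (A.comap (algebraMap (IntermediateField.fixedField D) L)) := by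
  refine henselianLocalRing_comap A (M := IntermediateField.fixedField D) (ι := D)
    (fun d => ((d : L ≃ₐ[K] L) : L →+* L)) ?_ ?_ ?_
  · intro d x hx
    exact (valuation_apply_lt_one_iff_of_mem_decompositionSubgroup A (hD d.2) x).mpr hx
  · intro d m
    exact (IntermediateField.mem_fixedField_iff D _).mp m.2 d d.2
  · intro x hx
    refine ⟨⟨x, ?_⟩, rfl⟩
    rw [IntermediateField.mem_fixedField_iff]
    intro d hd
    exact hx ⟨d, hd⟩

end Decomposition

end Fermat.Agent.PT.Kummer
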