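import Mathlib
import Fermat.Prelude.Def_FLTPrelim_Ramification
import Fermat.Agent.Lib.FrobeniusExists

/-!
# Dictionary: valuation subrings of `ℚ̄` versus primes of a number field `K ⊂ ℚ̄` (PT, layer G)

`K : IntermediateField ℚ ℚ̄` with `[NumberField K]` (see `numberField`), `A` a valuation subring of
`ℚ̄` over a prime `q`.

* `idealOf K A`, `primeOf K hq hA : HeightOneSpectrum (𝓞 K)`: the prime of `K` below `A`.
* `adic_le_one_iff`, `adic_lt_one_iff`, `adic_eq_one_iff`, `adic_le_iff`, `adic_eq_iff`: the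
  `primeOf`-adic valuation of `K` and the restriction of `A.valuation` are equivalent.
* `exists_uniformizer`: the value group of `K` at `A` is generated by `v(π)`, `π ∈ 𝓞 K`.
* `exists_integer_sub_eq`, `exists_integer_valuation_sub_lt_one`: `A ∩ K` is the localisation of
  `𝓞 K` (approximation of elements of `A ∩ K` by algebraic integers).
* `exists_valuationSubring`: every prime of `K` is `idealOf K A` for some `A`.
-/

set_option autoImplicit false
set_option linter.style.haveILetI false
set_option linter.unusedSectionVars false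

namespace Fermat.Agent.PT.PlaceDict

open IsDedekindDomain NumberField Fermat.Agent.Lib.FrobeniusExists

local notation "Qb" => AlgebraicClosure ℚ

/-- A finite extension of `ℚ` inside `ℚ̄` is a number field. -/
theorem numberField (K : IntermediateField ℚ Qb) [FiniteDimensional ℚ K] : NumberField K := ⟨⟩

variable (K : IntermediateField ℚ Qb) (A : ValuationSubring Qb)

theorem valuation_algebraMap_le_one (y : 𝓞 K) : A.valuation (algebraMap (𝓞 K) Qb y) ≤ 1 := by
  apply val_le_one_of_isIntegral
  have h1 : IsIntegral ℤ (algebraMap (𝓞 K) K y) := NumberField.RingOfIntegers.isIntegral_coe y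
  have h2 := h1.algebraMap (B := Qb)
  rwa [← IsScalarTower.algebraMap_apply] at h2

/-- The ideal of the ring of integers of `K` cut out by the valuation subring `A` of `ℚ̄`. -/
def idealOf : Ideal (𝓞 K) where
  carrier := {y | A.valuation (algebraMap (𝓞 K) Qb y) < 1}
  add_mem' := by
    intro a b ha hb
    simp only [Set.mem_ofPred_eq, map_add] at ha hb ⊢
    exact lt_of_le_of_lt (A.valuation.map_add _ _) (max_lt ha hb)
  zero_mem' := by simp
  smul_mem' := by
    intro c y hy
    simp only [Set.mem_ofPred_eq, smul_eq_mul, map_mul] at hy ⊢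
    rw [mul_comm]
    exact mul_lt_one_of_lt_of_le hy (valuation_algebraMap_le_one K A c)

theorem mem_idealOf_iff (y : 𝓞 K) :
    y ∈ idealOf K A ↔ A.valuation (algebraMap (𝓞 K) Qb y) < 1 := Iff.rfl

theorem idealOf_isPrime : (idealOf K A).IsPrime := by
  refine ⟨?_, ?_⟩
  · rw [Ne, Ideal.eq_top_iff_one, mem_idealOf_iff]
    simp
  · intro a b hab
    rw [mem_idealOf_iff, map_mul, map_mul] at hab
    by_contra hcon
    rw [not_or, mem_idealOf_iff, mem_idealOf_iff, not_lt, not_lt] at hcon
    have ha1 := le_antisymm (valuation_algebraMap_le_one K A a) hcon.1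
    have hb1 := le_antisymm (valuation_algebraMap_le_one K A b) hcon.2
    rw [ha1, hb1, one_mul] at hab
    exact lt_irrefl _ hab

variable {A} {q : ℕ}

theorem natCast_mem_idealOf (hA : A.LiesOverPrime q) : ((q : ℕ) : 𝓞 K) ∈ idealOf K A := by
  rw [mem_idealOf_iff, map_natCast]
  exact A.mem_nonunits_iff.mp hA

theorem idealOf_ne_bot (hq : q.Prime) (hA : A.LiesOverPrime q) : idealOf K A ≠ ⊥ := by
  intro h
  have h1 := natCast_mem_idealOf K hA
  rw [h, Ideal.mem_bot] at h1
  exact hq.ne_zero (by exact_mod_cast h1)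

variable [NumberField K]

/-- The prime of the ring of integers of `K` below a valuation subring `A` of `ℚ̄` over `q`. -/
def primeOf (hq : q.Prime) (hA : A.LiesOverPrime q) : HeightOneSpectrum (𝓞 K) :=
  ⟨idealOf K A, idealOf_isPrime K A, idealOf_ne_bot K hq hA⟩

theorem idealOf_def : (idealOf K A : Set (𝓞 K)) = {y | A.valuation (algebraMap (𝓞 K) Qb y) < 1} := rfl

theorem primeOf_asIdeal (hq : q.Prime) (hA : A.LiesOverPrime q) :
    (primeOf K hq hA).asIdeal = idealOf K A := rfl

variable (hq : q.Prime) (hA : A.LiesOverPrime q)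

/-- Elements integral at the prime below `A` lie in `A`. -/
theorem valuation_le_one_of_adic (z : K) (hz : (primeOf K hq hA).valuation K z ≤ 1) :
    A.valuation (algebraMap K Qb z) ≤ 1 := by
  obtain ⟨n, d, hnd⟩ := (primeOf K hq hA).exists_primeCompl_mul_eq_of_integer z hz
  have hd : A.valuation (algebraMap (𝓞 K) Qb (d : 𝓞 K)) = 1 := by
    refine le_antisymm (valuation_algebraMap_le_one K A _) (not_lt.mp fun h => ?_)
    exact d.2 ((mem_idealOf_iff K A _).mpr h)
  have h1 := congrArg (fun t => A.valuation (algebraMap K Qb t)) hnd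
  simp only [map_mul] at h1
  rw [← IsScalarTower.algebraMap_apply, ← IsScalarTower.algebraMap_apply, hd, mul_one] at h1
  rw [h1]
  exact valuation_algebraMap_le_one K A n

/-- The valuation ideal of `A` meets `K` in the valuation ideal of the prime below `A`. -/
theorem adic_lt_one_iff (z : K) :
    (primeOf K hq hA).valuation K z < 1 ↔ A.valuation (algebraMap K Qb z) < 1 := by
  constructor
  · intro hz
    obtain ⟨n, d, hnd⟩ := (primeOf K hq hA).exists_primeCompl_mul_eq_of_integer z hz.le
    have hd : A.valuation (algebraMap (𝓞 K) Qb (d : 𝓞 K)) = 1 := by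
      refine le_antisymm (valuation_algebraMap_le_one K A _) (not_lt.mp fun h => ?_)
      exact d.2 ((mem_idealOf_iff K A _).mpr h)
    have hdw : (primeOf K hq hA).valuation K (algebraMap (𝓞 K) K (d : 𝓞 K)) = 1 := by
      rw [HeightOneSpectrum.valuation_of_algebraMap,
        HeightOneSpectrum.intValuation_eq_one_iff_mem_primeCompl]
      exact d.2
    have hn : n ∈ idealOf K A := by
      have h2 := congrArg ((primeOf K hq hA).valuation K) hnd
      rw [map_mul, hdw, mul_one, HeightOneSpectrum.valuation_of_algebraMap] at h2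
      rw [h2] at hz
      exact ((primeOf K hq hA).intValuation_lt_one_iff_mem n).mp hz
    have h1 := congrArg (fun t => A.valuation (algebraMap K Qb t)) hnd
    simp only [map_mul] at h1
    rw [← IsScalarTower.algebraMap_apply, ← IsScalarTower.algebraMap_apply, hd, mul_one] at h1
    rw [h1]
    exact (mem_idealOf_iff K A n).mp hn
  · intro hz
    by_contra hcon
    rw [not_lt] at hcon
    have hz0 : z ≠ 0 := by
      rintro rfl
      rw [map_zero] at hcon
      exact not_le.mpr zero_lt_one hcon
    have h1 : (primeOf K hq hA).valuation K z⁻¹ ≤ 1 := by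
      rw [map_inv₀]
      exact inv_le_one_of_one_le₀ hcon
    have h2 := valuation_le_one_of_adic K hq hA z⁻¹ h1
    rw [map_inv₀, map_inv₀] at h2
    have h3 : A.valuation (algebraMap K Qb z) ≠ 0 := by
      rw [Valuation.ne_zero_iff]
      exact (map_ne_zero (algebraMap K Qb)).mpr hz0
    have h4 := (inv_le_one₀ (zero_lt_iff.mpr h3)).mp h2
    exact not_le.mpr hz h4

theorem adic_le_one_iff (z : K) :
    (primeOf K hq hA).valuation K z ≤ 1 ↔ A.valuation (algebraMap K Qb z) ≤ 1 := by
  rcases eq_or_ne z 0 with rfl | hz0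
  · simp
  have h := (adic_lt_one_iff K hq hA z⁻¹).not
  rw [map_inv₀, map_inv₀, map_inv₀, not_lt, not_lt] at h
  have h3 : A.valuation (algebraMap K Qb z) ≠ 0 := by
    rw [Valuation.ne_zero_iff]
    exact (map_ne_zero (algebraMap K Qb)).mpr hz0
  have h4 : (primeOf K hq hA).valuation K z ≠ 0 := (Valuation.ne_zero_iff _).mpr hz0
  rw [one_le_inv₀ (zero_lt_iff.mpr h4), one_le_inv₀ (zero_lt_iff.mpr h3)] at h
  exact h

theorem adic_eq_one_iff (z : K) :
    (primeOf K hq hA).valuation K z = 1 ↔ A.valuation (algebraMap K Qb z) = 1 := by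
  constructor
  · intro h
    exact le_antisymm ((adic_le_one_iff K hq hA z).mp h.le)
      (not_lt.mp fun h' => (ne_of_lt ((adic_lt_one_iff K hq hA z).mpr h')) h)
  · intro h
    exact le_antisymm ((adic_le_one_iff K hq hA z).mpr h.le)
      (not_lt.mp fun h' => (ne_of_lt ((adic_lt_one_iff K hq hA z).mp h')) h)

/-- The two valuations on `K` are equivalent. -/
theorem adic_le_iff (x y : K) :
    (primeOf K hq hA).valuation K x ≤ (primeOf K hq hA).valuation K y ↔
      A.valuation (algebraMap K Qb x) ≤ A.valuation (algebraMap K Qb y) := by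
  rcases eq_or_ne y 0 with rfl | hy0
  · simp
  have h3 : A.valuation (algebraMap K Qb y) ≠ 0 := by
    rw [Valuation.ne_zero_iff]
    exact (map_ne_zero (algebraMap K Qb)).mpr hy0
  have h4 : (primeOf K hq hA).valuation K y ≠ 0 := (Valuation.ne_zero_iff _).mpr hy0
  have h := adic_le_one_iff K hq hA (x / y)
  rw [map_div₀, map_div₀, map_div₀, div_le_one₀ (zero_lt_iff.mpr h4),
    div_le_one₀ (zero_lt_iff.mpr h3)] at h
  exact h

theorem adic_eq_iff (x y : K) :
    (primeOf K hq hA).valuation K x = (primeOf K hq hA).valuation K y ↔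
      A.valuation (algebraMap K Qb x) = A.valuation (algebraMap K Qb y) := by
  rw [le_antisymm_iff, le_antisymm_iff, adic_le_iff K hq hA, adic_le_iff K hq hA]

include hq hA in
/-- **The value group of a number field at a place of `ℚ̄` is cyclic**: there is an algebraic
integer `π ∈ K` with `v(π) < 1` such that every nonzero element of `K` has the valuation of a
power of `π`. -/
theorem exists_uniformizer :
    ∃ π : Qb, π ∈ K ∧ IsIntegral ℤ π ∧ A.valuation π < 1 ∧
      ∀ x : Qb, x ∈ K → x ≠ 0 → ∃ n : ℤ, A.valuation x = A.valuation (π ^ n) := by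
  obtain ⟨r, hr⟩ := (primeOf K hq hA).valuation_exists_uniformizer' K
  have hr' : (primeOf K hq hA).valuation K (algebraMap (𝓞 K) K r) = WithZero.exp (-1 : ℤ) := hr
  refine ⟨algebraMap (𝓞 K) Qb r, ?_, ?_, ?_, ?_⟩
  · rw [IsScalarTower.algebraMap_apply (𝓞 K) K Qb]
    exact (algebraMap (𝓞 K) K r).2
  · have h1 : IsIntegral ℤ (algebraMap (𝓞 K) K r) := NumberField.RingOfIntegers.isIntegral_coe r
    have h2 := h1.algebraMap (B := Qb)
    rwa [← IsScalarTower.algebraMap_apply] at h2
  · rw [IsScalarTower.algebraMap_apply (𝓞 K) K Qb, ← adic_lt_one_iff K hq hA, hr']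
    rw [← WithZero.exp_zero, WithZero.exp_lt_exp]
    norm_num
  · intro x hx hx0
    have hx'0 : (⟨x, hx⟩ : K) ≠ 0 := fun h => hx0 (congrArg Subtype.val h)
    have hv0 : (primeOf K hq hA).valuation K ⟨x, hx⟩ ≠ 0 := (Valuation.ne_zero_iff _).mpr hx'0
    obtain ⟨m, hm⟩ : ∃ m : ℤ, (primeOf K hq hA).valuation K ⟨x, hx⟩ = WithZero.exp m :=
      ⟨_, (WithZero.exp_log hv0).symm⟩
    refine ⟨-m, ?_⟩
    have h1 : (primeOf K hq hA).valuation K ⟨x, hx⟩
        = (primeOf K hq hA).valuation K ((algebraMap (𝓞 K) K r) ^ (-m)) := by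
      rw [map_zpow₀, hr', hm, ← WithZero.exp_zsmul]
      simp
    have h2 := (adic_eq_iff K hq hA _ _).mp h1
    rw [map_zpow₀, ← IsScalarTower.algebraMap_apply] at h2
    exact h2

include hq hA in
/-- Elements of `A ∩ K` are congruent to algebraic integers of `K` modulo any power of an
element of the prime below `A`; more precisely `y - z = y * i ^ m` with `i` in that prime. -/
theorem exists_integer_sub_eq (y : K) (hy : A.valuation (algebraMap K Qb y) ≤ 1) (m : ℕ) :
    ∃ (z : 𝓞 K) (i : 𝓞 K), i ∈ idealOf K A ∧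
      y - algebraMap (𝓞 K) K z = y * (algebraMap (𝓞 K) K i) ^ m := by
  have hy' := (adic_le_one_iff K hq hA y).mpr hy
  obtain ⟨n, d, hnd⟩ := (primeOf K hq hA).exists_primeCompl_mul_eq_of_integer y hy'
  have hmax : (idealOf K A).IsMaximal := (primeOf K hq hA).isMaximal
  have hd : (d : 𝓞 K) ∉ idealOf K A := d.2
  obtain ⟨d', i, hi, hdi⟩ := hmax.exists_inv hd
  -- `1 - i ^ m = d * d''`
  obtain ⟨c, hc⟩ : (d : 𝓞 K) ∣ 1 - i ^ m := by
    have h1 : (1 - i) ∣ 1 - i ^ m := by
      have := sub_dvd_pow_sub_pow (1 : 𝓞 K) i m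
      rwa [one_pow] at this
    have h2 : (d : 𝓞 K) ∣ 1 - i := ⟨d', by rw [← hdi]; ring⟩
    exact h2.trans h1
  refine ⟨n * c, i, hi, ?_⟩
  have e1 : algebraMap (𝓞 K) K (n * c) = y * algebraMap (𝓞 K) K ((d : 𝓞 K) * c) := by
    rw [map_mul, map_mul, ← mul_assoc, hnd]
  rw [e1, ← hc, map_sub, map_one, map_pow]
  ring

include hq hA in
/-- Elements of `A ∩ K` are congruent to algebraic integers of `K` modulo the valuation ideal. -/
theorem exists_integer_valuation_sub_lt_one (y : K) (hy : A.valuation (algebraMap K Qb y) ≤ 1) :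
    ∃ z : 𝓞 K, A.valuation (algebraMap K Qb y - algebraMap (𝓞 K) Qb z) < 1 := by
  obtain ⟨z, i, hi, h⟩ := exists_integer_sub_eq K hq hA y hy 1
  refine ⟨z, ?_⟩
  have h1 := congrArg (algebraMap K Qb) h
  rw [map_sub, ← IsScalarTower.algebraMap_apply, pow_one, map_mul,
    ← IsScalarTower.algebraMap_apply] at h1
  rw [h1, map_mul]
  rw [mul_comm]
  exact mul_lt_one_of_lt_of_le ((mem_idealOf_iff K A i).mp hi) hy

omit hq hA in
/-- `A` lies over `q` as soon as `q` lies in the ideal it cuts out. -/
theorem liesOverPrime_of_natCast_mem {A : ValuationSubring Qb} {q : ℕ}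
    (h : ((q : ℕ) : 𝓞 K) ∈ idealOf K A) : A.LiesOverPrime q := by
  rw [mem_idealOf_iff, map_natCast] at h
  exact A.mem_nonunits_iff.mpr h

omit hq hA in
/-- **Every prime of a number field `K ⊂ ℚ̄` lies below a valuation subring of `ℚ̄`.** -/
theorem exists_valuationSubring (w : HeightOneSpectrum (𝓞 K)) :
    ∃ A : ValuationSubring Qb, idealOf K A = w.asIdeal := by
  let S : Subring Qb := (algebraMap (𝓞 K) Qb).range
  let φ : 𝓞 K →+* S := (algebraMap (𝓞 K) Qb).rangeRestrict
  have hφsurj : Function.Surjective φ := (algebraMap (𝓞 K) Qb).rangeRestrict_surjective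
  have hφinj : Function.Injective φ := by
    intro a b hab
    have h1 : algebraMap (𝓞 K) Qb a = algebraMap (𝓞 K) Qb b :=
      congrArg (fun t : S => (t : Qb)) hab
    exact FaithfulSMul.algebraMap_injective (𝓞 K) Qb h1
  let I : Ideal S := w.asIdeal.map φ
  have hI : I ≠ ⊤ := by
    intro h
    have h1 : (1 : S) ∈ I := by rw [h]; exact Submodule.mem_top
    obtain ⟨y, hy, hy1⟩ := (Ideal.mem_map_iff_of_surjective φ hφsurj).mp h1
    have h2 : y = 1 := hφinj (hy1.trans (map_one φ).symm)
    rw [h2] at hy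
    exact w.isPrime.ne_top ((Ideal.eq_top_iff_one _).mpr hy)
  obtain ⟨B, -, hB⟩ := Ideal.image_subset_nonunits_valuationSubring I hI
  refine ⟨B, ?_⟩
  have hle : w.asIdeal ≤ idealOf K B := by
    intro y hy
    rw [mem_idealOf_iff, ← B.mem_nonunits_iff]
    exact hB ⟨φ y, Ideal.mem_map_of_mem φ hy, rfl⟩
  exact (w.isMaximal.eq_of_le (idealOf_isPrime K B).ne_top hle).symm

end Fermat.Agent.PT.PlaceDict
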