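import Mathlib
import Fermat.Agent.PT.G.PlaceDict
import Fermat.Agent.PT.G.KumHens

/-!
# Density implies: discrete valuation ring with finite residue field (PT, bridge to local layer)

`A` a valuation subring of `ℚ̄` over `q`, `K ≤ M` intermediate fields with `K` a number field and
`K` dense in `M` for `A` (`hdense : ∀ x ∈ M, ∀ c, ∃ y ∈ K, (x - y) / q ^ c ∈ A`; for the
decomposition fields this is `KumDense`).

* `exists_pow_valuation_lt`: the valuation of `ℚ̄` at `A` is archimedean relative to `q`.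
* `exists_mem_valuation_eq`: `M` has the value group of `K`;
  `exists_uniformizer_of_dense`: it is generated by a uniformiser of `K`.
* `exists_integer_valuation_sub_lt_one'`: `M` has the residue field of `K`.
* `isDiscreteValuationRing_comap`: `A ∩ M` is a discrete valuation ring.
* `finite_residueField_comap`: its residue field is finite.
* `isUnit_comap_iff`, `dvd_comap_of_valuation_le`: units and divisibility in `A ∩ M`.
-/

set_option autoImplicit false
set_option linter.style.haveILetI false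
set_option linter.unusedSectionVars false

namespace Fermat.Agent.PT.Kummer

open Fermat.Agent.Lib.FrobeniusExists Fermat.Agent.PT.PlaceDict NumberField

local notation "Qb" => AlgebraicClosure ℚ

section Arch

variable {q : ℕ} (hq : q.Prime) {A : ValuationSubring Qb} (hA : A.LiesOverPrime q)

include hq hA

/-- The valuation of a nonzero integer at a place over `q` is that of a power of `q`. -/
theorem exists_pow_valuation_eq_intCast {m : ℤ} (hm : m ≠ 0) :
    ∃ c : ℕ, A.valuation ((q : Qb) ^ c) = A.valuation (m : Qb) := by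
  have hvq : A.valuation (q : Qb) < 1 := A.mem_nonunits_iff.mp hA
  obtain ⟨e, n', hn', hmn⟩ := Nat.exists_eq_pow_mul_and_not_dvd (Int.natAbs_ne_zero.mpr hm) q
    hq.ne_one
  refine ⟨e, ?_⟩
  have h1 : A.valuation (m : Qb) = A.valuation ((m.natAbs : ℕ) : Qb) := by
    rcases Int.natAbs_eq m with h | h
    · conv_lhs => rw [h]
      rw [Int.cast_natCast]
    · conv_lhs => rw [h]
      rw [Int.cast_neg, Int.cast_natCast, Valuation.map_neg]
  have h2 : A.valuation ((n' : ℕ) : Qb) = 1 := by
    have := val_intCast_eq_one A.valuation hq hvq (n := (n' : ℤ))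
      (fun h => hn' (Int.natCast_dvd_natCast.mp h))
    rwa [Int.cast_natCast] at this
  rw [h1, hmn, Nat.cast_mul, Nat.cast_pow, map_mul, h2, mul_one]

/-- The valuation of `ℚ̄` at a place over `q` is archimedean relative to the powers of `q`. -/
theorem exists_pow_valuation_lt {x : Qb} (hx : x ≠ 0) :
    ∃ c : ℕ, A.valuation ((q : Qb) ^ c) < A.valuation x := by
  have hvq : A.valuation (q : Qb) < 1 := A.mem_nonunits_iff.mp hA
  obtain ⟨m, hm0, hint⟩ := (isAlgebraic_int x⁻¹).exists_integral_multiple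
  obtain ⟨c, hc⟩ := exists_pow_valuation_eq_intCast hq hA hm0
  have h1 : A.valuation ((m : Qb) * x⁻¹) ≤ 1 := by
    have := val_le_one_of_isIntegral A.valuation hint
    rwa [zsmul_eq_mul] at this
  have hvx : A.valuation x ≠ 0 := (Valuation.ne_zero_iff _).mpr hx
  have h2 : A.valuation (m : Qb) ≤ A.valuation x := by
    rw [map_mul, map_inv₀] at h1
    have h3 := (mul_inv_le_iff₀ (zero_lt_iff.mpr hvx)).mp h1
    rwa [one_mul] at h3
  refine ⟨c + 1, ?_⟩
  have hq0 : A.valuation ((q : Qb) ^ c) ≠ 0 := by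
    rw [Valuation.ne_zero_iff]
    exact pow_ne_zero c (by exact_mod_cast hq.ne_zero)
  calc A.valuation ((q : Qb) ^ (c + 1)) = A.valuation (q : Qb) * A.valuation ((q : Qb) ^ c) := by
        rw [pow_succ, map_mul, mul_comm]
    _ < 1 * A.valuation ((q : Qb) ^ c) := by
        exact mul_lt_mul_of_pos_right hvq (zero_lt_iff.mpr hq0)
    _ = A.valuation (m : Qb) := by rw [one_mul, hc]
    _ ≤ A.valuation x := h2

end Arch

section Dense

variable {q : ℕ} (hq : q.Prime) {A : ValuationSubring Qb} (hA : A.LiesOverPrime q)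
  (K M : IntermediateField ℚ Qb)
  (hdense : ∀ x ∈ M, ∀ c : ℕ, ∃ y ∈ K, (x - y) / (q : Qb) ^ c ∈ A)

include hq hA hdense

/-- Density in valuation form. -/
theorem exists_valuation_sub_le {x : Qb} (hx : x ∈ M) (c : ℕ) :
    ∃ y ∈ K, A.valuation (x - y) ≤ A.valuation ((q : Qb) ^ c) := by
  obtain ⟨y, hy, h⟩ := hdense x hx c
  refine ⟨y, hy, ?_⟩
  rw [← A.valuation_le_one_iff, map_div₀] at h
  have hq0 : A.valuation ((q : Qb) ^ c) ≠ 0 := by
    rw [Valuation.ne_zero_iff]
    exact pow_ne_zero c (by exact_mod_cast hq.ne_zero)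
  exact (div_le_one₀ (zero_lt_iff.mpr hq0)).mp h

/-- **The henselisation has the same value group**: every nonzero element of `M` has the
valuation of an element of `K`. -/
theorem exists_mem_valuation_eq {x : Qb} (hx : x ∈ M) (hx0 : x ≠ 0) :
    ∃ y ∈ K, A.valuation y = A.valuation x := by
  obtain ⟨c, hc⟩ := exists_pow_valuation_lt hq hA hx0
  obtain ⟨y, hy, h⟩ := exists_valuation_sub_le hq hA K M hdense hx c
  refine ⟨y, hy, ?_⟩
  have e : y = x - (x - y) := by ring
  rw [e]
  exact Valuation.map_sub_eq_of_lt_left _ (lt_of_le_of_lt h hc)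

/-- **The henselisation has the same residue field**: every element of `A ∩ M` is congruent
modulo the valuation ideal to an algebraic integer of `K`. -/
theorem exists_integer_valuation_sub_lt_one' [NumberField K] {x : Qb} (hx : x ∈ M)
    (hxA : A.valuation x ≤ 1) :
    ∃ z : 𝓞 K, A.valuation (x - algebraMap (𝓞 K) Qb z) < 1 := by
  have hvq : A.valuation (q : Qb) < 1 := A.mem_nonunits_iff.mp hA
  obtain ⟨y, hy, h⟩ := exists_valuation_sub_le hq hA K M hdense hx 1
  rw [pow_one] at h
  have hyA : A.valuation (algebraMap K Qb ⟨y, hy⟩) ≤ 1 := by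
    show A.valuation y ≤ 1
    have e : y = x - (x - y) := by ring
    rw [e]
    exact le_trans (A.valuation.map_sub _ _) (max_le hxA (h.trans hvq.le))
  obtain ⟨z, hz⟩ := PlaceDict.exists_integer_valuation_sub_lt_one K hq hA ⟨y, hy⟩ hyA
  refine ⟨z, ?_⟩
  have e : x - algebraMap (𝓞 K) Qb z = (x - y) + (y - algebraMap (𝓞 K) Qb z) := by ring
  rw [e]
  exact lt_of_le_of_lt (A.valuation.map_add _ _) (max_lt (lt_of_le_of_lt h hvq) hz)

end Dense

section Comap

variable {L : Type*} [Field L] (A : ValuationSubring L) {M : Type*} [Field M] [Algebra M L]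

/-- Units of `A ∩ M` via the valuation of `A`. -/
theorem isUnit_comap_iff (x : A.comap (algebraMap M L)) :
    IsUnit x ↔ A.valuation (algebraMap M L (x : M)) = 1 := by
  have hle : A.valuation (algebraMap M L (x : M)) ≤ 1 := (A.valuation_le_one_iff _).mpr x.2
  have h := (mem_maximalIdeal_comap_iff A x).not
  rw [IsLocalRing.mem_maximalIdeal, mem_nonunits_iff, not_not, not_lt] at h
  rw [h]
  exact ⟨fun h1 => le_antisymm hle h1, fun h1 => h1.ge⟩

/-- Divisibility in `A ∩ M` via the valuation of `A`. -/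
theorem dvd_comap_of_valuation_le (a b : A.comap (algebraMap M L)) (ha : a ≠ 0)
    (h : A.valuation (algebraMap M L (b : M)) ≤ A.valuation (algebraMap M L (a : M))) :
    a ∣ b := by
  have ha0 : (a : M) ≠ 0 := fun h0 => ha (Subtype.ext h0)
  have hva : A.valuation (algebraMap M L (a : M)) ≠ 0 := by
    rw [Valuation.ne_zero_iff]
    exact (map_ne_zero (algebraMap M L)).mpr ha0
  have hc : (b : M) / (a : M) ∈ A.comap (algebraMap M L) := by
    rw [ValuationSubring.mem_comap, ← A.valuation_le_one_iff, map_div₀, map_div₀]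
    exact (div_le_one₀ (zero_lt_iff.mpr hva)).mpr h
  refine ⟨⟨_, hc⟩, Subtype.ext ?_⟩
  show (b : M) = (a : M) * ((b : M) / (a : M))
  rw [mul_div_cancel₀ _ ha0]

end Comap

section DVR

variable {q : ℕ} (hq : q.Prime) {A : ValuationSubring Qb} (hA : A.LiesOverPrime q)
  (K M : IntermediateField ℚ Qb) [NumberField K] (hKM : K ≤ M)
  (hdense : ∀ x ∈ M, ∀ c : ℕ, ∃ y ∈ K, (x - y) / (q : Qb) ^ c ∈ A)

include hq hA hdense

/-- A uniformiser of `K` at `A` generates the value group of the henselisation `M`. -/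
theorem exists_uniformizer_of_dense :
    ∃ π : Qb, π ∈ K ∧ A.valuation π < 1 ∧ π ≠ 0 ∧
      ∀ x : Qb, x ∈ M → x ≠ 0 → ∃ n : ℤ, A.valuation x = A.valuation π ^ n := by
  have hvq : A.valuation (q : Qb) < 1 := A.mem_nonunits_iff.mp hA
  have hq0 : (q : Qb) ≠ 0 := by exact_mod_cast hq.ne_zero
  obtain ⟨π, hπK, -, hπ1, hπ⟩ := PlaceDict.exists_uniformizer K hq hA
  have hπ0 : π ≠ 0 := by
    rintro rfl
    obtain ⟨n, hn⟩ := hπ (q : Qb) (natCast_mem K q) hq0
    rcases eq_or_ne n 0 with rfl | hn0
    · rw [zpow_zero, map_one] at hn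
      exact (ne_of_lt hvq) hn
    · rw [zero_zpow n hn0, map_zero] at hn
      exact hq0 ((map_eq_zero _).mp hn)
  refine ⟨π, hπK, hπ1, hπ0, fun x hx hx0 => ?_⟩
  obtain ⟨y, hy, hyx⟩ := exists_mem_valuation_eq hq hA K M hdense hx hx0
  have hy0 : y ≠ 0 := by
    rintro rfl
    rw [map_zero] at hyx
    exact hx0 ((map_eq_zero _).mp hyx.symm)
  obtain ⟨n, hn⟩ := hπ y hy hy0
  exact ⟨n, by rw [← hyx, hn, map_zpow₀]⟩

include hKM in
/-- **The valuation ring of the henselisation is a discrete valuation ring.** -/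
theorem isDiscreteValuationRing_comap :
    IsDiscreteValuationRing (A.comap (algebraMap M Qb)) := by
  obtain ⟨π, hπK, hπ1, hπ0, hπ⟩ := exists_uniformizer_of_dense hq hA K M hdense
  have hvπ0 : 0 < A.valuation π := zero_lt_iff.mpr ((Valuation.ne_zero_iff _).mpr hπ0)
  let ϖ : A.comap (algebraMap M Qb) := ⟨⟨π, hKM hπK⟩, (A.valuation_le_one_iff _).mp hπ1.le⟩
  have hϖ : A.valuation (algebraMap M Qb (ϖ : M)) = A.valuation π := rfl
  have hϖ0 : ϖ ≠ 0 := fun h => hπ0 (congrArg (fun t : A.comap (algebraMap M Qb) =>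
    algebraMap M Qb (t : M)) h)
  -- every nonzero element has the valuation of a natural power of `π`
  have hnat : ∀ x : A.comap (algebraMap M Qb), x ≠ 0 →
      ∃ n : ℕ, A.valuation (algebraMap M Qb (x : M)) = A.valuation π ^ n := by
    intro x hx
    have hx0 : algebraMap M Qb (x : M) ≠ 0 := by
      intro h
      apply hx
      apply Subtype.ext
      exact (map_eq_zero (algebraMap M Qb)).mp h
    obtain ⟨n, hn⟩ := hπ _ (x : M).2 hx0
    have hle : A.valuation (algebraMap M Qb (x : M)) ≤ 1 := (A.valuation_le_one_iff _).mpr x.2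
    have hn0 : 0 ≤ n := by
      by_contra hneg
      rw [not_le] at hneg
      have := one_lt_zpow_of_neg₀ hvπ0 hπ1 hneg
      rw [← hn] at this
      exact not_le.mpr this hle
    obtain ⟨k, rfl⟩ := Int.eq_ofNat_of_zero_le hn0
    exact ⟨k, hn.trans (zpow_natCast _ _)⟩
  have hassoc : ∀ x : A.comap (algebraMap M Qb), x ≠ 0 → ∃ n : ℕ, Associated (ϖ ^ n) x := by
    intro x hx
    obtain ⟨n, hn⟩ := hnat x hx
    refine ⟨n, associated_of_dvd_dvd ?_ ?_⟩
    · refine dvd_comap_of_valuation_le A _ _ (pow_ne_zero n hϖ0) ?_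
      rw [hn]
      show A.valuation π ^ n ≤ A.valuation (algebraMap M Qb ((ϖ ^ n : A.comap (algebraMap M Qb)) : M))
      rw [show algebraMap M Qb ((ϖ ^ n : A.comap (algebraMap M Qb)) : M) = π ^ n from rfl, map_pow]
    · refine dvd_comap_of_valuation_le A _ _ hx ?_
      rw [hn, show algebraMap M Qb ((ϖ ^ n : A.comap (algebraMap M Qb)) : M) = π ^ n from rfl,
        map_pow]
  refine IsDiscreteValuationRing.ofHasUnitMulPowIrreducibleFactorization ⟨ϖ, ?_, fun {x} hx =>
    hassoc x hx⟩
  refine ⟨?_, ?_⟩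
  · rw [isUnit_comap_iff, hϖ]
    exact ne_of_lt hπ1
  · intro a b hab
    have ha0 : a ≠ 0 := by
      rintro rfl
      rw [zero_mul] at hab
      exact hϖ0 hab
    have hb0 : b ≠ 0 := by
      rintro rfl
      rw [mul_zero] at hab
      exact hϖ0 hab
    obtain ⟨i, hi⟩ := hnat a ha0
    obtain ⟨j, hj⟩ := hnat b hb0
    have h1 : A.valuation π ^ 1 = A.valuation π ^ (i + j) := by
      rw [pow_one, pow_add, ← hi, ← hj, ← hϖ, hab]
      show A.valuation (algebraMap M Qb ((a : M) * (b : M))) = _
      rw [map_mul, map_mul]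
    have h2 : 1 = i + j := (pow_right_strictAnti₀ hvπ0 hπ1).injective h1
    rcases Nat.eq_zero_or_pos i with h0 | h0
    · left
      rw [isUnit_comap_iff, hi, h0, pow_zero]
    · right
      have hj0 : j = 0 := by omega
      rw [isUnit_comap_iff, hj, hj0, pow_zero]

include hKM in
/-- **The residue field of the henselisation is finite** (it is the residue field of `K`). -/
theorem finite_residueField_comap :
    Finite (IsLocalRing.ResidueField (A.comap (algebraMap M Qb))) := by
  have hvq : A.valuation (q : Qb) < 1 := A.mem_nonunits_iff.mp hA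
  let ψ₀ : 𝓞 K →+* M := (IntermediateField.inclusion hKM).toRingHom.comp (algebraMap (𝓞 K) K)
  have hψ₀ : ∀ z : 𝓞 K, algebraMap M Qb (ψ₀ z) = algebraMap (𝓞 K) Qb z := fun z => rfl
  let ψ : 𝓞 K →+* A.comap (algebraMap M Qb) :=
    { toFun := fun z => ⟨ψ₀ z, by
        rw [ValuationSubring.mem_comap, hψ₀, ← A.valuation_le_one_iff]
        exact valuation_algebraMap_le_one K A z⟩
      map_one' := Subtype.ext (map_one ψ₀)
      map_mul' := fun a b => Subtype.ext (map_mul ψ₀ a b)
      map_zero' := Subtype.ext (map_zero ψ₀)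
      map_add' := fun a b => Subtype.ext (map_add ψ₀ a b) }
  have hψ : ∀ z : 𝓞 K, algebraMap M Qb ((ψ z : A.comap (algebraMap M Qb)) : M)
      = algebraMap (𝓞 K) Qb z := fun z => rfl
  let f : 𝓞 K →+* IsLocalRing.ResidueField (A.comap (algebraMap M Qb)) :=
    (IsLocalRing.residue (A.comap (algebraMap M Qb))).comp ψ
  have hsurj : Function.Surjective f := by
    intro xbar
    obtain ⟨x, rfl⟩ := IsLocalRing.residue_surjective xbar
    obtain ⟨z, hz⟩ := exists_integer_valuation_sub_lt_one' hq hA K M hdense (x : M).2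
      ((A.valuation_le_one_iff _).mpr x.2)
    refine ⟨z, ?_⟩
    show IsLocalRing.residue _ (ψ z) = IsLocalRing.residue _ x
    rw [← sub_eq_zero, ← map_sub, IsLocalRing.residue_eq_zero_iff, mem_maximalIdeal_comap_iff]
    have e : algebraMap M Qb ((ψ z - x : A.comap (algebraMap M Qb)) : M)
        = -(algebraMap M Qb (x : M) - algebraMap (𝓞 K) Qb z) := by
      rw [← hψ z]
      show algebraMap M Qb ((ψ z : M) - (x : M)) = _
      rw [map_sub]
      ring
    rw [e, Valuation.map_neg]
    exact hz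
  have hker : RingHom.ker f ≠ ⊥ := by
    intro h
    have h1 : ((q : ℕ) : 𝓞 K) ∈ RingHom.ker f := by
      rw [RingHom.mem_ker]
      show IsLocalRing.residue _ (ψ ((q : ℕ) : 𝓞 K)) = 0
      rw [IsLocalRing.residue_eq_zero_iff, mem_maximalIdeal_comap_iff, hψ, map_natCast]
      exact hvq
    rw [h, Ideal.mem_bot] at h1
    exact hq.ne_zero (by exact_mod_cast h1)
  haveI : Finite (𝓞 K ⧸ RingHom.ker f) := Ideal.finiteQuotientOfFreeOfNeBot _ hker
  exact (RingHom.quotientKerEquivOfSurjective hsurj).toEquiv.finite_iff.mp inferInstance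

end DVR

end Fermat.Agent.PT.Kummer
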