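import Mathlib
import Fermat.Agent.PT.LocDec

/-!
# A number field is dense in its henselisation (PT, bridge to the local layer)

`A₀ := padicPlace q`, `D` its decomposition group, `K` ANY intermediate field of `ℚ̄/ℚ`. The
"local field of `K` at `A₀`" is the fixed field of `D ⊓ K.fixingSubgroup`; no completion is used
in the statements (the proofs use the embedding `padicEmbedding q` and density of `ℚ` in `ℚ_q`).

* `padicEmbedding_mem_span`: the image of that fixed field lies in the `ℚ_q`-span of the image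
  of `K` (Galois theory of `PadicAlgCl q` over `ℚ_q (K)`).
* `exists_sub_div_mem_padicPlace`: every `x` in the fixed field is congruent to an element of `K`
  modulo `q ^ c`, for every `c`.
* `exists_sub_div_mem_smul_padicPlace`: the same at every conjugate `g • padicPlace q`.
-/

set_option autoImplicit false
set_option linter.style.haveILetI false

namespace Fermat.Agent.PT.Kummer

open scoped NNReal Pointwise
open Fermat.Agent.PT.LocDec

local notation "Qb" => AlgebraicClosure ℚ
local notation "GQ" => (AlgebraicClosure ℚ ≃ₐ[ℚ] AlgebraicClosure ℚ)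

variable (q : ℕ) [Fact q.Prime]

/-- The `q`-adic embedding of the fixed field of `D ∩ Gal(ℚ̄/K)` (`D` the decomposition group
of `padicPlace q`) lands in the `ℚ_q`-span of the image of `K`. -/
theorem padicEmbedding_mem_span (K : IntermediateField ℚ Qb) {x : Qb}
    (hx : ∀ g ∈ (padicPlace q).decompositionSubgroup ℚ, g ∈ K.fixingSubgroup → g x = x) :
    padicEmbedding q x ∈ Submodule.span ℚ_[q] (padicEmbedding q '' (K : Set Qb)) := by
  have hinj : Function.Injective (padicEmbedding q) := (padicEmbedding q).toRingHom.injective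
  let E : IntermediateField ℚ_[q] (PadicAlgCl q) :=
    IntermediateField.adjoin ℚ_[q] (padicEmbedding q '' (K : Set Qb))
  haveI : IsGalois ℚ_[q] (PadicAlgCl q) := ⟨⟩
  have h1 : padicEmbedding q x ∈ E := by
    rw [← InfiniteGalois.fixedField_fixingSubgroup E, IntermediateField.mem_fixedField_iff]
    intro τ hτ
    have hτE : ∀ y ∈ E, τ y = y := fun y hy =>
      (IntermediateField.mem_fixingSubgroup_iff E τ).mp hτ y hy
    have hgK : localGaloisToGlobal q τ ∈ K.fixingSubgroup := by
      rw [IntermediateField.mem_fixingSubgroup_iff]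
      intro k hk
      apply hinj
      rw [padicEmbedding_localGaloisToGlobal]
      exact hτE _ (IntermediateField.subset_adjoin _ _ ⟨k, hk, rfl⟩)
    have h2 := hx _ (localGaloisToGlobal_mem_decompositionSubgroup q τ) hgK
    rw [← padicEmbedding_localGaloisToGlobal, h2]
  -- `E` is the span of the image of `K`
  have halg : ∀ y ∈ padicEmbedding q '' (K : Set Qb), IsAlgebraic ℚ_[q] y :=
    fun y _ => Algebra.IsAlgebraic.isAlgebraic y
  have h2 : padicEmbedding q x ∈ Algebra.adjoin ℚ_[q] (padicEmbedding q '' (K : Set Qb)) := by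
    rw [← IntermediateField.adjoin_toSubalgebra_of_isAlgebraic halg]
    exact h1
  have h3 := Algebra.adjoin_eq_span ℚ_[q] (padicEmbedding q '' (K : Set Qb))
  have h4 : (Submonoid.closure (padicEmbedding q '' (K : Set Qb)) : Set (PadicAlgCl q))
      = padicEmbedding q '' (K : Set Qb) := by
    have h5 : padicEmbedding q '' (K : Set Qb)
        = ((K.toSubfield.toSubring.toSubmonoid.map
            ((padicEmbedding q : Qb →+* PadicAlgCl q) : Qb →* PadicAlgCl q) :
              Submonoid (PadicAlgCl q)) : Set (PadicAlgCl q)) := rfl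
    rw [h5, Submonoid.closure_eq]
  have h6 : padicEmbedding q x ∈ Subalgebra.toSubmodule
      (Algebra.adjoin ℚ_[q] (padicEmbedding q '' (K : Set Qb))) := h2
  rw [h3, h4] at h6
  exact h6

/-- Elements of the `ℚ_q`-span of the image of `K` are `q`-adic limits of elements of `K`. -/
theorem exists_norm_sub_le_of_mem_span (K : IntermediateField ℚ Qb) {y : PadicAlgCl q}
    (hy : y ∈ Submodule.span ℚ_[q] (padicEmbedding q '' (K : Set Qb))) :
    ∀ ε : ℝ, 0 < ε → ∃ k : Qb, k ∈ K ∧ ‖y - padicEmbedding q k‖ ≤ ε := by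
  induction hy using Submodule.span_induction with
  | mem y hy =>
    intro ε hε
    obtain ⟨k, hk, rfl⟩ := hy
    exact ⟨k, hk, by rw [sub_self, norm_zero]; exact hε.le⟩
  | zero =>
    intro ε hε
    exact ⟨0, zero_mem K, by rw [map_zero, sub_self, norm_zero]; exact hε.le⟩
  | add y₁ y₂ _ _ h₁ h₂ =>
    intro ε hε
    obtain ⟨k₁, hk₁, hn₁⟩ := h₁ (ε / 2) (by positivity)
    obtain ⟨k₂, hk₂, hn₂⟩ := h₂ (ε / 2) (by positivity)
    refine ⟨k₁ + k₂, add_mem hk₁ hk₂, ?_⟩
    have e : y₁ + y₂ - padicEmbedding q (k₁ + k₂)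
        = (y₁ - padicEmbedding q k₁) + (y₂ - padicEmbedding q k₂) := by
      rw [map_add]; ring
    rw [e]
    exact (norm_add_le _ _).trans (by linarith)
  | smul c y _ h =>
    intro ε hε
    obtain ⟨k, hk, hn⟩ := h (ε / (2 * (‖c‖ + 1))) (by positivity)
    obtain ⟨r, hr⟩ := Padic.rat_dense q c (ε := ε / (2 * (‖padicEmbedding q k‖ + 1)))
      (by positivity)
    refine ⟨(r : Qb) * k, mul_mem (SubfieldClass.ratCast_mem K r) hk, ?_⟩
    have e : c • y - padicEmbedding q ((r : Qb) * k)
        = c • (y - padicEmbedding q k) + (c - (r : ℚ_[q])) • padicEmbedding q k := by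
      rw [map_mul, map_ratCast, smul_sub, sub_smul, Algebra.smul_def (r : ℚ_[q]), map_ratCast]
      ring
    rw [e]
    refine (norm_add_le _ _).trans ?_
    rw [norm_smul, norm_smul]
    have h1 : ‖c‖ * ‖y - padicEmbedding q k‖ ≤ ε / 2 := by
      calc ‖c‖ * ‖y - padicEmbedding q k‖ ≤ (‖c‖ + 1) * (ε / (2 * (‖c‖ + 1))) := by
            apply mul_le_mul (by linarith) hn (norm_nonneg _) (by positivity)
        _ = ε / 2 := by field_simp
    have h2 : ‖c - (r : ℚ_[q])‖ * ‖padicEmbedding q k‖ ≤ ε / 2 := by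
      calc ‖c - (r : ℚ_[q])‖ * ‖padicEmbedding q k‖
          ≤ (ε / (2 * (‖padicEmbedding q k‖ + 1))) * (‖padicEmbedding q k‖ + 1) := by
            apply mul_le_mul hr.le (by linarith) (norm_nonneg _) (by positivity)
        _ = ε / 2 := by field_simp
    linarith

/-- **Density of `K` in its henselisation** at `padicPlace q`: every element fixed by
`D ∩ Gal(ℚ̄/K)` is congruent to an element of `K` modulo `q ^ c`, for every `c`. -/
theorem exists_sub_div_mem_padicPlace (K : IntermediateField ℚ Qb) {x : Qb}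
    (hx : ∀ g ∈ (padicPlace q).decompositionSubgroup ℚ, g ∈ K.fixingSubgroup → g x = x) (c : ℕ) :
    ∃ y : Qb, y ∈ K ∧ (x - y) / (q : Qb) ^ c ∈ padicPlace q := by
  have hqpos : (0 : ℝ) < q := by exact_mod_cast (Fact.out : q.Prime).pos
  obtain ⟨y, hy, hn⟩ := exists_norm_sub_le_of_mem_span q K (padicEmbedding_mem_span q K hx)
    (((q : ℝ)⁻¹) ^ c) (by positivity)
  refine ⟨y, hy, ?_⟩
  rw [mem_padicPlace_iff_nq, div_eq_mul_inv, nq_mul, ← zpow_natCast, ← zpow_neg, nq_zpow,
    nq_natCast_self]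
  have h1 : nq q (x - y) ≤ ((q : ℝ)⁻¹) ^ c := by
    unfold nq
    rw [map_sub]
    exact hn
  calc nq q (x - y) * ((q : ℝ)⁻¹) ^ (-(c : ℤ)) ≤ ((q : ℝ)⁻¹) ^ c * ((q : ℝ)⁻¹) ^ (-(c : ℤ)) := by
        apply mul_le_mul_of_nonneg_right h1 (by positivity)
    _ = 1 := by
        rw [← zpow_natCast, ← zpow_add₀ (by positivity)]
        simp

/-- **Density of `K` in its henselisation at a conjugate `g • padicPlace q`.** -/
theorem exists_sub_div_mem_smul_padicPlace (g : GQ) (K : IntermediateField ℚ Qb) {x : Qb}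
    (hx : ∀ s ∈ (g • padicPlace q).decompositionSubgroup ℚ, s ∈ K.fixingSubgroup → s x = x)
    (c : ℕ) : ∃ y : Qb, y ∈ K ∧ (x - y) / (q : Qb) ^ c ∈ g • padicPlace q := by
  have hgi : ∀ y : Qb, g (g⁻¹ y) = y := fun y => by
    show (g * g⁻¹) y = y
    rw [mul_inv_cancel]; rfl
  have hig : ∀ y : Qb, g⁻¹ (g y) = y := fun y => by
    show (g⁻¹ * g) y = y
    rw [inv_mul_cancel]; rfl
  let K' : IntermediateField ℚ Qb := K.map (g⁻¹ : GQ).toAlgHom
  have hK' : ∀ k ∈ K, g⁻¹ k ∈ K' := fun k hk => ⟨k, hk, rfl⟩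
  have hx' : ∀ s' ∈ (padicPlace q).decompositionSubgroup ℚ, s' ∈ K'.fixingSubgroup →
      s' (g⁻¹ x) = g⁻¹ x := by
    intro s' hs' hs'K
    have h1 : g * s' * g⁻¹ ∈ (g • padicPlace q).decompositionSubgroup ℚ := by
      rw [ValuationSubring.decompositionSubgroup, MulAction.mem_stabilizer_iff] at hs' ⊢
      rw [mul_smul, mul_smul, inv_smul_smul, hs']
    have h2 : g * s' * g⁻¹ ∈ K.fixingSubgroup := by
      rw [IntermediateField.mem_fixingSubgroup_iff]
      intro k hk
      show g (s' (g⁻¹ k)) = k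
      rw [(IntermediateField.mem_fixingSubgroup_iff K' s').mp hs'K _ (hK' k hk), hgi]
    have h3 : g (s' (g⁻¹ x)) = x := hx _ h1 h2
    have h4 := congrArg (fun t => g⁻¹ t) h3
    simp only [hig] at h4
    exact h4
  obtain ⟨y', hy', hmem⟩ := exists_sub_div_mem_padicPlace q K' hx' c
  obtain ⟨k, hk, rfl⟩ := hy'
  refine ⟨k, hk, ?_⟩
  rw [ValuationSubring.mem_pointwise_smul_iff_inv_smul_mem]
  have e : g⁻¹ • ((x - k) / (q : Qb) ^ c) = (g⁻¹ x - g⁻¹ k) / (q : Qb) ^ c := by
    show g⁻¹ ((x - k) / (q : Qb) ^ c) = _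
    rw [map_div₀, map_sub, map_pow, map_natCast]
  rw [e]
  exact hmem

end Fermat.Agent.PT.Kummer
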