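import Mathlib
import Fermat.Prelude.Def_FLTPrelim_Ramification
import Fermat.Agent.Lib.FrobeniusExists
import Fermat.Agent.Lib.InertiaLift
import Fermat.Agent.PT.Levels

/-!
# PT (S55): conjugacy of valuation subrings of `ℚ̄` relative to a closed subgroup

`GQ` is the absolute Galois group of `ℚ`, acting on the valuation subrings of `Qb = ℚ̄`.

* `eq_of_integral_iff` : two valuation subrings over `ℓ` with the same non-units among the
  algebraic integers are equal.
* `exists_mem_smul_eq` : for a closed subgroup `N`, two valuation subrings over `ℓ` with the same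
  non-units among the `N`-fixed algebraic integers are conjugate under `N`.
* `exists_smul_eq` : all valuation subrings over `ℓ` are conjugate.
* `exists_mul_mem_decompositionSubgroup` : lifting decomposition groups from the fixed field
  of `N`.
* `exists_mem_smul_smul_eq_iff` : `U`-orbits of valuation subrings over `ℓ` are the double cosets
  `U \ GQ / D`.
-/

set_option autoImplicit false

namespace Fermat.Agent.PT.G

open scoped Pointwise
open Fermat.Agent.Lib.FrobeniusExists Fermat.Agent.Lib.InertiaLift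

local notation "Qb" => AlgebraicClosure ℚ
local notation "GQ" => (AlgebraicClosure ℚ ≃ₐ[ℚ] AlgebraicClosure ℚ)
local notation "Zb" => integralClosure ℤ (AlgebraicClosure ℚ)

attribute [local instance] isAlgClosure_rat isGalois_rat galAction galAction_smulCommClass
  galAction_isInvariant zbTopology zbDiscrete galAction_continuousSMul

/-- The valuation of the conjugate valuation subring. -/
theorem smul_valuation_le_one_iff (g : GQ) (A : ValuationSubring Qb) (x : Qb) :
    (g • A).valuation x ≤ 1 ↔ A.valuation (g⁻¹ x) ≤ 1 := by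
  rw [ValuationSubring.valuation_le_one_iff, ValuationSubring.valuation_le_one_iff,
    ValuationSubring.mem_pointwise_smul_iff_inv_smul_mem]
  rfl

theorem smul_valuation_lt_one_iff (g : GQ) (A : ValuationSubring Qb) (x : Qb) :
    (g • A).valuation x < 1 ↔ A.valuation (g⁻¹ x) < 1 := by
  rcases eq_or_ne x 0 with rfl | hx
  · simp
  have hx' : g⁻¹ x ≠ 0 := (map_ne_zero_iff _ (g⁻¹).injective).mpr hx
  have h1 : (g • A).valuation x < 1 ↔ ¬ (g • A).valuation x⁻¹ ≤ 1 := by
    rw [map_inv₀, not_le, one_lt_inv₀ (zero_lt_iff.mpr ((Valuation.ne_zero_iff _).mpr hx))]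
  have h2 : A.valuation (g⁻¹ x) < 1 ↔ ¬ A.valuation (g⁻¹ x)⁻¹ ≤ 1 := by
    rw [map_inv₀, not_le, one_lt_inv₀ (zero_lt_iff.mpr ((Valuation.ne_zero_iff _).mpr hx'))]
  rw [h1, h2, smul_valuation_le_one_iff, map_inv₀]

/-- A valuation subring over `ℓ` is determined by the units among the algebraic integers:
one inclusion. -/
theorem le_of_integral {ℓ : ℕ} (hℓ : ℓ.Prime) (A A' : ValuationSubring Qb)
    (hA : A.LiesOverPrime ℓ)
    (h : ∀ b : Qb, IsIntegral ℤ b → A.valuation b = 1 → A'.valuation b = 1) : A ≤ A' := by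
  intro x hx
  have hvℓ : A.valuation (ℓ : Qb) < 1 := A.mem_nonunits_iff.mp hA
  obtain ⟨s, hs, hvs, hsx⟩ := exists_unit_mul_isIntegral A.valuation hℓ hvℓ (isAlgebraic_int x)
    ((A.valuation_le_one_iff x).mpr hx)
  have h1 : A'.valuation (s * x) ≤ 1 := val_le_one_of_isIntegral _ hsx
  rw [map_mul, h s hs hvs, one_mul] at h1
  exact (A'.valuation_le_one_iff x).mp h1

/-- Two valuation subrings over `ℓ` with the same non-units among the algebraic integers are
equal. -/
theorem eq_of_integral_iff {ℓ : ℕ} (hℓ : ℓ.Prime) (A A' : ValuationSubring Qb)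
    (hA : A.LiesOverPrime ℓ) (hA' : A'.LiesOverPrime ℓ)
    (h : ∀ b : Qb, IsIntegral ℤ b → (A.valuation b < 1 ↔ A'.valuation b < 1)) : A = A' := by
  apply le_antisymm
  · apply le_of_integral hℓ A A' hA
    intro b hb hb1
    refine le_antisymm (val_le_one_of_isIntegral _ hb) (not_lt.mp fun hlt => ?_)
    exact absurd ((h b hb).mpr hlt) (by rw [hb1]; exact lt_irrefl _)
  · apply le_of_integral hℓ A' A hA'
    intro b hb hb1
    refine le_antisymm (val_le_one_of_isIntegral _ hb) (not_lt.mp fun hlt => ?_)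
    exact absurd ((h b hb).mp hlt) (by rw [hb1]; exact lt_irrefl _)

/-- **Relative conjugacy.** For a closed subgroup `N` of the absolute Galois group, two valuation
subrings over `ℓ` which have the same non-units among the `N`-fixed algebraic integers are
conjugate under `N`. -/
theorem exists_mem_smul_eq {ℓ : ℕ} (hℓ : ℓ.Prime) (A A' : ValuationSubring (AlgebraicClosure ℚ))
    (hA : A.LiesOverPrime ℓ) (hA' : A'.LiesOverPrime ℓ)
    (N : Subgroup (AlgebraicClosure ℚ ≃ₐ[ℚ] AlgebraicClosure ℚ))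
    (hN : IsClosed (N : Set (AlgebraicClosure ℚ ≃ₐ[ℚ] AlgebraicClosure ℚ)))
    (h : ∀ b : AlgebraicClosure ℚ, IsIntegral ℤ b → (∀ n ∈ N, n b = b) →
      (A.valuation b < 1 ↔ A'.valuation b < 1)) :
    ∃ n ∈ N, n • A = A' := by
  have : CompactSpace N := isCompact_iff_compactSpace.mp hN.isCompact
  have : ContinuousSMul N Zb :=
    ⟨(continuous_smul (M := GQ) (X := Zb)).comp
      ((continuous_subtype_val.comp continuous_fst).prodMk continuous_snd)⟩
  let B' : Subalgebra ℤ Zb := FixedPoints.subalgebra ℤ Zb N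
  have : Algebra.IsInvariant B' Zb N := ⟨fun x h ↦ ⟨⟨x, h⟩, rfl⟩⟩
  have hcomm : SMulCommClass N B' Zb := ⟨fun n a b => by
    show n • ((a : Zb) * b) = (a : Zb) * (n • b)
    rw [smul_mul', a.2 n]⟩
  have hle : ∀ C : ValuationSubring Qb, (Zb).toSubring ≤ C.toSubring := fun C b hb =>
    (C.valuation_le_one_iff b).mp (val_le_one_of_isIntegral C.valuation hb)
  let Q : Ideal Zb := (IsLocalRing.maximalIdeal A).comap (Subring.inclusion (hle A))
  let Q' : Ideal Zb := (IsLocalRing.maximalIdeal A').comap (Subring.inclusion (hle A'))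
  have hQmem : ∀ b : Zb, b ∈ Q ↔ A.valuation (b : Qb) < 1 := fun b => by
    show Subring.inclusion (hle A) b ∈ IsLocalRing.maximalIdeal A ↔ _
    rw [A.valuation_lt_one_iff]
    rfl
  have hQ'mem : ∀ b : Zb, b ∈ Q' ↔ A'.valuation (b : Qb) < 1 := fun b => by
    show Subring.inclusion (hle A') b ∈ IsLocalRing.maximalIdeal A' ↔ _
    rw [A'.valuation_lt_one_iff]
    rfl
  have hQprime : Q.IsPrime := Ideal.comap_isPrime _ _
  have hQ'prime : Q'.IsPrime := Ideal.comap_isPrime _ _
  have hB'mem : ∀ b : Zb, b ∈ B' → ∀ n ∈ N, n (b : Qb) = (b : Qb) := by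
    intro b hb n hn
    exact congrArg Subtype.val (hb ⟨n, hn⟩)
  have hunder : Q.under B' = Q'.under B' := by
    ext ⟨b, hb⟩
    rw [Ideal.under_def, Ideal.under_def, Ideal.mem_comap, Ideal.mem_comap]
    show b ∈ Q ↔ b ∈ Q'
    rw [hQmem, hQ'mem]
    exact h b b.2 (hB'mem b hb)
  obtain ⟨g, hg⟩ := Algebra.IsInvariant.exists_smul_of_under_eq_of_profinite (A := B') (G := N)
    Q Q' hunder
  -- `hg : Q' = g • Q`
  refine ⟨(g : GQ), g.2, ?_⟩
  apply eq_of_integral_iff hℓ _ _ (Levels.liesOverPrime_smul hA _) hA'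
  intro b hb
  rw [smul_valuation_lt_one_iff]
  have hb' : b ∈ Zb := hb
  have h1 : (g : GQ)⁻¹ b = ((((g : GQ)⁻¹ • (⟨b, hb'⟩ : Zb) : Zb)) : Qb) := rfl
  have h2 : A'.valuation b = A'.valuation (((⟨b, hb'⟩ : Zb)) : Qb) := rfl
  rw [h1, h2, ← hQmem, ← hQ'mem, hg, Ideal.mem_pointwise_smul_iff_inv_smul_mem]
  rfl

theorem isIntegral_intCast_field {L : Type*} [Field L] (m : ℤ) : IsIntegral ℤ (m : L) := by
  simpa using (isIntegral_algebraMap (R := ℤ) (A := L) (x := m))

/-- The valuation of a rational integer at a valuation subring over `ℓ`. -/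
theorem val_intCast_lt_one_iff {ℓ : ℕ} (hℓ : ℓ.Prime) (A : ValuationSubring Qb)
    (hA : A.LiesOverPrime ℓ) (n : ℤ) : A.valuation (n : Qb) < 1 ↔ (ℓ : ℤ) ∣ n := by
  have hvℓ : A.valuation (ℓ : Qb) < 1 := A.mem_nonunits_iff.mp hA
  constructor
  · intro h
    by_contra hn
    rw [val_intCast_eq_one A.valuation hℓ hvℓ hn] at h
    exact lt_irrefl _ h
  · rintro ⟨m, rfl⟩
    have h1 : (((ℓ : ℤ) * m : ℤ) : Qb) = (ℓ : Qb) * (m : Qb) := by push_cast; ring
    rw [h1, map_mul]
    exact mul_lt_one_of_lt_of_le hvℓ (val_le_one_of_isIntegral _ (isIntegral_intCast_field m))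

/-- **Conjugacy.** Any two valuation subrings of `ℚ̄` over the same prime are conjugate. -/
theorem exists_smul_eq {ℓ : ℕ} (hℓ : ℓ.Prime) (A A' : ValuationSubring (AlgebraicClosure ℚ))
    (hA : A.LiesOverPrime ℓ) (hA' : A'.LiesOverPrime ℓ) :
    ∃ g : AlgebraicClosure ℚ ≃ₐ[ℚ] AlgebraicClosure ℚ, g • A = A' := by
  obtain ⟨g, -, hg⟩ := exists_mem_smul_eq hℓ A A' hA hA' ⊤ isClosed_univ (by
    intro b hb hfix
    have hb' : b ∈ Zb := hb
    obtain ⟨n, hn⟩ := Algebra.IsInvariant.isInvariant (A := ℤ) (B := Zb) (G := GQ) ⟨b, hb'⟩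
      (fun g => Subtype.ext (hfix g trivial))
    have h1 : b = (n : Qb) := by
      have := congrArg Subtype.val hn
      simpa using this.symm
    rw [h1, val_intCast_lt_one_iff hℓ A hA, val_intCast_lt_one_iff hℓ A' hA'])
  exact ⟨g, hg⟩

/-- Conjugate valuation subrings under the fixing subgroup of `K` have the same non-units
in `K`. -/
theorem valuation_lt_one_iff_of_smul_eq (A A' : ValuationSubring (AlgebraicClosure ℚ))
    (K : IntermediateField ℚ (AlgebraicClosure ℚ))
    {u : AlgebraicClosure ℚ ≃ₐ[ℚ] AlgebraicClosure ℚ} (hu : u ∈ K.fixingSubgroup)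
    (h : u • A = A') (x : K) :
    A.valuation (x : AlgebraicClosure ℚ) < 1 ↔ A'.valuation (x : AlgebraicClosure ℚ) < 1 := by
  rw [← h, smul_valuation_lt_one_iff]
  have h1 : u⁻¹ (x : Qb) = x := (K.fixingSubgroup.inv_mem hu) x
  rw [h1]

/-- **Relative conjugacy over a subfield.** Two valuation subrings over `ℓ` with the same
non-units among the integers of `K` are conjugate under the absolute Galois group of `K`. -/
theorem exists_mem_fixingSubgroup_smul_eq {ℓ : ℕ} (hℓ : ℓ.Prime)
    (A A' : ValuationSubring (AlgebraicClosure ℚ))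
    (hA : A.LiesOverPrime ℓ) (hA' : A'.LiesOverPrime ℓ)
    (K : IntermediateField ℚ (AlgebraicClosure ℚ))
    (h : ∀ x : K, IsIntegral ℤ x → (A.valuation (x : AlgebraicClosure ℚ) < 1 ↔
      A'.valuation (x : AlgebraicClosure ℚ) < 1)) :
    ∃ u ∈ K.fixingSubgroup, u • A = A' := by
  apply exists_mem_smul_eq hℓ A A' hA hA' K.fixingSubgroup
    (InfiniteGalois.fixingSubgroup_isClosed K)
  intro b hb hfix
  have hbK : b ∈ K := by
    have h1 : b ∈ IntermediateField.fixedField K.fixingSubgroup := by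
      rw [IntermediateField.mem_fixedField_iff]
      exact hfix
    rwa [InfiniteGalois.fixedField_fixingSubgroup] at h1
  have h2 : IsIntegral ℤ (⟨b, hbK⟩ : K) := by
    rw [← isIntegral_algebraMap_iff (FaithfulSMul.algebraMap_injective K Qb)]
    exact hb
  exact h ⟨b, hbK⟩ h2

/-- **Lifting decomposition groups.** If `τ • A` and `A` have the same non-units among the
`N`-fixed algebraic integers, then `n * τ` lies in the decomposition group of `A` for
some `n ∈ N`. -/
theorem exists_mul_mem_decompositionSubgroup {ℓ : ℕ} (hℓ : ℓ.Prime)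
    (A : ValuationSubring (AlgebraicClosure ℚ)) (hA : A.LiesOverPrime ℓ)
    (N : Subgroup (AlgebraicClosure ℚ ≃ₐ[ℚ] AlgebraicClosure ℚ))
    (hN : IsClosed (N : Set (AlgebraicClosure ℚ ≃ₐ[ℚ] AlgebraicClosure ℚ)))
    (τ : AlgebraicClosure ℚ ≃ₐ[ℚ] AlgebraicClosure ℚ)
    (hτ : ∀ b : AlgebraicClosure ℚ, IsIntegral ℤ b → (∀ n ∈ N, n b = b) →
      (A.valuation (τ⁻¹ b) < 1 ↔ A.valuation b < 1)) :
    ∃ n ∈ N, n * τ ∈ A.decompositionSubgroup ℚ := by
  obtain ⟨n, hn, h⟩ := exists_mem_smul_eq hℓ (τ • A) A (Levels.liesOverPrime_smul hA τ) hA N hN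
    (by
      intro b hb hfix
      rw [smul_valuation_lt_one_iff]
      exact hτ b hb hfix)
  refine ⟨n, hn, ?_⟩
  rw [ValuationSubring.decompositionSubgroup, MulAction.mem_stabilizer_iff, mul_smul]
  exact h

/-- Decomposition-group lifting over a subfield `K`: `τ ∈ G_K · D_A` as soon as `τ • A` and `A`
have the same non-units among the integers of `K`. -/
theorem exists_mem_fixingSubgroup_mul_mem_decompositionSubgroup {ℓ : ℕ} (hℓ : ℓ.Prime)
    (A : ValuationSubring (AlgebraicClosure ℚ)) (hA : A.LiesOverPrime ℓ)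
    (K : IntermediateField ℚ (AlgebraicClosure ℚ))
    (τ : AlgebraicClosure ℚ ≃ₐ[ℚ] AlgebraicClosure ℚ)
    (hτ : ∀ x : K, IsIntegral ℤ x → (A.valuation (τ⁻¹ (x : AlgebraicClosure ℚ)) < 1 ↔
      A.valuation (x : AlgebraicClosure ℚ) < 1)) :
    ∃ u ∈ K.fixingSubgroup, u * τ ∈ A.decompositionSubgroup ℚ := by
  obtain ⟨u, hu, h⟩ := exists_mem_fixingSubgroup_smul_eq hℓ (τ • A) A
    (Levels.liesOverPrime_smul hA τ) hA K (by
      intro x hx
      rw [smul_valuation_lt_one_iff]
      exact hτ x hx)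
  refine ⟨u, hu, ?_⟩
  rw [ValuationSubring.decompositionSubgroup, MulAction.mem_stabilizer_iff, mul_smul]
  exact h

/-- **Orbits are double cosets.** For a subgroup `U`, the conjugates `g • A₀` and `g' • A₀` lie
in the same `U`-orbit iff `g' ∈ U g D` where `D` is the decomposition group of `A₀`. -/
theorem exists_mem_smul_smul_eq_iff (A₀ : ValuationSubring (AlgebraicClosure ℚ))
    (U : Subgroup (AlgebraicClosure ℚ ≃ₐ[ℚ] AlgebraicClosure ℚ))
    (g g' : AlgebraicClosure ℚ ≃ₐ[ℚ] AlgebraicClosure ℚ) :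
    (∃ u ∈ U, u • g • A₀ = g' • A₀) ↔
      ∃ u ∈ U, ∃ d ∈ A₀.decompositionSubgroup ℚ, g' = u * g * d := by
  constructor
  · rintro ⟨u, hu, h⟩
    refine ⟨u, hu, (u * g)⁻¹ * g', ?_, by group⟩
    rw [ValuationSubring.decompositionSubgroup, MulAction.mem_stabilizer_iff, mul_smul, ← h,
      ← mul_smul, ← mul_smul]
    have h1 : (u * g)⁻¹ * u * g = 1 := by group
    rw [h1, one_smul]
  · rintro ⟨u, hu, d, hd, rfl⟩
    refine ⟨u, hu, ?_⟩
    rw [ValuationSubring.decompositionSubgroup, MulAction.mem_stabilizer_iff] at hd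
    rw [mul_smul, mul_smul, hd]

theorem doubleCoset_mk_eq_iff (A₀ : ValuationSubring (AlgebraicClosure ℚ))
    (U : Subgroup (AlgebraicClosure ℚ ≃ₐ[ℚ] AlgebraicClosure ℚ))
    (g g' : AlgebraicClosure ℚ ≃ₐ[ℚ] AlgebraicClosure ℚ) :
    DoubleCoset.mk U (A₀.decompositionSubgroup ℚ) g =
        DoubleCoset.mk U (A₀.decompositionSubgroup ℚ) g' ↔
      ∃ u ∈ U, u • g • A₀ = g' • A₀ := by
  rw [DoubleCoset.eq, exists_mem_smul_smul_eq_iff]

end Fermat.Agent.PT.G
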