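import Mathlib
import Fermat.Agent.PT.G.KumDense
import Fermat.Agent.PT.G.KumDVR
import Fermat.Agent.PT.G.ValConj
import Fermat.Agent.PT.G.DecompBasic

/-
# Local layer at an arbitrary place: density, and the henselisation as a henselian DVR

For an intermediate field `K` of `ℚ̄/ℚ` and a valuation subring `A` of `ℚ̄` over a prime `q`, the
*decomposition field* `decompField K A` is the fixed field of `D_A ⊓ Gal(ℚ̄/K)`; it plays the role
of the henselisation (algebraic part of the completion) of `K` at the place `A ∩ K`.

* `exists_mem_sub_div_mem`, `exists_mem_valuation_sub_le`,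
  `exists_mem_valuation_div_sub_one_le`: `K` is dense in `decompField K A` (additively and
  multiplicatively), for ANY intermediate field `K`.
* `henselianLocalRing_decompField`: the valuation ring `A ∩ decompField K A` is henselian.
* `isDiscreteValuationRing_decompField`, `finite_residueField_decompField`: for a number field
  `K` it is a discrete valuation ring with finite residue field.
-/

set_option autoImplicit false
set_option linter.style.haveILetI false

namespace Fermat.Agent.PT.Kummer

open scoped Pointwise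
open Fermat.Agent.PT.LocDec Fermat.Agent.PT.PlaceDict NumberField

local notation "Qb" => AlgebraicClosure ℚ
local notation "GQ" => (AlgebraicClosure ℚ ≃ₐ[ℚ] AlgebraicClosure ℚ)

/-- `padicPlace q` lies over `q`. -/
theorem liesOverPrime_padicPlace (q : ℕ) [Fact q.Prime] : (padicPlace q).LiesOverPrime q := by
  have hq : q.Prime := Fact.out
  have hq1 : (1 : ℝ) < q := by exact_mod_cast hq.one_lt
  unfold ValuationSubring.LiesOverPrime
  rw [Fermat.Agent.PT.Levels.mem_nonunits_iff_inv]
  right
  rw [mem_padicPlace_iff_nq, ← zpow_neg_one, nq_zpow, nq_natCast_self, zpow_neg_one, inv_inv]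
  exact not_le.mpr hq1

/-- **Density of `K` in its henselisation, at every place.** For ANY intermediate field `K` of
`ℚ̄/ℚ`, any valuation subring `A` of `ℚ̄` over a prime `q`, and any `x` fixed by
`D_A ⊓ Gal(ℚ̄/K)`: `x` is congruent to an element of `K` modulo `q ^ c`, for every `c`. -/
theorem exists_mem_sub_div_mem (K : IntermediateField ℚ Qb) {q : ℕ} (hq : q.Prime)
    (A : ValuationSubring Qb) (hA : A.LiesOverPrime q) (x : Qb)
    (hx : ∀ g ∈ A.decompositionSubgroup ℚ ⊓ K.fixingSubgroup, g x = x) (c : ℕ) :
    ∃ y ∈ K, (x - y) / (q : Qb) ^ c ∈ A := by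
  haveI : Fact q.Prime := ⟨hq⟩
  obtain ⟨g, rfl⟩ := Fermat.Agent.PT.G.exists_smul_eq hq (padicPlace q) A
    (liesOverPrime_padicPlace q) hA
  exact exists_sub_div_mem_smul_padicPlace q g K
    (fun s hs hsK => hx s (Subgroup.mem_inf.mpr ⟨hs, hsK⟩)) c

/-- The same in valuation form. -/
theorem exists_mem_valuation_sub_le (K : IntermediateField ℚ Qb) {q : ℕ} (hq : q.Prime)
    (A : ValuationSubring Qb) (hA : A.LiesOverPrime q) (x : Qb)
    (hx : ∀ g ∈ A.decompositionSubgroup ℚ ⊓ K.fixingSubgroup, g x = x) (c : ℕ) :
    ∃ y ∈ K, A.valuation (x - y) ≤ A.valuation ((q : Qb) ^ c) := by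
  obtain ⟨y, hy, h⟩ := exists_mem_sub_div_mem K hq A hA x hx c
  refine ⟨y, hy, ?_⟩
  rw [← A.valuation_le_one_iff, map_div₀] at h
  have hq0 : A.valuation ((q : Qb) ^ c) ≠ 0 := by
    rw [Valuation.ne_zero_iff]
    exact pow_ne_zero c (by exact_mod_cast hq.ne_zero)
  exact (div_le_one₀ (zero_lt_iff.mpr hq0)).mp h

/-- Multiplicative form: a nonzero `x` fixed by `D_A ⊓ Gal(ℚ̄/K)` is `≡ y mod× q ^ c` for some
nonzero `y ∈ K`. -/
theorem exists_mem_valuation_div_sub_one_le (K : IntermediateField ℚ Qb) {q : ℕ} (hq : q.Prime)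
    (A : ValuationSubring Qb) (hA : A.LiesOverPrime q) (x : Qb) (hx0 : x ≠ 0)
    (hx : ∀ g ∈ A.decompositionSubgroup ℚ ⊓ K.fixingSubgroup, g x = x) (c : ℕ) :
    ∃ y ∈ K, y ≠ 0 ∧ A.valuation (x / y - 1) ≤ A.valuation ((q : Qb) ^ c) := by
  have hvq : A.valuation (q : Qb) < 1 := A.mem_nonunits_iff.mp hA
  obtain ⟨c₀, hc₀⟩ := exists_pow_valuation_lt hq hA hx0
  obtain ⟨y, hy, h⟩ := exists_mem_valuation_sub_le K hq A hA x hx (c₀ + c)
  have hq0 : ∀ n : ℕ, A.valuation ((q : Qb) ^ n) ≠ 0 := fun n => by
    rw [Valuation.ne_zero_iff]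
    exact pow_ne_zero n (by exact_mod_cast hq.ne_zero)
  have hqc : A.valuation ((q : Qb) ^ c) ≤ 1 := by
    rw [map_pow]
    exact pow_le_one₀ zero_le hvq.le
  have hlt : A.valuation (x - y) < A.valuation x := by
    refine lt_of_le_of_lt h (lt_of_le_of_lt ?_ hc₀)
    rw [pow_add, map_mul]
    exact mul_le_of_le_one_right zero_le hqc
  have hvy : A.valuation y = A.valuation x := by
    have e : y = x - (x - y) := by ring
    rw [e]
    exact Valuation.map_sub_eq_of_lt_left _ hlt
  have hvx : A.valuation x ≠ 0 := (Valuation.ne_zero_iff _).mpr hx0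
  have hy0 : y ≠ 0 := by
    rintro rfl
    rw [map_zero] at hvy
    exact hvx hvy.symm
  refine ⟨y, hy, hy0, ?_⟩
  have e : x / y - 1 = (x - y) / y := by field_simp
  rw [e, map_div₀, hvy, div_le_iff₀ (zero_lt_iff.mpr hvx)]
  refine h.trans ?_
  rw [pow_add, map_mul, mul_comm]
  exact mul_le_mul_right hc₀.le _

/-- The **decomposition field** of `A` relative to `K`: the fixed field of
`D_A ⊓ Gal(ℚ̄/K)`; the henselisation of `K` at the place `A ∩ K`, inside `ℚ̄`. -/
noncomputable def decompField (K : IntermediateField ℚ Qb) (A : ValuationSubring Qb) :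
    IntermediateField ℚ Qb :=
  IntermediateField.fixedField (A.decompositionSubgroup ℚ ⊓ K.fixingSubgroup)

theorem mem_decompField_iff (K : IntermediateField ℚ Qb) (A : ValuationSubring Qb) (x : Qb) :
    x ∈ decompField K A ↔ ∀ g ∈ A.decompositionSubgroup ℚ ⊓ K.fixingSubgroup, g x = x := by
  unfold decompField
  rw [IntermediateField.mem_fixedField_iff]

theorem le_decompField (K : IntermediateField ℚ Qb) (A : ValuationSubring Qb) :
    K ≤ decompField K A := by
  intro x hx
  rw [mem_decompField_iff]
  intro g hg
  exact (Subgroup.mem_inf.mp hg).2 ⟨x, hx⟩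

/-- Density of `K` in its decomposition field, in the shape consumed by `KumDVR`. -/
theorem dense_decompField (K : IntermediateField ℚ Qb) {q : ℕ} (hq : q.Prime)
    (A : ValuationSubring Qb) (hA : A.LiesOverPrime q) :
    ∀ x ∈ decompField K A, ∀ c : ℕ, ∃ y ∈ K, (x - y) / (q : Qb) ^ c ∈ A :=
  fun x hx c => exists_mem_sub_div_mem K hq A hA x ((mem_decompField_iff K A x).mp hx) c

/-- **The henselisation is henselian**: the valuation ring `A ∩ decompField K A` is a henselian
local ring (any `K`, any valuation subring `A` of `ℚ̄`). -/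
theorem henselianLocalRing_decompField (K : IntermediateField ℚ Qb) (A : ValuationSubring Qb) :
    HenselianLocalRing (A.comap (algebraMap (decompField K A) Qb)) :=
  henselianLocalRing_fixedField A (A.decompositionSubgroup ℚ ⊓ K.fixingSubgroup) inf_le_left

/-- **The henselisation of a number field at a finite place is a discrete valuation ring.** -/
theorem isDiscreteValuationRing_decompField (K : IntermediateField ℚ Qb) [NumberField K]
    {q : ℕ} (hq : q.Prime) (A : ValuationSubring Qb) (hA : A.LiesOverPrime q) :
    IsDiscreteValuationRing (A.comap (algebraMap (decompField K A) Qb)) :=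
  isDiscreteValuationRing_comap hq hA K (decompField K A) (le_decompField K A)
    (dense_decompField K hq A hA)

/-- **The henselisation of a number field at a finite place has finite residue field.** -/
theorem finite_residueField_decompField (K : IntermediateField ℚ Qb) [NumberField K]
    {q : ℕ} (hq : q.Prime) (A : ValuationSubring Qb) (hA : A.LiesOverPrime q) :
    Finite (IsLocalRing.ResidueField (A.comap (algebraMap (decompField K A) Qb))) :=
  finite_residueField_comap hq hA K (decompField K A) (le_decompField K A)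
    (dense_decompField K hq A hA)

/-- The Galois group of `ℚ̄` over the decomposition field is `D_A ⊓ Gal(ℚ̄/K)` (the latter is
closed). -/
theorem fixingSubgroup_decompField (K : IntermediateField ℚ Qb) (A : ValuationSubring Qb) :
    (decompField K A).fixingSubgroup = A.decompositionSubgroup ℚ ⊓ K.fixingSubgroup :=
  Fermat.Agent.PT.G.fixingSubgroup_fixedField_decomp_inf A K

end Fermat.Agent.PT.Kummer
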