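import Mathlib
import Fermat.Agent.PT.LevelTwist
import Fermat.Agent.Lib.InertiaLift

/-!
# Kummer extensions and ramification (PT, layer G)

Everything is phrased with the prelude's vocabulary: valuation subrings `A` of `AlgebraicClosure ℚ`
lying over a prime `q`, their inertia groups `A.inertiaSubgroupIn ℚ`, and levels
`IntermediateField.IsUnramifiedOutside S`.

* `exists_zpow_valuation_eq`: if the inertia group of `A` acts trivially on a finite Galois `F/ℚ`
  then the value group of `F` at `A` is `q ^ ℤ`.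
* `exists_zpow_valuation_eq_of_level`: the same for a level and a place outside `S`.
* `exists_valuation_eq_zpow_mul_of_level`: if `α ^ p = a` with `α` in a level, then `p` divides
  the valuation of `a` at the places outside `S`.
* `isUnramifiedOutside_sup_adjoin_root`: conversely `K(α)` is a level when the valuations of
  `a` outside `S` are valuations of `p`-th powers.
* `isUnramifiedOutside_sup_adjoin_root_iff`: the resulting criterion.
-/

set_option autoImplicit false
set_option linter.style.haveILetI false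

namespace Fermat.Agent.PT.Kummer

open IsDedekindDomain

/-- Finite level: if the inertia group of a prime `P` above `p` in a Galois number field is
trivial, then `p ∉ P ^ 2`. -/
theorem natCast_notMem_sq_of_inertia_trivial {K 𝒪 : Type*} [Field K] [NumberField K] [CommRing 𝒪]
    [Algebra 𝒪 K] [IsIntegralClosure 𝒪 ℤ K] [IsGalois ℚ K] {p : ℕ} (hp : p.Prime)
    (P : Ideal 𝒪) [hPprime : P.IsPrime] (hpP : (p : 𝒪) ∈ P)
    (h : ∀ σ : Gal(K/ℚ), (∀ x : 𝒪, galRestrict ℤ ℚ K 𝒪 σ x - x ∈ P) → σ = 1) :
    (p : 𝒪) ∉ P ^ 2 := by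
  have := (IsIntegralClosure.algebraMap_injective 𝒪 ℤ K).isDomain
  have := IsIntegralClosure.isDedekindDomain ℤ ℚ K 𝒪
  have := IsIntegralClosure.isFractionRing_of_finite_extension ℤ ℚ K 𝒪
  have := IsIntegralClosure.finite ℤ ℚ K 𝒪
  have := CharZero.of_module (R := 𝒪) K
  let : MulSemiringAction Gal(K/ℚ) 𝒪 := IsIntegralClosure.MulSemiringAction ℤ ℚ K 𝒪
  have := IsGaloisGroup.of_isFractionRing Gal(K/ℚ) ℤ 𝒪 ℚ K
  have hpZ : Prime (p : ℤ) := Nat.prime_iff_prime_int.mp hp
  have hover : P.LiesOver (Ideal.span {(p : ℤ)}) :=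
    (Ideal.liesOver_span_iff Ideal.IsPrime.ne_top' hpZ).mpr (by simpa using hpP)
  have : (Ideal.span {(p : ℤ)}).IsPrime := (Ideal.span_singleton_prime hpZ.ne_zero).mpr hpZ
  have hcard := Ideal.card_inertia_eq_ramificationIdxIn (G := Gal(K/ℚ)) (Ideal.span {(p : ℤ)}) P
  rw [Ideal.ramificationIdxIn_eq_ramificationIdx _ P Gal(K/ℚ)] at hcard
  have hbot : Ideal.inertia Gal(K/ℚ) P = ⊥ := by
    rw [eq_bot_iff]
    intro σ hσ
    rw [Subgroup.mem_bot]
    exact h σ fun x => hσ x
  rw [hbot, Subgroup.card_bot] at hcard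
  have hne : Ideal.span {(p : ℤ)} ≠ ⊥ := by
    rw [Ne, Ideal.span_singleton_eq_bot]
    exact hpZ.ne_zero
  have h1 : (Ideal.span {(p : ℤ)}).ramificationIdx' P = 1 := by
    rw [Ideal.ramificationIdx'_eq_ramificationIdx (Ideal.span {(p : ℤ)}) P hne, ← hcard]
  intro hmem
  have hle : (Ideal.span {(p : ℤ)}).map (algebraMap ℤ 𝒪) ≤ P := by
    rw [Ideal.map_span, Set.image_singleton, Ideal.span_singleton_le_iff_mem]
    simpa using hpP
  refine (Ideal.ramificationIdx'_ne_one_iff hle).mpr ?_ h1
  rw [Ideal.map_span, Set.image_singleton, Ideal.span_singleton_le_iff_mem]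
  simpa using hmem


local notation "Qb" => AlgebraicClosure ℚ
local notation "GQ" => (AlgebraicClosure ℚ ≃ₐ[ℚ] AlgebraicClosure ℚ)

open Fermat.Agent.Lib.FrobeniusExists Fermat.Agent.Lib.InertiaLift Fermat.Agent.PT.Levels

attribute [local instance] isAlgClosure_rat isGalois_rat

/-- **Unramified implies value group `q ^ ℤ`.** If the inertia group of `A` (over `q`) acts
trivially on the finite Galois extension `F` of `ℚ`, then every nonzero element of `F` has the
`A`-valuation of a power of `q`. -/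
theorem exists_zpow_valuation_eq (F : IntermediateField ℚ Qb) [FiniteDimensional ℚ F]
    [Normal ℚ F] {q : ℕ} (hq : q.Prime) (A : ValuationSubring Qb) (hA : A.LiesOverPrime q)
    (hI : A.inertiaSubgroupIn ℚ ≤ F.fixingSubgroup) {x : Qb} (hx : x ∈ F) (hx0 : x ≠ 0) :
    ∃ n : ℤ, A.valuation x = A.valuation ((q : Qb) ^ n) := by
  haveI : NumberField F := ⟨⟩
  haveI : IsGalois ℚ F := ⟨⟩
  have hvq : A.valuation (q : Qb) < 1 := A.mem_nonunits_iff.mp hA
  have hint : ∀ y : NumberField.RingOfIntegers F, A.valuation (algebraMap _ Qb y) ≤ 1 := by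
    intro y
    apply val_le_one_of_isIntegral
    have h1 : IsIntegral ℤ (algebraMap (NumberField.RingOfIntegers F) F y) :=
      NumberField.RingOfIntegers.isIntegral_coe y
    have h2 := h1.algebraMap (B := Qb)
    rwa [← IsScalarTower.algebraMap_apply] at h2
  let P : Ideal (NumberField.RingOfIntegers F) :=
    { carrier := {y | A.valuation (algebraMap _ Qb y) < 1}
      add_mem' := by
        intro a b ha hb
        simp only [Set.mem_ofPred_eq, map_add] at ha hb ⊢
        exact lt_of_le_of_lt (A.valuation.map_add _ _) (max_lt ha hb)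
      zero_mem' := by simp
      smul_mem' := by
        intro c y hy
        simp only [Set.mem_ofPred_eq, smul_eq_mul, map_mul] at hy ⊢
        rw [mul_comm]
        exact mul_lt_one_of_lt_of_le hy (hint c) }
  have hPmem : ∀ y, y ∈ P ↔ A.valuation (algebraMap _ Qb y) < 1 := fun y => Iff.rfl
  have hPprime : P.IsPrime := by
    refine ⟨?_, ?_⟩
    · rw [Ne, Ideal.eq_top_iff_one, hPmem]
      simp
    · intro a b hab
      rw [hPmem, map_mul, map_mul] at hab
      by_contra hcon
      rw [not_or, hPmem, hPmem, not_lt, not_lt] at hcon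
      have ha1 : A.valuation (algebraMap _ Qb a) = 1 := le_antisymm (hint a) hcon.1
      have hb1 : A.valuation (algebraMap _ Qb b) = 1 := le_antisymm (hint b) hcon.2
      rw [ha1, hb1, one_mul] at hab
      exact lt_irrefl _ hab
  have hqP : ((q : ℕ) : NumberField.RingOfIntegers F) ∈ P := by
    rw [hPmem, map_natCast]
    exact hvq
  haveI := fixingSubgroup_normal F
  have hclosed : IsClosed (F.fixingSubgroup : Set GQ) := InfiniteGalois.fixingSubgroup_isClosed F
  have hsq := natCast_notMem_sq_of_inertia_trivial (K := F) (𝒪 := NumberField.RingOfIntegers F)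
    hq P hqP (by
      intro σ hσ
      let σ' : GQ := σ.liftNormal Qb
      have hcomm : ∀ z : F, σ' (algebraMap F Qb z) = algebraMap F Qb (σ z) :=
        fun z => AlgEquiv.liftNormal_commutes σ Qb z
      obtain ⟨n, hn, hmem⟩ := exists_mul_mem_inertiaSubgroupIn hq A hA F.fixingSubgroup hclosed σ'
        (by
          intro b hb hfix
          have hbF : b ∈ F := by
            rw [← InfiniteGalois.fixedField_fixingSubgroup F, IntermediateField.mem_fixedField_iff]
            exact fun n hn => hfix n hn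
          have hbint : IsIntegral ℤ (⟨b, hbF⟩ : F) := by
            rw [← isIntegral_algebraMap_iff (FaithfulSMul.algebraMap_injective F Qb)]
            exact hb
          let y : NumberField.RingOfIntegers F :=
            IsIntegralClosure.mk' (NumberField.RingOfIntegers F) (⟨b, hbF⟩ : F) hbint
          have hy : algebraMap (NumberField.RingOfIntegers F) F y = ⟨b, hbF⟩ :=
            IsIntegralClosure.algebraMap_mk' _ _ _
          have h1 := (hPmem _).mp (hσ y)
          rw [map_sub, IsScalarTower.algebraMap_apply (NumberField.RingOfIntegers F) F Qb,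
            IsScalarTower.algebraMap_apply (NumberField.RingOfIntegers F) F Qb,
            algebraMap_galRestrict_apply, hy, ← hcomm] at h1
          exact h1)
      have h2 : σ' ∈ F.fixingSubgroup := by
        have h3 := F.fixingSubgroup.mul_mem (F.fixingSubgroup.inv_mem hn) (hI hmem)
        rwa [inv_mul_cancel_left] at h3
      ext z
      have h4 := (IntermediateField.mem_fixingSubgroup_iff F σ').mp h2 z z.2
      have h5 := hcomm z
      exact h5.symm.trans h4)
  have hPne : P ≠ ⊥ := by
    intro h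
    rw [h, Ideal.mem_bot] at hqP
    exact hq.ne_zero (by exact_mod_cast hqP)
  let w : HeightOneSpectrum (NumberField.RingOfIntegers F) := ⟨P, hPprime, hPne⟩
  have hq0 : ((q : ℕ) : NumberField.RingOfIntegers F) ≠ 0 := by exact_mod_cast hq.ne_zero
  have hwq : w.intValuation ((q : ℕ) : NumberField.RingOfIntegers F) = WithZero.exp (-1 : ℤ) := by
    have h1 : w.intValuation ((q : ℕ) : NumberField.RingOfIntegers F)
        ≤ WithZero.exp (-((1 : ℕ) : ℤ)) :=
      (w.intValuation_le_pow_iff_mem _ 1).mpr (by simpa using hqP)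
    have h2 : ¬ w.intValuation ((q : ℕ) : NumberField.RingOfIntegers F)
        ≤ WithZero.exp (-((2 : ℕ) : ℤ)) :=
      fun h => hsq ((w.intValuation_le_pow_iff_mem _ 2).mp h)
    have h0 : w.intValuation ((q : ℕ) : NumberField.RingOfIntegers F) ≠ 0 :=
      w.intValuation_ne_zero _ hq0
    obtain ⟨k, hk⟩ : ∃ k : ℤ, w.intValuation ((q : ℕ) : NumberField.RingOfIntegers F)
        = WithZero.exp k := ⟨_, (WithZero.exp_log h0).symm⟩
    rw [hk] at h1 h2 ⊢
    rw [WithZero.exp_le_exp] at h1 h2
    rw [WithZero.exp_inj]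
    push_cast at h1 h2
    omega
  have hwqF : w.valuation F ((q : ℕ) : F) = WithZero.exp (-1 : ℤ) := by
    have hcast : algebraMap (NumberField.RingOfIntegers F) F
        ((q : ℕ) : NumberField.RingOfIntegers F) = ((q : ℕ) : F) := map_natCast _ q
    rw [← hcast, w.valuation_of_algebraMap, hwq]
  let x' : F := ⟨x, hx⟩
  have hx'0 : x' ≠ 0 := fun h => hx0 (congrArg Subtype.val h)
  have hv0 : w.valuation F x' ≠ 0 := (Valuation.ne_zero_iff _).mpr hx'0
  obtain ⟨m, hm⟩ : ∃ m : ℤ, w.valuation F x' = WithZero.exp m :=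
    ⟨_, (WithZero.exp_log hv0).symm⟩
  refine ⟨-m, ?_⟩
  have hqF0 : ((q : ℕ) : F) ≠ 0 := by exact_mod_cast hq.ne_zero
  let y : F := x' * (((q : ℕ) : F) ^ (-m))⁻¹
  have hy1 : w.valuation F y = 1 := by
    simp only [y, map_mul, map_inv₀, map_zpow₀, hwqF, hm]
    rw [← WithZero.exp_zsmul, ← WithZero.exp_neg, ← WithZero.exp_add, WithZero.exp_eq_one]
    simp
  have key : ∀ z : F, w.valuation F z ≤ 1 → A.valuation (algebraMap F Qb z) ≤ 1 := by
    intro z hz
    obtain ⟨n, d, hnd⟩ := w.exists_primeCompl_mul_eq_of_integer z hz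
    have hd : A.valuation (algebraMap _ Qb (d : NumberField.RingOfIntegers F)) = 1 := by
      refine le_antisymm (hint _) (not_lt.mp fun h => ?_)
      exact d.2 ((hPmem _).mpr h)
    have h1 := congrArg (fun t => A.valuation (algebraMap F Qb t)) hnd
    simp only [map_mul] at h1
    rw [← IsScalarTower.algebraMap_apply, ← IsScalarTower.algebraMap_apply, hd, mul_one] at h1
    rw [h1]
    exact hint n
  have hy2 : A.valuation (algebraMap F Qb y) = 1 := by
    refine le_antisymm (key y hy1.le) ?_
    have h1 := key y⁻¹ (by rw [map_inv₀, hy1, inv_one])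
    rw [map_inv₀, map_inv₀] at h1
    have hne : A.valuation (algebraMap F Qb y) ≠ 0 := by
      rw [Valuation.ne_zero_iff]
      intro h
      have := (FaithfulSMul.algebraMap_injective F Qb) (h.trans (map_zero _).symm)
      rw [this, map_zero] at hy1
      exact zero_ne_one hy1
    exact (inv_le_one₀ (zero_lt_iff.mpr hne)).mp h1
  have hy3 : algebraMap F Qb y = x * (((q : ℕ) : Qb) ^ (-m))⁻¹ := by
    simp only [y, map_mul, map_inv₀, map_zpow₀, map_natCast]
    rfl
  rw [hy3, map_mul, map_inv₀] at hy2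
  have hne : A.valuation (((q : ℕ) : Qb) ^ (-m)) ≠ 0 := by
    rw [Valuation.ne_zero_iff]
    exact zpow_ne_zero _ (by exact_mod_cast hq.ne_zero)
  exact (mul_inv_eq_one₀ hne).mp hy2

/-- **Levels have value group `q ^ ℤ` away from `S`.** -/
theorem exists_zpow_valuation_eq_of_level {S : Finset Nat.Primes} {L : IntermediateField ℚ Qb}
    (hL : L.IsUnramifiedOutside S) {x : Qb} (hx : x ∈ L) (hx0 : x ≠ 0) (q : Nat.Primes)
    (hq : q ∉ S) (A : ValuationSubring Qb) (hA : A.LiesOverPrime q) :
    ∃ n : ℤ, A.valuation x = A.valuation (((q : ℕ) : Qb) ^ n) := by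
  have hN := isUnramifiedOutside_normalClosure hL
  haveI := hN.1
  haveI : Normal ℚ (IntermediateField.normalClosure ℚ L Qb) := normalClosure.normal ℚ L Qb
  exact exists_zpow_valuation_eq _ q.2 A hA (hN.2 q hq A hA)
    (IntermediateField.le_normalClosure L hx) hx0

/-- **Kummer, "only if".** If `α ^ p = a` and `α` lies in a level (a finite extension of `ℚ`
unramified outside `S`), then `p` divides the valuation of `a` at every place outside `S`. -/
theorem exists_valuation_eq_zpow_mul_of_level {S : Finset Nat.Primes}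
    {L : IntermediateField ℚ Qb} (hL : L.IsUnramifiedOutside S) {p : ℕ} {a α : Qb} (hαL : α ∈ L)
    (hα : α ^ p = a) (ha0 : a ≠ 0) (q : Nat.Primes) (hq : q ∉ S) (A : ValuationSubring Qb)
    (hA : A.LiesOverPrime q) :
    ∃ n : ℤ, A.valuation a = A.valuation (((q : ℕ) : Qb) ^ ((p : ℤ) * n)) := by
  rcases Nat.eq_zero_or_pos p with h | h
  · subst h
    exact ⟨0, by rw [← hα]; simp⟩
  have hα0 : α ≠ 0 := by
    rintro rfl
    rw [zero_pow h.ne'] at hα
    exact ha0 hα.symm
  obtain ⟨n, hn⟩ := exists_zpow_valuation_eq_of_level hL hαL hα0 q hq A hA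
  refine ⟨n, ?_⟩
  rw [← hα, map_pow, hn, ← map_pow, mul_comm, zpow_mul, zpow_natCast]

/-- **Kummer, "if".** Let `K` be a level for `S ∋ p`, `a ∈ K` nonzero and `α ^ p = a`. If at
every place outside `S` the valuation of `a` is that of a `p`-th power of an element of `K`, then
`K(α)` is again a level. -/
theorem isUnramifiedOutside_sup_adjoin_root (p : ℕ) [Fact p.Prime] (S : Finset Nat.Primes)
    (hpS : ExtCitation.pPrime p ∈ S) {K : IntermediateField ℚ Qb} (hK : K.IsUnramifiedOutside S)
    {a α : Qb} (ha : a ∈ K) (ha0 : a ≠ 0) (hα : α ^ p = a)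
    (h : ∀ q : Nat.Primes, q ∉ S → ∀ A : ValuationSubring Qb, A.LiesOverPrime q →
      ∃ b ∈ K, A.valuation a = A.valuation (b ^ p)) :
    (K ⊔ IntermediateField.adjoin ℚ {α}).IsUnramifiedOutside S := by
  have hp : p.Prime := Fact.out
  haveI := hK.1
  have hαint : IsIntegral ℚ α := Algebra.IsIntegral.isIntegral α
  haveI : FiniteDimensional ℚ (IntermediateField.adjoin ℚ {α}) :=
    IntermediateField.adjoin.finiteDimensional hαint
  refine ⟨IntermediateField.finiteDimensional_sup K _, fun q hq A hA σ hσ => ?_⟩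
  rw [IntermediateField.fixingSubgroup_sup]
  have hσK : σ ∈ K.fixingSubgroup := hK.2 q hq A hA hσ
  refine ⟨hσK, (mem_fixingSubgroup_adjoin_simple_iff α σ).mpr ?_⟩
  have hqp : (q : ℕ) ≠ p := by
    intro hqp
    apply hq
    have : q = ExtCitation.pPrime p := Subtype.ext hqp
    rw [this]
    exact hpS
  obtain ⟨b, hbK, hb⟩ := h q hq A hA
  have hva : A.valuation a ≠ 0 := (Valuation.ne_zero_iff _).mpr ha0
  have hb0 : b ≠ 0 := by
    rintro rfl
    rw [zero_pow hp.ne_zero, map_zero] at hb
    exact hva hb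
  have hfix : ∀ x ∈ K, σ x = x := fun x hx =>
    (IntermediateField.mem_fixingSubgroup_iff K σ).mp hσK x hx
  -- `β = α / b` is a unit of `A`
  have hβp : (α / b) ^ p = a / b ^ p := by rw [div_pow, hα]
  have hvβ : A.valuation (α / b) = 1 := by
    have h1 : A.valuation (α / b) ^ p = 1 := by
      rw [← map_pow, hβp, map_div₀, hb]
      exact div_self (by rw [← hb]; exact hva)
    rcases lt_trichotomy (A.valuation (α / b)) 1 with h2 | h2 | h2
    · exact absurd h1 (ne_of_lt (pow_lt_one₀ zero_le h2 hp.ne_zero))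
    · exact h2
    · exact absurd h1 (ne_of_gt (one_lt_pow₀ h2 hp.ne_zero))
  have hβA : α / b ∈ A := (A.valuation_le_one_iff _).mp hvβ.le
  have hβ0 : α / b ≠ 0 := by
    intro h0
    rw [h0, map_zero] at hvβ
    exact zero_ne_one hvβ
  have hσβp : (σ (α / b)) ^ p = (α / b) ^ p := by
    rw [← map_pow, hβp, map_div₀, map_pow, hfix a ha, hfix b hbK]
  have hsub := ((mem_inertiaSubgroupIn_iff A σ).mp hσ).2 _ hβA
  have hone : σ (α / b) / (α / b) = 1 := by
    refine eq_of_sub_mem_nonunits_of_pow_eq_one A q.2 hp hqp hA ?_ (one_pow p) ?_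
    · rw [div_pow, hσβp, div_self (pow_ne_zero p hβ0)]
    · have e : ∀ u v : Qb, v ≠ 0 → u / v - 1 = (u - v) * v⁻¹ := fun u v hv => by
        field_simp
      rw [e _ _ hβ0, A.mem_nonunits_iff, map_mul, map_inv₀, hvβ, inv_one, mul_one]
      exact A.mem_nonunits_iff.mp hsub
  have hσβ : σ (α / b) = α / b := by
    rw [div_eq_one_iff_eq hβ0] at hone
    exact hone
  have hα' : α = α / b * b := (div_mul_cancel₀ α hb0).symm
  calc σ α = σ (α / b * b) := by rw [← hα']
    _ = α / b * b := by rw [map_mul, hσβ, hfix b hbK]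
    _ = α := hα'.symm

/-- The same with the valuation of `a` a `p`-th power of the valuation of `q`. -/
theorem isUnramifiedOutside_sup_adjoin_root' (p : ℕ) [Fact p.Prime] (S : Finset Nat.Primes)
    (hpS : ExtCitation.pPrime p ∈ S) {K : IntermediateField ℚ Qb} (hK : K.IsUnramifiedOutside S)
    {a α : Qb} (ha : a ∈ K) (ha0 : a ≠ 0) (hα : α ^ p = a)
    (h : ∀ q : Nat.Primes, q ∉ S → ∀ A : ValuationSubring Qb, A.LiesOverPrime q →
      ∃ n : ℤ, A.valuation a = A.valuation (((q : ℕ) : Qb) ^ ((p : ℤ) * n))) :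
    (K ⊔ IntermediateField.adjoin ℚ {α}).IsUnramifiedOutside S := by
  refine isUnramifiedOutside_sup_adjoin_root p S hpS hK ha ha0 hα fun q hq A hA => ?_
  obtain ⟨n, hn⟩ := h q hq A hA
  refine ⟨((q : ℕ) : Qb) ^ n, zpow_mem (natCast_mem K _) n, ?_⟩
  rw [hn, mul_comm, zpow_mul, zpow_natCast]

/-- **Kummer criterion.** For a level `K` for `S ∋ p`, `a ∈ K` nonzero and `α ^ p = a`: the field
`K(α)` is a level for `S` iff `p` divides the valuation of `a` at every place outside `S`. -/
theorem isUnramifiedOutside_sup_adjoin_root_iff (p : ℕ) [Fact p.Prime] (S : Finset Nat.Primes)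
    (hpS : ExtCitation.pPrime p ∈ S) {K : IntermediateField ℚ Qb} (hK : K.IsUnramifiedOutside S)
    {a α : Qb} (ha : a ∈ K) (ha0 : a ≠ 0) (hα : α ^ p = a) :
    (K ⊔ IntermediateField.adjoin ℚ {α}).IsUnramifiedOutside S ↔
      ∀ q : Nat.Primes, q ∉ S → ∀ A : ValuationSubring Qb, A.LiesOverPrime q →
        ∃ n : ℤ, A.valuation a = A.valuation (((q : ℕ) : Qb) ^ ((p : ℤ) * n)) := by
  refine ⟨fun hL q hq A hA => ?_, isUnramifiedOutside_sup_adjoin_root' p S hpS hK ha ha0 hα⟩
  refine exists_valuation_eq_zpow_mul_of_level hL (α := α) ?_ hα ha0 q hq A hA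
  exact (le_sup_right : IntermediateField.adjoin ℚ {α} ≤ K ⊔ IntermediateField.adjoin ℚ {α})
    (IntermediateField.mem_adjoin_simple_self ℚ α)

end Fermat.Agent.PT.Kummer
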