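import Mathlib

/-!
# Dirichlet's `S`-unit theorem (G1a of the PT blueprint)

For a number field `K` and a finite set `S` of primes of `𝓞 K`:

* `Fermat.Agent.PT.SUnit.valS` : the valuation map `S.unit K →* (S → Multiplicative ℤ)`,
  its kernel is the image of `(𝓞 K)ˣ`, its range has finite index;
* the index of the `n`-th powers in `S.unit K`.
-/

set_option autoImplicit false

namespace Fermat.Agent.PT.SUnit

open Function

section Generic

variable {A B : Type*} [CommGroup A] [CommGroup B]

/-- The index of the `n`-th powers is invariant under isomorphism. -/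
theorem index_pow_range_congr (e : A ≃* B) (n : ℕ) :
    (powMonoidHom n : A →* A).range.index = (powMonoidHom n : B →* B).range.index := by
  have h : (powMonoidHom n : B →* B).range = (powMonoidHom n : A →* A).range.map e.toMonoidHom := by
    ext b
    simp only [MonoidHom.mem_range, powMonoidHom_apply, Subgroup.mem_map, MulEquiv.coe_toMonoidHom,
      exists_exists_eq_and]
    constructor
    · rintro ⟨x, rfl⟩
      exact ⟨e.symm x, by simp⟩
    · rintro ⟨a, rfl⟩
      exact ⟨e a, by simp⟩
  rw [h]
  exact (Subgroup.index_map_equiv _ e).symm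

/-- Multiplicativity of the index of `n`-th powers in a short exact sequence whose quotient has
no `n`-torsion. -/
theorem index_pow_range_of_surjective (f : A →* B) (hf : Surjective f) (n : ℕ)
    (hB : ∀ b : B, b ^ n = 1 → b = 1) :
    (powMonoidHom n : A →* A).range.index
      = (powMonoidHom n : f.ker →* f.ker).range.index * (powMonoidHom n : B →* B).range.index := by
  set P : Subgroup A := (powMonoidHom n : A →* A).range with hP
  set E : Subgroup A := f.ker with hE
  have h1 : P.relIndex (E ⊔ P) * (E ⊔ P).index = P.index :=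
    Subgroup.relIndex_mul_index le_sup_right
  have h2 : P.relIndex (E ⊔ P) = P.relIndex E := Subgroup.relIndex_sup_right E P
  have h3 : P.relIndex E = (powMonoidHom n : E →* E).range.index := by
    rw [Subgroup.relIndex]
    congr 1
    ext x
    simp only [Subgroup.mem_subgroupOf, MonoidHom.mem_range, powMonoidHom_apply, hP]
    constructor
    · rintro ⟨a, ha⟩
      have hfa : f a = 1 := by
        apply hB
        rw [← map_pow, ha]
        exact x.2
      exact ⟨⟨a, hfa⟩, Subtype.ext ha⟩
    · rintro ⟨a, rfl⟩
      exact ⟨a, rfl⟩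
  have h4 : E ⊔ P = (powMonoidHom n : B →* B).range.comap f := by
    ext x
    simp only [Subgroup.mem_sup, Subgroup.mem_comap, MonoidHom.mem_range, powMonoidHom_apply, hP,
      exists_exists_eq_and]
    constructor
    · rintro ⟨y, hy, a, rfl⟩
      refine ⟨f a, ?_⟩
      rw [map_mul, (MonoidHom.mem_ker).1 hy, one_mul, map_pow]
    · rintro ⟨b, hb⟩
      obtain ⟨a, rfl⟩ := hf b
      refine ⟨x * (a ^ n)⁻¹, ?_, a, by group⟩
      rw [hE, MonoidHom.mem_ker, map_mul, map_inv, map_pow, hb, mul_inv_cancel]
  rw [← h1, h2, h3, h4, Subgroup.index_comap_of_surjective _ hf]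

/-- For a finite commutative group the index of the `n`-th powers is the number of elements
killed by `n`. -/
theorem index_pow_range_of_finite [Finite A] (n : ℕ) :
    (powMonoidHom n : A →* A).range.index = Nat.card (powMonoidHom n : A →* A).ker :=
  Subgroup.index_range

/-- The index of the `n`-th powers in `ι → Multiplicative ℤ`. -/
theorem index_pow_range_pi (ι : Type*) [Fintype ι] (n : ℕ) :
    (powMonoidHom n : (ι → Multiplicative ℤ) →* (ι → Multiplicative ℤ)).range.index
      = n ^ Fintype.card ι := by
  have h : (powMonoidHom n : (ι → Multiplicative ℤ) →* (ι → Multiplicative ℤ)).range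
      = Subgroup.pi Set.univ (fun _ : ι => (powMonoidHom n : Multiplicative ℤ →* _).range) := by
    ext x
    simp only [MonoidHom.mem_range, powMonoidHom_apply, Subgroup.mem_pi, Set.mem_univ,
      forall_const]
    constructor
    · rintro ⟨y, rfl⟩ i
      exact ⟨y i, rfl⟩
    · intro h
      choose y hy using h
      exact ⟨y, funext hy⟩
  have h1 : (powMonoidHom n : Multiplicative ℤ →* Multiplicative ℤ).range.index = n := by
    have : (powMonoidHom n : Multiplicative ℤ →* Multiplicative ℤ).range
        = AddSubgroup.toSubgroup (AddSubgroup.zmultiples (n : ℤ)) := by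
      ext x
      change (∃ y : Multiplicative ℤ, y ^ n = x) ↔
        Multiplicative.toAdd x ∈ AddSubgroup.zmultiples (n : ℤ)
      rw [AddSubgroup.mem_zmultiples_iff]
      constructor
      · rintro ⟨y, rfl⟩
        exact ⟨Multiplicative.toAdd y, by simp [mul_comm]⟩
      · rintro ⟨k, hk⟩
        refine ⟨Multiplicative.ofAdd k, ?_⟩
        apply Multiplicative.toAdd.injective
        rw [← hk]
        simp [mul_comm]
    rw [this, AddSubgroup.index_toSubgroup, Int.index_zmultiples, Int.natAbs_natCast]
  rw [h, Subgroup.index_pi]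
  simp [h1]

end Generic


section Split
variable {A : Type*} [CommGroup A] {ι : Type*} [Fintype ι] [DecidableEq ι]

/-- A section of a surjection onto `ι → Multiplicative ℤ`. -/
noncomputable def piSection (x : ι → A) : (ι → Multiplicative ℤ) →* A where
  toFun y := ∏ i, x i ^ (Multiplicative.toAdd (y i))
  map_one' := by simp
  map_mul' y z := by
    simp only [Pi.mul_apply, toAdd_mul, zpow_add, Finset.prod_mul_distrib]

theorem map_piSection (f : A →* (ι → Multiplicative ℤ)) (x : ι → A)
    (hx : ∀ i, f (x i) = Pi.mulSingle i (Multiplicative.ofAdd 1)) (y : ι → Multiplicative ℤ) :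
    f (piSection x y) = y := by
  change f (∏ i, x i ^ (Multiplicative.toAdd (y i))) = y
  rw [map_prod]
  conv_rhs => rw [← Finset.univ_prod_mulSingle y]
  refine Finset.prod_congr rfl fun i _ => ?_
  rw [map_zpow, hx, ← Pi.mulSingle_zpow]
  congr 1
  apply Multiplicative.toAdd.injective
  simp

/-- A surjection onto a free abelian group of finite rank splits. -/
theorem nonempty_mulEquiv_ker_prod (f : A →* (ι → Multiplicative ℤ)) (hf : Surjective f) :
    Nonempty (A ≃* f.ker × (ι → Multiplicative ℤ)) := by
  choose x hx using fun i : ι => hf (Pi.mulSingle i (Multiplicative.ofAdd 1))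
  have hσ := map_piSection f x hx
  refine ⟨{ toFun := fun a => (⟨a * (piSection x (f a))⁻¹, ?_⟩, f a)
            invFun := fun q => (q.1 : A) * piSection x q.2
            left_inv := ?_
            right_inv := ?_
            map_mul' := ?_ }⟩
  · rw [MonoidHom.mem_ker, map_mul, map_inv, hσ, mul_inv_cancel]
  · intro a
    simp
  · rintro ⟨⟨k, hk⟩, y⟩
    have hk' : f k = 1 := hk
    ext1
    · apply Subtype.ext
      simp [hσ, hk']
    · simp [hσ, hk']
  · intro a b
    ext1
    · apply Subtype.ext
      simp only [map_mul, mul_inv_rev, Prod.mk_mul_mk, MulMemClass.mk_mul_mk]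
      rw [mul_comm (piSection x (f b))⁻¹, mul_mul_mul_comm]
    · simp

end Split
section Dedekind

open IsDedekindDomain

open scoped nonZeroDivisors

variable {R : Type*} [CommRing R] [IsDedekindDomain R] (S : Set (HeightOneSpectrum R))
  (K : Type*) [Field K] [Algebra R K] [IsFractionRing R K]

/-- The vector of `v`-adic valuations, `v ∈ S`, of an `S`-unit. -/
noncomputable def valS : S.unit K →* (S → Multiplicative ℤ) where
  toFun x v := v.1.valuationOfNeZero (x : Kˣ)
  map_one' := by ext v; simp
  map_mul' x y := by ext v; simp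

theorem valS_apply (x : S.unit K) (v : S) :
    valS S K x v = v.1.valuationOfNeZero (x : Kˣ) := rfl

theorem valuationOfNeZero_eq_one_iff (v : HeightOneSpectrum R) (x : Kˣ) :
    v.valuationOfNeZero x = 1 ↔ v.valuation K (x : K) = 1 := by
  rw [← HeightOneSpectrum.valuationOfNeZero_eq, ← WithZero.coe_one, WithZero.coe_inj]

theorem mem_ker_valS_iff (x : S.unit K) :
    x ∈ (valS S K).ker ↔ ∀ v : HeightOneSpectrum R, v.valuation K ((x : Kˣ) : K) = 1 := by
  rw [MonoidHom.mem_ker]
  constructor
  · intro h v
    by_cases hv : v ∈ S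
    · have := congrFun h ⟨v, hv⟩
      rw [valS_apply] at this
      exact (valuationOfNeZero_eq_one_iff K v _).1 this
    · exact x.2 v hv
  · intro h
    ext v
    rw [valS_apply]
    exact congrArg _ ((valuationOfNeZero_eq_one_iff K v.1 _).2 (h v.1))

/-- An element of `Kˣ` all of whose valuations are trivial is a unit of `R`. -/
theorem exists_unit_of_valuation_eq_one (x : Kˣ)
    (h : ∀ v : HeightOneSpectrum R, v.valuation K (x : K) = 1) :
    ∃ u : Rˣ, Units.map (algebraMap R K : R →* K) u = x := by
  obtain ⟨y, hy⟩ := HeightOneSpectrum.mem_integers_of_valuation_le_one K (x : K)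
    (fun v => (h v).le)
  obtain ⟨z, hz⟩ := HeightOneSpectrum.mem_integers_of_valuation_le_one K ((x⁻¹ : Kˣ) : K)
    (fun v => by rw [Units.val_inv_eq_inv_val, map_inv₀, h v, inv_one])
  have hinj := FaithfulSMul.algebraMap_injective R K
  have hyz : y * z = 1 := by
    apply hinj
    rw [map_mul, hy, hz, map_one, Units.mul_inv]
  have hzy : z * y = 1 := by rw [mul_comm, hyz]
  exact ⟨⟨y, z, hyz, hzy⟩, Units.ext hy⟩

theorem unit_map_mem_unit (u : Rˣ) :
    Units.map (algebraMap R K : R →* K) u ∈ S.unit K := fun v _ => by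
  rw [← valuationOfNeZero_eq_one_iff]
  exact HeightOneSpectrum.valuation_of_unit_eq v u

/-- The units of `R` as the kernel of the `S`-valuation map on the `S`-units. -/
noncomputable def unitsToKer : Rˣ →* (valS S K).ker where
  toFun u := ⟨⟨Units.map (algebraMap R K : R →* K) u, unit_map_mem_unit S K u⟩, by
    rw [mem_ker_valS_iff]
    intro v
    have := HeightOneSpectrum.valuation_of_unit_eq (K := K) v u
    exact (valuationOfNeZero_eq_one_iff K v _).1 this⟩
  map_one' := by
    apply Subtype.ext; apply Subtype.ext
    simp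
  map_mul' a b := by
    apply Subtype.ext; apply Subtype.ext
    simp

theorem unitsToKer_bijective : Bijective (unitsToKer S K) := by
  constructor
  · intro a b hab
    have h1 : Units.map (algebraMap R K : R →* K) a = Units.map (algebraMap R K : R →* K) b :=
      congrArg (fun t : (valS S K).ker => ((t : S.unit K) : Kˣ)) hab
    exact Units.map_injective (f := (algebraMap R K : R →* K))
      (FaithfulSMul.algebraMap_injective R K) h1
  · rintro ⟨x, hx⟩
    obtain ⟨u, hu⟩ := exists_unit_of_valuation_eq_one K (x : Kˣ) ((mem_ker_valS_iff S K x).1 hx)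
    exact ⟨u, Subtype.ext (Subtype.ext hu)⟩

/-- `Rˣ ≃* ker (valS)`. -/
noncomputable def unitsEquivKer : Rˣ ≃* (valS S K).ker :=
  MulEquiv.ofBijective (unitsToKer S K) (unitsToKer_bijective S K)


section FiniteIndex

variable {S}

theorem exists_isPrincipal_pow [Finite (ClassGroup R)] (v : HeightOneSpectrum R) :
    ∃ a : R, a ≠ 0 ∧ v.asIdeal ^ Nat.card (ClassGroup R) = Ideal.span {a} := by
  have hv : v.asIdeal ∈ (Ideal R)⁰ := mem_nonZeroDivisors_of_ne_zero v.ne_bot
  have h1 : (ClassGroup.mk0 ⟨v.asIdeal, hv⟩) ^ Nat.card (ClassGroup R) = 1 := pow_card_eq_one'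
  rw [← map_pow] at h1
  have h2 : (v.asIdeal ^ Nat.card (ClassGroup R)).IsPrincipal :=
    (ClassGroup.mk0_eq_one_iff (pow_mem hv _)).1 h1
  obtain ⟨a, ha⟩ := h2
  refine ⟨a, ?_, ha⟩
  rintro rfl
  have h0 : v.asIdeal ^ Nat.card (ClassGroup R) = ⊥ := by
    rw [ha]; simp
  exact pow_ne_zero _ v.ne_bot h0

theorem intValuation_self_of_span_eq_pow (v : HeightOneSpectrum R) {a : R} (ha : a ≠ 0) {h : ℕ}
    (hspan : v.asIdeal ^ h = Ideal.span {a}) :
    v.intValuation a = WithZero.exp (-(h : ℤ)) := by
  rw [v.intValuation_if_neg ha, ← hspan, Associates.mk_pow,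
    Associates.count_pow (Associates.mk_ne_zero.mpr v.ne_bot) v.associates_irreducible,
    Associates.count_self v.associates_irreducible, mul_one]

theorem intValuation_of_ne_of_span_eq_pow (v w : HeightOneSpectrum R) (hwv : w ≠ v) {a : R}
    {h : ℕ} (hspan : v.asIdeal ^ h = Ideal.span {a}) :
    w.intValuation a = 1 := by
  rw [HeightOneSpectrum.intValuation_eq_one_iff]
  intro haw
  apply hwv
  have h1 : v.asIdeal ^ h ≤ w.asIdeal := by
    rw [hspan, Ideal.span_singleton_le_iff_mem]; exact haw
  have h2 : v.asIdeal ≤ w.asIdeal := Ideal.IsPrime.le_of_pow_le h1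
  exact (HeightOneSpectrum.ext (v.isMaximal.eq_of_le w.isPrime.ne_top h2)).symm

variable (S) in
/-- For every `v ∈ S` some `S`-unit has valuation vector supported at `v` with value `-h`,
`h` the class number. -/
theorem exists_valS_eq_mulSingle [Finite (ClassGroup R)] [DecidableEq S] (v : S) :
    ∃ x : S.unit K, valS S K x
      = Pi.mulSingle v (Multiplicative.ofAdd (-(Nat.card (ClassGroup R) : ℤ))) := by
  obtain ⟨a, ha, hspan⟩ := exists_isPrincipal_pow v.1
  have ha' : algebraMap R K a ≠ 0 := by
    rwa [Ne, map_eq_zero_iff _ (FaithfulSMul.algebraMap_injective R K)]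
  have hval1 : v.1.valuation K (algebraMap R K a)
      = WithZero.exp (-(Nat.card (ClassGroup R) : ℤ)) := by
    rw [HeightOneSpectrum.valuation_of_algebraMap, intValuation_self_of_span_eq_pow v.1 ha hspan]
  have hval2 : ∀ w : HeightOneSpectrum R, w ≠ v.1 → w.valuation K (algebraMap R K a) = 1 :=
    fun w hw => by
      rw [HeightOneSpectrum.valuation_of_algebraMap,
        intValuation_of_ne_of_span_eq_pow v.1 w hw hspan]
  refine ⟨⟨Units.mk0 _ ha', fun w hw => ?_⟩, ?_⟩
  · rw [Units.val_mk0, hval2]
    rintro rfl
    exact hw v.2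
  · ext w
    have h1 : ((w.1.valuationOfNeZero (Units.mk0 _ ha') : Multiplicative ℤ) :
        WithZero (Multiplicative ℤ)) = w.1.valuation K (algebraMap R K a) := by
      rw [HeightOneSpectrum.valuationOfNeZero_eq, Units.val_mk0]
    change w.1.valuationOfNeZero (Units.mk0 _ ha') = _
    apply WithZero.coe_injective (α := Multiplicative ℤ)
    rw [h1]
    by_cases hwv : w = v
    · subst hwv
      rw [hval1, Pi.mulSingle_eq_same]
      rfl
    · have : (w : HeightOneSpectrum R) ≠ v := fun h => hwv (Subtype.ext h)
      rw [hval2 _ this, Pi.mulSingle_eq_of_ne hwv]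
      rfl

variable (S) in
theorem pow_card_classGroup_mem_range_valS [Finite (ClassGroup R)] [Finite S]
    (y : S → Multiplicative ℤ) : y ^ Nat.card (ClassGroup R) ∈ (valS S K).range := by
  classical
  have := Fintype.ofFinite S
  have key : ∀ v : S, Pi.mulSingle v ((y ^ Nat.card (ClassGroup R)) v) ∈ (valS S K).range := by
    intro v
    obtain ⟨x, hx⟩ := exists_valS_eq_mulSingle S K v
    refine ⟨x ^ (-(Multiplicative.toAdd (y v))), ?_⟩
    rw [map_zpow, hx, ← Pi.mulSingle_zpow]
    congr 1
    apply Multiplicative.toAdd.injective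
    simp [mul_comm]
  have : y ^ Nat.card (ClassGroup R) = ∏ v : S, Pi.mulSingle v ((y ^ Nat.card (ClassGroup R)) v) :=
    (Finset.univ_prod_mulSingle _).symm
  rw [this]
  exact Subgroup.prod_mem _ fun v _ => key v

variable (S) in
/-- The valuation vectors of `S`-units form a subgroup of finite index of `ℤ^S`. -/
theorem index_range_valS_ne_zero [Finite (ClassGroup R)] [Finite S] :
    (valS S K).range.index ≠ 0 := by
  classical
  have := Fintype.ofFinite S
  have hle : (powMonoidHom (Nat.card (ClassGroup R)) :
      (S → Multiplicative ℤ) →* (S → Multiplicative ℤ)).range ≤ (valS S K).range := by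
    rintro _ ⟨y, rfl⟩
    exact pow_card_classGroup_mem_range_valS S K y
  have hdvd := Subgroup.index_dvd_of_le hle
  rw [index_pow_range_pi] at hdvd
  intro h0
  rw [h0, zero_dvd_iff] at hdvd
  exact (pow_ne_zero _ Nat.card_pos.ne') hdvd

variable (S) in
/-- The index of the `n`-th powers in the group of `S`-units. -/
theorem index_pow_range_unit [Finite (ClassGroup R)] [Finite S] (n : ℕ) (hn : n ≠ 0) :
    (powMonoidHom n : S.unit K →* S.unit K).range.index
      = (powMonoidHom n : Rˣ →* Rˣ).range.index * n ^ Nat.card S := by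
  classical
  have := Fintype.ofFinite S
  have htf : ∀ b : (valS S K).range, b ^ n = 1 → b = 1 := by
    intro b hb
    apply Subtype.ext
    have hb' : (b : S → Multiplicative ℤ) ^ n = 1 := congrArg Subtype.val hb
    ext v
    have hv := congrFun hb' v
    have hv' := congrArg Multiplicative.toAdd hv
    simp only [Pi.pow_apply, toAdd_pow, Pi.one_apply, toAdd_one, nsmul_eq_mul, mul_eq_zero,
      Nat.cast_eq_zero] at hv'
    simpa using hv'.resolve_left hn
  rw [index_pow_range_of_surjective (valS S K).rangeRestrict
    (valS S K).rangeRestrict_surjective n htf]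
  obtain ⟨e⟩ := Int.subgroup_index_ne_zero_iff.1 (index_range_valS_ne_zero S K)
  rw [index_pow_range_congr e n, index_pow_range_pi, Nat.card_eq_fintype_card]
  congr 1
  have hker : (valS S K).rangeRestrict.ker = (valS S K).ker := MonoidHom.ker_rangeRestrict _
  rw [index_pow_range_congr (MulEquiv.subgroupCongr hker) n,
    ← index_pow_range_congr (unitsEquivKer S K) n]

variable (S) in
/-- **`S`-unit theorem, structural form**: the group of `S`-units is (non-canonically) the product
of the unit group and `ℤ^S`, for a Dedekind domain with finite class group and finite `S`. -/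
theorem nonempty_unit_mulEquiv_prod [Finite (ClassGroup R)] [Finite S] :
    Nonempty (S.unit K ≃* Rˣ × (S → Multiplicative ℤ)) := by
  classical
  have := Fintype.ofFinite S
  obtain ⟨e⟩ := Int.subgroup_index_ne_zero_iff.1 (index_range_valS_ne_zero S K)
  let f : S.unit K →* (S → Multiplicative ℤ) := e.toMonoidHom.comp (valS S K).rangeRestrict
  have hf : Surjective f := e.surjective.comp (valS S K).rangeRestrict_surjective
  have hker : f.ker = (valS S K).ker := by
    ext x
    simp only [f, MonoidHom.mem_ker, MonoidHom.coe_comp, MulEquiv.coe_toMonoidHom, comp_apply,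
      EmbeddingLike.map_eq_one_iff]
    rw [← MonoidHom.mem_ker, MonoidHom.ker_rangeRestrict, MonoidHom.mem_ker]
  obtain ⟨ψ⟩ := nonempty_mulEquiv_ker_prod f hf
  exact ⟨ψ.trans (MulEquiv.prodCongr
    ((MulEquiv.subgroupCongr hker).trans (unitsEquivKer S K).symm) (MulEquiv.refl _))⟩

variable (S) in
/-- The additive form of `nonempty_unit_mulEquiv_prod`. -/
theorem nonempty_additive_unit_linearEquiv [Finite (ClassGroup R)] [Finite S] :
    Nonempty (Additive (S.unit K) ≃ₗ[ℤ] Additive Rˣ × (S → ℤ)) := by
  obtain ⟨ψ⟩ := nonempty_unit_mulEquiv_prod S K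
  exact ⟨(((MulEquiv.toAdditive ψ).trans (AddEquiv.prodAdditive _ _)).trans
    (AddEquiv.prodCongr (AddEquiv.refl _) ((AddEquiv.funAdditive S (Multiplicative ℤ)).trans
      (AddEquiv.piCongrRight fun _ => AddEquiv.additiveMultiplicative ℤ)))).toIntLinearEquiv⟩

end FiniteIndex

end Dedekind


section Rank

/-- `finrank` is additive on products of finitely generated `ℤ`-modules (no freeness needed). -/
theorem finrank_prod_int (M N : Type*) [AddCommGroup M] [AddCommGroup N] [Module.Finite ℤ M]
    [Module.Finite ℤ N] :
    Module.finrank ℤ (M × N) = Module.finrank ℤ M + Module.finrank ℤ N := by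
  have h := (LinearMap.ker (LinearMap.snd ℤ M N)).finrank_quotient_add_finrank
  have h1 : Module.finrank ℤ ((M × N) ⧸ LinearMap.ker (LinearMap.snd ℤ M N))
      = Module.finrank ℤ N :=
    ((LinearMap.snd ℤ M N).quotKerEquivOfSurjective LinearMap.snd_surjective).finrank_eq
  have h2 : Module.finrank ℤ (LinearMap.ker (LinearMap.snd ℤ M N)) = Module.finrank ℤ M := by
    rw [LinearMap.ker_snd]
    exact (LinearEquiv.ofInjective (LinearMap.inl ℤ M N) LinearMap.inl_injective).finrank_eq.symm
  omega

end Rank

section NumberField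

open NumberField NumberField.Units IsDedekindDomain

variable (K : Type*) [Field K] [NumberField K] (S : Set (HeightOneSpectrum (𝓞 K)))

/-- **Dirichlet's `S`-unit theorem**: the `S`-units are finitely generated. -/
theorem finite_additive_unit [Finite S] : Module.Finite ℤ (Additive (S.unit K)) := by
  obtain ⟨e⟩ := nonempty_additive_unit_linearEquiv S K
  exact Module.Finite.equiv e.symm

/-- **Dirichlet's `S`-unit theorem**: the rank of the `S`-units is `r₁ + r₂ - 1 + |S|`. -/
theorem finrank_additive_unit [Finite S] :
    Module.finrank ℤ (Additive (S.unit K)) = NumberField.Units.rank K + Nat.card S := by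
  classical
  have := Fintype.ofFinite S
  obtain ⟨e⟩ := nonempty_additive_unit_linearEquiv S K
  rw [e.finrank_eq, finrank_prod_int, NumberField.Units.finrank_eq, Module.finrank_pi,
    Nat.card_eq_fintype_card]

set_option maxSynthPendingDepth 3 in
/-- The index of the `n`-th powers in the unit group of a number field. -/
theorem index_pow_range_units (n : ℕ) (hn : n ≠ 0) :
    (powMonoidHom n : (𝓞 K)ˣ →* (𝓞 K)ˣ).range.index
      = (torsionOrder K).gcd n * n ^ NumberField.Units.rank K := by
  have key := index_pow_range_of_surjective (QuotientGroup.mk' (torsion K))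
    (QuotientGroup.mk'_surjective _) n (by
      intro b hb
      have h1 : (n : ℤ) • (Additive.ofMul b : Additive ((𝓞 K)ˣ ⧸ torsion K)) = 0 := by
        rw [natCast_zsmul, ← ofMul_pow, hb, ofMul_one]
      have h2 := (smul_eq_zero (r := (n : ℤ))
        (m := (Additive.ofMul b : Additive ((𝓞 K)ˣ ⧸ torsion K)))).1 h1
      exact h2.resolve_left (by exact_mod_cast hn))
  rw [key]
  have hker : (QuotientGroup.mk' (torsion K)).ker = torsion K := QuotientGroup.ker_mk' _
  rw [index_pow_range_congr (MulEquiv.subgroupCongr hker) n, IsCyclic.index_powMonoidHom_range]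
  have e : ((𝓞 K)ˣ ⧸ torsion K) ≃* (Fin (NumberField.Units.rank K) → Multiplicative ℤ) :=
    (AddEquiv.toMultiplicativeRight
      ((basisModTorsion K).equivFun.toAddEquiv)).trans (MulEquiv.funMultiplicative _ _)
  rw [index_pow_range_congr e n, index_pow_range_pi, Fintype.card_fin]
  rfl

/-- **`S`-unit theorem, index form**: the index of the `n`-th powers in the `S`-units. -/
theorem index_pow_range_unit_numberField [Finite S] (n : ℕ) (hn : n ≠ 0) :
    (powMonoidHom n : S.unit K →* S.unit K).range.index
      = (torsionOrder K).gcd n * n ^ (NumberField.Units.rank K + Nat.card S) := by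
  rw [index_pow_range_unit S K n hn, index_pow_range_units K n hn, pow_add, mul_assoc]

/-- If `K` contains a primitive `p`-th root of unity (`p` prime), then
`[O_S^× : (O_S^×)^p] = p ^ (r₁ + r₂ + |S|)`. -/
theorem index_pow_range_unit_of_isPrimitiveRoot [Finite S] (p : ℕ) [Fact p.Prime] {ζ : K}
    (hζ : IsPrimitiveRoot ζ p) :
    (powMonoidHom p : S.unit K →* S.unit K).range.index
      = p ^ (Fintype.card (InfinitePlace K) + Nat.card S) := by
  have hp : p.Prime := Fact.out
  have : NeZero p := ⟨hp.ne_zero⟩
  rw [index_pow_range_unit_numberField K S p hp.ne_zero,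
    Nat.gcd_eq_right (dvd_torsionOrder_of_isPrimitiveRoot hζ), ← pow_succ']
  congr 1
  have : 0 < Fintype.card (InfinitePlace K) := Fintype.card_pos
  rw [NumberField.Units.rank]
  omega

/-- If `K` contains a primitive `p`-th root of unity, `p` an odd prime, then
`[O_S^× : (O_S^×)^p] = p ^ (r₂ + |S|)`. -/
theorem index_pow_range_unit_of_isPrimitiveRoot_of_odd [Finite S] (p : ℕ) [Fact p.Prime]
    (hp2 : p ≠ 2) {ζ : K} (hζ : IsPrimitiveRoot ζ p) :
    (powMonoidHom p : S.unit K →* S.unit K).range.index
      = p ^ (InfinitePlace.nrComplexPlaces K + Nat.card S) := by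
  have hp : p.Prime := Fact.out
  have h2 : 2 < p := lt_of_le_of_ne hp.two_le (Ne.symm hp2)
  rw [index_pow_range_unit_of_isPrimitiveRoot K S p hζ,
    InfinitePlace.card_eq_nrRealPlaces_add_nrComplexPlaces,
    InfinitePlace.IsPrimitiveRoot.nrRealPlaces_eq_zero_of_two_lt h2 hζ, zero_add]

/-- If `K` contains no primitive `p`-th root of unity (`p` prime), then
`[O_S^× : (O_S^×)^p] = p ^ (r₁ + r₂ - 1 + |S|)`. -/
theorem index_pow_range_unit_of_not_dvd [Finite S] (p : ℕ) [Fact p.Prime]
    (hp : ¬ p ∣ torsionOrder K) :
    (powMonoidHom p : S.unit K →* S.unit K).range.index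
      = p ^ (NumberField.Units.rank K + Nat.card S) := by
  have hp' : p.Prime := Fact.out
  rw [index_pow_range_unit_numberField K S p hp'.ne_zero,
    Nat.Coprime.gcd_eq_one ((Nat.Prime.coprime_iff_not_dvd hp').2 hp).symm, one_mul]

end NumberField

end Fermat.Agent.PT.SUnit
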