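import Mathlib
import Fermat.Agent.PT.LevelTwist
import Fermat.Agent.CFT.Red.CycloExp
import Fermat.Agent.Lib.InertiaLift
import Fermat.Agent.PT.G.KumHens
import Fermat.Agent.Lib.ValuationIntegral

/-!
# Subfields of `ℚ(ζ_ℓ)` inside `ℚ̄` (PT, layer G, piece (E))

`ℓ` a prime, `χ = ExtCitation.cycloChar ℓ : Gal(ℚ̄/ℚ) →* (ZMod ℓ)ˣ` the mod `ℓ` cyclotomic character
of the prelude, `H` a subgroup of `(ZMod ℓ)ˣ`.

* `cycloField ℓ H` : the fixed field of `χ⁻¹(H)`, a subfield of `ℚ(ζ_ℓ)`;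
* `mem_fixingSubgroup_cycloField_iff` : `σ` fixes `cycloField ℓ H` iff `χ σ ∈ H`;
* `cycloField_le_adjoin`, `finiteDimensional_cycloField`, `normal_cycloField`,
  `finrank_cycloField` (`= H.index`);
* `isUnramifiedOutside_cycloField` : it is a level for every `S ∋ ℓ`;
* `exists_frobenius_cycloChar` : for `q ≠ ℓ` every decomposition group at `q` contains an element
  `φ` with `χ φ = q`, and `χ` maps the whole decomposition group into the powers of `χ φ`;
* `exists_inertia_cycloChar_eq` : the inertia groups at `ℓ` surject onto `(ZMod ℓ)ˣ`.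
-/

set_option autoImplicit false

namespace Fermat.Agent.PT.G

open ExtCitation Fermat.Agent.PT.Levels Fermat.Agent.Lib.FrobeniusExists

local notation "Qb" => AlgebraicClosure ℚ
local notation "GQ" => (AlgebraicClosure ℚ ≃ₐ[ℚ] AlgebraicClosure ℚ)

attribute [local instance] isAlgClosure_rat isGalois_rat

section Def

variable (ℓ : ℕ) [Fact ℓ.Prime] (H : Subgroup (ZMod ℓ)ˣ)

/-- The subfield of `ℚ(ζ_ℓ) ⊆ ℚ̄` fixed by the preimage of `H` under the mod `ℓ` cyclotomic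
character. -/
noncomputable def cycloField : IntermediateField ℚ Qb :=
  IntermediateField.fixedField (H.comap (cycloChar ℓ))

/-- The prelude's cyclotomic character is the character `chi` of the CFT library. -/
theorem cycloChar_eq_chi : cycloChar ℓ = Fermat.Agent.CFT.Red.CycloExp.chi ℓ :=
  MonoidHom.ext fun _ => rfl

theorem cycloChar_surjective : Function.Surjective (cycloChar ℓ) := by
  rw [cycloChar_eq_chi]
  exact Fermat.Agent.CFT.Red.CycloExp.chi_surjective ℓ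

/-- The kernel of the cyclotomic character is the group fixing `ℚ(ζ_ℓ)`. -/
theorem ker_cycloChar_eq {ζ : Qb} (hζ : IsPrimitiveRoot ζ ℓ) :
    (cycloChar ℓ).ker = (IntermediateField.adjoin ℚ {ζ}).fixingSubgroup := by
  ext σ
  rw [MonoidHom.mem_ker, mem_fixingSubgroup_adjoin_simple_iff, cycloChar_eq_one_iff ℓ σ hζ]

theorem isOpen_comap_cycloChar : IsOpen ((H.comap (cycloChar ℓ) : Subgroup GQ) : Set GQ) := by
  obtain ⟨ζ, hζ⟩ := exists_primitiveRoot_Qbar ℓ
  have hp : ℓ.Prime := Fact.out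
  have hζint : IsIntegral ℚ ζ := (hζ.isIntegral hp.pos).tower_top
  have : FiniteDimensional ℚ (IntermediateField.adjoin ℚ {ζ}) :=
    IntermediateField.adjoin.finiteDimensional hζint
  have hopen : IsOpen (((IntermediateField.adjoin ℚ {ζ}).fixingSubgroup : Subgroup GQ) : Set GQ) :=
    IntermediateField.fixingSubgroup_isOpen _
  refine Subgroup.isOpen_mono ?_ hopen
  rw [← ker_cycloChar_eq ℓ hζ]
  intro σ hσ
  rw [Subgroup.mem_comap, MonoidHom.mem_ker.mp hσ]
  exact H.one_mem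

theorem isClosed_comap_cycloChar :
    IsClosed ((H.comap (cycloChar ℓ) : Subgroup GQ) : Set GQ) :=
  Subgroup.isClosed_of_isOpen _ (isOpen_comap_cycloChar ℓ H)

/-- `Gal(ℚ̄ / cycloField ℓ H) = χ⁻¹(H)`. -/
theorem fixingSubgroup_cycloField : (cycloField ℓ H).fixingSubgroup = H.comap (cycloChar ℓ) :=
  InfiniteGalois.fixingSubgroup_fixedField
    (⟨H.comap (cycloChar ℓ), isClosed_comap_cycloChar ℓ H⟩ : ClosedSubgroup GQ)

variable {ℓ H} in
/-- **(E1)** `σ` fixes `cycloField ℓ H` pointwise iff `χ σ ∈ H`. -/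
theorem mem_fixingSubgroup_cycloField_iff {σ : GQ} :
    σ ∈ (cycloField ℓ H).fixingSubgroup ↔ cycloChar ℓ σ ∈ H := by
  rw [fixingSubgroup_cycloField, Subgroup.mem_comap]

variable {ℓ H} in
/-- Membership in `cycloField ℓ H`. -/
theorem mem_cycloField_iff {x : Qb} :
    x ∈ cycloField ℓ H ↔ ∀ σ : GQ, cycloChar ℓ σ ∈ H → σ x = x := by
  rw [cycloField, IntermediateField.mem_fixedField_iff]
  rfl

/-- **(E2)** `cycloField ℓ H ⊆ ℚ(ζ_ℓ)`. -/
theorem cycloField_le_adjoin {ζ : Qb} (hζ : IsPrimitiveRoot ζ ℓ) :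
    cycloField ℓ H ≤ IntermediateField.adjoin ℚ {ζ} := by
  have h1 : (IntermediateField.adjoin ℚ {ζ}).fixingSubgroup ≤ H.comap (cycloChar ℓ) := by
    rw [← ker_cycloChar_eq ℓ hζ]
    intro σ hσ
    rw [Subgroup.mem_comap, MonoidHom.mem_ker.mp hσ]
    exact H.one_mem
  intro x hx
  rw [← InfiniteGalois.fixedField_fixingSubgroup (IntermediateField.adjoin ℚ {ζ}),
    IntermediateField.mem_fixedField_iff]
  intro σ hσ
  exact (IntermediateField.mem_fixedField_iff _ x).mp hx σ (h1 hσ)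

theorem cycloField_mono {H H' : Subgroup (ZMod ℓ)ˣ} (h : H ≤ H') :
    cycloField ℓ H' ≤ cycloField ℓ H := by
  intro x hx
  rw [mem_cycloField_iff] at hx ⊢
  exact fun σ hσ => hx σ (h hσ)

instance finiteDimensional_cycloField : FiniteDimensional ℚ (cycloField ℓ H) := by
  obtain ⟨ζ, hζ⟩ := exists_primitiveRoot_Qbar ℓ
  have hp : ℓ.Prime := Fact.out
  have hζint : IsIntegral ℚ ζ := (hζ.isIntegral hp.pos).tower_top
  have : FiniteDimensional ℚ (IntermediateField.adjoin ℚ {ζ}) :=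
    IntermediateField.adjoin.finiteDimensional hζint
  have hle := cycloField_le_adjoin ℓ H hζ
  exact FiniteDimensional.of_injective (IntermediateField.inclusion hle).toLinearMap
    (IntermediateField.inclusion_injective hle)

theorem normal_fixingSubgroup_cycloField : (cycloField ℓ H).fixingSubgroup.Normal := by
  rw [fixingSubgroup_cycloField]
  infer_instance

instance isGalois_cycloField : IsGalois ℚ (cycloField ℓ H) :=
  (InfiniteGalois.normal_iff_isGalois _).mp (normal_fixingSubgroup_cycloField ℓ H)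

instance normal_cycloField : Normal ℚ (cycloField ℓ H) :=
  IsGalois.to_normal

/-- **(E3)** `cycloField ℓ H` is a level for every `S ∋ ℓ`. -/
theorem isUnramifiedOutside_cycloField (S : Finset Nat.Primes) (hℓS : pPrime ℓ ∈ S) :
    (cycloField ℓ H).IsUnramifiedOutside S := by
  obtain ⟨ζ, hζ⟩ := exists_primitiveRoot_Qbar ℓ
  exact (isUnramifiedOutside_adjoin_primitiveRoot ℓ S hℓS hζ).of_le (cycloField_le_adjoin ℓ H hζ)

/-- The inertia groups at `q ≠ ℓ` fix `cycloField ℓ H`. -/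
theorem inertia_le_fixingSubgroup_cycloField {q : ℕ} (hq : q.Prime) (hqℓ : q ≠ ℓ)
    (A : ValuationSubring Qb) (hA : A.LiesOverPrime q) :
    A.inertiaSubgroupIn ℚ ≤ (cycloField ℓ H).fixingSubgroup := by
  intro σ hσ
  rw [mem_fixingSubgroup_cycloField_iff, cycloChar_eq_one_of_mem_inertia ℓ hq hqℓ A hA hσ]
  exact H.one_mem

/-- `[cycloField ℓ H : ℚ] = [(ℤ/ℓ)ˣ : H]`. -/
theorem finrank_cycloField : Module.finrank ℚ (cycloField ℓ H) = H.index := by
  have h1 : Nat.card ((cycloField ℓ H) ≃ₐ[ℚ] (cycloField ℓ H)) =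
      Module.finrank ℚ (cycloField ℓ H) := IsGalois.card_aut_eq_finrank ℚ (cycloField ℓ H)
  rw [← h1]
  have hn : (H.comap (cycloChar ℓ)).Normal := inferInstance
  let C : ClosedSubgroup GQ := ⟨H.comap (cycloChar ℓ), isClosed_comap_cycloChar ℓ H⟩
  have hCn : C.1.Normal := hn
  have e := InfiniteGalois.normalAutEquivQuotient C
  have h2 : Nat.card ((cycloField ℓ H) ≃ₐ[ℚ] (cycloField ℓ H)) =
      Nat.card (GQ ⧸ (H.comap (cycloChar ℓ))) := (Nat.card_congr e.toEquiv).symm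
  rw [h2]
  show (H.comap (cycloChar ℓ)).index = H.index
  exact Subgroup.index_comap_of_surjective H (cycloChar_surjective ℓ)

end Def

section Frobenius

open scoped Pointwise
open Finset

variable (ℓ : ℕ) [Fact ℓ.Prime]

/-- A Frobenius element at `A` acts as `x ↦ x ^ q` modulo the maximal ideal of `A`. -/
theorem frobenius_sub_pow_mem_nonunits (A : ValuationSubring Qb) (σ : GQ) (q : ℕ)
    (hσ : A.IsFrobeniusAt σ q) {x : Qb} (hx : x ∈ A) : σ x - x ^ q ∈ A.nonunits := by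
  have hdec := hσ.mem_decompositionSubgroup
  have h := hσ.smul_residue_eq (IsLocalRing.residue A ⟨x, hx⟩)
  set g : A.decompositionSubgroup ℚ := ⟨σ, hdec⟩ with hg
  have hmem : σ x ∈ A := ((g • (⟨x, hx⟩ : A) : A)).2
  rw [← IsLocalRing.ResidueField.residue_smul, ← map_pow] at h
  have h3 : (g • (⟨x, hx⟩ : A) : A) - (⟨x, hx⟩ : A) ^ q ∈ IsLocalRing.maximalIdeal A := by
    rw [← Ideal.Quotient.eq]
    exact h
  rw [ValuationSubring.mem_nonunits_iff_exists_mem_maximalIdeal]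
  exact ⟨A.sub_mem hmem (pow_mem hx q), h3⟩

/-- Elements of the decomposition group preserve the maximal ideal. -/
theorem apply_mem_nonunits_of_mem_decompositionSubgroup (A : ValuationSubring Qb) {σ : GQ}
    (hσ : σ ∈ A.decompositionSubgroup ℚ) {x : Qb} (hx : x ∈ A.nonunits) : σ x ∈ A.nonunits := by
  rw [ValuationSubring.mem_nonunits_iff] at hx ⊢
  exact (Fermat.Agent.PT.Kummer.valuation_apply_lt_one_iff_of_mem_decompositionSubgroup A hσ x).mpr
    hx

/-- Roots of unity lie in every valuation subring. -/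
theorem pow_mem_of_pow_eq_one (A : ValuationSubring Qb) {ζ : Qb} {N : ℕ} (hN : N ≠ 0)
    (hζ : ζ ^ N = 1) (k : ℕ) : ζ ^ k ∈ A := by
  rw [← A.valuation_le_one_iff, valuation_eq_one_of_pow_eq_one A hN
    (by rw [← pow_mul, mul_comm, pow_mul, hζ, one_pow] : (ζ ^ k) ^ N = 1)]

/-- **(E4), first half.** Frobenius elements at `q ≠ ℓ` have cyclotomic character `q`. -/
theorem cycloChar_frobenius {q : ℕ} (hq : q.Prime) (hqℓ : q ≠ ℓ) (A : ValuationSubring Qb)
    (hA : A.LiesOverPrime q) {φ : GQ} (hφ : A.IsFrobeniusAt φ q) :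
    ((cycloChar ℓ φ : (ZMod ℓ)ˣ) : ZMod ℓ) = (q : ZMod ℓ) := by
  have hp : ℓ.Prime := Fact.out
  obtain ⟨ζ, hζ⟩ := exists_primitiveRoot_Qbar ℓ
  have hζA : ζ ∈ A := by
    have := pow_mem_of_pow_eq_one A hp.ne_zero hζ.pow_eq_one 1
    rwa [pow_one] at this
  have h1 := frobenius_sub_pow_mem_nonunits A φ q hφ hζA
  rw [apply_eq_pow_cycloExp ℓ φ ζ hζ.pow_eq_one] at h1
  have h2 : ζ ^ cycloExp ℓ φ = ζ ^ q :=
    eq_of_sub_mem_nonunits_of_pow_eq_one A hq hp hqℓ hA
      (by rw [← pow_mul, mul_comm, pow_mul, hζ.pow_eq_one, one_pow])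
      (by rw [← pow_mul, mul_comm, pow_mul, hζ.pow_eq_one, one_pow]) h1
  rw [coe_cycloChar]
  rw [pow_eq_pow_mod (cycloExp ℓ φ) hζ.pow_eq_one, pow_eq_pow_mod q hζ.pow_eq_one] at h2
  have h3 : cycloExp ℓ φ % ℓ = q % ℓ :=
    hζ.pow_inj (Nat.mod_lt _ hp.pos) (Nat.mod_lt _ hp.pos) h2
  exact (ZMod.natCast_eq_natCast_iff _ _ _).mpr h3

/-- The additive character `x ↦ ζ ^ x` of `ZMod ℓ` attached to an `ℓ`-th root of unity. -/
theorem pow_val_add {ζ : Qb} (hζ : ζ ^ ℓ = 1) (x y : ZMod ℓ) :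
    ζ ^ (x + y).val = ζ ^ x.val * ζ ^ y.val := by
  have hp : ℓ.Prime := Fact.out
  haveI : NeZero ℓ := ⟨hp.ne_zero⟩
  rw [← pow_add, ZMod.val_add, ← pow_eq_pow_mod _ hζ]

theorem apply_pow_val {ζ : Qb} (hζ : ζ ^ ℓ = 1) (τ : GQ) (x : ZMod ℓ) :
    τ (ζ ^ x.val) = ζ ^ (((cycloChar ℓ τ : (ZMod ℓ)ˣ) : ZMod ℓ) * x).val := by
  rw [map_pow, apply_eq_pow_cycloExp ℓ τ ζ hζ, ← pow_mul, ZMod.val_mul, ← pow_eq_pow_mod _ hζ,
    val_cycloChar]

/-- Orthogonality of the characters of `ZMod ℓ`. -/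
theorem sum_pow_val_mul {ζ : Qb} (hζ : IsPrimitiveRoot ζ ℓ) (y : ZMod ℓ) :
    ∑ x : ZMod ℓ, ζ ^ (y * x).val = if y = 0 then (ℓ : Qb) else 0 := by
  have hp : ℓ.Prime := Fact.out
  haveI : NeZero ℓ := ⟨hp.ne_zero⟩
  by_cases hy : y = 0
  · rw [if_pos hy, hy]
    simp
  · rw [if_neg hy]
    have h1 : ∑ x : ZMod ℓ, ζ ^ (y * x).val = ∑ x : ZMod ℓ, ζ ^ x.val :=
      Fintype.sum_equiv (Equiv.mulLeft₀ y hy) _ _ (fun x => rfl)
    rw [h1, ← hζ.geom_sum_eq_zero hp.one_lt]
    refine Finset.sum_nbij' (fun x => x.val) (fun k => (k : ZMod ℓ)) ?_ ?_ ?_ ?_ ?_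
    · intro x _
      exact Finset.mem_range.mpr (ZMod.val_lt x)
    · intro k _
      exact Finset.mem_univ _
    · intro x _
      exact ZMod.natCast_zmod_val x
    · intro k hk
      exact ZMod.val_natCast_of_lt (Finset.mem_range.mp hk)
    · intro x _
      rfl

/-- An element of `A` congruent to its own `q`-th power modulo the maximal ideal is congruent to
an integer. -/
theorem exists_int_sub_mem_nonunits {q : ℕ} (hq : q.Prime) (A : ValuationSubring Qb)
    (hA : A.LiesOverPrime q) {x : Qb} (hx : x ∈ A) (h : x - x ^ q ∈ A.nonunits) :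
    ∃ n : ℤ, x - (n : Qb) ∈ A.nonunits := by
  have : Fact q.Prime := ⟨hq⟩
  have hqk : ((q : ℕ) : IsLocalRing.ResidueField A) = 0 := by
    have h1 : ((q : ℕ) : A) ∈ IsLocalRing.maximalIdeal A := by
      have h2 : (((q : ℕ) : A) : Qb) ∈ A.nonunits := by
        have h0 : (q : Qb) ∈ A.nonunits := hA
        simpa using h0
      obtain ⟨ha, hm⟩ := ValuationSubring.mem_nonunits_iff_exists_mem_maximalIdeal.mp h2
      exact hm
    have h3 := (IsLocalRing.residue_eq_zero_iff ((q : ℕ) : A)).mpr h1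
    simpa using h3
  have : CharP (IsLocalRing.ResidueField A) q := (CharP.charP_iff_prime_eq_zero hq).mpr hqk
  have hres : IsLocalRing.residue A ⟨x, hx⟩ ^ q = IsLocalRing.residue A ⟨x, hx⟩ := by
    obtain ⟨ha, hm⟩ := ValuationSubring.mem_nonunits_iff_exists_mem_maximalIdeal.mp h
    have h4 : (⟨x, hx⟩ : A) - (⟨x, hx⟩ : A) ^ q ∈ IsLocalRing.maximalIdeal A := hm
    have h5 := (IsLocalRing.residue_eq_zero_iff _).mpr h4
    rw [map_sub, map_pow, sub_eq_zero] at h5
    exact h5.symm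
  have hbot := (Subfield.mem_bot_iff_pow_eq_self (IsLocalRing.ResidueField A) q).mpr hres
  obtain ⟨n, hn⟩ := (mem_bot_iff_intCast q (IsLocalRing.ResidueField A)).mp hbot
  refine ⟨n, ?_⟩
  have h6 : IsLocalRing.residue A ((⟨x, hx⟩ : A) - (n : A)) = 0 := by
    rw [map_sub, map_intCast, hn, sub_self]
  have h7 := (IsLocalRing.residue_eq_zero_iff _).mp h6
  have hmem : x - (n : Qb) ∈ A := A.sub_mem hx (by simpa using (n : A).2)
  rw [ValuationSubring.mem_nonunits_iff_exists_mem_maximalIdeal]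
  refine ⟨hmem, ?_⟩
  have e : (⟨x - (n : Qb), hmem⟩ : A) = (⟨x, hx⟩ : A) - (n : A) := Subtype.ext (by simp)
  rw [e]
  exact h7

/-- **(E4), second half.** For `q ≠ ℓ` the cyclotomic character maps the decomposition group of
`A` (over `q`) into the cyclic group generated by the image of a Frobenius element. -/
theorem cycloChar_mem_zpowers_frobenius {q : ℕ} (hq : q.Prime) (hqℓ : q ≠ ℓ)
    (A : ValuationSubring Qb) (hA : A.LiesOverPrime q) {φ : GQ} (hφ : A.IsFrobeniusAt φ q)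
    {σ : GQ} (hσ : σ ∈ A.decompositionSubgroup ℚ) :
    cycloChar ℓ σ ∈ Subgroup.zpowers (cycloChar ℓ φ) := by
  classical
  have hp : ℓ.Prime := Fact.out
  haveI : NeZero ℓ := ⟨hp.ne_zero⟩
  obtain ⟨ζ, hζ⟩ := exists_primitiveRoot_Qbar ℓ
  have hζ1 := hζ.pow_eq_one
  set g := cycloChar ℓ φ with hg
  set u := cycloChar ℓ σ with hu
  by_contra hnot
  let T := Subgroup.zpowers g
  haveI : Fintype T := Fintype.ofFinite T
  let P : ZMod ℓ → Qb := fun x => ∑ t : T, ζ ^ ((((t : (ZMod ℓ)ˣ) : ZMod ℓ)) * x).val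
  have hPA : ∀ x, P x ∈ A := fun x =>
    sum_mem fun t _ => pow_mem_of_pow_eq_one A hp.ne_zero hζ1 _
  -- `P x` is fixed by the Frobenius
  have hφP : ∀ x, φ (P x) = P x := by
    intro x
    show φ (∑ t : T, ζ ^ ((((t : (ZMod ℓ)ˣ) : ZMod ℓ)) * x).val) = _
    rw [map_sum]
    have h1 : ∀ t : T, φ (ζ ^ ((((t : (ZMod ℓ)ˣ) : ZMod ℓ)) * x).val) =
        ζ ^ (((((⟨g, Subgroup.mem_zpowers g⟩ : T) * t : T) : (ZMod ℓ)ˣ) : ZMod ℓ) * x).val := by
      intro t
      rw [apply_pow_val ℓ hζ1, ← mul_assoc]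
      rfl
    rw [Finset.sum_congr rfl fun t _ => h1 t]
    exact Fintype.sum_equiv (Equiv.mulLeft (⟨g, Subgroup.mem_zpowers g⟩ : T)) _ _ (fun t => rfl)
  -- hence congruent to an integer
  have hPn : ∀ x, ∃ n : ℤ, P x - (n : Qb) ∈ A.nonunits := by
    intro x
    apply exists_int_sub_mem_nonunits hq A hA (hPA x)
    have h1 := frobenius_sub_pow_mem_nonunits A φ q hφ (hPA x)
    rwa [hφP] at h1
  -- hence fixed by `σ` modulo the maximal ideal
  have hσP : ∀ x, σ (P x) - P x ∈ A.nonunits := by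
    intro x
    obtain ⟨n, hn⟩ := hPn x
    have h1 := apply_mem_nonunits_of_mem_decompositionSubgroup A hσ hn
    rw [map_sub, map_intCast] at h1
    have h2 := A.nonunits.sub_mem h1 hn
    have e : σ (P x) - (n : Qb) - (P x - (n : Qb)) = σ (P x) - P x := by ring
    rwa [e] at h2
  have hσPeq : ∀ x, σ (P x) =
      ∑ t : T, ζ ^ ((u : ZMod ℓ) * (((t : (ZMod ℓ)ˣ) : ZMod ℓ) * x)).val := by
    intro x
    show σ (∑ t : T, ζ ^ ((((t : (ZMod ℓ)ˣ) : ZMod ℓ)) * x).val) = _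
    rw [map_sum]
    exact Finset.sum_congr rfl fun t _ => apply_pow_val ℓ hζ1 σ _
  -- the character sum
  have hS : ∑ x : ZMod ℓ, ζ ^ (-x).val * (σ (P x) - P x) ∈ A.nonunits :=
    sum_mem fun x _ => by
      rw [mul_comm]
      exact Fermat.Agent.Lib.ValuationIntegral.mul_mem_nonunits A (hσP x)
        (pow_mem_of_pow_eq_one A hp.ne_zero hζ1 _)
  have hut : ∀ t : T, (u : ZMod ℓ) * ((t : (ZMod ℓ)ˣ) : ZMod ℓ) - 1 ≠ 0 := by
    intro t h
    apply hnot
    have h1 : u * (t : (ZMod ℓ)ˣ) = 1 := by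
      apply Units.ext
      rw [Units.val_mul, Units.val_one]
      exact sub_eq_zero.mp h
    have h2 : u = (t : (ZMod ℓ)ˣ)⁻¹ := eq_inv_of_mul_eq_one_left h1
    rw [h2]
    exact inv_mem t.2
  have hkey : ∑ x : ZMod ℓ, ζ ^ (-x).val * (σ (P x) - P x) = -(ℓ : Qb) := by
    have h1 : ∀ x : ZMod ℓ, ζ ^ (-x).val * (σ (P x) - P x) =
        ∑ t : T, (ζ ^ (((u : ZMod ℓ) * ((t : (ZMod ℓ)ˣ) : ZMod ℓ) - 1) * x).val
          - ζ ^ ((((t : (ZMod ℓ)ˣ) : ZMod ℓ) - 1) * x).val) := by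
      intro x
      rw [hσPeq x]
      show ζ ^ (-x).val * (∑ t : T, ζ ^ ((u : ZMod ℓ) * (((t : (ZMod ℓ)ˣ) : ZMod ℓ) * x)).val
        - ∑ t : T, ζ ^ ((((t : (ZMod ℓ)ˣ) : ZMod ℓ)) * x).val) = _
      rw [← Finset.sum_sub_distrib, Finset.mul_sum]
      refine Finset.sum_congr rfl fun t _ => ?_
      rw [mul_sub, ← pow_val_add ℓ hζ1, ← pow_val_add ℓ hζ1]
      congr 3 <;> ring
    rw [Finset.sum_congr rfl fun x _ => h1 x, Finset.sum_comm]
    have h2 : ∀ t : T, ∑ x : ZMod ℓ,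
        (ζ ^ (((u : ZMod ℓ) * ((t : (ZMod ℓ)ˣ) : ZMod ℓ) - 1) * x).val
          - ζ ^ ((((t : (ZMod ℓ)ˣ) : ZMod ℓ) - 1) * x).val) =
        -(if t = 1 then (ℓ : Qb) else 0) := by
      intro t
      rw [Finset.sum_sub_distrib, sum_pow_val_mul ℓ hζ, sum_pow_val_mul ℓ hζ, if_neg (hut t),
        zero_sub]
      congr 1
      by_cases ht : t = 1
      · rw [if_pos ht, if_pos]
        rw [ht]
        simp
      · rw [if_neg ht, if_neg]
        intro h
        apply ht
        apply Subtype.ext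
        apply Units.ext
        rw [Subgroup.coe_one, Units.val_one]
        exact sub_eq_zero.mp h
    rw [Finset.sum_congr rfl fun t _ => h2 t, Finset.sum_neg_distrib, Finset.sum_ite_eq']
    simp
  rw [hkey] at hS
  have hndvd : ¬ (q : ℤ) ∣ ((ℓ : ℕ) : ℤ) := by
    rw [Int.natCast_dvd_natCast]
    intro hdvd
    exact hqℓ ((Nat.prime_dvd_prime_iff_eq hq hp).mp hdvd)
  have h3 := Fermat.Agent.Lib.ValuationIntegral.intCast_notMem_nonunits A hq hA hndvd
  apply h3
  have h4 := A.nonunits.neg_mem hS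
  rw [neg_neg] at h4
  exact_mod_cast h4

/-- **(E4)** For `q ≠ ℓ` and `A` over `q` there is `φ` in the decomposition group of `A` with
`χ φ = q` such that `χ` maps the whole decomposition group into the powers of `χ φ`. -/
theorem exists_frobenius_cycloChar {q : ℕ} (hq : q.Prime) (hqℓ : q ≠ ℓ)
    (A : ValuationSubring Qb) (hA : A.LiesOverPrime q) :
    ∃ φ : GQ, φ ∈ A.decompositionSubgroup ℚ ∧
      ((cycloChar ℓ φ : (ZMod ℓ)ˣ) : ZMod ℓ) = (q : ZMod ℓ) ∧
      ∀ σ ∈ A.decompositionSubgroup ℚ, cycloChar ℓ σ ∈ Subgroup.zpowers (cycloChar ℓ φ) := by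
  obtain ⟨φ, hφ⟩ := exists_isFrobeniusAt_of_liesOverPrime hq A hA
  exact ⟨φ, hφ.mem_decompositionSubgroup, cycloChar_frobenius ℓ hq hqℓ A hA hφ,
    fun σ hσ => cycloChar_mem_zpowers_frobenius ℓ hq hqℓ A hA hφ hσ⟩

end Frobenius

section Inertia

open scoped Pointwise

variable (ℓ : ℕ) [Fact ℓ.Prime]

/-- The residue field of a valuation subring over `q` has characteristic `q`. -/
theorem charP_residueField {q : ℕ} (hq : q.Prime) (A : ValuationSubring Qb)
    (hA : A.LiesOverPrime q) : CharP (IsLocalRing.ResidueField A) q := by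
  have hqk : ((q : ℕ) : IsLocalRing.ResidueField A) = 0 := by
    have h1 : ((q : ℕ) : A) ∈ IsLocalRing.maximalIdeal A := by
      have h2 : (((q : ℕ) : A) : Qb) ∈ A.nonunits := by
        have h0 : (q : Qb) ∈ A.nonunits := hA
        simpa using h0
      obtain ⟨ha, hm⟩ := ValuationSubring.mem_nonunits_iff_exists_mem_maximalIdeal.mp h2
      exact hm
    have h3 := (IsLocalRing.residue_eq_zero_iff ((q : ℕ) : A)).mpr h1
    simpa using h3
  exact (CharP.charP_iff_prime_eq_zero hq).mpr hqk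

/-- An `ℓ`-th root of unity is congruent to `1` modulo the maximal ideal of a valuation subring
over `ℓ`. -/
theorem sub_one_mem_nonunits_of_pow_eq_one (A : ValuationSubring Qb) (hA : A.LiesOverPrime ℓ)
    {η : Qb} (hη : η ^ ℓ = 1) : η - 1 ∈ A.nonunits := by
  have hp : ℓ.Prime := Fact.out
  have := charP_residueField hp A hA
  have hηA : η ∈ A := by
    have := pow_mem_of_pow_eq_one A hp.ne_zero hη 1
    rwa [pow_one] at this
  have h1 : (IsLocalRing.residue A ⟨η, hηA⟩ - 1) ^ ℓ = 0 := by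
    rw [sub_pow_char, one_pow, ← map_pow]
    have e : (⟨η, hηA⟩ : A) ^ ℓ = 1 := Subtype.ext (by simpa using hη)
    rw [e, map_one, sub_self]
  have h2 : IsLocalRing.residue A ((⟨η, hηA⟩ : A) - 1) = 0 := by
    rw [map_sub, map_one]
    exact pow_eq_zero_iff hp.ne_zero |>.mp h1
  have h3 := (IsLocalRing.residue_eq_zero_iff _).mp h2
  have hmem : η - 1 ∈ A := A.sub_mem hηA A.one_mem
  rw [ValuationSubring.mem_nonunits_iff_exists_mem_maximalIdeal]
  refine ⟨hmem, ?_⟩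
  have e : (⟨η - 1, hmem⟩ : A) = (⟨η, hηA⟩ : A) - 1 := Subtype.ext (by simp)
  rw [e]
  exact h3

/-- Every automorphism acts trivially on `ℤ[ζ_ℓ]` modulo the maximal ideal of a valuation subring
over `ℓ`. -/
theorem apply_sub_mem_nonunits_of_mem_adjoin (A : ValuationSubring Qb) (hA : A.LiesOverPrime ℓ)
    {ζ : Qb} (hζ : ζ ^ ℓ = 1) {b : Qb} (hb : b ∈ Algebra.adjoin ℤ ({ζ} : Set Qb)) (τ : GQ) :
    τ b - b ∈ A.nonunits := by
  have hp : ℓ.Prime := Fact.out
  have key : ∀ τ : GQ, τ b - b ∈ A.nonunits ∧ τ b ∈ A := by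
    induction hb using Algebra.adjoin_induction with
    | mem x hx =>
      intro τ
      rw [Set.mem_singleton_iff] at hx
      subst hx
      have h1 : (τ x) ^ ℓ = 1 := by rw [← map_pow, hζ, map_one]
      refine ⟨?_, ?_⟩
      · have h2 := A.nonunits.sub_mem (sub_one_mem_nonunits_of_pow_eq_one ℓ A hA h1)
          (sub_one_mem_nonunits_of_pow_eq_one ℓ A hA hζ)
        have e : τ x - 1 - (x - 1) = τ x - x := by ring
        rwa [e] at h2
      · have := pow_mem_of_pow_eq_one A hp.ne_zero h1 1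
        rwa [pow_one] at this
    | algebraMap r =>
      intro τ
      have e : τ (algebraMap ℤ Qb r) = algebraMap ℤ Qb r := by
        rw [eq_intCast, map_intCast]
      rw [e, sub_self]
      refine ⟨A.nonunits.zero_mem, ?_⟩
      rw [eq_intCast]
      simpa using (r : A).2
    | add x y _ _ hx hy =>
      intro τ
      obtain ⟨hx1, hx2⟩ := hx τ
      obtain ⟨hy1, hy2⟩ := hy τ
      refine ⟨?_, ?_⟩
      · have e : τ (x + y) - (x + y) = (τ x - x) + (τ y - y) := by rw [map_add]; ring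
        rw [e]
        exact A.nonunits.add_mem hx1 hy1
      · rw [map_add]
        exact add_mem hx2 hy2
    | mul x y _ _ hx hy =>
      intro τ
      obtain ⟨hx1, hx2⟩ := hx τ
      obtain ⟨hy1, hy2⟩ := hy τ
      have hyA : y ∈ A := by
        have := (hy 1).2
        simpa using this
      refine ⟨?_, ?_⟩
      · have e : τ (x * y) - x * y = (τ y - y) * τ x + (τ x - x) * y := by rw [map_mul]; ring
        rw [e]
        exact A.nonunits.add_mem
          (Fermat.Agent.Lib.ValuationIntegral.mul_mem_nonunits A hy1 hx2)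
          (Fermat.Agent.Lib.ValuationIntegral.mul_mem_nonunits A hx1 hyA)
      · rw [map_mul]
        exact mul_mem hx2 hy2
  exact (key τ).1

/-- The algebraic integers of `ℚ(ζ_ℓ) ⊆ ℚ̄` are `ℤ[ζ_ℓ]`. -/
theorem mem_adjoin_of_isIntegral {ζ : Qb} (hζ : IsPrimitiveRoot ζ ℓ) {b : Qb}
    (hb : IsIntegral ℤ b) (hbK : b ∈ IntermediateField.adjoin ℚ {ζ}) :
    b ∈ Algebra.adjoin ℤ ({ζ} : Set Qb) := by
  have hp : ℓ.Prime := Fact.out
  have : NeZero ℓ := ⟨hp.ne_zero⟩
  let K : IntermediateField ℚ Qb := IntermediateField.adjoin ℚ {ζ}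
  have : IsCyclotomicExtension {ℓ} ℚ K :=
    IsPrimitiveRoot.intermediateField_adjoin_isCyclotomicExtension ℚ hζ
  let ζ' : K := ⟨ζ, IntermediateField.mem_adjoin_simple_self ℚ ζ⟩
  have hζ' : IsPrimitiveRoot ζ' ℓ := IsPrimitiveRoot.coe_submonoidClass_iff.mp hζ
  have hic := IsCyclotomicExtension.Rat.isIntegralClosure_adjoin_singleton_of_prime hζ'
  have hb' : IsIntegral ℤ (⟨b, hbK⟩ : K) := by
    rw [← isIntegral_algebraMap_iff (B := Qb) (algebraMap K Qb).injective]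
    exact hb
  obtain ⟨y, hy⟩ := hic.isIntegral_iff.mp hb'
  have h1 : (⟨b, hbK⟩ : K) ∈ Algebra.adjoin ℤ ({ζ'} : Set K) := by
    rw [← hy]
    exact y.2
  have h2 : K.val.restrictScalars ℤ (⟨b, hbK⟩ : K) ∈
      (Algebra.adjoin ℤ ({ζ'} : Set K)).map (K.val.restrictScalars ℤ) :=
    Subalgebra.mem_map.mpr ⟨_, h1, rfl⟩
  rw [AlgHom.map_adjoin_singleton] at h2
  exact h2

/-- **(E5)** Total ramification at `ℓ`: the inertia group of any valuation subring over `ℓ`
surjects onto `(ZMod ℓ)ˣ` under the cyclotomic character. -/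
theorem exists_inertia_cycloChar_eq (A : ValuationSubring Qb) (hA : A.LiesOverPrime ℓ)
    (u : (ZMod ℓ)ˣ) : ∃ σ ∈ A.inertiaSubgroupIn ℚ, cycloChar ℓ σ = u := by
  have hp : ℓ.Prime := Fact.out
  obtain ⟨ζ, hζ⟩ := exists_primitiveRoot_Qbar ℓ
  obtain ⟨τ, hτ⟩ := cycloChar_surjective ℓ u
  have hNclosed : IsClosed (((cycloChar ℓ).ker : Subgroup GQ) : Set GQ) := by
    have := isClosed_comap_cycloChar ℓ (⊥ : Subgroup (ZMod ℓ)ˣ)
    rwa [MonoidHom.comap_bot] at this
  have hτb : ∀ b : Qb, IsIntegral ℤ b → (∀ n ∈ (cycloChar ℓ).ker, n b = b) →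
      A.valuation (τ b - b) < 1 := by
    intro b hb hfix
    have hbK : b ∈ IntermediateField.adjoin ℚ {ζ} := by
      rw [← InfiniteGalois.fixedField_fixingSubgroup (IntermediateField.adjoin ℚ {ζ}),
        IntermediateField.mem_fixedField_iff]
      intro n hn
      apply hfix
      rw [ker_cycloChar_eq ℓ hζ]
      exact hn
    rw [← ValuationSubring.mem_nonunits_iff]
    exact apply_sub_mem_nonunits_of_mem_adjoin ℓ A hA hζ.pow_eq_one
      (mem_adjoin_of_isIntegral ℓ hζ hb hbK) τ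
  obtain ⟨n, hn, hnτ⟩ := Fermat.Agent.Lib.InertiaLift.exists_mul_mem_inertiaSubgroupIn hp A hA
    (cycloChar ℓ).ker hNclosed τ hτb
  refine ⟨n * τ, hnτ, ?_⟩
  rw [map_mul, MonoidHom.mem_ker.mp hn, one_mul, hτ]

/-- **(E5), decomposition-group form.** -/
theorem exists_decomposition_cycloChar_eq (A : ValuationSubring Qb) (hA : A.LiesOverPrime ℓ)
    (u : (ZMod ℓ)ˣ) : ∃ σ ∈ A.decompositionSubgroup ℚ, cycloChar ℓ σ = u := by
  obtain ⟨σ, hσ, hu⟩ := exists_inertia_cycloChar_eq ℓ A hA u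
  exact ⟨σ, ((mem_inertiaSubgroupIn_iff A σ).mp hσ).1, hu⟩

end Inertia

end Fermat.Agent.PT.G
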