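import Mathlib
import Fermat.Agent.Lib.FrobeniusExists

/-!
# Hilbert 90 and Kummer theory inside `ℚ̄` (PT, layer G)

`M` is an ARBITRARY intermediate field of `ℚ̄/ℚ` (a number field, or the decomposition field of a
place), `Gal(ℚ̄/M)` is `M.fixingSubgroup`, and cochains are functions on the whole absolute Galois
group which are only constrained on `M.fixingSubgroup`; "level-constant" means constant on the
cosets of `F.fixingSubgroup` for a finite `F/ℚ`.

* `mem_iff_forall_apply_eq`: `x ∈ M ↔ x` is fixed by `Gal(ℚ̄/M)`.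
* `hilbert90`, `hilbert90_units`: `H¹(Gal(ℚ̄/M), ℚ̄ˣ) = 0` for level-constant cocycles.
* `exists_root_of_character`: for `ζ_p ∈ M`, every level-constant character
  `Gal(ℚ̄/M) → ℤ/p` is `g ↦ g α / α` for some `α` with `α ^ p ∈ M`.
* `exists_character_of_root`: the Kummer character of such an `α`.
* `root_mem_iff`: `α ∈ M ↔ α ^ p` is a `p`-th power in `M`.
-/

set_option autoImplicit false
set_option linter.style.haveILetI false

namespace Fermat.Agent.PT.Kummer

local notation "Qb" => AlgebraicClosure ℚ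
local notation "GQ" => (AlgebraicClosure ℚ ≃ₐ[ℚ] AlgebraicClosure ℚ)

open Fermat.Agent.Lib.FrobeniusExists

attribute [local instance] isAlgClosure_rat isGalois_rat

/-- Galois correspondence for an arbitrary intermediate field of `ℚ̄/ℚ`: an element lies in `M`
iff it is fixed by `Gal(ℚ̄/M)`. -/
theorem mem_iff_forall_apply_eq (M : IntermediateField ℚ Qb) (x : Qb) :
    x ∈ M ↔ ∀ g ∈ M.fixingSubgroup, g x = x := by
  constructor
  · intro hx g hg
    exact (IntermediateField.mem_fixingSubgroup_iff M g).mp hg x hx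
  · intro h
    rw [← InfiniteGalois.fixedField_fixingSubgroup M, IntermediateField.mem_fixedField_iff]
    exact h

/-- A finite extension of `ℚ` inside `ℚ̄` is generated by one element, and an automorphism fixing
that element fixes the field. -/
theorem exists_primitive_element_fixing (F : IntermediateField ℚ Qb) [FiniteDimensional ℚ F] :
    ∃ θ : Qb, θ ∈ F ∧ ∀ s : GQ, s θ = θ → s ∈ F.fixingSubgroup := by
  obtain ⟨θ', hθ'⟩ := Field.exists_primitive_element ℚ F
  refine ⟨(θ' : Qb), θ'.2, fun s hs => ?_⟩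
  have h1 : F ≤ IntermediateField.adjoin ℚ {(θ' : Qb)} := by
    have h3 : IntermediateField.adjoin ℚ {θ'}
        ≤ (IntermediateField.adjoin ℚ {(θ' : Qb)}).comap F.val := by
      rw [IntermediateField.adjoin_simple_le_iff]
      show F.val θ' ∈ IntermediateField.adjoin ℚ {(θ' : Qb)}
      exact IntermediateField.mem_adjoin_simple_self ℚ _
    rw [hθ'] at h3
    intro x hx
    exact h3 (IntermediateField.mem_top (x := ⟨x, hx⟩))
  have hle : IntermediateField.adjoin ℚ {(θ' : Qb)}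
      ≤ IntermediateField.fixedField (Subgroup.zpowers s) := by
    rw [IntermediateField.adjoin_simple_le_iff, IntermediateField.mem_fixedField_iff]
    intro g hg
    obtain ⟨k, rfl⟩ := Subgroup.mem_zpowers_iff.mp hg
    have hfix : ∀ k : ℕ, (s ^ k) (θ' : Qb) = θ' := by
      intro k
      induction k with
      | zero => rfl
      | succ k ih => rw [pow_succ, AlgEquiv.mul_apply, hs, ih]
    have hinv : s⁻¹ (θ' : Qb) = θ' := by
      have h3 : s⁻¹ (s (θ' : Qb)) = θ' := by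
        show (s⁻¹ * s) (θ' : Qb) = θ'
        rw [inv_mul_cancel]; rfl
      rwa [hs] at h3
    have hfix' : ∀ k : ℕ, (s⁻¹ ^ k) (θ' : Qb) = θ' := by
      intro k
      induction k with
      | zero => rfl
      | succ k ih => rw [pow_succ, AlgEquiv.mul_apply, hinv, ih]
    cases k with
    | ofNat k => simpa using hfix k
    | negSucc k =>
      rw [zpow_negSucc, ← inv_pow]
      exact hfix' (k + 1)
  rw [IntermediateField.mem_fixingSubgroup_iff]
  intro x hx
  exact (IntermediateField.mem_fixedField_iff _ x).mp (hle (h1 hx)) s (Subgroup.mem_zpowers s)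

open Polynomial in
/-- **Hilbert 90 for level-constant cocycles on `Gal(ℚ̄/M)`**, `M` an arbitrary intermediate
field of `ℚ̄/ℚ`: a function `c` on the absolute Galois group which, on `Gal(ℚ̄/M)`, is nowhere
zero, satisfies the cocycle identity `c (g h) = c g * g (c h)` and is constant on the cosets of
`Gal(ℚ̄/F)` for a finite extension `F/ℚ`, is of the form `g ↦ g b / b` there. -/
theorem hilbert90 (M : IntermediateField ℚ Qb) (c : GQ → Qb)
    (hc0 : ∀ g ∈ M.fixingSubgroup, c g ≠ 0)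
    (hc : ∀ g ∈ M.fixingSubgroup, ∀ h ∈ M.fixingSubgroup, c (g * h) = c g * g (c h))
    (F : IntermediateField ℚ Qb) [FiniteDimensional ℚ F]
    (hF : ∀ g ∈ M.fixingSubgroup, ∀ s ∈ M.fixingSubgroup, s ∈ F.fixingSubgroup →
      c (g * s) = c g) :
    ∃ b : Qb, b ≠ 0 ∧ ∀ g ∈ M.fixingSubgroup, c g = g b / b := by
  obtain ⟨θ, -, hθ⟩ := exists_primitive_element_fixing F
  have hH1 : (1 : GQ) ∈ M.fixingSubgroup := M.fixingSubgroup.one_mem
  have hc1 : c 1 = 1 := by
    have h1 := hc 1 hH1 1 hH1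
    rw [mul_one, AlgEquiv.one_apply] at h1
    have h2 := hc0 1 hH1
    exact (mul_eq_left₀ h2).mp h1.symm
  -- `c g` only depends on `g θ`
  have hdep : ∀ g ∈ M.fixingSubgroup, ∀ g' ∈ M.fixingSubgroup, g θ = g' θ → c g = c g' := by
    intro g hg g' hg' h
    have hs : g⁻¹ * g' ∈ M.fixingSubgroup := M.fixingSubgroup.mul_mem
      (M.fixingSubgroup.inv_mem hg) hg'
    have hsθ : (g⁻¹ * g') θ = θ := by
      rw [AlgEquiv.mul_apply, ← h]
      show (g⁻¹ * g) θ = θ
      rw [inv_mul_cancel]; rfl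
    have h1 := hF g hg _ hs (hθ _ hsθ)
    rw [mul_inv_cancel_left] at h1
    exact h1.symm
  -- the finite normal extension `E / M` generated by the conjugates of `θ`
  let f : M[X] := (minpoly ℚ θ).map (algebraMap ℚ M)
  have hf0 : f ≠ 0 := (Polynomial.map_ne_zero_iff (algebraMap ℚ M).injective).mpr
    (minpoly.ne_zero (Algebra.IsIntegral.isIntegral θ))
  let E : IntermediateField M Qb := IntermediateField.adjoin M (f.rootSet Qb)
  have hsplit : (f.map (algebraMap M Qb)).Splits := IsAlgClosed.splits _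
  haveI : f.IsSplittingField M E := IntermediateField.adjoin_rootSet_isSplittingField hsplit
  haveI : Normal M E := Normal.of_isSplittingField f
  haveI : FiniteDimensional M E := Polynomial.IsSplittingField.finiteDimensional E f
  have hroot : ∀ g : GQ, g θ ∈ E := by
    intro g
    apply IntermediateField.subset_adjoin
    rw [Polynomial.mem_rootSet]
    refine ⟨hf0, ?_⟩
    show Polynomial.aeval (g θ) ((minpoly ℚ θ).map (algebraMap ℚ M)) = 0
    rw [Polynomial.aeval_map_algebraMap]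
    have h1 := Polynomial.aeval_algHom_apply (g : Qb →ₐ[ℚ] Qb) θ (minpoly ℚ θ)
    rw [minpoly.aeval, map_zero] at h1
    exact h1
  -- transport between `M.fixingSubgroup` and `Gal(ℚ̄/M)`
  have hmemH : ∀ σ : Qb ≃ₐ[M] Qb, σ.restrictScalars ℚ ∈ M.fixingSubgroup := by
    intro σ
    rw [IntermediateField.mem_fixingSubgroup_iff]
    intro x hx
    exact σ.commutes ⟨x, hx⟩
  -- the values of `c` lie in `E`
  have hval : ∀ g ∈ M.fixingSubgroup, c g ∈ E := by
    intro g hg
    rw [← InfiniteGalois.fixedField_fixingSubgroup E, IntermediateField.mem_fixedField_iff]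
    intro σ hσ
    have hσE : ∀ x ∈ E, σ x = x := fun x hx =>
      (IntermediateField.mem_fixingSubgroup_iff E σ).mp hσ x hx
    let u : GQ := σ.restrictScalars ℚ
    have hu : u ∈ M.fixingSubgroup := hmemH σ
    have huθ : u θ = θ := by
      have := hσE θ (by simpa using hroot 1)
      exact this
    have hcu : c u = 1 := by
      have h1 := hF 1 hH1 u hu (hθ u huθ)
      rwa [one_mul, hc1] at h1
    have h2 : c (u * g) = c g := by
      refine hdep _ (M.fixingSubgroup.mul_mem hu hg) _ hg ?_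
      rw [AlgEquiv.mul_apply]
      exact hσE _ (hroot g)
    have h3 := hc u hu g hg
    rw [h2, hcu, one_mul] at h3
    exact h3.symm
  -- lifts
  have hlift : ∀ τ : E ≃ₐ[M] E, ∃ g ∈ M.fixingSubgroup, ∀ x : E, g (x : Qb) = (τ x : Qb) := by
    intro τ
    refine ⟨(τ.liftNormal Qb).restrictScalars ℚ, hmemH _, fun x => ?_⟩
    exact AlgEquiv.liftNormal_commutes τ Qb x
  choose lift hliftH hliftE using hlift
  let f₁ : (E ≃ₐ[M] E) → Eˣ := fun τ =>
    Units.mk0 ⟨c (lift τ), hval _ (hliftH τ)⟩ (fun h => hc0 _ (hliftH τ) (congrArg Subtype.val h))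
  have hf₁ : ∀ τ, ((f₁ τ : E) : Qb) = c (lift τ) := fun τ => rfl
  have hcoc : groupCohomology.IsMulCocycle₁ f₁ := by
    intro τ₁ τ₂
    apply Units.ext
    apply Subtype.ext
    have e1 : (((f₁ (τ₁ * τ₂) : Eˣ) : E) : Qb) = c (lift (τ₁ * τ₂)) := rfl
    have e2 : ((((τ₁ • f₁ τ₂ * f₁ τ₁ : Eˣ)) : E) : Qb)
        = (τ₁ ((f₁ τ₂ : Eˣ) : E) : Qb) * c (lift τ₁) := rfl
    rw [e1, e2, ← hliftE τ₁, hf₁]
    have h1 : c (lift (τ₁ * τ₂)) = c (lift τ₁ * lift τ₂) := by
      refine hdep _ (hliftH _) _ (M.fixingSubgroup.mul_mem (hliftH _) (hliftH _)) ?_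
      have h2 := hliftE (τ₁ * τ₂) ⟨θ, by simpa using hroot 1⟩
      have h3 := hliftE τ₂ ⟨θ, by simpa using hroot 1⟩
      have h4 := hliftE τ₁ (τ₂ ⟨θ, by simpa using hroot 1⟩)
      rw [AlgEquiv.mul_apply]
      simp only at h2 h3
      rw [h2, h3, h4]
      rfl
    rw [h1, hc _ (hliftH _) _ (hliftH _), mul_comm]
  obtain ⟨β, hβ⟩ := groupCohomology.isMulCoboundary₁_of_isMulCocycle₁_of_aut_to_units f₁ hcoc
  refine ⟨((β : E) : Qb), ?_, fun g hg => ?_⟩
  · intro h
    exact β.ne_zero (Subtype.ext h)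
  · let σ : Qb ≃ₐ[M] Qb := IntermediateField.fixingSubgroupEquiv M ⟨g, hg⟩
    have hσ : ∀ x : Qb, σ x = g x := fun x => rfl
    let τ : E ≃ₐ[M] E := σ.restrictNormal E
    have hτ : ∀ x : E, (τ x : Qb) = g (x : Qb) := fun x =>
      AlgEquiv.restrictNormal_commutes σ E x
    have h1 : c g = c (lift τ) := by
      refine hdep _ hg _ (hliftH _) ?_
      have h2 := hliftE τ ⟨θ, by simpa using hroot 1⟩
      have h3 := hτ ⟨θ, by simpa using hroot 1⟩
      simp only at h2 h3
      rw [h2, h3]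
    have h2 := hβ τ
    have h3 : (((f₁ τ : Eˣ) : E) : Qb) = ((τ (β : E) : E) : Qb) / ((β : E) : Qb) := by
      rw [← h2, Units.val_div_eq_div_val, IntermediateField.coe_div]
      rfl
    rw [h1, ← hf₁, h3, hτ]

/-- Hilbert 90 for `ℚ̄ˣ`-valued level-constant cocycles on `Gal(ℚ̄/M)`. -/
theorem hilbert90_units (M : IntermediateField ℚ Qb) (c : GQ → Qbˣ)
    (hc : ∀ g ∈ M.fixingSubgroup, ∀ h ∈ M.fixingSubgroup, c (g * h) = c g * g • c h)
    (F : IntermediateField ℚ Qb) [FiniteDimensional ℚ F]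
    (hF : ∀ g ∈ M.fixingSubgroup, ∀ s ∈ M.fixingSubgroup, s ∈ F.fixingSubgroup →
      c (g * s) = c g) :
    ∃ b : Qbˣ, ∀ g ∈ M.fixingSubgroup, c g = g • b / b := by
  obtain ⟨b, hb0, hb⟩ := hilbert90 M (fun g => (c g : Qb)) (fun g _ => (c g).ne_zero)
    (fun g hg h hh => by
      show ((c (g * h) : Qbˣ) : Qb) = (c g : Qb) * g (c h : Qb)
      rw [hc g hg h hh]
      rfl)
    F
    (fun g hg s hs hsF => by
      show ((c (g * s) : Qbˣ) : Qb) = (c g : Qb)
      rw [hF g hg s hs hsF])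
  refine ⟨Units.mk0 b hb0, fun g hg => ?_⟩
  apply Units.ext
  rw [Units.val_div_eq_div_val]
  exact hb g hg

section Kummer

variable (p : ℕ) [Fact p.Prime]

theorem zeta_pow_val_add {ζ : Qb} (hζ : ζ ^ p = 1) (a b : ZMod p) :
    ζ ^ (a + b).val = ζ ^ a.val * ζ ^ b.val := by
  rw [ZMod.val_add, ← pow_add, ← pow_mod_orderOf ζ, ← pow_mod_orderOf ζ (a.val + b.val)]
  congr 1
  exact Nat.mod_mod_of_dvd _ (orderOf_dvd_of_pow_eq_one hζ)

theorem zeta_pow_val_injective {ζ : Qb} (hζ : IsPrimitiveRoot ζ p) {a b : ZMod p}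
    (h : ζ ^ a.val = ζ ^ b.val) : a = b :=
  ZMod.val_injective p (hζ.pow_inj (ZMod.val_lt a) (ZMod.val_lt b) h)

theorem zeta_pow_natCast_val {ζ : Qb} (hζ : ζ ^ p = 1) (k : ℕ) :
    ζ ^ ((k : ZMod p)).val = ζ ^ k := by
  rw [ZMod.val_natCast, ← pow_mod_orderOf ζ, ← pow_mod_orderOf ζ k]
  congr 1
  exact Nat.mod_mod_of_dvd _ (orderOf_dvd_of_pow_eq_one hζ)

/-- **Kummer theory, surjectivity.** Let `M` be an intermediate field of `ℚ̄/ℚ` containing a
primitive `p`-th root of unity `ζ`. Every level-constant character `χ : Gal(ℚ̄/M) → ℤ/p` is the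
Kummer character of a `p`-th root `α` of an element of `M`. -/
theorem exists_root_of_character (M : IntermediateField ℚ Qb) {ζ : Qb}
    (hζ : IsPrimitiveRoot ζ p) (hζM : ζ ∈ M) (χ : GQ → ZMod p)
    (hχ : ∀ g ∈ M.fixingSubgroup, ∀ h ∈ M.fixingSubgroup, χ (g * h) = χ g + χ h)
    (F : IntermediateField ℚ Qb) [FiniteDimensional ℚ F]
    (hF : ∀ g ∈ M.fixingSubgroup, ∀ s ∈ M.fixingSubgroup, s ∈ F.fixingSubgroup →
      χ (g * s) = χ g) :
    ∃ α : Qb, α ≠ 0 ∧ α ^ p ∈ M ∧ ∀ g ∈ M.fixingSubgroup, g α = ζ ^ (χ g).val * α := by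
  have hp : p.Prime := Fact.out
  have hζ0 : ζ ≠ 0 := hζ.ne_zero hp.ne_zero
  have hgζ : ∀ g ∈ M.fixingSubgroup, g ζ = ζ := fun g hg =>
    (mem_iff_forall_apply_eq M ζ).mp hζM g hg
  obtain ⟨b, hb0, hb⟩ := hilbert90 M (fun g => ζ ^ (χ g).val)
    (fun g _ => pow_ne_zero _ hζ0)
    (fun g hg h hh => by
      show ζ ^ (χ (g * h)).val = ζ ^ (χ g).val * g (ζ ^ (χ h).val)
      rw [hχ g hg h hh, zeta_pow_val_add p hζ.pow_eq_one, map_pow, hgζ g hg])
    F
    (fun g hg s hs hsF => by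
      show ζ ^ (χ (g * s)).val = ζ ^ (χ g).val
      rw [hF g hg s hs hsF])
  have hgb : ∀ g ∈ M.fixingSubgroup, g b = ζ ^ (χ g).val * b := by
    intro g hg
    have h1 : ζ ^ (χ g).val = g b / b := hb g hg
    rw [h1, div_mul_cancel₀ _ hb0]
  refine ⟨b, hb0, ?_, hgb⟩
  rw [mem_iff_forall_apply_eq]
  intro g hg
  rw [map_pow, hgb g hg, mul_pow, ← pow_mul, mul_comm (χ g).val p, pow_mul, hζ.pow_eq_one,
    one_pow, one_mul]

/-- **Kummer theory: the character of a `p`-th root.** For `α ≠ 0` with `α ^ p ∈ M` there is a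
function `χ` on the absolute Galois group, additive on `Gal(ℚ̄/M)`, constant on the cosets of
the stabiliser of `α`, with `g α = ζ ^ χ(g) * α` for `g ∈ Gal(ℚ̄/M)`. -/
theorem exists_character_of_root (M : IntermediateField ℚ Qb) {ζ : Qb}
    (hζ : IsPrimitiveRoot ζ p) (hζM : ζ ∈ M) {α : Qb} (hα0 : α ≠ 0) (hα : α ^ p ∈ M) :
    ∃ χ : GQ → ZMod p, (∀ g ∈ M.fixingSubgroup, g α = ζ ^ (χ g).val * α) ∧
      (∀ g ∈ M.fixingSubgroup, ∀ h ∈ M.fixingSubgroup, χ (g * h) = χ g + χ h) ∧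
      (∀ g s : GQ, s α = α → χ (g * s) = χ g) := by
  classical
  have hp : p.Prime := Fact.out
  haveI : NeZero p := ⟨hp.ne_zero⟩
  have hgζ : ∀ g ∈ M.fixingSubgroup, g ζ = ζ := fun g hg =>
    (mem_iff_forall_apply_eq M ζ).mp hζM g hg
  let ψ : Qb → ZMod p := fun y =>
    if h : ∃ k : ℕ, y = ζ ^ k * α then ((Classical.choose h : ℕ) : ZMod p) else 0
  have hψ : ∀ y : Qb, (∃ k : ℕ, y = ζ ^ k * α) → y = ζ ^ (ψ y).val * α := by
    intro y h
    simp only [ψ, dif_pos h]
    rw [zeta_pow_natCast_val p hζ.pow_eq_one]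
    exact Classical.choose_spec h
  have hex : ∀ g ∈ M.fixingSubgroup, ∃ k : ℕ, g α = ζ ^ k * α := by
    intro g hg
    have h1 : (g α / α) ^ p = 1 := by
      rw [div_pow, ← map_pow, (mem_iff_forall_apply_eq M _).mp hα g hg,
        div_self (pow_ne_zero p hα0)]
    obtain ⟨k, -, hk⟩ := hζ.eq_pow_of_pow_eq_one h1
    exact ⟨k, by rw [hk, div_mul_cancel₀ _ hα0]⟩
  have hχ : ∀ g ∈ M.fixingSubgroup, g α = ζ ^ (ψ (g α)).val * α := fun g hg =>
    hψ _ (hex g hg)
  refine ⟨fun g => ψ (g α), hχ, fun g hg h hh => ?_, fun g s hs => ?_⟩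
  · apply zeta_pow_val_injective p hζ
    rw [zeta_pow_val_add p hζ.pow_eq_one]
    have h1 := hχ (g * h) (M.fixingSubgroup.mul_mem hg hh)
    have h2 : (g * h) α = ζ ^ (ψ (g α)).val * ζ ^ (ψ (h α)).val * α := by
      rw [AlgEquiv.mul_apply]
      conv_lhs => rw [hχ h hh]
      rw [map_mul, map_pow, hgζ g hg]
      conv_lhs => rw [hχ g hg]
      ring
    exact mul_right_cancel₀ hα0 (h1.symm.trans h2)
  · show ψ ((g * s) α) = ψ (g α)
    rw [AlgEquiv.mul_apply, hs]

/-- With `ζ ∈ M`: a `p`-th root of `a` lies in `M` iff `a` is a `p`-th power in `M`. -/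
theorem root_mem_iff (M : IntermediateField ℚ Qb) {ζ : Qb} (hζ : IsPrimitiveRoot ζ p)
    (hζM : ζ ∈ M) {a α : Qb} (hα : α ^ p = a) : α ∈ M ↔ ∃ m ∈ M, m ^ p = a := by
  have hp : p.Prime := Fact.out
  haveI : NeZero p := ⟨hp.ne_zero⟩
  constructor
  · intro h
    exact ⟨α, h, hα⟩
  · rintro ⟨m, hm, hma⟩
    rcases eq_or_ne m 0 with rfl | hm0
    · rw [zero_pow hp.ne_zero] at hma
      rw [← hma] at hα
      rw [pow_eq_zero_iff hp.ne_zero] at hα
      rw [hα]
      exact zero_mem M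
    · have h1 : (α / m) ^ p = 1 := by
        rw [div_pow, hα, hma, div_self]
        rw [← hma]
        exact pow_ne_zero p hm0
      obtain ⟨k, -, hk⟩ := hζ.eq_pow_of_pow_eq_one h1
      have h2 : α = ζ ^ k * m := by rw [hk, div_mul_cancel₀ _ hm0]
      rw [h2]
      exact mul_mem (pow_mem hζM k) hm

/-- The Kummer character of `α` is trivial on `Gal(ℚ̄/M)` iff `α ∈ M`. -/
theorem root_mem_iff_forall_apply_eq (M : IntermediateField ℚ Qb) (α : Qb) :
    α ∈ M ↔ ∀ g ∈ M.fixingSubgroup, g α = α :=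
  mem_iff_forall_apply_eq M α

end Kummer

end Fermat.Agent.PT.Kummer
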