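import Mathlib
import Fermat.Agent.PT.G.KumUnram
import Fermat.Agent.PT.G.KumH90

/-!
# Kummer theory with ramification conditions: `H¹(G_{K,S}, μ_p) ≅ K(S, p)` (PT, layer G)

`K` is a level for `S ∋ p` containing a primitive `p`-th root of unity `ζ`; characters are
functions `χ : Gal(ℚ̄/ℚ) → ℤ/p`, additive on `Gal(ℚ̄/K) = K.fixingSubgroup`.

* `exists_selmer_of_character`: an `S`-level-constant character of `Gal(ℚ̄/K)` is the Kummer
  character of some `a ∈ Kˣ` whose valuations outside `S` are divisible by `p`.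
* `exists_character_of_selmer`: conversely such an `a` has an `S`-level-constant Kummer character.
* `character_eq_zero_iff`: the Kummer character of `a` vanishes on `Gal(ℚ̄/K)` iff `a ∈ Kˣᵖ`.
-/

set_option autoImplicit false
set_option linter.style.haveILetI false

namespace Fermat.Agent.PT.Kummer

local notation "Qb" => AlgebraicClosure ℚ
local notation "GQ" => (AlgebraicClosure ℚ ≃ₐ[ℚ] AlgebraicClosure ℚ)

open Fermat.Agent.Lib.FrobeniusExists Fermat.Agent.PT.Levels groupCohomology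

attribute [local instance] isAlgClosure_rat isGalois_rat

variable (p : ℕ) [Fact p.Prime]

/-- If one `p`-th root `α₀` of `a` transforms by `g α₀ = ζ ^ k * α₀` under `g`, which fixes `ζ`,
then so does every `p`-th root of `a`. -/
theorem apply_root_eq_of_root {ζ : Qb} (hζ : IsPrimitiveRoot ζ p) {α₀ α : Qb} (hα₀ : α₀ ≠ 0)
    (h : α ^ p = α₀ ^ p) {g : GQ} (hg : g ζ = ζ) {k : ℕ} (hk : g α₀ = ζ ^ k * α₀) :
    g α = ζ ^ k * α := by
  have hp : p.Prime := Fact.out
  haveI : NeZero p := ⟨hp.ne_zero⟩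
  have h1 : (α / α₀) ^ p = 1 := by
    rw [div_pow, h, div_self (pow_ne_zero p hα₀)]
  obtain ⟨j, -, hj⟩ := hζ.eq_pow_of_pow_eq_one h1
  have h2 : α = ζ ^ j * α₀ := by rw [hj, div_mul_cancel₀ _ hα₀]
  rw [h2, map_mul, map_pow, hg, hk]
  ring

/-- **Kummer, `S`-version, surjectivity.** Let `K` be a level for `S` containing a primitive
`p`-th root of unity. Every character of `Gal(ℚ̄/K)` which is constant on the cosets of an
`S`-level is the Kummer character of an element `a ∈ Kˣ` with `p ∣ v(a)` at all places outside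
`S`; moreover all `p`-th roots of `a` lie in an `S`-level. -/
theorem exists_selmer_of_character (S : Finset Nat.Primes) {K : IntermediateField ℚ Qb}
    (hK : K.IsUnramifiedOutside S) {ζ : Qb} (hζ : IsPrimitiveRoot ζ p) (hζK : ζ ∈ K)
    (χ : GQ → ZMod p)
    (hχ : ∀ g ∈ K.fixingSubgroup, ∀ h ∈ K.fixingSubgroup, χ (g * h) = χ g + χ h)
    {F : IntermediateField ℚ Qb} (hFS : F.IsUnramifiedOutside S)
    (hF : ∀ g ∈ K.fixingSubgroup, ∀ s ∈ K.fixingSubgroup, s ∈ F.fixingSubgroup →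
      χ (g * s) = χ g) :
    ∃ a : Qb, a ∈ K ∧ a ≠ 0 ∧
      (∀ q : Nat.Primes, q ∉ S → ∀ A : ValuationSubring Qb, A.LiesOverPrime q →
        ∃ n : ℤ, A.valuation a = A.valuation (((q : ℕ) : Qb) ^ ((p : ℤ) * n))) ∧
      ∀ α : Qb, α ^ p = a →
        (K ⊔ IntermediateField.adjoin ℚ {α}).IsUnramifiedOutside S ∧
        ∀ g ∈ K.fixingSubgroup, g α = ζ ^ (χ g).val * α := by
  have hp : p.Prime := Fact.out
  haveI := hFS.1
  obtain ⟨α₀, hα₀, hα₀K, hgα₀⟩ := exists_root_of_character p K hζ hζK χ hχ F hF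
  have hgζ : ∀ g ∈ K.fixingSubgroup, g ζ = ζ := fun g hg =>
    (mem_iff_forall_apply_eq K ζ).mp hζK g hg
  have hχ1 : χ 1 = 0 := by
    have h1 := hχ 1 K.fixingSubgroup.one_mem 1 K.fixingSubgroup.one_mem
    rw [mul_one] at h1
    exact left_eq_add.mp h1
  have hKF : (K ⊔ F).IsUnramifiedOutside S := hK.sup hFS
  have hsub : (K ⊔ F).fixingSubgroup ≤ K.fixingSubgroup :=
    IntermediateField.fixingSubgroup_antitone le_sup_left
  have hsubF : (K ⊔ F).fixingSubgroup ≤ F.fixingSubgroup :=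
    IntermediateField.fixingSubgroup_antitone le_sup_right
  -- every `p`-th root of `a` lies in the level `K ⊔ F`
  have hmem : ∀ α : Qb, α ^ p = α₀ ^ p → α ∈ K ⊔ F := by
    intro α hα
    rw [mem_iff_forall_apply_eq]
    intro g hg
    have h1 := hF 1 K.fixingSubgroup.one_mem g (hsub hg) (hsubF hg)
    rw [one_mul, hχ1] at h1
    have h2 := hgα₀ g (hsub hg)
    rw [h1, ZMod.val_zero] at h2
    have h3 := apply_root_eq_of_root p hζ hα₀ hα (hgζ g (hsub hg)) h2
    rwa [pow_zero, one_mul] at h3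
  have ha0 : α₀ ^ p ≠ 0 := pow_ne_zero p hα₀
  refine ⟨α₀ ^ p, hα₀K, ha0, fun q hq A hA => ?_, fun α hα => ⟨?_, fun g hg => ?_⟩⟩
  · exact exists_valuation_eq_zpow_mul_of_level hKF (hmem α₀ rfl) rfl ha0 q hq A hA
  · refine hKF.of_le (sup_le le_sup_left ?_)
    rw [IntermediateField.adjoin_simple_le_iff]
    exact hmem α hα
  · exact apply_root_eq_of_root p hζ hα₀ hα (hgζ g hg) (hgα₀ g hg)

/-- **Kummer, `S`-version, the character of an element of `K(S, p)`.** For `a ∈ Kˣ` with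
`p ∣ v(a)` outside `S` and `α ^ p = a` there is an `S`-level-constant function `χ`, additive on
`Gal(ℚ̄/K)`, with `g α = ζ ^ χ(g) * α` there. -/
theorem exists_character_of_selmer (S : Finset Nat.Primes) (hpS : ExtCitation.pPrime p ∈ S)
    {K : IntermediateField ℚ Qb} (hK : K.IsUnramifiedOutside S) {ζ : Qb}
    (hζ : IsPrimitiveRoot ζ p) (hζK : ζ ∈ K) {a α : Qb} (ha : a ∈ K) (ha0 : a ≠ 0)
    (hα : α ^ p = a)
    (h : ∀ q : Nat.Primes, q ∉ S → ∀ A : ValuationSubring Qb, A.LiesOverPrime q →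
      ∃ n : ℤ, A.valuation a = A.valuation (((q : ℕ) : Qb) ^ ((p : ℤ) * n))) :
    ∃ χ : GQ → ZMod p, IsLevelConstantS₁ S χ ∧
      (∀ g ∈ K.fixingSubgroup, ∀ h ∈ K.fixingSubgroup, χ (g * h) = χ g + χ h) ∧
      ∀ g ∈ K.fixingSubgroup, g α = ζ ^ (χ g).val * α := by
  have hp : p.Prime := Fact.out
  have hα0 : α ≠ 0 := by
    rintro rfl
    rw [zero_pow hp.ne_zero] at hα
    exact ha0 hα.symm
  obtain ⟨χ, h1, h2, h3⟩ := exists_character_of_root p K hζ hζK hα0 (by rw [hα]; exact ha)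
  refine ⟨χ, ⟨_, isUnramifiedOutside_sup_adjoin_root' p S hpS hK ha ha0 hα h, fun g s hs => ?_⟩,
    h2, h1⟩
  refine h3 g s ?_
  have hle : (K ⊔ IntermediateField.adjoin ℚ {α}).fixingSubgroup
      ≤ (IntermediateField.adjoin ℚ {α}).fixingSubgroup :=
    IntermediateField.fixingSubgroup_antitone le_sup_right
  exact (mem_fixingSubgroup_adjoin_simple_iff α s).mp (hle hs)

/-- **Kummer, injectivity.** If `g α = ζ ^ χ(g) * α` on `Gal(ℚ̄/K)` with `α ^ p = a`, then
`χ` vanishes on `Gal(ℚ̄/K)` iff `a` is a `p`-th power in `K`. -/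
theorem character_eq_zero_iff {K : IntermediateField ℚ Qb} {ζ : Qb}
    (hζ : IsPrimitiveRoot ζ p) (hζK : ζ ∈ K) {a α : Qb} (ha0 : a ≠ 0) (hα : α ^ p = a)
    (χ : GQ → ZMod p) (hχ : ∀ g ∈ K.fixingSubgroup, g α = ζ ^ (χ g).val * α) :
    (∀ g ∈ K.fixingSubgroup, χ g = 0) ↔ ∃ m ∈ K, m ^ p = a := by
  have hp : p.Prime := Fact.out
  have hα0 : α ≠ 0 := by
    rintro rfl
    rw [zero_pow hp.ne_zero] at hα
    exact ha0 hα.symm
  rw [← root_mem_iff p K hζ hζK hα, mem_iff_forall_apply_eq]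
  constructor
  · intro h g hg
    rw [hχ g hg, h g hg, ZMod.val_zero, pow_zero, one_mul]
  · intro h g hg
    have h1 := hχ g hg
    rw [h g hg] at h1
    have h2 : ζ ^ (χ g).val = ζ ^ (0 : ZMod p).val := by
      rw [ZMod.val_zero, pow_zero]
      have h3 : (1 : Qb) * α = ζ ^ (χ g).val * α := by rw [one_mul]; exact h1
      exact (mul_right_cancel₀ hα0 h3).symm
    exact zeta_pow_val_injective p hζ h2

end Fermat.Agent.PT.Kummer
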