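import Mathlib
import Fermat.Agent.PT.G.SUnit

/-!
# The Selmer group sequence `1 → O_S^× / n → K(S, n) → Cl_S[n] → 1` (G1b of the PT blueprint)

`R` a Dedekind domain with fraction field `K`, `S` a set of primes of `R`, `n ≠ 0`.

* `TS K S` : the group of invertible fractional ideals supported on `S`;
* `ClS K S` : the `S`-class group, invertible fractional ideals modulo principal ideals and
  `S`-supported ideals (`mk_eq_one_iff`: the class of `I` is trivial iff the exponents of `I`
  outside `S` are those of some `x : Kˣ`);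
* `Sel K S n` : the subgroup of `Kˣ` of elements whose exponents outside `S` are divisible by `n`
  (`mem_selmerGroup_iff`: it is the preimage of Mathlib's Selmer group `K⟮S, n⟯`);
* `toClS K S n : Sel K S n →* ClS K S` with kernel the `S`-units times the `n`-th powers
  (`mem_ker_toClS_iff`) and range the `n`-torsion (`mem_range_toClS_iff`);
* `card_selmerGroup` : `#K⟮S, n⟯ = [O_S^× : (O_S^×)^n] * #Cl_S[n]`;
* `card_selmerGroup_numberField` : for a number field containing the `p`-th roots of unity,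
  `p` odd, `S` finite: `#K⟮S, p⟯ = p ^ (r₂ + #S) * #Cl_S[p]`.
-/

set_option autoImplicit false

noncomputable section

namespace Fermat.Agent.PT.SelmerSeq

open IsDedekindDomain FractionalIdeal
open scoped nonZeroDivisors

variable {R : Type*} [CommRing R] [IsDedekindDomain R] (K : Type*) [Field K] [Algebra R K]
  [IsFractionRing R K]

/-! ### Exponents of principal ideals -/

section Count

variable {K}

theorem count_algebraMap (v : HeightOneSpectrum R) {r : R} (hr : r ≠ 0) :
    count K v (spanSingleton R⁰ (algebraMap R K r)) =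
      -WithZero.log (v.valuation K (algebraMap R K r)) := by
  classical
  have hJ : (Ideal.span {r} : Ideal R) ≠ 0 := by
    rw [Ne, Ideal.zero_eq_bot, Ideal.span_singleton_eq_bot]
    exact hr
  rw [← coeIdeal_span_singleton, count_coe K v hJ,
    v.valuation_of_algebraMap, v.intValuation_if_neg hr, WithZero.log_exp, neg_neg]

/-- The exponent of `v` in the fractional ideal `(x)` is `-log` of the `v`-adic valuation. -/
theorem count_spanSingleton (v : HeightOneSpectrum R) {x : K} (hx : x ≠ 0) :
    count K v (spanSingleton R⁰ x) = -WithZero.log (v.valuation K x) := by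
  obtain ⟨r, s, hs, rfl⟩ := IsFractionRing.div_surjective (A := R) x
  have hs0 : s ≠ 0 := nonZeroDivisors.ne_zero hs
  have hs' : algebraMap R K s ≠ 0 := by
    simpa using (IsFractionRing.injective R K).ne hs0
  have hr0 : r ≠ 0 := by
    rintro rfl
    simp at hx
  have h1 : count K v (spanSingleton R⁰ (algebraMap R K r / algebraMap R K s)) +
      count K v (spanSingleton R⁰ (algebraMap R K s)) =
      count K v (spanSingleton R⁰ (algebraMap R K r)) := by
    rw [← count_mul K v (spanSingleton_ne_zero_iff.mpr hx) (spanSingleton_ne_zero_iff.mpr hs'),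
      spanSingleton_mul_spanSingleton, div_mul_cancel₀ _ hs']
  have h2 : WithZero.log (v.valuation K (algebraMap R K r / algebraMap R K s)) +
      WithZero.log (v.valuation K (algebraMap R K s)) =
      WithZero.log (v.valuation K (algebraMap R K r)) := by
    rw [← WithZero.log_mul ((Valuation.ne_zero_iff _).mpr hx) ((Valuation.ne_zero_iff _).mpr hs'),
      ← map_mul, div_mul_cancel₀ _ hs']
  rw [count_algebraMap v hr0, count_algebraMap v hs0] at h1
  linarith

/-- Two nonzero fractional ideals with the same exponents are equal. -/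
theorem eq_of_count_eq {I J : FractionalIdeal R⁰ K} (hI : I ≠ 0) (hJ : J ≠ 0)
    (h : ∀ v : HeightOneSpectrum R, count K v I = count K v J) : I = J := by
  rw [← finprod_heightOneSpectrum_factorization' K hI,
    ← finprod_heightOneSpectrum_factorization' K hJ]
  exact finprod_congr fun v => by rw [h v]

end Count

/-! ### The exponent maps on invertible fractional ideals and on `Kˣ` -/

/-- The exponent of `v` in an invertible fractional ideal. -/
def cnt (v : HeightOneSpectrum R) (I : (FractionalIdeal R⁰ K)ˣ) : ℤ :=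
  count K v (I : FractionalIdeal R⁰ K)

variable {K}

@[simp] theorem cnt_one (v : HeightOneSpectrum R) : cnt K v 1 = 0 := by
  simp [cnt, count_one]

theorem cnt_mul (v : HeightOneSpectrum R) (I J : (FractionalIdeal R⁰ K)ˣ) :
    cnt K v (I * J) = cnt K v I + cnt K v J := by
  simp only [cnt, Units.val_mul]
  exact count_mul K v I.ne_zero J.ne_zero

theorem cnt_inv (v : HeightOneSpectrum R) (I : (FractionalIdeal R⁰ K)ˣ) :
    cnt K v I⁻¹ = -cnt K v I := by
  have h := cnt_mul v I I⁻¹
  rw [mul_inv_cancel, cnt_one] at h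
  linarith

theorem cnt_pow (v : HeightOneSpectrum R) (I : (FractionalIdeal R⁰ K)ˣ) (n : ℕ) :
    cnt K v (I ^ n) = n * cnt K v I := by
  induction n with
  | zero => simp
  | succ k ih => rw [pow_succ, cnt_mul, ih]; push_cast; ring

/-- Two invertible fractional ideals with the same exponents are equal. -/
theorem units_ext_of_cnt {I J : (FractionalIdeal R⁰ K)ˣ}
    (h : ∀ v : HeightOneSpectrum R, cnt K v I = cnt K v J) : I = J :=
  Units.ext (eq_of_count_eq I.ne_zero J.ne_zero h)

variable (K)

/-- The exponent of `v` in the principal ideal `(x)`. -/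
def ordK (v : HeightOneSpectrum R) (x : Kˣ) : ℤ :=
  cnt K v (toPrincipalIdeal R K x)

variable {K}

theorem ordK_eq_count (v : HeightOneSpectrum R) (x : Kˣ) :
    ordK K v x = count K v (spanSingleton R⁰ (x : K)) := by
  rw [ordK, cnt, coe_toPrincipalIdeal]

theorem ordK_eq_neg_log (v : HeightOneSpectrum R) (x : Kˣ) :
    ordK K v x = -WithZero.log (v.valuation K (x : K)) := by
  rw [ordK_eq_count, count_spanSingleton v x.ne_zero]

@[simp] theorem ordK_one (v : HeightOneSpectrum R) : ordK K v 1 = 0 := by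
  simp [ordK]

theorem ordK_mul (v : HeightOneSpectrum R) (x y : Kˣ) :
    ordK K v (x * y) = ordK K v x + ordK K v y := by
  simp only [ordK, map_mul, cnt_mul]

theorem ordK_inv (v : HeightOneSpectrum R) (x : Kˣ) : ordK K v x⁻¹ = -ordK K v x := by
  simp only [ordK, map_inv, cnt_inv]

theorem ordK_pow (v : HeightOneSpectrum R) (x : Kˣ) (n : ℕ) :
    ordK K v (x ^ n) = n * ordK K v x := by
  simp only [ordK, map_pow, cnt_pow]

theorem valuation_eq_one_iff (v : HeightOneSpectrum R) (x : Kˣ) :
    v.valuation K (x : K) = 1 ↔ ordK K v x = 0 := by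
  rw [ordK_eq_neg_log, neg_eq_zero]
  have hne : v.valuation K (x : K) ≠ 0 := (Valuation.ne_zero_iff _).mpr x.ne_zero
  constructor
  · intro h
    rw [h, WithZero.log_one]
  · intro h
    have := WithZero.exp_log hne
    rw [h] at this
    rw [← this]
    rfl

theorem toAdd_valuationOfNeZero (v : HeightOneSpectrum R) (x : Kˣ) :
    Multiplicative.toAdd (v.valuationOfNeZero x) = -ordK K v x := by
  rw [ordK_eq_neg_log, neg_neg, ← v.valuationOfNeZero_eq x]
  rfl

/-! ### `S`-supported ideals and the `S`-class group -/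

variable (K) (S : Set (HeightOneSpectrum R)) (n : ℕ)

/-- The invertible fractional ideals supported on `S`. -/
def TS : Subgroup (FractionalIdeal R⁰ K)ˣ where
  carrier := {I | ∀ v : HeightOneSpectrum R, v ∉ S → cnt K v I = 0}
  one_mem' := fun v _ => cnt_one v
  mul_mem' := fun {I J} hI hJ v hv => by rw [cnt_mul, hI v hv, hJ v hv, add_zero]
  inv_mem' := fun {I} hI v hv => by rw [cnt_inv, hI v hv, neg_zero]

variable {K S} in
theorem mem_TS_iff {I : (FractionalIdeal R⁰ K)ˣ} :
    I ∈ TS K S ↔ ∀ v : HeightOneSpectrum R, v ∉ S → cnt K v I = 0 := Iff.rfl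

/-- The subgroup of invertible fractional ideals which are principal up to an `S`-supported
ideal. -/
def PS : Subgroup (FractionalIdeal R⁰ K)ˣ := TS K S ⊔ (toPrincipalIdeal R K).range

variable {K S} in
theorem mem_PS_iff {I : (FractionalIdeal R⁰ K)ˣ} :
    I ∈ PS K S ↔ ∃ x : Kˣ, ∀ v : HeightOneSpectrum R, v ∉ S → cnt K v I = ordK K v x := by
  rw [PS, Subgroup.mem_sup]
  constructor
  · rintro ⟨T, hT, _, ⟨x, rfl⟩, rfl⟩
    exact ⟨x, fun v hv => by rw [cnt_mul, hT v hv, zero_add, ordK]⟩
  · rintro ⟨x, hx⟩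
    refine ⟨I * (toPrincipalIdeal R K x)⁻¹, fun v hv => ?_, toPrincipalIdeal R K x, ⟨x, rfl⟩, ?_⟩
    · rw [cnt_mul, cnt_inv, hx v hv, ordK, add_neg_cancel]
    · rw [inv_mul_cancel_right]

/-- The `S`-class group: invertible fractional ideals modulo principal ideals and `S`-supported
ideals. -/
abbrev ClS : Type _ := (FractionalIdeal R⁰ K)ˣ ⧸ PS K S

variable {K S} in
/-- The class of `I` in the `S`-class group is trivial iff the exponents of `I` outside `S` are
those of an element of `Kˣ`. -/
theorem mk_eq_one_iff {I : (FractionalIdeal R⁰ K)ˣ} :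
    (QuotientGroup.mk I : ClS K S) = 1 ↔
      ∃ x : Kˣ, ∀ v : HeightOneSpectrum R, v ∉ S → cnt K v I = ordK K v x := by
  rw [QuotientGroup.eq_one_iff, mem_PS_iff]

/-- The `S`-class group is a quotient of the class group, hence finite when the latter is. -/
instance finite_ClS [Finite (ClassGroup R)] : Finite (ClS K S) := by
  have e := ClassGroup.equiv (R := R) K
  have hfin : Finite ((FractionalIdeal R⁰ K)ˣ ⧸ (toPrincipalIdeal R K).range) :=
    Finite.of_equiv _ e.toEquiv
  have hle : (toPrincipalIdeal R K).range ≤ PS K S := le_sup_right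
  refine Finite.of_surjective (QuotientGroup.map _ _ (MonoidHom.id _) hle) ?_
  intro y
  obtain ⟨I, rfl⟩ := QuotientGroup.mk_surjective y
  exact ⟨QuotientGroup.mk I, rfl⟩

/-! ### The Selmer subgroup of `Kˣ` -/

/-- The elements of `Kˣ` whose exponents outside `S` are divisible by `n`. -/
def Sel : Subgroup Kˣ where
  carrier := {x | ∀ v : HeightOneSpectrum R, v ∉ S → (n : ℤ) ∣ ordK K v x}
  one_mem' := fun v _ => by rw [ordK_one]; exact dvd_zero _
  mul_mem' := fun {x y} hx hy v hv => by rw [ordK_mul]; exact dvd_add (hx v hv) (hy v hv)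
  inv_mem' := fun {x} hx v hv => by rw [ordK_inv]; exact (dvd_neg).mpr (hx v hv)

variable {K S n} in
theorem mem_Sel_iff {x : Kˣ} :
    x ∈ Sel K S n ↔ ∀ v : HeightOneSpectrum R, v ∉ S → (n : ℤ) ∣ ordK K v x := Iff.rfl

variable {K S} in
theorem mem_unit_iff {x : Kˣ} :
    x ∈ S.unit K ↔ ∀ v : HeightOneSpectrum R, v ∉ S → ordK K v x = 0 := by
  constructor
  · intro hx v hv
    exact (valuation_eq_one_iff v x).mp (hx v hv)
  · intro hx v hv
    exact (valuation_eq_one_iff v x).mpr (hx v hv)

theorem unit_le_Sel : S.unit K ≤ Sel K S n := fun x hx v hv => by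
  rw [(mem_unit_iff.mp hx) v hv]; exact dvd_zero _

theorem pow_range_le_Sel : (powMonoidHom n : Kˣ →* Kˣ).range ≤ Sel K S n := by
  rintro _ ⟨y, rfl⟩ v hv
  rw [powMonoidHom_apply, ordK_pow]
  exact dvd_mul_right _ _

/-! ### The map to the `S`-class group -/

open Classical in
/-- The exponents of the "`n`-th root outside `S`" of the principal ideal `(x)`. -/
def rootExp (x : Kˣ) (v : HeightOneSpectrum R) : ℤ :=
  if v ∈ S then 0 else ordK K v x / n

theorem rootExp_finite (x : Kˣ) :
    ∀ᶠ v : HeightOneSpectrum R in Filter.cofinite, rootExp K S n x v = 0 := by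
  have h := finite_factors (spanSingleton R⁰ (x : K))
  refine h.mono fun v hv => ?_
  unfold rootExp
  split_ifs
  · rfl
  · rw [ordK_eq_count, hv, Int.zero_ediv]

/-- The fractional ideal `∏_{v ∉ S} v ^ (ord_v x / n)`. -/
def rootIdeal (x : Kˣ) : FractionalIdeal R⁰ K :=
  ∏ᶠ v : HeightOneSpectrum R, (v.asIdeal : FractionalIdeal R⁰ K) ^ rootExp K S n x v

theorem rootIdeal_ne_zero (x : Kˣ) : rootIdeal K S n x ≠ 0 := by
  apply finprod_induction (p := fun I : FractionalIdeal R⁰ K => I ≠ 0)
  · exact one_ne_zero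
  · intro a b ha hb
    exact mul_ne_zero ha hb
  · intro v
    exact zpow_ne_zero _ (coeIdeal_ne_zero.mpr v.ne_bot)

/-- `rootIdeal` as an invertible fractional ideal. -/
def rootUnit (x : Kˣ) : (FractionalIdeal R⁰ K)ˣ := Units.mk0 _ (rootIdeal_ne_zero K S n x)

theorem cnt_rootUnit (x : Kˣ) (v : HeightOneSpectrum R) :
    cnt K v (rootUnit K S n x) = rootExp K S n x v := by
  rw [cnt, rootUnit, Units.val_mk0, rootIdeal]
  exact count_finprod K v _ (rootExp_finite K S n x)

variable {K S n} in
theorem cnt_rootUnit_of_notMem (x : Kˣ) {v : HeightOneSpectrum R} (hv : v ∉ S) :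
    cnt K v (rootUnit K S n x) = ordK K v x / n := by
  rw [cnt_rootUnit, rootExp, if_neg hv]

variable {K S n} in
theorem cnt_rootUnit_of_mem (x : Kˣ) {v : HeightOneSpectrum R} (hv : v ∈ S) :
    cnt K v (rootUnit K S n x) = 0 := by
  rw [cnt_rootUnit, rootExp, if_pos hv]

/-- The homomorphism `K(S, n) → Cl_S`, on the Selmer subgroup of `Kˣ`: the class of the ideal
`𝔞` with `(x) = 𝔞 ^ n` outside `S`. -/
def toClS : Sel K S n →* ClS K S :=
  MonoidHom.mk' (fun x => QuotientGroup.mk (rootUnit K S n (x : Kˣ))) (by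
    intro x y
    rw [← QuotientGroup.mk_mul]
    congr 1
    apply units_ext_of_cnt
    intro v
    rw [cnt_mul, cnt_rootUnit, cnt_rootUnit, cnt_rootUnit]
    unfold rootExp
    split_ifs with hv
    · simp
    · rw [Subgroup.coe_mul, ordK_mul]
      exact Int.add_ediv_of_dvd_left (x.2 v hv))

variable {K S n} in
theorem toClS_apply (x : Sel K S n) :
    toClS K S n x = QuotientGroup.mk (rootUnit K S n (x : Kˣ)) := rfl

variable {K S n} in
/-- Exactness in the middle: the kernel is `O_S^× · (Kˣ)^n`. -/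
theorem toClS_eq_one_iff (hn : n ≠ 0) (x : Sel K S n) :
    toClS K S n x = 1 ↔ ∃ u ∈ S.unit K, ∃ y : Kˣ, (x : Kˣ) = u * y ^ n := by
  rw [toClS_apply, mk_eq_one_iff]
  have hn' : (n : ℤ) ≠ 0 := by exact_mod_cast hn
  constructor
  · rintro ⟨y, hy⟩
    refine ⟨(x : Kˣ) * (y ^ n)⁻¹, ?_, y, by rw [inv_mul_cancel_right]⟩
    rw [mem_unit_iff]
    intro v hv
    have h1 := hy v hv
    rw [cnt_rootUnit_of_notMem _ hv] at h1
    have h2 : (n : ℤ) ∣ ordK K v x := x.2 v hv
    rw [ordK_mul, ordK_inv, ordK_pow, ← h1, Int.mul_ediv_cancel' h2, add_neg_cancel]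
  · rintro ⟨u, hu, y, hxy⟩
    refine ⟨y, fun v hv => ?_⟩
    rw [cnt_rootUnit_of_notMem _ hv, hxy, ordK_mul, ordK_pow, (mem_unit_iff.mp hu) v hv, zero_add]
    exact Int.mul_ediv_cancel_left _ hn'

variable {K S n} in
theorem toClS_pow (x : Sel K S n) : toClS K S n x ^ n = 1 := by
  rw [toClS_apply, ← QuotientGroup.mk_pow, mk_eq_one_iff]
  refine ⟨x, fun v hv => ?_⟩
  rw [cnt_pow, cnt_rootUnit_of_notMem _ hv]
  exact Int.mul_ediv_cancel' (x.2 v hv)

variable {K S n} in
/-- Exactness on the right: every `n`-torsion class is in the range. -/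
theorem exists_toClS_eq (hn : n ≠ 0) (c : ClS K S) (hc : c ^ n = 1) :
    ∃ x : Sel K S n, toClS K S n x = c := by
  have hn' : (n : ℤ) ≠ 0 := by exact_mod_cast hn
  obtain ⟨I, rfl⟩ := QuotientGroup.mk_surjective c
  rw [← QuotientGroup.mk_pow, mk_eq_one_iff] at hc
  obtain ⟨x, hx⟩ := hc
  have hxS : x ∈ Sel K S n := fun v hv => by
    rw [← hx v hv, cnt_pow]
    exact dvd_mul_right _ _
  refine ⟨⟨x, hxS⟩, ?_⟩
  rw [toClS_apply, QuotientGroup.eq]
  refine Subgroup.mem_sup_left fun v hv => ?_
  rw [cnt_mul, cnt_inv, cnt_rootUnit_of_notMem _ hv, ← hx v hv, cnt_pow,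
    Int.mul_ediv_cancel_left _ hn', neg_add_cancel]

variable {K S n} in
theorem mem_range_toClS_iff (hn : n ≠ 0) (c : ClS K S) :
    c ∈ (toClS K S n).range ↔ c ^ n = 1 := by
  constructor
  · rintro ⟨x, rfl⟩
    exact toClS_pow x
  · intro hc
    exact exists_toClS_eq hn c hc

variable {K S n} in
theorem mem_ker_toClS_iff (hn : n ≠ 0) (x : Sel K S n) :
    x ∈ (toClS K S n).ker ↔ (x : Kˣ) ∈ S.unit K ⊔ (powMonoidHom n : Kˣ →* Kˣ).range := by
  rw [MonoidHom.mem_ker, toClS_eq_one_iff hn, Subgroup.mem_sup]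
  constructor
  · rintro ⟨u, hu, y, hxy⟩
    exact ⟨u, hu, y ^ n, ⟨y, rfl⟩, hxy.symm⟩
  · rintro ⟨u, hu, _, ⟨y, rfl⟩, hxy⟩
    exact ⟨u, hu, y, hxy.symm⟩

/-! ### Mathlib's Selmer group and the counting formula -/

variable {K n} in
theorem valuationOfNeZeroMod_eq_one_iff (v : HeightOneSpectrum R) (x : Kˣ) :
    v.valuationOfNeZeroMod n
        (QuotientGroup.mk x : Kˣ ⧸ (powMonoidHom n : Kˣ →* Kˣ).range) = 1 ↔
      (n : ℤ) ∣ ordK K v x := by
  have key : v.valuationOfNeZeroMod n
        (QuotientGroup.mk x : Kˣ ⧸ (powMonoidHom n : Kˣ →* Kˣ).range) =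
      (Int.quotientZMultiplesNatEquivZMod n).toMultiplicative
        (Multiplicative.ofAdd (QuotientAddGroup.mk
          (Multiplicative.toAdd (v.valuationOfNeZero x)))) := rfl
  have h2 : ∀ z : ℤ ⧸ AddSubgroup.zmultiples (n : ℤ),
      (Int.quotientZMultiplesNatEquivZMod n).toMultiplicative (Multiplicative.ofAdd z) = 1 ↔
        z = 0 := by
    intro z
    constructor
    · intro h
      have h' : (Int.quotientZMultiplesNatEquivZMod n) z = 0 := h
      exact (AddEquiv.map_eq_zero_iff _).mp h'
    · intro h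
      rw [h]
      exact map_one _
  rw [key, h2, QuotientAddGroup.eq_zero_iff, Int.mem_zmultiples_iff, toAdd_valuationOfNeZero,
    dvd_neg]

variable {K S n} in
/-- `Sel K S n` is the preimage in `Kˣ` of Mathlib's Selmer group `K⟮S, n⟯`. -/
theorem mk_mem_selmerGroup_iff (x : Kˣ) :
    (QuotientGroup.mk x : Kˣ ⧸ (powMonoidHom n : Kˣ →* Kˣ).range) ∈
        selmerGroup (R := R) (K := K) (S := S) (n := n) ↔ x ∈ Sel K S n := by
  constructor
  · intro h v hv
    exact (valuationOfNeZeroMod_eq_one_iff v x).mp (h v hv)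
  · intro h v hv
    exact (valuationOfNeZeroMod_eq_one_iff v x).mpr (h v hv)

/-- The projection of the Selmer subgroup of `Kˣ` onto Mathlib's Selmer group. -/
def selMk : Sel K S n →* selmerGroup (R := R) (K := K) (S := S) (n := n) where
  toFun x := ⟨QuotientGroup.mk (x : Kˣ), (mk_mem_selmerGroup_iff _).mpr x.2⟩
  map_one' := rfl
  map_mul' _ _ := rfl

theorem selMk_surjective : Function.Surjective (selMk K S n) := by
  rintro ⟨y, hy⟩
  obtain ⟨x, rfl⟩ := QuotientGroup.mk_surjective y
  exact ⟨⟨x, (mk_mem_selmerGroup_iff x).mp hy⟩, rfl⟩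

theorem selMk_ker :
    (selMk K S n).ker = ((powMonoidHom n : Kˣ →* Kˣ).range).subgroupOf (Sel K S n) := by
  ext x
  rw [MonoidHom.mem_ker, Subgroup.mem_subgroupOf, Subtype.ext_iff]
  exact QuotientGroup.eq_one_iff _

theorem card_selmerGroup_eq_relIndex :
    Nat.card (selmerGroup (R := R) (K := K) (S := S) (n := n)) =
      ((powMonoidHom n : Kˣ →* Kˣ).range).relIndex (Sel K S n) := by
  rw [Subgroup.relIndex, ← selMk_ker, Subgroup.index_ker,
    MonoidHom.range_eq_top.mpr (selMk_surjective K S n), Subgroup.card_top]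

/-- The index of the `n`-th powers of `Kˣ` in the `S`-units is the index of the `n`-th powers of
`S`-units. -/
theorem relIndex_pow_range_unit (hn : n ≠ 0) :
    ((powMonoidHom n : Kˣ →* Kˣ).range).relIndex (S.unit K) =
      (powMonoidHom n : S.unit K →* S.unit K).range.index := by
  rw [Subgroup.relIndex]
  congr 1
  ext x
  simp only [Subgroup.mem_subgroupOf, MonoidHom.mem_range, powMonoidHom_apply]
  constructor
  · rintro ⟨y, hy⟩
    have hyU : y ∈ S.unit K := by
      rw [mem_unit_iff]
      intro v hv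
      have h := (mem_unit_iff.mp x.2) v hv
      rw [← hy, ordK_pow] at h
      rcases mul_eq_zero.mp h with h | h
      · exact absurd (by exact_mod_cast h) hn
      · exact h
    exact ⟨⟨y, hyU⟩, Subtype.ext hy⟩
  · rintro ⟨y, rfl⟩
    exact ⟨y, rfl⟩

/-- **The counting formula** `#K(S, n) = [O_S^× : (O_S^×)^n] · #Cl_S[n]`. -/
theorem card_selmerGroup (hn : n ≠ 0) :
    Nat.card (selmerGroup (R := R) (K := K) (S := S) (n := n)) =
      (powMonoidHom n : S.unit K →* S.unit K).range.index *
        Nat.card {c : ClS K S // c ^ n = 1} := by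
  have hKnL : (powMonoidHom n : Kˣ →* Kˣ).range ≤ Sel K S n := pow_range_le_Sel K S n
  have hUL : S.unit K ≤ Sel K S n := unit_le_Sel K S n
  have h1 := Subgroup.relIndex_mul_relIndex (powMonoidHom n : Kˣ →* Kˣ).range
    (S.unit K ⊔ (powMonoidHom n : Kˣ →* Kˣ).range) (Sel K S n) le_sup_right (sup_le hUL hKnL)
  have h2 : ((powMonoidHom n : Kˣ →* Kˣ).range).relIndex
      (S.unit K ⊔ (powMonoidHom n : Kˣ →* Kˣ).range) =
      ((powMonoidHom n : Kˣ →* Kˣ).range).relIndex (S.unit K) :=
    Subgroup.relIndex_sup_right (S.unit K) _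
  have h4 : (S.unit K ⊔ (powMonoidHom n : Kˣ →* Kˣ).range).relIndex (Sel K S n) =
      Nat.card {c : ClS K S // c ^ n = 1} := by
    have hker : (S.unit K ⊔ (powMonoidHom n : Kˣ →* Kˣ).range).subgroupOf (Sel K S n) =
        (toClS K S n).ker := by
      ext x
      rw [Subgroup.mem_subgroupOf, mem_ker_toClS_iff hn]
    rw [Subgroup.relIndex, hker, Subgroup.index_ker]
    exact Nat.card_congr (Equiv.subtypeEquivRight fun c => mem_range_toClS_iff hn c)
  rw [card_selmerGroup_eq_relIndex, ← h1, h2, relIndex_pow_range_unit K S n hn, h4]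

/-- The `n`-torsion of the `S`-class group, as a subtype and as a kernel. -/
theorem card_torsion_ClS :
    Nat.card {c : ClS K S // c ^ n = 1} =
      Nat.card (powMonoidHom (α := ClS K S) n).ker :=
  Nat.card_congr (Equiv.subtypeEquivRight fun _ => Iff.rfl)

/-- For a finite `S`-class group, `#Cl_S[n] = #(Cl_S / n)`. -/
theorem card_torsion_ClS_eq_index [Finite (ClassGroup R)] :
    Nat.card {c : ClS K S // c ^ n = 1} =
      (powMonoidHom (α := ClS K S) n).range.index := by
  rw [card_torsion_ClS, SUnit.index_pow_range_of_finite]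

/-- For a finite `S`-class group and `p` prime, `#Cl_S[p]` is a power of `p`. -/
theorem exists_card_torsion_ClS_eq_pow [Finite (ClassGroup R)] (p : ℕ) [Fact p.Prime] :
    ∃ c : ℕ, Nat.card {x : ClS K S // x ^ p = 1} = p ^ c := by
  rw [card_torsion_ClS]
  have hP : IsPGroup p (powMonoidHom (α := ClS K S) p).ker := by
    intro x
    refine ⟨1, ?_⟩
    rw [pow_one]
    exact Subtype.ext x.2
  exact (IsPGroup.iff_card).mp hP

end Fermat.Agent.PT.SelmerSeq

/-! ### Number fields -/

namespace Fermat.Agent.PT.SelmerSeq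

open NumberField IsDedekindDomain

variable (K : Type*) [Field K] [NumberField K] (S : Set (HeightOneSpectrum (𝓞 K)))

/-- **G1 of the PT blueprint.** For a number field `K` containing the `p`-th roots of unity, `p`
odd, and a finite set `S` of primes: `#K(S, p) = p ^ (r₂ + #S) · #Cl_S[p]`. -/
theorem card_selmerGroup_numberField [Finite S] (p : ℕ) [Fact p.Prime] (hp2 : p ≠ 2) {ζ : K}
    (hζ : IsPrimitiveRoot ζ p) :
    Nat.card (selmerGroup (R := 𝓞 K) (K := K) (S := S) (n := p)) =
      p ^ (InfinitePlace.nrComplexPlaces K + Nat.card S) *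
        Nat.card {c : ClS K S // c ^ p = 1} := by
  rw [card_selmerGroup K S p (Fact.out : p.Prime).ne_zero,
    SUnit.index_pow_range_unit_of_isPrimitiveRoot_of_odd K S p hp2 hζ]

/-- **G1 of the PT blueprint**, exponent form: with `p ^ c = #Cl_S[p] = #(Cl_S / p)`,
`#K(S, p) = p ^ (r₂ + #S + c)`. -/
theorem exists_card_selmerGroup_numberField [Finite S] (p : ℕ) [Fact p.Prime] (hp2 : p ≠ 2)
    {ζ : K} (hζ : IsPrimitiveRoot ζ p) :
    ∃ c : ℕ, Nat.card {x : ClS K S // x ^ p = 1} = p ^ c ∧
      (powMonoidHom (α := ClS K S) p).range.index = p ^ c ∧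
      Nat.card (selmerGroup (R := 𝓞 K) (K := K) (S := S) (n := p)) =
        p ^ (InfinitePlace.nrComplexPlaces K + Nat.card S + c) := by
  obtain ⟨c, hc⟩ := exists_card_torsion_ClS_eq_pow K S p
  refine ⟨c, hc, ?_, ?_⟩
  · rw [← card_torsion_ClS_eq_index, hc]
  · rw [card_selmerGroup_numberField K S p hp2 hζ, hc, ← pow_add]

end Fermat.Agent.PT.SelmerSeq
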