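import Mathlib
import Fermat.Agent.PT.G.KumSelmer
import Fermat.Agent.PT.G.SelmerSeq
import Fermat.Agent.Lib.Frob.Bridge

/-!
# Bridge between valuation subrings of `ℚ̄` and primes of number fields; the count of
Kummer characters (PT, layer G, "G1-BRIDGE" and "G1-COUNT")

`K` is an intermediate field of `ℚ̄/ℚ`, finite over `ℚ`.

* `primeOf K A q hq hA` : the prime of `𝓞 K` cut out by a valuation subring `A` of `ℚ̄` over `q`;
* `valuation_eq_zpow_ordK` : if the value group of `A` on `K` is `q ^ ℤ` (e.g. `K` a level for `S`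
  and `q ∉ S`), then `A.valuation x = A.valuation (q ^ ord_v x)` for `v = primeOf K A`;
* `primesOver K S` : the primes of `𝓞 K` over the rational primes in `S`;
* `selmer_condition_iff` : the valuation-subring form of the Selmer condition used in
  `PT/G/KumSelmer` is membership in `SelmerSeq.Sel K (primesOver K S) p`.
-/

set_option autoImplicit false
set_option linter.style.haveILetI false
set_option linter.unusedSectionVars false

namespace Fermat.Agent.PT.KumBridge

local notation "Qb" => AlgebraicClosure ℚ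
local notation "GQ" => (AlgebraicClosure ℚ ≃ₐ[ℚ] AlgebraicClosure ℚ)

open IsDedekindDomain NumberField Fermat.Agent.Lib.FrobeniusExists

variable (K : IntermediateField ℚ Qb) [NumberField K]

omit [NumberField K] in
/-- Algebraic integers of `K` lie in every valuation subring of `ℚ̄`. -/
theorem valuation_algebraMap_le_one (A : ValuationSubring Qb) (y : 𝓞 K) :
    A.valuation (algebraMap (𝓞 K) Qb y) ≤ 1 := by
  apply val_le_one_of_isIntegral
  have h1 : IsIntegral ℤ (algebraMap (𝓞 K) K y) := RingOfIntegers.isIntegral_coe y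
  have h2 := h1.algebraMap (B := Qb)
  rwa [← IsScalarTower.algebraMap_apply] at h2

/-- The prime ideal of `𝓞 K` cut out by a valuation subring of `ℚ̄`. -/
def primeIdeal (A : ValuationSubring Qb) : Ideal (𝓞 K) where
  carrier := {y | A.valuation (algebraMap (𝓞 K) Qb y) < 1}
  add_mem' := by
    intro a b ha hb
    simp only [Set.mem_ofPred_eq, map_add] at ha hb ⊢
    exact lt_of_le_of_lt (A.valuation.map_add _ _) (max_lt ha hb)
  zero_mem' := by simp
  smul_mem' := by
    intro c y hy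
    simp only [Set.mem_ofPred_eq, smul_eq_mul, map_mul] at hy ⊢
    rw [mul_comm]
    exact mul_lt_one_of_lt_of_le hy (valuation_algebraMap_le_one K A c)

theorem mem_primeIdeal_iff (A : ValuationSubring Qb) (y : 𝓞 K) :
    y ∈ primeIdeal K A ↔ A.valuation (algebraMap (𝓞 K) Qb y) < 1 := Iff.rfl

theorem primeIdeal_isPrime (A : ValuationSubring Qb) : (primeIdeal K A).IsPrime := by
  refine ⟨?_, ?_⟩
  · rw [Ne, Ideal.eq_top_iff_one, mem_primeIdeal_iff]
    simp
  · intro a b hab
    rw [mem_primeIdeal_iff, map_mul, map_mul] at hab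
    by_contra hcon
    rw [not_or, mem_primeIdeal_iff, mem_primeIdeal_iff, not_lt, not_lt] at hcon
    have ha1 : A.valuation (algebraMap _ Qb a) = 1 :=
      le_antisymm (valuation_algebraMap_le_one K A a) hcon.1
    have hb1 : A.valuation (algebraMap _ Qb b) = 1 :=
      le_antisymm (valuation_algebraMap_le_one K A b) hcon.2
    rw [ha1, hb1, one_mul] at hab
    exact lt_irrefl _ hab

theorem natCast_mem_primeIdeal (A : ValuationSubring Qb) {q : ℕ} (hA : A.LiesOverPrime q) :
    ((q : ℕ) : 𝓞 K) ∈ primeIdeal K A := by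
  rw [mem_primeIdeal_iff, map_natCast]
  exact A.mem_nonunits_iff.mp hA

theorem primeIdeal_ne_bot (A : ValuationSubring Qb) {q : ℕ} (hq : q ≠ 0)
    (hA : A.LiesOverPrime q) : primeIdeal K A ≠ ⊥ := by
  intro h
  have h1 := natCast_mem_primeIdeal K A hA
  rw [h, Ideal.mem_bot] at h1
  exact hq (by exact_mod_cast h1)

/-- The prime of `𝓞 K` below a valuation subring `A` of `ℚ̄` lying over `q ≠ 0`. -/
def primeOf (A : ValuationSubring Qb) {q : ℕ} (hq : q ≠ 0) (hA : A.LiesOverPrime q) :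
    HeightOneSpectrum (𝓞 K) :=
  ⟨primeIdeal K A, primeIdeal_isPrime K A, primeIdeal_ne_bot K A hq hA⟩

theorem mem_primeOf_iff (A : ValuationSubring Qb) {q : ℕ} (hq : q ≠ 0) (hA : A.LiesOverPrime q)
    (y : 𝓞 K) :
    y ∈ (primeOf K A hq hA).asIdeal ↔ A.valuation (algebraMap (𝓞 K) Qb y) < 1 := Iff.rfl

section Compare

variable (A : ValuationSubring Qb) {q : ℕ} (hq : q ≠ 0) (hA : A.LiesOverPrime q)

/-- The valuation ring of `primeOf K A` is contained in `A`. -/
theorem valuation_le_one_of_primeOf (z : K) (hz : (primeOf K A hq hA).valuation K z ≤ 1) :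
    A.valuation (algebraMap K Qb z) ≤ 1 := by
  obtain ⟨n, d, hnd⟩ := (primeOf K A hq hA).exists_primeCompl_mul_eq_of_integer z hz
  have hd : A.valuation (algebraMap _ Qb (d : 𝓞 K)) = 1 := by
    refine le_antisymm (valuation_algebraMap_le_one K A _) (not_lt.mp fun h => ?_)
    exact d.2 ((mem_primeOf_iff K A hq hA _).mpr h)
  have h1 := congrArg (fun t => A.valuation (algebraMap K Qb t)) hnd
  simp only [map_mul] at h1
  rw [← IsScalarTower.algebraMap_apply, ← IsScalarTower.algebraMap_apply, hd, mul_one] at h1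
  rw [h1]
  exact valuation_algebraMap_le_one K A n

theorem valuation_eq_one_of_primeOf (z : K) (hz : (primeOf K A hq hA).valuation K z = 1) :
    A.valuation (algebraMap K Qb z) = 1 := by
  refine le_antisymm (valuation_le_one_of_primeOf K A hq hA z hz.le) ?_
  have h1 := valuation_le_one_of_primeOf K A hq hA z⁻¹ (by rw [map_inv₀, hz, inv_one])
  rw [map_inv₀, map_inv₀] at h1
  have hne : A.valuation (algebraMap K Qb z) ≠ 0 := by
    rw [Valuation.ne_zero_iff]
    intro h
    have := (FaithfulSMul.algebraMap_injective K Qb) (h.trans (map_zero _).symm)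
    rw [this, map_zero] at hz
    exact zero_ne_one hz
  exact (inv_le_one₀ (zero_lt_iff.mpr hne)).mp h1

open Fermat.Agent.PT.SelmerSeq in
/-- For `z ∈ Kˣ` and a uniformizer `π` of `v = primeOf K A`:
`A.valuation z = A.valuation π ^ ord_v z`. -/
theorem valuation_eq_zpow_uniformizer {π : K}
    (hπ : (primeOf K A hq hA).valuation K π = WithZero.exp (-1 : ℤ)) (z : Kˣ) :
    A.valuation (algebraMap K Qb (z : K))
      = A.valuation (algebraMap K Qb π) ^ (ordK K (primeOf K A hq hA) z) := by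
  set v := primeOf K A hq hA with hv
  have hz0 : v.valuation K (z : K) ≠ 0 := (Valuation.ne_zero_iff _).mpr z.ne_zero
  have hπ0 : π ≠ 0 := by
    rintro rfl
    rw [map_zero] at hπ
    exact WithZero.coe_ne_zero hπ.symm
  have hπ0' : algebraMap K Qb π ≠ 0 := by
    rwa [Ne, map_eq_zero_iff _ (FaithfulSMul.algebraMap_injective K Qb)]
  have hord : ordK K v z = -WithZero.log (v.valuation K (z : K)) := ordK_eq_neg_log v z
  have h1 : v.valuation K ((z : K) * (π ^ (ordK K v z))⁻¹) = 1 := by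
    rw [map_mul, map_inv₀, map_zpow₀, hπ, hord, ← WithZero.exp_zsmul]
    have : v.valuation K (z : K) = WithZero.exp (WithZero.log (v.valuation K (z : K))) :=
      (WithZero.exp_log hz0).symm
    conv_lhs => rw [this]
    rw [← WithZero.exp_neg, ← WithZero.exp_add, WithZero.exp_eq_one]
    simp
  have h2 := valuation_eq_one_of_primeOf K A hq hA _ h1
  rw [map_mul, map_inv₀, map_zpow₀, map_mul, map_inv₀, map_zpow₀] at h2
  have hne : A.valuation (algebraMap K Qb π) ^ (ordK K v z) ≠ 0 :=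
    zpow_ne_zero _ ((Valuation.ne_zero_iff _).mpr hπ0')
  exact (mul_inv_eq_one₀ hne).mp h2

open Fermat.Agent.PT.SelmerSeq in
/-- **Bridge.** If the value group of `A` on `K` is generated by the value of `q` (`K` unramified
at `A`), then `A.valuation x = A.valuation (q ^ ord_v x)` for the prime `v = primeOf K A`. -/
theorem valuation_eq_zpow_ordK
    (hval : ∀ x : K, x ≠ 0 → ∃ n : ℤ, A.valuation (algebraMap K Qb x) = A.valuation ((q : Qb) ^ n))
    (z : Kˣ) :
    A.valuation (algebraMap K Qb (z : K))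
      = A.valuation ((q : Qb) ^ (ordK K (primeOf K A hq hA) z)) := by
  set v := primeOf K A hq hA with hv
  obtain ⟨π, hπ⟩ := v.valuation_exists_uniformizer K
  have hπ0 : π ≠ 0 := by
    rintro rfl
    rw [map_zero] at hπ
    exact WithZero.coe_ne_zero hπ.symm
  have hπ0' : algebraMap K Qb π ≠ 0 := by
    rwa [Ne, map_eq_zero_iff _ (FaithfulSMul.algebraMap_injective K Qb)]
  set t := A.valuation (algebraMap K Qb π) with ht
  have ht0 : 0 < t := zero_lt_iff.mpr ((Valuation.ne_zero_iff _).mpr hπ0')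
  have hqK0 : ((q : ℕ) : K) ≠ 0 := by exact_mod_cast hq
  have hvq : A.valuation ((q : ℕ) : Qb) < 1 := A.mem_nonunits_iff.mp hA
  -- the value of `q` in terms of `t`
  have h1 := valuation_eq_zpow_uniformizer K A hq hA hπ (Units.mk0 _ hqK0)
  rw [Units.val_mk0, map_natCast, ← ht] at h1
  set e := ordK K v (Units.mk0 _ hqK0) with he
  -- `t ≤ 1`, hence `t < 1`
  have ht1 : t ≤ 1 := valuation_le_one_of_primeOf K A hq hA π (by
    rw [hπ, ← WithZero.exp_zero, WithZero.exp_le_exp]; norm_num)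
  have ht1' : t ≠ 1 := by
    intro h
    rw [h, one_zpow] at h1
    exact (ne_of_lt hvq) h1
  -- the value of `π` is a power of the value of `q`
  obtain ⟨n, hn⟩ := hval π hπ0
  rw [← ht, map_zpow₀, h1, ← zpow_mul] at hn
  have hen : e * n = 1 := by
    have := zpow_right_injective₀ ht0 ht1' (a₁ := 1) (a₂ := e * n) (by simpa using hn)
    exact this.symm
  have he1 : e = 1 := by
    rcases Int.eq_one_or_neg_one_of_mul_eq_one hen with h | h
    · exact h
    · exfalso
      rw [h, zpow_neg, zpow_one] at h1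
      have : 1 ≤ t⁻¹ := (one_le_inv₀ ht0).mpr ht1
      exact (not_le.mpr hvq) (h1 ▸ this)
  rw [he1, zpow_one] at h1
  rw [valuation_eq_zpow_uniformizer K A hq hA hπ z, ← ht, map_zpow₀, h1]

end Compare


section PrimesOver

/-- The primes of `𝓞 K` lying over the rational primes in `S`. -/
def primesOver (S : Finset Nat.Primes) : Set (HeightOneSpectrum (𝓞 K)) :=
  {v | ∃ q ∈ S, (((q : ℕ) : ℕ) : 𝓞 K) ∈ v.asIdeal}

theorem mem_primesOver_iff (S : Finset Nat.Primes) (v : HeightOneSpectrum (𝓞 K)) :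
    v ∈ primesOver K S ↔ ∃ q ∈ S, (((q : ℕ) : ℕ) : 𝓞 K) ∈ v.asIdeal := Iff.rfl

theorem finite_primesOver (S : Finset Nat.Primes) : (primesOver K S).Finite := by
  have h : primesOver K S ⊆ ⋃ q ∈ S, {v : HeightOneSpectrum (𝓞 K) |
      v.asIdeal ∣ Ideal.span {(((q : ℕ) : ℕ) : 𝓞 K)}} := by
    rintro v ⟨q, hq, hv⟩
    simp only [Set.mem_iUnion, Set.mem_ofPred_eq, exists_prop]
    exact ⟨q, hq, by rw [Ideal.dvd_span_singleton]; exact hv⟩
  refine Set.Finite.subset (Set.Finite.biUnion S.finite_toSet fun q _ => ?_) h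
  apply Ideal.finite_factors
  rw [Ne, Ideal.zero_eq_bot, Ideal.span_singleton_eq_bot]
  exact_mod_cast q.2.ne_zero

instance finite_primesOver_subtype (S : Finset Nat.Primes) : Finite (primesOver K S) :=
  (finite_primesOver K S).to_subtype

/-- A valuation subring over a prime `q ∉ S` cuts out a prime of `𝓞 K` outside `primesOver K S`. -/
theorem primeOf_notMem_primesOver (S : Finset Nat.Primes) (A : ValuationSubring Qb)
    (q : Nat.Primes) (hqS : q ∉ S) (hA : A.LiesOverPrime q) :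
    primeOf K A q.2.ne_zero hA ∉ primesOver K S := by
  rintro ⟨q', hq', hmem⟩
  have hne : q' ≠ q := fun h => hqS (h ▸ hq')
  have h1 : A.valuation (((q' : ℕ) : ℕ) : Qb) < 1 := by
    have := (mem_primeOf_iff K A q.2.ne_zero hA _).mp hmem
    rwa [map_natCast] at this
  have h2 : A.valuation (((q : ℕ) : ℕ) : Qb) < 1 := A.mem_nonunits_iff.mp hA
  have hcop : Nat.Coprime (q' : ℕ) (q : ℕ) :=
    (Nat.coprime_primes q'.2 q.2).mpr fun h => hne (Subtype.ext h)
  obtain ⟨a, b, hab⟩ := (Nat.isCoprime_iff_coprime.mpr hcop)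
  have hint : ∀ n : ℤ, A.valuation ((n : ℤ) : Qb) ≤ 1 := fun n =>
    (A.valuation_le_one_iff _).mpr (intCast_mem A n)
  have h3 : A.valuation (((a * ((q' : ℕ) : ℤ) + b * ((q : ℕ) : ℤ) : ℤ)) : Qb) < 1 := by
    push_cast
    refine lt_of_le_of_lt (A.valuation.map_add _ _) (max_lt ?_ ?_)
    · rw [map_mul, mul_comm]
      exact mul_lt_one_of_lt_of_le h1 (hint a)
    · rw [map_mul, mul_comm]
      exact mul_lt_one_of_lt_of_le h2 (hint b)
  rw [hab] at h3
  simp at h3

/-- Every prime of `𝓞 K` is cut out by a valuation subring of `ℚ̄` over a rational prime. -/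
theorem exists_primeOf_eq (v : HeightOneSpectrum (𝓞 K)) :
    ∃ (q : Nat.Primes) (A : ValuationSubring Qb) (hA : A.LiesOverPrime q),
      primeOf K A q.2.ne_zero hA = v := by
  haveI : v.asIdeal.IsMaximal := v.isMaximal
  -- the residue characteristic
  haveI : Finite (𝓞 K ⧸ v.asIdeal) := Ideal.finiteQuotientOfFreeOfNeBot v.asIdeal v.ne_bot
  letI : Field (𝓞 K ⧸ v.asIdeal) := Ideal.Quotient.field v.asIdeal
  obtain ⟨q, hq⟩ := CharP.exists (𝓞 K ⧸ v.asIdeal)
  have hqprime : q.Prime := CharP.char_is_prime (𝓞 K ⧸ v.asIdeal) q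
  have hqmem : ((q : ℕ) : 𝓞 K) ∈ v.asIdeal := by
    rw [← Ideal.Quotient.eq_zero_iff_mem, map_natCast]
    exact CharP.cast_eq_zero _ q
  obtain ⟨A, hAspec⟩ := Fermat.Agent.Lib.Frob.exists_valuationSubring_over K v.asIdeal
  have hA : A.LiesOverPrime q := by
    have := (hAspec ((q : ℕ) : 𝓞 K)).2.mp hqmem
    simpa [ValuationSubring.LiesOverPrime] using this
  refine ⟨⟨q, hqprime⟩, A, hA, ?_⟩
  apply HeightOneSpectrum.ext
  ext y
  rw [mem_primeOf_iff, ← A.mem_nonunits_iff, (hAspec y).2]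
  rfl

end PrimesOver

section Selmer

open Fermat.Agent.PT.SelmerSeq Fermat.Agent.PT.Kummer

/-- **The Selmer condition in the two languages.** For a level `K` for `S` and `a ∈ Kˣ`:
"at every valuation subring `A` of `ℚ̄` over a prime `q ∉ S` the value of `a` is that of
`q ^ (p n)`" iff `p ∣ ord_v a` for every prime `v` of `𝓞 K` not over `S`. -/
theorem selmer_condition_iff (S : Finset Nat.Primes) (hK : K.IsUnramifiedOutside S) (p : ℕ)
    (a : Kˣ) :
    (∀ q : Nat.Primes, q ∉ S → ∀ A : ValuationSubring Qb, A.LiesOverPrime q →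
        ∃ n : ℤ, A.valuation (((a : K) : Qb)) = A.valuation (((q : ℕ) : Qb) ^ ((p : ℤ) * n))) ↔
      a ∈ Sel K (primesOver K S) p := by
  have hval : ∀ (q : Nat.Primes), q ∉ S → ∀ (A : ValuationSubring Qb) (hA : A.LiesOverPrime q)
      (z : Kˣ), A.valuation (algebraMap K Qb (z : K))
        = A.valuation (((q : ℕ) : Qb) ^ (ordK K (primeOf K A q.2.ne_zero hA) z)) := by
    intro q hq A hA z
    exact valuation_eq_zpow_ordK K A q.2.ne_zero hA
      (fun x hx => exists_zpow_valuation_eq_of_level hK x.2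
        (fun h => hx (Subtype.ext h)) q hq A hA) z
  have hinj : ∀ (q : Nat.Primes) (A : ValuationSubring Qb), A.LiesOverPrime q → ∀ m n : ℤ,
      A.valuation (((q : ℕ) : Qb) ^ m) = A.valuation (((q : ℕ) : Qb) ^ n) → m = n := by
    intro q A hA m n h
    have h1 : A.valuation (((q : ℕ) : ℕ) : Qb) < 1 := A.mem_nonunits_iff.mp hA
    have h0 : 0 < A.valuation (((q : ℕ) : ℕ) : Qb) :=
      zero_lt_iff.mpr ((Valuation.ne_zero_iff _).mpr (by exact_mod_cast q.2.ne_zero))
    rw [map_zpow₀, map_zpow₀] at h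
    exact zpow_right_injective₀ h0 (ne_of_lt h1) h
  constructor
  · intro h v hv
    obtain ⟨q, A, hA, rfl⟩ := exists_primeOf_eq K v
    have hqS : q ∉ S := fun hq => hv ⟨q, hq, natCast_mem_primeIdeal K A hA⟩
    obtain ⟨n, hn⟩ := h q hqS A hA
    have h1 := hval q hqS A hA a
    have h2 : ordK K (primeOf K A q.2.ne_zero hA) a = (p : ℤ) * n :=
      hinj q A hA _ _ (h1.symm.trans hn)
    exact ⟨n, h2⟩
  · intro h q hqS A hA
    obtain ⟨n, hn⟩ := h (primeOf K A q.2.ne_zero hA) (primeOf_notMem_primesOver K S A q hqS hA)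
    exact ⟨n, by rw [← hn]; exact hval q hqS A hA a⟩

end Selmer


section Count

open Fermat.Agent.PT.SelmerSeq Fermat.Agent.PT.Kummer groupCohomology

variable (S : Finset Nat.Primes) (p : ℕ)

omit [NumberField K] in
/-- The group of `S`-level characters of `Gal(ℚ̄/K)` with values in `ℤ/p`: additive maps which
are constant on the cosets of the fixing subgroup of some level for `S`. -/
def kummerChars : AddSubgroup (K.fixingSubgroup → ZMod p) where
  carrier := {χ | (∀ g h : K.fixingSubgroup, χ (g * h) = χ g + χ h) ∧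
    ∃ F : IntermediateField ℚ Qb, F.IsUnramifiedOutside S ∧
      ∀ g s : K.fixingSubgroup, (s : GQ) ∈ F.fixingSubgroup → χ (g * s) = χ g}
  zero_mem' := ⟨fun _ _ => by simp, ⊥, IntermediateField.isUnramifiedOutside_bot S,
    fun _ _ _ => rfl⟩
  add_mem' := by
    rintro χ χ' ⟨h1, F, hF, h2⟩ ⟨h1', F', hF', h2'⟩
    refine ⟨fun g h => ?_, F ⊔ F', hF.sup hF', fun g s hs => ?_⟩
    · simp only [Pi.add_apply, h1, h1']
      abel
    · rw [IntermediateField.fixingSubgroup_sup] at hs
      simp only [Pi.add_apply, h2 g s hs.1, h2' g s hs.2]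
  neg_mem' := by
    rintro χ ⟨h1, F, hF, h2⟩
    refine ⟨fun g h => ?_, F, hF, fun g s hs => ?_⟩
    · simp only [Pi.neg_apply, h1]
      abel
    · simp only [Pi.neg_apply, h2 g s hs]

omit [NumberField K] in
theorem mem_kummerChars_iff (χ : K.fixingSubgroup → ZMod p) :
    χ ∈ kummerChars K S p ↔ (∀ g h : K.fixingSubgroup, χ (g * h) = χ g + χ h) ∧
      ∃ F : IntermediateField ℚ Qb, F.IsUnramifiedOutside S ∧
        ∀ g s : K.fixingSubgroup, (s : GQ) ∈ F.fixingSubgroup → χ (g * s) = χ g := Iff.rfl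

open Classical in
/-- Extension by zero of a function on `Gal(ℚ̄/K)` to `Gal(ℚ̄/ℚ)`. -/
noncomputable def extendChar (χ : K.fixingSubgroup → ZMod p) : GQ → ZMod p :=
  fun g => if h : g ∈ K.fixingSubgroup then χ ⟨g, h⟩ else 0

omit [NumberField K] in
theorem extendChar_of_mem (χ : K.fixingSubgroup → ZMod p) {g : GQ} (hg : g ∈ K.fixingSubgroup) :
    extendChar K p χ g = χ ⟨g, hg⟩ := dif_pos hg

/-- `χ` is the Kummer character of `a`: `g α = ζ ^ χ(g) · α` on `Gal(ℚ̄/K)` for a `p`-th root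
`α` of `a`. -/
def KumRel (ζ : Qb) (χ : K.fixingSubgroup → ZMod p) (a : Kˣ) : Prop :=
  ∃ α : Qb, α ^ p = ((a : K) : Qb) ∧ ∀ g : K.fixingSubgroup, (g : GQ) α = ζ ^ (χ g).val * α

variable [Fact p.Prime]

/-- Every `S`-level character is the Kummer character of an element of the Selmer subgroup. -/
theorem exists_kumRel_of_mem (hK : K.IsUnramifiedOutside S) {ζ : Qb} (hζ : IsPrimitiveRoot ζ p)
    (hζK : ζ ∈ K) {χ : K.fixingSubgroup → ZMod p} (hχ : χ ∈ kummerChars K S p) :
    ∃ a : Kˣ, a ∈ Sel K (primesOver K S) p ∧ KumRel K p ζ χ a := by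
  have hp : p.Prime := Fact.out
  obtain ⟨h1, F, hF, h2⟩ := hχ
  obtain ⟨a, haK, ha0, hsel, hroot⟩ := exists_selmer_of_character p S hK hζ hζK
    (extendChar K p χ)
    (fun g hg h hh => by
      rw [extendChar_of_mem K p χ hg, extendChar_of_mem K p χ hh,
        extendChar_of_mem K p χ (K.fixingSubgroup.mul_mem hg hh)]
      exact h1 ⟨g, hg⟩ ⟨h, hh⟩)
    hF
    (fun g hg s hs hsF => by
      rw [extendChar_of_mem K p χ hg, extendChar_of_mem K p χ (K.fixingSubgroup.mul_mem hg hs)]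
      exact h2 ⟨g, hg⟩ ⟨s, hs⟩ hsF)
  have ha0' : (⟨a, haK⟩ : K) ≠ 0 := fun h => ha0 (congrArg Subtype.val h)
  refine ⟨Units.mk0 ⟨a, haK⟩ ha0', ?_, ?_⟩
  · exact (selmer_condition_iff K S hK p _).mp hsel
  · obtain ⟨α, hα⟩ := IsAlgClosed.exists_pow_nat_eq a hp.pos
    refine ⟨α, hα, fun g => ?_⟩
    have := (hroot α hα).2 g g.2
    rwa [extendChar_of_mem K p χ g.2] at this

/-- Every element of the Selmer subgroup has an `S`-level Kummer character. -/
theorem exists_mem_kumRel (hpS : ExtCitation.pPrime p ∈ S) (hK : K.IsUnramifiedOutside S)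
    {ζ : Qb} (hζ : IsPrimitiveRoot ζ p) (hζK : ζ ∈ K) {a : Kˣ}
    (ha : a ∈ Sel K (primesOver K S) p) :
    ∃ χ ∈ kummerChars K S p, KumRel K p ζ χ a := by
  have hp : p.Prime := Fact.out
  obtain ⟨α, hα⟩ := IsAlgClosed.exists_pow_nat_eq (((a : K) : Qb)) hp.pos
  have ha0 : (((a : K) : Qb)) ≠ 0 := fun h => a.ne_zero (Subtype.ext h)
  obtain ⟨χ, ⟨F, hF, hconst⟩, hadd, hrel⟩ := exists_character_of_selmer p S hpS hK hζ hζK
    (a : K).2 ha0 hα ((selmer_condition_iff K S hK p a).mpr ha)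
  refine ⟨fun g => χ g, ⟨fun g h => hadd g g.2 h h.2, F, hF, fun g s hs => hconst g s hs⟩,
    α, hα, fun g => hrel g g.2⟩

omit [NumberField K] in
/-- Two Kummer characters agree iff the elements differ by a `p`-th power. -/
theorem kumRel_eq_iff {ζ : Qb} (hζ : IsPrimitiveRoot ζ p) (hζK : ζ ∈ K)
    {χ χ' : K.fixingSubgroup → ZMod p} {a a' : Kˣ} (h : KumRel K p ζ χ a)
    (h' : KumRel K p ζ χ' a') :
    χ = χ' ↔ (QuotientGroup.mk a : Kˣ ⧸ (powMonoidHom p : Kˣ →* Kˣ).range)
      = QuotientGroup.mk a' := by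
  have hp : p.Prime := Fact.out
  obtain ⟨α, hα, hg⟩ := h
  obtain ⟨α', hα', hg'⟩ := h'
  have ha0 : (((a : K) : Qb)) ≠ 0 := fun h => a.ne_zero (Subtype.ext h)
  have ha0' : (((a' : K) : Qb)) ≠ 0 := fun h => a'.ne_zero (Subtype.ext h)
  have hα0 : α ≠ 0 := by
    rintro rfl
    rw [zero_pow hp.ne_zero] at hα
    exact ha0 hα.symm
  have hα0' : α' ≠ 0 := by
    rintro rfl
    rw [zero_pow hp.ne_zero] at hα'
    exact ha0' hα'.symm
  have hζ0 : ζ ≠ 0 := hζ.ne_zero hp.ne_zero
  have hζp : ζ ^ p = 1 := hζ.pow_eq_one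
  -- the quotient element and its root
  have hb : (α' / α) ^ p = ((((a⁻¹ * a' : Kˣ) : K)) : Qb) := by
    rw [div_pow, hα, hα', Units.val_mul, Units.val_inv_eq_inv_val]
    push_cast
    field_simp
  have hb0 : ((((a⁻¹ * a' : Kˣ) : K)) : Qb) ≠ 0 := fun h => (a⁻¹ * a').ne_zero (Subtype.ext h)
  have hrel : ∀ g ∈ K.fixingSubgroup,
      g (α' / α) = ζ ^ (extendChar K p (χ' - χ) g).val * (α' / α) := by
    intro g hgK
    rw [extendChar_of_mem K p _ hgK, map_div₀]
    have e1 := hg ⟨g, hgK⟩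
    have e2 := hg' ⟨g, hgK⟩
    simp only at e1 e2
    rw [e1, e2]
    have e3 := zeta_pow_val_add p hζp ((χ' - χ) ⟨g, hgK⟩) (χ ⟨g, hgK⟩)
    rw [Pi.sub_apply, sub_add_cancel] at e3
    rw [e3, Pi.sub_apply]
    field_simp
  have key := character_eq_zero_iff p hζ hζK hb0 hb (extendChar K p (χ' - χ)) hrel
  rw [QuotientGroup.eq]
  constructor
  · intro hχ
    have h0 : ∀ g ∈ K.fixingSubgroup, extendChar K p (χ' - χ) g = 0 := by
      intro g hgK
      rw [extendChar_of_mem K p _ hgK, hχ, sub_self]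
      rfl
    obtain ⟨m, hmK, hm⟩ := key.mp h0
    have hm0 : (⟨m, hmK⟩ : K) ≠ 0 := by
      intro h
      have : m = 0 := congrArg Subtype.val h
      rw [this, zero_pow hp.ne_zero] at hm
      exact hb0 hm.symm
    refine ⟨Units.mk0 ⟨m, hmK⟩ hm0, ?_⟩
    apply Units.ext
    apply Subtype.ext
    rw [powMonoidHom_apply, Units.val_pow_eq_pow_val, Units.val_mk0]
    exact hm
  · rintro ⟨y, hy⟩
    have h0 := key.mpr ⟨((y : K) : Qb), (y : K).2, by
      rw [← hy, powMonoidHom_apply, Units.val_pow_eq_pow_val]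
      rfl⟩
    funext g
    have := h0 g g.2
    rw [extendChar_of_mem K p _ g.2, Pi.sub_apply, sub_eq_zero] at this
    exact this.symm

/-- **G1-COUNT, first form.** The `S`-level characters `Gal(ℚ̄/K) → ℤ/p` are in bijection with
the Selmer group `K(S_K, p)` (`K` a level for `S ∋ p` containing the `p`-th roots of unity). -/
theorem card_kummerChars (hpS : ExtCitation.pPrime p ∈ S) (hK : K.IsUnramifiedOutside S)
    {ζ : Qb} (hζ : IsPrimitiveRoot ζ p) (hζK : ζ ∈ K) :
    Nat.card (kummerChars K S p)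
      = Nat.card (selmerGroup (R := 𝓞 K) (K := K) (S := primesOver K S) (n := p)) := by
  choose a ha hrel using fun χ : kummerChars K S p =>
    exists_kumRel_of_mem K S p hK hζ hζK χ.2
  let f : kummerChars K S p → selmerGroup (R := 𝓞 K) (K := K) (S := primesOver K S) (n := p) :=
    fun χ => ⟨QuotientGroup.mk (a χ), (mk_mem_selmerGroup_iff _).mpr (ha χ)⟩
  refine Nat.card_eq_of_bijective f ⟨fun χ χ' hff => ?_, fun y => ?_⟩
  · have h1 : (QuotientGroup.mk (a χ) : Kˣ ⧸ (powMonoidHom p : Kˣ →* Kˣ).range)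
        = QuotientGroup.mk (a χ') := congrArg Subtype.val hff
    exact Subtype.ext ((kumRel_eq_iff K p hζ hζK (hrel χ) (hrel χ')).mpr h1)
  · obtain ⟨y, hy⟩ := y
    obtain ⟨b, rfl⟩ := QuotientGroup.mk_surjective y
    have hb : b ∈ Sel K (primesOver K S) p := (mk_mem_selmerGroup_iff _).mp hy
    obtain ⟨χ, hχ, hχb⟩ := exists_mem_kumRel K S p hpS hK hζ hζK hb
    refine ⟨⟨χ, hχ⟩, Subtype.ext ?_⟩
    exact (kumRel_eq_iff K p hζ hζK (hrel ⟨χ, hχ⟩) hχb).mp rfl

/-- **G1-COUNT.** For a level `K` for `S ∋ p`, `p` odd, containing the `p`-th roots of unity: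
the number of `S`-level characters `Gal(ℚ̄/K) → ℤ/p` is `p ^ (r₂(K) + #S_K + c)`, where
`p ^ c = #Cl_{S_K}[p] = #(Cl_{S_K} / p)`. -/
theorem exists_card_kummerChars (hp2 : p ≠ 2) (hpS : ExtCitation.pPrime p ∈ S)
    (hK : K.IsUnramifiedOutside S) {ζ : Qb} (hζ : IsPrimitiveRoot ζ p) (hζK : ζ ∈ K) :
    ∃ c : ℕ, Nat.card {x : ClS K (primesOver K S) // x ^ p = 1} = p ^ c ∧
      (powMonoidHom (α := ClS K (primesOver K S)) p).range.index = p ^ c ∧
      Nat.card (kummerChars K S p)
        = p ^ (InfinitePlace.nrComplexPlaces K + Nat.card (primesOver K S) + c) := by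
  have hζ' : IsPrimitiveRoot (⟨ζ, hζK⟩ : K) p :=
    IsPrimitiveRoot.coe_submonoidClass_iff.mp hζ
  obtain ⟨c, h1, h2, h3⟩ := exists_card_selmerGroup_numberField K (primesOver K S) p hp2 hζ'
  exact ⟨c, h1, h2, by rw [card_kummerChars K S p hpS hK hζ hζK, h3]⟩

end Count

end Fermat.Agent.PT.KumBridge
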