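/-
PT / layer G (B4, UNR-TRIV), abstract part.

`M/N'` cyclic of order `m * t` generated by `σ`, `N' ≤ N`, `σ ^ m ∈ N`.  A 2-cocycle of `M`
inflated from `M/N` and killed by `t` becomes a coboundary at level `N'`
("inflation along `ℤ/(m t) → ℤ/m` kills the `t`-torsion of `H²`").
-/
import Fermat.Agent.PT.Br.Cyclic

set_option autoImplicit false

namespace Fermat.Agent.PT.G

open Finset Fermat.Agent.PT.Br

variable {Γ A : Type*} [Group Γ] [AddCommGroup A] [DistribMulAction Γ A]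

/-- Sum of an `m`-periodic function over `t` periods. -/
lemma sum_range_mul_periodic {B : Type*} [AddCommGroup B] (φ : ℕ → B) (m : ℕ)
    (hφ : ∀ l, φ (l + m) = φ l) (t : ℕ) :
    ∑ l ∈ range (m * t), φ l = t • ∑ l ∈ range m, φ l := by
  have hper : ∀ t l, φ (m * t + l) = φ l := by
    intro t
    induction t with
    | zero => intro l; simp
    | succ t iht =>
      intro l
      have : m * (t + 1) + l = (m * t + l) + m := by ring
      rw [this, hφ, iht]
  induction t with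
  | zero => simp
  | succ t ih =>
    rw [Nat.mul_succ, sum_range_add, ih, succ_nsmul]
    congr 1
    exact sum_congr rfl fun l _ => hper t l

variable {M N N' : Subgroup Γ} {m t : ℕ} {σ : Γ} {e' : Γ → ℕ}

omit [DistribMulAction Γ A] in
/-- The sum `∑_{i < m} carryCoc m e a (σ^i, σ)` is `a`. -/
lemma unr_sum_carryCoc_pow {e : Γ → ℕ} (h : CycData M N m σ e) (a : A) :
    ∑ i ∈ range m, carryCoc m e a (σ ^ i, σ) = a := by
  obtain ⟨m', rfl⟩ : ∃ m', m = m' + 1 := ⟨m - 1, by have := h.one_lt; omega⟩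
  rw [sum_range_succ]
  have h0 : ∑ i ∈ range m', carryCoc (m' + 1) e a (σ ^ i, σ) = 0 := by
    apply sum_eq_zero
    intro i hi
    rw [mem_range] at hi
    simp only [carryCoc_apply, carry, h.e_pow, h.e_σ]
    rw [Nat.mod_eq_of_lt (by omega), Nat.div_eq_of_lt (by omega), zero_smul]
  rw [h0, zero_add]
  simp only [carryCoc_apply, carry, h.e_pow, h.e_σ]
  rw [Nat.mod_eq_of_lt (by omega), Nat.div_self (by omega), one_smul]

/-- The sum `∑_{i < m} d1 f (σ^i, σ)` is the norm of `f σ`, for `f` inflated from `M/N`. -/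
lemma unr_sum_d1_pow {e : Γ → ℕ} (h : CycData M N m σ e) {f : Γ → A} (hf : InflOn₁ M N f) :
    ∑ i ∈ range m, d1 f (σ ^ i, σ) = partialNm σ m (f σ) := by
  simp only [d1_apply]
  have htel : ∑ i ∈ range m, (f (σ ^ (i + 1)) - f (σ ^ i)) = f (σ ^ m) - f (σ ^ 0) :=
    sum_range_sub (fun i => f (σ ^ i)) m
  have hfm : f (σ ^ m) = f 1 := by
    simpa using hf.1 1 M.one_mem _ h.pow_m_mem
  rw [hfm, pow_zero, sub_self] at htel
  have : ∑ i ∈ range m, (σ ^ i • f σ - f (σ ^ i * σ) + f (σ ^ i)) =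
      ∑ i ∈ range m, σ ^ i • f σ - ∑ i ∈ range m, (f (σ ^ (i + 1)) - f (σ ^ i)) := by
    rw [← sum_sub_distrib]
    refine sum_congr rfl fun i _ => ?_
    rw [pow_succ]; abel
  rw [this, htel, sub_zero, partialNm]

/-- **Inflation kills torsion (cyclic case).**  Let `M/N'` be cyclic of order `m * t`, generated
by `σ`, let `N' ≤ N ≤ M` with `σ ^ m ∈ N`, and let `z` be a 2-cocycle of `M` inflated from `M/N`
with `t • z = 0` on `M`.  Then `z` is the coboundary of a 1-cochain inflated from `M/N'`. -/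
theorem cobOn₂_of_inflOn₂_of_cycData_mul (h' : CycData M N' (m * t) σ e') (hN : N' ≤ N)
    (hσm : σ ^ m ∈ N) {z : Γ × Γ → A} (hz : CocOn₂ M z) (hi : InflOn₂ M N z)
    (htz : ∀ g ∈ M, ∀ k ∈ M, t • z (g, k) = 0) : CobOn₂ M N' z := by
  have hi' : InflOn₂ M N' z := hi.mono hN
  obtain ⟨a, ha, hcob⟩ := h'.exists_carryCoc_cohomologous hz hi'
  obtain ⟨f, hf, hzf⟩ := id hcob
  -- the sum of `z (σ^i, σ)` over a full period of `M/N'` vanishes
  have hper : ∀ l, z (σ ^ (l + m), σ) = z (σ ^ l, σ) := by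
    intro l
    have := hi.1 (σ ^ l) (h'.pow_mem l) σ h'.σ_mem (σ ^ m) hσm 1 N.one_mem
    rwa [mul_one, ← pow_add] at this
  have hzsum : ∑ i ∈ range (m * t), z (σ ^ i, σ) = 0 := by
    rw [sum_range_mul_periodic (fun i => z (σ ^ i, σ)) m hper t, ← sum_nsmul]
    exact sum_eq_zero fun i _ => htz _ (h'.pow_mem i) _ h'.σ_mem
  have hsum : ∑ i ∈ range (m * t), (z - carryCoc (m * t) e' a) (σ ^ i, σ) =
      ∑ i ∈ range (m * t), d1 f (σ ^ i, σ) :=
    sum_congr rfl fun i _ => hzf _ (h'.pow_mem i) _ h'.σ_mem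
  simp only [Pi.sub_apply] at hsum
  rw [sum_sub_distrib, hzsum, unr_sum_carryCoc_pow h' a, unr_sum_d1_pow h' hf, zero_sub] at hsum
  have ha' : a = partialNm σ (m * t) (-f σ) := by
    rw [partialNm_neg, ← hsum, neg_neg]
  have hfix : ∀ n ∈ N', n • (-f σ) = -f σ := by
    intro n hn
    rw [smul_neg, hf.2 σ h'.σ_mem n hn]
  have h2 : CobOn₂ M N' (carryCoc (m * t) e' a) := by
    rw [ha']
    exact h'.cobOn₂_carryCoc_Nm hfix
  refine (hcob.add h2).congr fun g _ k _ => ?_
  simp only [Pi.sub_apply, Pi.add_apply]; abel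

end Fermat.Agent.PT.G
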