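/-
PT / layer G (B4, UNR-TRIV): "unramified ⇒ locally trivial".

A 2-cocycle on the decomposition group `D_A` of a valuation subring `A` of `ℚ̄` over `q`,
inflated from the quotient of `D_A` by `D_A ⊓ G_F` for a finite level `F` unramified at `q`, and
killed by an integer `t ≥ 1`, is the coboundary of a 1-cochain of some finite level `F'`.
-/
import Mathlib
import Fermat.Agent.PT.G.UnrTrivAbs
import Fermat.Agent.PT.G.CycloField
import Fermat.Agent.PT.G.KumBridge
import Fermat.Agent.PT.Levels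
import Fermat.Agent.Lib.InertiaLift
import Fermat.Agent.PT.G.DecompBasic

set_option autoImplicit false

namespace Fermat.Agent.PT.G

local notation "Qb" => AlgebraicClosure ℚ
local notation "GQ" => (AlgebraicClosure ℚ ≃ₐ[ℚ] AlgebraicClosure ℚ)

open NumberField IsDedekindDomain Fermat.Agent.PT.KumBridge Fermat.Agent.PT.Br
  Fermat.Agent.PT.Levels Fermat.Agent.Lib.FrobeniusExists

attribute [local instance] isAlgClosure_rat isGalois_rat

open scoped Pointwise

/-- Every ring endomorphism of a finite field of characteristic `q` is a power of Frobenius. -/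
theorem ringHom_eq_frob_pow {κ : Type*} [Field κ] [Finite κ] (q : ℕ) [Fact q.Prime] [CharP κ q]
    (f : κ →+* κ) : ∃ m : ℕ, ∀ x : κ, f x = x ^ (q ^ m) := by
  let _ : Algebra (ZMod q) κ := ZMod.algebra κ q
  have hcomm : ∀ c : ZMod q, f (algebraMap (ZMod q) κ c) = algebraMap (ZMod q) κ c := by
    intro c
    obtain ⟨n, rfl⟩ := ZMod.natCast_zmod_surjective c
    rw [map_natCast, map_natCast]
  let f' : κ →ₐ[ZMod q] κ := { f with commutes' := hcomm }
  have hbij : Function.Bijective f' := Finite.injective_iff_bijective.mp f.injective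
  let e : κ ≃ₐ[ZMod q] κ := AlgEquiv.ofBijective f' hbij
  obtain ⟨n, hn⟩ := (FiniteField.bijective_frobeniusAlgEquivOfAlgebraic_pow (ZMod q) κ).2 e
  refine ⟨n.1, fun x => ?_⟩
  have h1 : e = FiniteField.frobeniusAlgEquivOfAlgebraic (ZMod q) κ ^ n.1 := hn.symm
  have h2 : f x = e x := rfl
  rw [h2, h1, AlgEquiv.coe_pow, FiniteField.coe_frobeniusAlgEquivOfAlgebraic_iterate, ZMod.card]

/-- Powers of a Frobenius element at `A` act as `x ↦ x ^ (q ^ m)` modulo the maximal ideal. -/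
theorem frobenius_pow_sub_pow_mem_nonunits (A : ValuationSubring Qb) (φ : GQ) (q : ℕ)
    (hφ : A.IsFrobeniusAt φ q) (m : ℕ) {x : Qb} (hx : x ∈ A) :
    (φ ^ m) x - x ^ (q ^ m) ∈ A.nonunits := by
  induction m with
  | zero => simp
  | succ m ih =>
    have h1 := apply_mem_nonunits_of_mem_decompositionSubgroup A hφ.mem_decompositionSubgroup ih
    have h2 := frobenius_sub_pow_mem_nonunits A φ q hφ (pow_mem hx (q ^ m))
    have e : (φ ^ (m + 1)) x - x ^ (q ^ (m + 1)) =
        φ ((φ ^ m) x - x ^ (q ^ m)) + (φ (x ^ (q ^ m)) - (x ^ (q ^ m)) ^ q) := by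
      rw [pow_succ' φ, AlgEquiv.mul_apply, map_sub, pow_succ q, pow_mul]
      ring
    rw [e]
    exact A.nonunits.add_mem h1 h2

/-- **The decomposition group acts through powers of Frobenius on residue fields.**  For a finite
normal extension `L` of `ℚ` inside `ℚ̄` and `g ∈ D_A`, some power of a Frobenius element `φ` at
`A` agrees with `g` on the integers of `L` modulo the maximal ideal of `A`. -/
theorem exists_frobenius_pow_congr {q : ℕ} (hq : q.Prime) (A : ValuationSubring Qb)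
    (hA : A.LiesOverPrime q) {φ : GQ} (hφ : A.IsFrobeniusAt φ q)
    (L : IntermediateField ℚ Qb) [FiniteDimensional ℚ L] [Normal ℚ L] {g : GQ}
    (hg : g ∈ A.decompositionSubgroup ℚ) :
    ∃ m : ℕ, ∀ b : Qb, b ∈ L → IsIntegral ℤ b → g b - (φ ^ m) b ∈ A.nonunits := by
  have : NumberField L := ⟨⟩
  have : Fact q.Prime := ⟨hq⟩
  set v := primeOf L A hq.ne_zero hA with hv
  have : v.asIdeal.IsMaximal := v.isMaximal
  let _ : Field (𝓞 L ⧸ v.asIdeal) := Ideal.Quotient.field v.asIdeal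
  have : Finite (𝓞 L ⧸ v.asIdeal) := Ideal.finiteQuotientOfFreeOfNeBot v.asIdeal v.ne_bot
  have : CharP (𝓞 L ⧸ v.asIdeal) q := by
    refine (CharP.charP_iff_prime_eq_zero hq).mpr ?_
    have h1 : ((q : ℕ) : 𝓞 L) ∈ v.asIdeal := natCast_mem_primeIdeal L A hA
    have h2 := Ideal.Quotient.eq_zero_iff_mem.mpr h1
    simpa using h2
  -- the action of `g` on the integers of `L`
  let gL : L ≃ₐ[ℚ] L := g.restrictNormal L
  have hgL : ∀ x : L, algebraMap L Qb (gL x) = g (algebraMap L Qb x) :=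
    fun x => AlgEquiv.restrictNormal_commutes g L x
  let gO : 𝓞 L →+* 𝓞 L := RingOfIntegers.mapRingHom (gL : L →+* L)
  have hgO : ∀ y : 𝓞 L, algebraMap (𝓞 L) Qb (gO y) = g (algebraMap (𝓞 L) Qb y) := by
    intro y
    rw [IsScalarTower.algebraMap_apply (𝓞 L) L Qb, IsScalarTower.algebraMap_apply (𝓞 L) L Qb]
    exact hgL _
  have hle : v.asIdeal ≤ v.asIdeal.comap gO := by
    intro y hy
    rw [Ideal.mem_comap]
    rw [hv, mem_primeOf_iff] at hy ⊢
    rw [hgO]
    exact (Fermat.Agent.PT.Kummer.valuation_apply_lt_one_iff_of_mem_decompositionSubgroup A hg _).mpr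
      hy
  obtain ⟨m, hm⟩ := ringHom_eq_frob_pow q (Ideal.quotientMap v.asIdeal gO hle)
  refine ⟨m, fun b hbL hb => ?_⟩
  have hbint : IsIntegral ℤ (⟨b, hbL⟩ : L) := by
    rw [← isIntegral_algebraMap_iff (FaithfulSMul.algebraMap_injective L Qb)]
    exact hb
  let y : 𝓞 L := ⟨⟨b, hbL⟩, hbint⟩
  have hyb : algebraMap (𝓞 L) Qb y = b := rfl
  have h1 := hm (Ideal.Quotient.mk v.asIdeal y)
  rw [Ideal.quotientMap_mk, ← map_pow, Ideal.Quotient.eq, hv, mem_primeOf_iff, map_sub, map_pow,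
    hgO, hyb] at h1
  have hbA : b ∈ A := by
    rw [← A.valuation_le_one_iff]
    exact Fermat.Agent.Lib.FrobeniusExists.val_le_one_of_isIntegral _ hb
  have h2 := frobenius_pow_sub_pow_mem_nonunits A φ q hφ m hbA
  have e : g b - (φ ^ m) b = (g b - b ^ (q ^ m)) - ((φ ^ m) b - b ^ (q ^ m)) := by ring
  rw [e]
  exact A.nonunits.sub_mem (A.mem_nonunits_iff.mpr h1) h2

/-- **`D_A / I_A` is generated by Frobenius at every finite level.**  If the finite normal
extension `L` is unramified at `A`, every element of the decomposition group agrees on `L` with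
a power of a Frobenius element. -/
theorem exists_pow_inv_mul_mem_fixingSubgroup {q : ℕ} (hq : q.Prime) (A : ValuationSubring Qb)
    (hA : A.LiesOverPrime q) {φ : GQ} (hφ : A.IsFrobeniusAt φ q)
    (L : IntermediateField ℚ Qb) [FiniteDimensional ℚ L] [Normal ℚ L]
    (hL : A.inertiaSubgroupIn ℚ ≤ L.fixingSubgroup) {g : GQ}
    (hg : g ∈ A.decompositionSubgroup ℚ) : ∃ m : ℕ, (φ ^ m)⁻¹ * g ∈ L.fixingSubgroup := by
  obtain ⟨m, hm⟩ := exists_frobenius_pow_congr hq A hA hφ L hg
  refine ⟨m, ?_⟩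
  have hφm : (φ ^ m)⁻¹ ∈ A.decompositionSubgroup ℚ :=
    inv_mem (pow_mem hφ.mem_decompositionSubgroup m)
  have hN : (L.fixingSubgroup).Normal := fixingSubgroup_normal L
  have hτ : ∀ b : Qb, IsIntegral ℤ b → (∀ n ∈ L.fixingSubgroup, n b = b) →
      A.valuation (((φ ^ m)⁻¹ * g) b - b) < 1 := by
    intro b hb hfix
    have hbL : b ∈ L := by
      rw [← InfiniteGalois.fixedField_fixingSubgroup L, IntermediateField.mem_fixedField_iff]
      exact hfix
    have h1 := apply_mem_nonunits_of_mem_decompositionSubgroup A hφm (hm b hbL hb)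
    have e : ((φ ^ m)⁻¹ * g) b - b = (φ ^ m)⁻¹ (g b - (φ ^ m) b) := by
      rw [map_sub, AlgEquiv.mul_apply]
      congr 1
      exact ((φ ^ m).symm_apply_apply b).symm
    rw [e]
    exact A.mem_nonunits_iff.mp h1
  obtain ⟨n, hn, hnτ⟩ := Fermat.Agent.Lib.InertiaLift.exists_mul_mem_inertiaSubgroupIn hq A hA
    L.fixingSubgroup (InfiniteGalois.fixingSubgroup_isClosed L) _ hτ
  have h2 := L.fixingSubgroup.mul_mem (L.fixingSubgroup.inv_mem hn) (hL hnτ)
  rwa [inv_mul_cancel_left] at h2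

/-! ### Roots of unity of order prime to the residue characteristic -/

/-- Two `N`-th roots of unity congruent modulo the maximal ideal of a valuation subring of
residue characteristic `q ∤ N` are equal. -/
theorem eq_of_sub_mem_nonunits_of_pow_eq_one_of_not_dvd {K : Type*} [Field K]
    (A : ValuationSubring K) {q N : ℕ} (hq : q.Prime) (hqN : ¬ q ∣ N) (hA : (q : K) ∈ A.nonunits)
    {x y : K} (hx : x ^ N = 1) (hy : y ^ N = 1) (h : x - y ∈ A.nonunits) : x = y := by
  have hN0 : N ≠ 0 := by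
    rintro rfl
    exact hqN (dvd_zero q)
  by_contra hne
  have hy0 : y ≠ 0 := by
    rintro rfl
    rw [zero_pow hN0] at hy
    exact zero_ne_one hy
  set z : K := x * y⁻¹ with hz
  have hz1 : z ≠ 1 := by
    intro h1
    apply hne
    rw [hz] at h1
    field_simp at h1
    exact h1
  have hzp : z ^ N = 1 := by rw [hz, mul_pow, inv_pow, hx, hy, inv_one, mul_one]
  have hvy : A.valuation y = 1 := valuation_eq_one_of_pow_eq_one A hN0 hy
  have hvz : A.valuation z = 1 := valuation_eq_one_of_pow_eq_one A hN0 hzp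
  have hv1 : A.valuation (1 - z) < 1 := by
    have e : 1 - z = -((x - y) * y⁻¹) := by
      rw [hz]
      field_simp
      ring
    rw [e, Valuation.map_neg, map_mul, map_inv₀, hvy, inv_one, mul_one]
    exact A.mem_nonunits_iff.mp h
  have hvp : A.valuation (N : K) < 1 := by
    rw [natCast_eq_one_sub_mul_sum hzp hz1, map_mul]
    have hc : A.valuation (∑ j ∈ Finset.range N, ∑ i ∈ Finset.range j, z ^ i) ≤ 1 := by
      rw [A.valuation_le_one_iff]
      refine sum_mem fun j _ => sum_mem fun i _ => pow_mem ?_ i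
      rw [← A.valuation_le_one_iff, hvz]
    calc A.valuation (1 - z) * A.valuation (∑ j ∈ Finset.range N, ∑ i ∈ Finset.range j, z ^ i)
        ≤ A.valuation (1 - z) * 1 := mul_le_mul_right hc _
      _ < 1 := by rwa [mul_one]
  have hndvd : ¬ (q : ℤ) ∣ ((N : ℕ) : ℤ) := by
    rwa [Int.natCast_dvd_natCast]
  apply Fermat.Agent.Lib.ValuationIntegral.intCast_notMem_nonunits A hq hA hndvd
  rw [A.mem_nonunits_iff]
  exact_mod_cast hvp

/-- A Frobenius element at `A` (over `q`) raises roots of unity of order prime to `q` to the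
`q`-th power. -/
theorem frobenius_apply_root {q : ℕ} (hq : q.Prime) (A : ValuationSubring Qb)
    (hA : A.LiesOverPrime q) {φ : GQ} (hφ : A.IsFrobeniusAt φ q) {N : ℕ} (hqN : ¬ q ∣ N)
    {ζ : Qb} (hζ : ζ ^ N = 1) : φ ζ = ζ ^ q := by
  have hN0 : N ≠ 0 := by
    rintro rfl
    exact hqN (dvd_zero q)
  have hζA : ζ ∈ A := by
    have := pow_mem_of_pow_eq_one A hN0 hζ 1
    rwa [pow_one] at this
  refine eq_of_sub_mem_nonunits_of_pow_eq_one_of_not_dvd A hq hqN hA ?_ ?_
    (frobenius_sub_pow_mem_nonunits A φ q hφ hζA)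
  · rw [← map_pow, hζ, map_one]
  · rw [← pow_mul, mul_comm, pow_mul, hζ, one_pow]

theorem frobenius_pow_apply_root {q : ℕ} (hq : q.Prime) (A : ValuationSubring Qb)
    (hA : A.LiesOverPrime q) {φ : GQ} (hφ : A.IsFrobeniusAt φ q) {N : ℕ} (hqN : ¬ q ∣ N)
    {ζ : Qb} (hζ : ζ ^ N = 1) (i : ℕ) : (φ ^ i) ζ = ζ ^ (q ^ i) := by
  induction i with
  | zero => simp
  | succ i ih =>
    rw [pow_succ' φ, AlgEquiv.mul_apply, ih, map_pow, frobenius_apply_root hq A hA hφ hqN hζ,
      ← pow_mul, ← pow_succ']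

/-- Inertia at `A` (over `q`) fixes the roots of unity of order prime to `q`. -/
theorem inertia_apply_root {q : ℕ} (hq : q.Prime) (A : ValuationSubring Qb)
    (hA : A.LiesOverPrime q) {σ : GQ} (hσ : σ ∈ A.inertiaSubgroupIn ℚ) {N : ℕ} (hqN : ¬ q ∣ N)
    {ζ : Qb} (hζ : ζ ^ N = 1) : σ ζ = ζ := by
  have hN0 : N ≠ 0 := by
    rintro rfl
    exact hqN (dvd_zero q)
  have hζA : ζ ∈ A := by
    have := pow_mem_of_pow_eq_one A hN0 hζ 1
    rwa [pow_one] at this
  refine eq_of_sub_mem_nonunits_of_pow_eq_one_of_not_dvd A hq hqN hA ?_ hζ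
    (((mem_inertiaSubgroupIn_iff A σ).mp hσ).2 ζ hζA)
  rw [← map_pow, hζ, map_one]

/-- The group fixing a primitive root of unity is normal. -/
theorem normal_fixingSubgroup_adjoin_root {N : ℕ} [NeZero N] {ζ : Qb}
    (hζ : IsPrimitiveRoot ζ N) : ((IntermediateField.adjoin ℚ {ζ}).fixingSubgroup).Normal := by
  refine ⟨fun n hn g => ?_⟩
  rw [mem_fixingSubgroup_adjoin_simple_iff] at hn ⊢
  have h1 : (g⁻¹ ζ) ^ N = 1 := by rw [← map_pow, hζ.pow_eq_one, map_one]
  obtain ⟨i, -, hi⟩ := hζ.eq_pow_of_pow_eq_one h1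
  show g (n (g⁻¹ ζ)) = ζ
  rw [← hi, map_pow, hn, hi]
  exact g.apply_symm_apply ζ

/-- Order of `q` modulo `q ^ d - 1`. -/
theorem pow_sub_one_dvd_pow_sub_one_iff {q : ℕ} (hq : 1 < q) (d i : ℕ) :
    q ^ d - 1 ∣ q ^ i - 1 ↔ d ∣ i := by
  rw [Nat.dvd_iff_mod_eq_zero, Nat.pow_sub_one_mod_pow_sub_one, Nat.dvd_iff_mod_eq_zero]
  constructor
  · intro h
    by_contra hne
    have h1 : q ^ 1 ≤ q ^ (i % d) := Nat.pow_le_pow_right (by omega) (by omega)
    rw [pow_one] at h1
    omega
  · intro h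
    rw [h, pow_zero, Nat.sub_self]

/-! ### The cyclic tower over the decomposition group -/

/-- **Unramified cyclic levels of arbitrarily divisible order.**  Let `L` be a finite normal
extension of `ℚ` unramified at `A` (over `q`), and `t ≥ 2`.  There are a finite level `F' ⊇ L`
unramified at `A`, a Frobenius `φ ∈ D_A` and `m ≥ 1` with `φ ^ m ∈ G_L` such that
`D_A / (D_A ⊓ G_F')` is cyclic of order `m * t`, generated by `φ`. -/
theorem exists_cycData_decomp {q : ℕ} (hq : q.Prime) (A : ValuationSubring Qb)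
    (hA : A.LiesOverPrime q) (L : IntermediateField ℚ Qb) [FiniteDimensional ℚ L] [Normal ℚ L]
    (hL : A.inertiaSubgroupIn ℚ ≤ L.fixingSubgroup) (t : ℕ) (ht : 1 < t) :
    ∃ (F' : IntermediateField ℚ Qb) (φ : GQ) (m : ℕ) (e : GQ → ℕ),
      FiniteDimensional ℚ F' ∧ L ≤ F' ∧ A.inertiaSubgroupIn ℚ ≤ F'.fixingSubgroup ∧
      φ ^ m ∈ L.fixingSubgroup ∧
      CycData (A.decompositionSubgroup ℚ) (A.decompositionSubgroup ℚ ⊓ F'.fixingSubgroup)
        (m * t) φ e := by
  obtain ⟨φ, hφ⟩ := exists_isFrobeniusAt_of_liesOverPrime hq A hA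
  have hφD := hφ.mem_decompositionSubgroup
  have hLn : (L.fixingSubgroup).Normal := fixingSubgroup_normal L
  set m := L.fixingSubgroup.index with hm
  have hm0 : 0 < m := by
    rw [hm, ← IntermediateField.finrank_eq_fixingSubgroup_index]
    exact Module.finrank_pos
  have hφm : φ ^ m ∈ L.fixingSubgroup := L.fixingSubgroup.pow_index_mem φ
  set d := m * t with hd
  have hd0 : 0 < d := Nat.mul_pos hm0 (by omega)
  have hq1 : 1 < q := hq.one_lt
  have hqd : 2 ≤ q ^ d := by
    calc 2 ≤ q ^ 1 := by rw [pow_one]; omega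
      _ ≤ q ^ d := Nat.pow_le_pow_right (by omega) hd0
  set Nn := q ^ d - 1 with hNn
  have hqN : ¬ q ∣ Nn := by
    intro h
    have h1 : q ∣ q ^ d := dvd_pow_self q (by omega)
    have h2 : q ∣ q ^ d - Nn := Nat.dvd_sub h1 h
    have h3 : q ^ d - Nn = 1 := by omega
    rw [h3, Nat.dvd_one] at h2
    omega
  have : NeZero Nn := ⟨by omega⟩
  obtain ⟨ζ, hζ⟩ := HasEnoughRootsOfUnity.exists_primitiveRoot Qb Nn
  have hζ1 := hζ.pow_eq_one
  have hζ0 : ζ ≠ 0 := hζ.ne_zero (NeZero.ne Nn)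
  have hζint : IsIntegral ℚ ζ := (hζ.isIntegral (Nat.pos_of_ne_zero (NeZero.ne Nn))).tower_top
  have hKfin : FiniteDimensional ℚ (IntermediateField.adjoin ℚ {ζ}) :=
    IntermediateField.adjoin.finiteDimensional hζint
  have hKn : ((IntermediateField.adjoin ℚ {ζ}).fixingSubgroup).Normal :=
    normal_fixingSubgroup_adjoin_root hζ
  set F' : IntermediateField ℚ Qb := L ⊔ IntermediateField.adjoin ℚ {ζ} with hF'
  have hF'fin : FiniteDimensional ℚ F' := IntermediateField.finiteDimensional_sup L _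
  have hfix : F'.fixingSubgroup =
      L.fixingSubgroup ⊓ (IntermediateField.adjoin ℚ {ζ}).fixingSubgroup :=
    IntermediateField.fixingSubgroup_sup
  have hF'n : (F'.fixingSubgroup).Normal := by
    rw [hfix]
    infer_instance
  have hF'gal : IsGalois ℚ F' := (InfiniteGalois.normal_iff_isGalois F').mp hF'n
  have hF'normal : Normal ℚ F' := IsGalois.to_normal
  have hI : A.inertiaSubgroupIn ℚ ≤ F'.fixingSubgroup := by
    intro σ hσ
    rw [hfix]
    exact ⟨hL hσ, (mem_fixingSubgroup_adjoin_simple_iff ζ σ).mpr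
      (inertia_apply_root hq A hA hσ hqN hζ1)⟩
  have hmem : ∀ i : ℕ, φ ^ i ∈ F'.fixingSubgroup ↔ d ∣ i := by
    intro i
    rw [hfix, Subgroup.mem_inf, mem_fixingSubgroup_adjoin_simple_iff,
      frobenius_pow_apply_root hq A hA hφ hqN hζ1]
    have hqi : 1 ≤ q ^ i := Nat.one_le_pow _ _ (by omega)
    have e1 : ζ ^ (q ^ i) = ζ ^ (q ^ i - 1) * ζ := by
      rw [← pow_succ]
      congr 1
      omega
    have e2 : ζ ^ (q ^ i) = ζ ↔ d ∣ i := by
      rw [e1, mul_eq_right₀ hζ0, hζ.pow_eq_one_iff_dvd, hNn,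
        pow_sub_one_dvd_pow_sub_one_iff hq1]
    rw [e2]
    constructor
    · exact fun h => h.2
    · intro h
      refine ⟨?_, h⟩
      obtain ⟨c, rfl⟩ := (Dvd.intro _ rfl : m ∣ d).trans h
      rw [pow_mul]
      exact L.fixingSubgroup.pow_mem hφm c
  have hNorm : NormalIn (A.decompositionSubgroup ℚ ⊓ F'.fixingSubgroup)
      (A.decompositionSubgroup ℚ) :=
    ⟨inf_le_left, fun g hg n hn =>
      ⟨(A.decompositionSubgroup ℚ).mul_mem ((A.decompositionSubgroup ℚ).mul_mem hg hn.1)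
        ((A.decompositionSubgroup ℚ).inv_mem hg), hF'n.conj_mem n hn.2 g⟩⟩
  have hgen : ∀ g ∈ A.decompositionSubgroup ℚ,
      ∃ i : ℕ, (φ ^ i)⁻¹ * g ∈ A.decompositionSubgroup ℚ ⊓ F'.fixingSubgroup := by
    intro g hg
    obtain ⟨i, hi⟩ := exists_pow_inv_mul_mem_fixingSubgroup hq A hA hφ F' hI hg
    exact ⟨i, (A.decompositionSubgroup ℚ).mul_mem
      ((A.decompositionSubgroup ℚ).inv_mem (pow_mem hφD i)) hg, hi⟩
  have hord : ∀ i : ℕ, φ ^ i ∈ A.decompositionSubgroup ℚ ⊓ F'.fixingSubgroup ↔ d ∣ i := by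
    intro i
    rw [Subgroup.mem_inf, hmem]
    exact ⟨fun h => h.2, fun h => ⟨pow_mem hφD i, h⟩⟩
  have hd1 : 1 < d := by
    calc 1 < t := ht
      _ = 1 * t := (one_mul t).symm
      _ ≤ m * t := Nat.mul_le_mul_right t hm0
  obtain ⟨e, he⟩ := CycData.exists_of_gen hNorm hφD hd1 hgen hord
  exact ⟨F', φ, m, e, hF'fin, le_sup_left, hI, hφm, he⟩

/-- **UNR-TRIV, normal level.**  A 2-cocycle on the decomposition group `D_A`, inflated from the
quotient by `D_A ⊓ G_L` for a finite normal level `L` unramified at `A`, and killed by `t ≥ 1`,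
is the coboundary of a 1-cochain of some finite level `F' ⊇ L` (unramified at `A`). -/
theorem cobOn₂_decomp_of_unramified_normal {X : Type*} [AddCommGroup X] [DistribMulAction GQ X]
    {q : ℕ} (hq : q.Prime) (A : ValuationSubring Qb) (hA : A.LiesOverPrime q)
    (L : IntermediateField ℚ Qb) [FiniteDimensional ℚ L] [Normal ℚ L]
    (hL : A.inertiaSubgroupIn ℚ ≤ L.fixingSubgroup) (z : GQ × GQ → X)
    (hz : CocOn₂ (A.decompositionSubgroup ℚ) z)
    (hi : InflOn₂ (A.decompositionSubgroup ℚ) (A.decompositionSubgroup ℚ ⊓ L.fixingSubgroup) z)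
    (t : ℕ) (ht : 0 < t)
    (htz : ∀ g ∈ A.decompositionSubgroup ℚ, ∀ h ∈ A.decompositionSubgroup ℚ, t • z (g, h) = 0) :
    ∃ F' : IntermediateField ℚ Qb, FiniteDimensional ℚ F' ∧ L ≤ F' ∧
      A.inertiaSubgroupIn ℚ ≤ F'.fixingSubgroup ∧
      CobOn₂ (A.decompositionSubgroup ℚ) (A.decompositionSubgroup ℚ ⊓ F'.fixingSubgroup) z := by
  obtain ⟨F', φ, m, e, hfin, hle, hI, hφm, he⟩ :=
    exists_cycData_decomp hq A hA L hL (2 * t) (by omega)
  refine ⟨F', hfin, hle, hI, ?_⟩
  refine cobOn₂_of_inflOn₂_of_cycData_mul he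
    (inf_le_inf_left _ (IntermediateField.fixingSubgroup_antitone hle))
    ⟨pow_mem he.σ_mem m, hφm⟩ hz hi fun g hg h hh => ?_
  rw [mul_comm, mul_nsmul, htz g hg h hh, nsmul_zero]

/-- The normal closure of a finite level unramified at `q` is unramified at `q`. -/
theorem inertia_le_fixingSubgroup_normalClosure {q : ℕ} (F : IntermediateField ℚ Qb)
    (hF : ∀ A' : ValuationSubring Qb, A'.LiesOverPrime q →
      A'.inertiaSubgroupIn ℚ ≤ F.fixingSubgroup)
    (A : ValuationSubring Qb) (hA : A.LiesOverPrime q) :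
    A.inertiaSubgroupIn ℚ ≤ (IntermediateField.normalClosure ℚ F Qb).fixingSubgroup := by
  intro σ hσ
  have hle : IntermediateField.normalClosure ℚ F Qb
      ≤ IntermediateField.fixedField (Subgroup.zpowers σ) := by
    rw [IntermediateField.normalClosure]
    refine iSup_le fun f => ?_
    rintro _ ⟨x, rfl⟩
    rw [IntermediateField.mem_fixedField_iff]
    intro g hg
    refine apply_eq_of_mem_zpowers hg ?_
    obtain ⟨τ, hτ⟩ := exists_aut_eq F f
    show σ (f x) = f x
    rw [← hτ x]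
    have h1 := conj_mem_inertiaSubgroupIn A τ⁻¹ σ hσ
    have h2 := hF (τ⁻¹ • A) (liesOverPrime_smul hA τ⁻¹) h1
    rw [IntermediateField.mem_fixingSubgroup_iff] at h2
    have h3 : τ⁻¹ (σ (τ (x : Qb))) = x := h2 x x.2
    have h4 := congrArg τ h3
    rwa [show τ (τ⁻¹ (σ (τ (x : Qb)))) = σ (τ (x : Qb)) from τ.apply_symm_apply _] at h4
  rw [IntermediateField.mem_fixingSubgroup_iff]
  intro x hx
  exact (IntermediateField.mem_fixedField_iff _ x).mp (hle hx) σ (Subgroup.mem_zpowers σ)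

/-- **UNR-TRIV ("unramified ⇒ locally trivial").**  Let `A` be a valuation subring of `ℚ̄` over
the prime `q`, and `F` a finite level unramified at `q`.  A 2-cocycle `z` on the decomposition
group `D_A` (any coefficient module) which is inflated from `D_A / (D_A ⊓ G_F)` and killed by
some `t ≥ 1` is the coboundary of a 1-cochain of `D_A` of some finite level `F' ⊇ F`. -/
theorem cobOn₂_decomp_of_unramified {X : Type*} [AddCommGroup X] [DistribMulAction GQ X]
    {q : ℕ} (hq : q.Prime) (A : ValuationSubring Qb) (hA : A.LiesOverPrime q)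
    (F : IntermediateField ℚ Qb) [FiniteDimensional ℚ F]
    (hF : ∀ A' : ValuationSubring Qb, A'.LiesOverPrime q →
      A'.inertiaSubgroupIn ℚ ≤ F.fixingSubgroup)
    (z : GQ × GQ → X) (hz : CocOn₂ (A.decompositionSubgroup ℚ) z)
    (hi : InflOn₂ (A.decompositionSubgroup ℚ) (A.decompositionSubgroup ℚ ⊓ F.fixingSubgroup) z)
    (n : ℕ) (hn : 0 < n) (hnz : ∀ g h, n • z (g, h) = 0) :
    ∃ F' : IntermediateField ℚ Qb, FiniteDimensional ℚ F' ∧ F ≤ F' ∧
      CobOn₂ (A.decompositionSubgroup ℚ) (A.decompositionSubgroup ℚ ⊓ F'.fixingSubgroup) z := by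
  have hLfin : FiniteDimensional ℚ (IntermediateField.normalClosure ℚ F Qb) :=
    normalClosure.is_finiteDimensional ℚ F Qb
  have hLn : Normal ℚ (IntermediateField.normalClosure ℚ F Qb) := normalClosure.normal ℚ F Qb
  have hFL : F ≤ IntermediateField.normalClosure ℚ F Qb := F.le_normalClosure
  obtain ⟨F', hfin, hle, -, hcob⟩ := cobOn₂_decomp_of_unramified_normal hq A hA
    (IntermediateField.normalClosure ℚ F Qb)
    (inertia_le_fixingSubgroup_normalClosure F hF A hA) z hz
    (hi.mono (inf_le_inf_left _ (IntermediateField.fixingSubgroup_antitone hFL))) n hn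
    (fun g _ h _ => hnz g h)
  exact ⟨F', hfin, hFL.trans hle, hcob⟩

/-- UNR-TRIV for `S`-levels: a torsion 2-cocycle on `D_A`, `A` over `q ∉ S`, inflated from an
`S`-level, is the coboundary of a 1-cochain of finite level. -/
theorem cobOn₂_decomp_of_isUnramifiedOutside {X : Type*} [AddCommGroup X]
    [DistribMulAction GQ X] (S : Finset Nat.Primes) (q : Nat.Primes) (hqS : q ∉ S)
    (A : ValuationSubring Qb) (hA : A.LiesOverPrime (q : ℕ))
    (F : IntermediateField ℚ Qb) (hF : F.IsUnramifiedOutside S)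
    (z : GQ × GQ → X) (hz : CocOn₂ (A.decompositionSubgroup ℚ) z)
    (hi : InflOn₂ (A.decompositionSubgroup ℚ) (A.decompositionSubgroup ℚ ⊓ F.fixingSubgroup) z)
    (n : ℕ) (hn : 0 < n) (hnz : ∀ g h, n • z (g, h) = 0) :
    ∃ F' : IntermediateField ℚ Qb, FiniteDimensional ℚ F' ∧ F ≤ F' ∧
      CobOn₂ (A.decompositionSubgroup ℚ) (A.decompositionSubgroup ℚ ⊓ F'.fixingSubgroup) z := by
  have := hF.1
  exact cobOn₂_decomp_of_unramified q.2 A hA F (fun A' hA' => hF.2 q hqS A' hA') z hz hi n hn hnz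

end Fermat.Agent.PT.G
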