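import Mathlib
import Fermat.Agent.PT.G.SelmerSeq

/-!
# The `S`-class group modulo `n`-th powers (complement to `PT/G/SelmerSeq.lean`)

`R` Dedekind, `K = Frac R`, `S` a set of primes, `n ≠ 0`.

* `exists_unit_cnt` : an invertible fractional ideal with prescribed (finitely supported)
  exponents;
* `mk_mem_pow_range_iff` : the class of `I` is an `n`-th power in `Cl_S` (i.e. trivial in
  `Cl_S / n`) iff there is `x : Kˣ` with `cnt v I ≡ ord_v x mod n` for all `v ∉ S`;
* `mk_mem_pow_range_of_forall_dvd`, `exists_mk_eq_pow_mul` : variants.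
-/

set_option autoImplicit false

noncomputable section

namespace Fermat.Agent.PT.SelmerSeq

open IsDedekindDomain FractionalIdeal
open scoped nonZeroDivisors

variable {R : Type*} [CommRing R] [IsDedekindDomain R] (K : Type*) [Field K] [Algebra R K]
  [IsFractionRing R K]

/-- An invertible fractional ideal with prescribed finitely supported exponents. -/
theorem exists_unit_cnt (e : HeightOneSpectrum R → ℤ)
    (he : ∀ᶠ v : HeightOneSpectrum R in Filter.cofinite, e v = 0) :
    ∃ J : (FractionalIdeal R⁰ K)ˣ, ∀ v : HeightOneSpectrum R, cnt K v J = e v := by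
  have hne : (∏ᶠ v : HeightOneSpectrum R, (v.asIdeal : FractionalIdeal R⁰ K) ^ e v) ≠ 0 := by
    apply finprod_induction (p := fun I : FractionalIdeal R⁰ K => I ≠ 0)
    · exact one_ne_zero
    · intro a b ha hb
      exact mul_ne_zero ha hb
    · intro v
      exact zpow_ne_zero _ (coeIdeal_ne_zero.mpr v.ne_bot)
  refine ⟨Units.mk0 _ hne, fun v => ?_⟩
  rw [cnt, Units.val_mk0]
  exact count_finprod K v _ he

variable (S : Set (HeightOneSpectrum R)) (n : ℕ)

variable {K S n} in
/-- **`Cl_S / n` criterion.** The class of `I` is an `n`-th power in the `S`-class group iff the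
exponents of `I` outside `S` are congruent modulo `n` to those of an element of `Kˣ`. -/
theorem mk_mem_pow_range_iff (hn : n ≠ 0) (I : (FractionalIdeal R⁰ K)ˣ) :
    (QuotientGroup.mk I : ClS K S) ∈ (powMonoidHom (α := ClS K S) n).range ↔
      ∃ x : Kˣ, ∀ v : HeightOneSpectrum R, v ∉ S → (n : ℤ) ∣ cnt K v I - ordK K v x := by
  have hn' : (n : ℤ) ≠ 0 := by exact_mod_cast hn
  constructor
  · rintro ⟨c, hc⟩
    obtain ⟨J, rfl⟩ := QuotientGroup.mk_surjective c
    rw [powMonoidHom_apply, ← QuotientGroup.mk_pow] at hc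
    have h1 : (QuotientGroup.mk (I * (J ^ n)⁻¹) : ClS K S) = 1 := by
      rw [QuotientGroup.mk_mul, QuotientGroup.mk_inv, hc, mul_inv_cancel]
    obtain ⟨x, hx⟩ := mk_eq_one_iff.mp h1
    refine ⟨x, fun v hv => ?_⟩
    have h2 := hx v hv
    rw [cnt_mul, cnt_inv, cnt_pow] at h2
    exact ⟨cnt K v J, by rw [← h2]; ring⟩
  · rintro ⟨x, hx⟩
    classical
    -- the ideal `J` with exponents `(cnt v I - ord_v x) / n` outside `S`
    have hfin : ∀ᶠ v : HeightOneSpectrum R in Filter.cofinite,
        (if v ∈ S then (0 : ℤ) else (cnt K v I - ordK K v x) / n) = 0 := by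
      have h1 := finite_factors (spanSingleton R⁰ ((x : Kˣ) : K))
      have h2 := finite_factors ((I : (FractionalIdeal R⁰ K)ˣ) : FractionalIdeal R⁰ K)
      filter_upwards [h1, h2] with v hv1 hv2
      split_ifs
      · rfl
      · rw [ordK_eq_count, hv1, cnt, hv2, sub_zero, Int.zero_ediv]
    obtain ⟨J, hJ⟩ := exists_unit_cnt K _ hfin
    refine ⟨QuotientGroup.mk J, ?_⟩
    rw [powMonoidHom_apply, ← QuotientGroup.mk_pow, QuotientGroup.eq, mem_PS_iff]
    refine ⟨x, fun v hv => ?_⟩
    rw [cnt_mul, cnt_inv, cnt_pow, hJ v, if_neg hv, Int.mul_ediv_cancel' (hx v hv)]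
    ring

variable {K S n} in
/-- If all exponents of `I` outside `S` are divisible by `n`, its class is an `n`-th power. -/
theorem mk_mem_pow_range_of_forall_dvd (hn : n ≠ 0) (I : (FractionalIdeal R⁰ K)ˣ)
    (h : ∀ v : HeightOneSpectrum R, v ∉ S → (n : ℤ) ∣ cnt K v I) :
    (QuotientGroup.mk I : ClS K S) ∈ (powMonoidHom (α := ClS K S) n).range := by
  rw [mk_mem_pow_range_iff hn]
  exact ⟨1, fun v hv => by rw [ordK_one, sub_zero]; exact h v hv⟩

variable {K S n} in
/-- Two ideals have the same class in `Cl_S / n` iff their exponents outside `S` differ, modulo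
`n`, by those of an element of `Kˣ`. -/
theorem mk_div_mem_pow_range_iff (hn : n ≠ 0) (I J : (FractionalIdeal R⁰ K)ˣ) :
    (QuotientGroup.mk (I * J⁻¹) : ClS K S) ∈ (powMonoidHom (α := ClS K S) n).range ↔
      ∃ x : Kˣ, ∀ v : HeightOneSpectrum R, v ∉ S →
        (n : ℤ) ∣ cnt K v I - cnt K v J - ordK K v x := by
  rw [mk_mem_pow_range_iff hn]
  refine exists_congr fun x => forall_congr' fun v => imp_congr_right fun _ => ?_
  rw [cnt_mul, cnt_inv, sub_eq_add_neg (cnt K v I)]

instance normal_pow_range_ClS : (powMonoidHom (α := ClS K S) n).range.Normal :=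
  ⟨fun a ha g => by
    have h : g * a * g⁻¹ = a := mul_inv_eq_of_eq_mul (mul_comm g a)
    rw [h]; exact ha⟩

/-- The quotient `Cl_S / n` as a type. -/
abbrev ClSMod : Type _ := ClS K S ⧸ (powMonoidHom (α := ClS K S) n).range

variable {K S n} in
/-- The class of `I` in `Cl_S / n` is trivial iff its exponents outside `S` are congruent modulo
`n` to those of an element of `Kˣ`. -/
theorem mk_mk_eq_one_iff (hn : n ≠ 0) (I : (FractionalIdeal R⁰ K)ˣ) :
    (QuotientGroup.mk (QuotientGroup.mk I : ClS K S) : ClSMod K S n) = 1 ↔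
      ∃ x : Kˣ, ∀ v : HeightOneSpectrum R, v ∉ S → (n : ℤ) ∣ cnt K v I - ordK K v x := by
  rw [QuotientGroup.eq_one_iff, mk_mem_pow_range_iff hn]

/-- `#(Cl_S / n) = [Cl_S : Cl_S ^ n]`. -/
theorem card_ClSMod :
    Nat.card (ClSMod K S n) = (powMonoidHom (α := ClS K S) n).range.index := rfl

/-- For a finite class group, `#(Cl_S / n) = #Cl_S[n]`. -/
theorem card_ClSMod_eq_torsion [Finite (ClassGroup R)] :
    Nat.card (ClSMod K S n) = Nat.card {c : ClS K S // c ^ n = 1} := by
  rw [card_ClSMod, card_torsion_ClS_eq_index]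

end Fermat.Agent.PT.SelmerSeq
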