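/-
PT, G1-H1: the first level cohomology with trivial coefficients.

* Generic (`L : LevelSys Γ`, `k` a commutative ring, trivial action on `k`): `H⁰ ≃ k`, and
  `H¹ ≃` the module `levelChars L k` of additive characters `Γ → k` which are constant modulo
  a level (`h1TrivEquiv`).
* Concrete: for a level system `L` on `G_ℚ` cofinal with the levels for `S` and
  `U = Gal(ℚ̄/K)`, the level characters of `L.sub U` are the Kummer characters
  `KumBridge.kummerChars K S p`; hence (G1-COUNT)
  `dim H¹(L.sub U; 𝔽_p) = r₂(K) + #S_K + c` with `p ^ c = #Cl_{S_K}[p]`.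
-/
import Fermat.Agent.PT.Coh.Setup
import Fermat.Agent.PT.G.KumBridge

set_option autoImplicit false

namespace Fermat.Agent.PT.KumH1

open Fermat.Agent.PT

section Generic

variable {Γ : Type} [Group Γ] (L : LevelSys Γ) (k : Type) [CommRing k]

/-- The trivial representation is smooth for every level system. -/
lemma isSmooth_trivial (M : Type) [AddCommGroup M] [Module k M] :
    L.IsSmooth (Representation.trivial k Γ M) := by
  intro m
  obtain ⟨N, hN⟩ := L.nonempty
  exact ⟨N, hN, fun s _ => rfl⟩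

/-- The level complex of the trivial representation on `k`. -/
abbrev trivCx : Cx k := L.cx (Representation.trivial k Γ k) (isSmooth_trivial L k k)

/-- Additive characters `Γ → k` which are constant modulo a level. -/
def levelChars : Submodule k (Γ → k) where
  carrier := {χ | (∀ g h : Γ, χ (g * h) = χ g + χ h) ∧
    L.IsLevelConst (fun g : Fin 1 → Γ => χ (g 0))}
  zero_mem' := ⟨fun _ _ => by simp, LevelSys.isLevelConst_const (0 : k)⟩
  add_mem' := by
    rintro χ χ' ⟨h1, h2⟩ ⟨h1', h2'⟩
    refine ⟨fun g h => ?_, h2.map₂ h2' (· + ·)⟩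
    simp only [Pi.add_apply, h1, h1']
    abel
  smul_mem' := by
    rintro c χ ⟨h1, h2⟩
    refine ⟨fun g h => ?_, h2.comp (c • ·)⟩
    simp only [Pi.smul_apply, h1, smul_add]

variable {L k}

lemma mem_levelChars_iff {χ : Γ → k} :
    χ ∈ levelChars L k ↔ (∀ g h : Γ, χ (g * h) = χ g + χ h) ∧
      L.IsLevelConst (fun g : Fin 1 → Γ => χ (g 0)) := Iff.rfl

/-- Level constancy of a one-variable function, unfolded. -/
lemma isLevelConst_one_iff {X : Type} {χ : Γ → X} :
    L.IsLevelConst (fun g : Fin 1 → Γ => χ (g 0)) ↔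
      ∃ N ∈ L.lev, ∀ g s : Γ, s ∈ N → χ (g * s) = χ g := by
  constructor
  · rintro ⟨N, hN, h⟩
    refine ⟨N, hN, fun g s hs => ?_⟩
    refine h (fun _ => g * s) (fun _ => g) fun _ => ?_
    have : (g * s)⁻¹ * g = s⁻¹ := by group
    rw [this]
    exact N.inv_mem hs
  · rintro ⟨N, hN, h⟩
    refine ⟨N, hN, fun g g' hgg' => ?_⟩
    have h2 := h (g 0) ((g 0)⁻¹ * g' 0) (hgg' 0)
    rw [mul_inv_cancel_left] at h2
    exact h2.symm

/-- The differential `C⁰ → C¹` of the trivial representation vanishes. -/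
lemma trivCx_d_zero (f : (trivCx L k).X 0) : (trivCx L k).d 0 f = 0 := by
  apply Subtype.ext
  funext g
  rw [LevelSys.cx_d_apply]
  have : (fun i : Fin 0 => g i.succ) = Fin.contractNth 0 (· * ·) g := by
    funext i
    exact i.elim0
  rw [this]
  simp

lemma trivCx_B_one : (trivCx L k).B 1 = ⊥ := by
  rw [eq_bot_iff]
  rintro _ ⟨f, rfl⟩
  rw [trivCx_d_zero]
  exact Submodule.zero_mem _

/-- The value of the differential `C¹ → C²` of the trivial representation. -/
lemma trivCx_d_one_apply (f : (trivCx L k).X 1) (g : Fin 2 → Γ) :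
    ((trivCx L k).d 1 f).1 g
      = f.1 (fun _ => g 1) - f.1 (fun _ => g 0 * g 1) + f.1 (fun _ => g 0) := by
  rw [LevelSys.cx_d_apply]
  have e1 : (fun i : Fin 1 => g i.succ) = fun _ => g 1 := by
    funext i
    fin_cases i
    rfl
  have e2 : Fin.contractNth (0 : Fin 2) (· * ·) g = fun _ => g 0 * g 1 := by
    funext i
    fin_cases i
    rfl
  have e3 : Fin.contractNth (1 : Fin 2) (· * ·) g = fun _ => g 0 := by
    funext i
    fin_cases i
    rfl
  rw [Fin.sum_univ_two, e1, e2, e3]
  simp only [Representation.trivial_apply, Fin.val_zero, zero_add, pow_one, neg_smul, one_smul,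
    Fin.val_one, Nat.reduceAdd, even_two, Even.neg_pow, one_pow]
  ring

/-- A level `1`-cochain of the trivial representation is a cocycle iff it is additive. -/
lemma trivCx_mem_Z_one_iff (f : (trivCx L k).X 1) :
    f ∈ (trivCx L k).Z 1 ↔
      ∀ g h : Γ, f.1 (fun _ => g * h) = f.1 (fun _ => g) + f.1 (fun _ => h) := by
  rw [Cx.mem_Z]
  constructor
  · intro hf g h
    have := congrFun (congrArg Subtype.val hf) ![g, h]
    rw [trivCx_d_one_apply] at this
    simp only [Matrix.cons_val_zero, Matrix.cons_val_one] at this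
    have h0 : ((0 : (trivCx L k).X 2) : (Fin 2 → Γ) → k) ![g, h] = 0 := rfl
    rw [h0] at this
    linear_combination -this
  · intro hf
    apply Subtype.ext
    funext g
    rw [trivCx_d_one_apply, hf]
    show _ = (0 : k)
    ring

variable (L k)

/-- cocycle `↦` character -/
def toChar : (trivCx L k).Z 1 →ₗ[k] levelChars L k where
  toFun f := ⟨fun g => f.1.1 fun _ => g, by
    refine ⟨(trivCx_mem_Z_one_iff f.1).1 f.2, ?_⟩
    have h := f.1.2
    have e : (fun g : Fin 1 → Γ => f.1.1 fun _ => g 0) = f.1.1 := by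
      funext g
      have e' : (fun _ : Fin 1 => g 0) = g := by
        funext i
        fin_cases i
        rfl
      rw [e']
    rw [e]
    exact h⟩
  map_add' _ _ := rfl
  map_smul' _ _ := rfl

variable {L k}

lemma toChar_apply (f : (trivCx L k).Z 1) (g : Γ) :
    (toChar L k f : Γ → k) g = f.1.1 fun _ => g := rfl

lemma toChar_bijective : Function.Bijective (toChar L k) := by
  constructor
  · intro f f' h
    apply Subtype.ext
    apply Subtype.ext
    funext g
    have := congrFun (congrArg Subtype.val h) (g 0)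
    rw [toChar_apply, toChar_apply] at this
    have e : g = fun _ => g 0 := by
      funext i
      fin_cases i
      rfl
    rw [e]
    exact this
  · rintro ⟨χ, h1, h2⟩
    refine ⟨⟨⟨fun g => χ (g 0), h2⟩, ?_⟩, rfl⟩
    rw [trivCx_mem_Z_one_iff]
    exact fun g h => h1 g h

variable (L k)

/-- **`H¹` with trivial coefficients = level characters.** -/
noncomputable def h1TrivEquiv : (trivCx L k).H 1 ≃ₗ[k] levelChars L k :=
  (Submodule.quotEquivOfEqBot _ (by rw [trivCx_B_one, Submodule.comap_bot,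
    Submodule.ker_subtype])).trans (LinearEquiv.ofBijective (toChar L k) toChar_bijective)

variable {L k}

lemma h1TrivEquiv_cls (f : (trivCx L k).X 1) (hf : (trivCx L k).d 1 f = 0) (g : Γ) :
    (h1TrivEquiv L k ((trivCx L k).cls 1 f hf) : Γ → k) g = f.1 fun _ => g := rfl

/-- The differential `C⁰ → C¹` being zero, every `0`-cochain is a cocycle. -/
lemma trivCx_Z_zero : (trivCx L k).Z 0 = ⊤ := by
  rw [eq_top_iff]
  intro f _
  rw [Cx.mem_Z]
  exact trivCx_d_zero f

variable (L k)

/-- evaluation of a `0`-cochain at the empty tuple -/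
def evalEmpty : (trivCx L k).Z 0 →ₗ[k] k where
  toFun f := f.1.1 Fin.elim0
  map_add' _ _ := rfl
  map_smul' _ _ := rfl

variable {L k}

lemma evalEmpty_bijective : Function.Bijective (evalEmpty L k) := by
  constructor
  · intro f f' h
    apply Subtype.ext
    apply Subtype.ext
    funext g
    have e : g = Fin.elim0 := Subsingleton.elim _ _
    rw [e]
    exact h
  · intro c
    refine ⟨⟨⟨fun _ => c, LevelSys.isLevelConst_const c⟩, ?_⟩, rfl⟩
    rw [trivCx_Z_zero]
    exact Submodule.mem_top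

variable (L k)

/-- **`H⁰` with trivial coefficients is `k`.** -/
noncomputable def h0TrivEquiv : (trivCx L k).H 0 ≃ₗ[k] k :=
  (Submodule.quotEquivOfEqBot _ (by
    show Submodule.comap ((trivCx L k).Z 0).subtype (⊥ : Submodule k ((trivCx L k).X 0)) = ⊥
    rw [Submodule.comap_bot, Submodule.ker_subtype])).trans
    (LinearEquiv.ofBijective (evalEmpty L k) evalEmpty_bijective)

end Generic

section Concrete

local notation "Qb" => AlgebraicClosure ℚ
local notation "GQ" => (AlgebraicClosure ℚ ≃ₐ[ℚ] AlgebraicClosure ℚ)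

open IsDedekindDomain NumberField Fermat.Agent.PT.KumBridge Fermat.Agent.PT.SelmerSeq

/-- A level system on `G_ℚ` is cofinal with the levels for `S`: every level contains the fixing
subgroup of a finite extension unramified outside `S`, and conversely. -/
def IsSCofinal (L : LevelSys GQ) (S : Finset Nat.Primes) : Prop :=
  (∀ N ∈ L.lev, ∃ F : IntermediateField ℚ Qb, F.IsUnramifiedOutside S ∧ F.fixingSubgroup ≤ N) ∧
    ∀ F : IntermediateField ℚ Qb, F.IsUnramifiedOutside S → ∃ N ∈ L.lev, N ≤ F.fixingSubgroup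

variable (K : IntermediateField ℚ Qb) (S : Finset Nat.Primes) (p : ℕ)

/-- A level system on `U = Gal(ℚ̄/K)` is cofinal with the traces on `U` of the levels for `S`. -/
def IsSCofinalSub (L' : LevelSys K.fixingSubgroup) : Prop :=
  (∀ N' ∈ L'.lev, ∃ F : IntermediateField ℚ Qb, F.IsUnramifiedOutside S ∧
      F.fixingSubgroup.subgroupOf K.fixingSubgroup ≤ N') ∧
    ∀ F : IntermediateField ℚ Qb, F.IsUnramifiedOutside S →
      ∃ N' ∈ L'.lev, N' ≤ F.fixingSubgroup.subgroupOf K.fixingSubgroup

variable {S} in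
/-- The induced level system `L.sub U` (equivalently `Shapiro.subLev L U`: the same `lev`) of a
level system cofinal with the `S`-levels. -/
theorem IsSCofinal.sub {L : LevelSys GQ} (hL : IsSCofinal L S) :
    IsSCofinalSub K S (L.sub K.fixingSubgroup) := by
  constructor
  · rintro N' ⟨N, hN, rfl⟩
    obtain ⟨F, hF, hFN⟩ := hL.1 N hN
    exact ⟨F, hF, fun s hs => Subgroup.mem_subgroupOf.mpr (hFN (Subgroup.mem_subgroupOf.mp hs))⟩
  · intro F hF
    obtain ⟨N, hN, hNF⟩ := hL.2 F hF
    exact ⟨N.subgroupOf K.fixingSubgroup, ⟨N, hN, rfl⟩,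
      fun s hs => Subgroup.mem_subgroupOf.mpr (hNF (Subgroup.mem_subgroupOf.mp hs))⟩

variable {K S}

/-- The level characters of `Gal(ℚ̄/K)` are the Kummer characters of `PT/G/KumBridge`. -/
theorem mem_levelChars_iff_mem_kummerChars {L' : LevelSys K.fixingSubgroup}
    (hL : IsSCofinalSub K S L') (χ : K.fixingSubgroup → ZMod p) :
    χ ∈ levelChars L' (ZMod p) ↔ χ ∈ kummerChars K S p := by
  rw [mem_levelChars_iff, mem_kummerChars_iff, isLevelConst_one_iff]
  refine and_congr_right fun _ => ?_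
  constructor
  · rintro ⟨N', hN', h⟩
    obtain ⟨F, hF, hFN⟩ := hL.1 N' hN'
    exact ⟨F, hF, fun g s hs => h g s (hFN (Subgroup.mem_subgroupOf.mpr hs))⟩
  · rintro ⟨F, hF, h⟩
    obtain ⟨N', hN', hNF⟩ := hL.2 F hF
    exact ⟨N', hN', fun g s hs => h g s (Subgroup.mem_subgroupOf.mp (hNF hs))⟩

/-- `H¹(Gal(ℚ̄/K); 𝔽_p)` (level cohomology) is in bijection with the Kummer characters. -/
theorem card_H1_eq_card_kummerChars {L' : LevelSys K.fixingSubgroup}
    (hL : IsSCofinalSub K S L') :
    Nat.card ((trivCx L' (ZMod p)).H 1) = Nat.card (kummerChars K S p) := by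
  rw [Nat.card_congr (h1TrivEquiv L' (ZMod p)).toEquiv]
  refine Nat.card_congr (Equiv.subtypeEquivRight fun χ => ?_)
  exact mem_levelChars_iff_mem_kummerChars p hL χ

variable (K S)
variable [NumberField K] [Fact p.Prime]

/-- **G1-H1.** For a level `K` for `S ∋ p`, `p` odd, containing the `p`-th roots of unity, and a
level system `L'` on `U = Gal(ℚ̄/K)` cofinal with the traces of the `S`-levels:
`H¹(U; 𝔽_p)` is finite of dimension `r₂(K) + #S_K + c`, where
`p ^ c = #Cl_{S_K}[p] = #(Cl_{S_K} / p)`. -/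
theorem exists_finrank_H1_of_cofinal (hp2 : p ≠ 2) (hpS : ExtCitation.pPrime p ∈ S)
    (hK : K.IsUnramifiedOutside S) {ζ : Qb} (hζ : IsPrimitiveRoot ζ p) (hζK : ζ ∈ K)
    {L' : LevelSys K.fixingSubgroup} (hL : IsSCofinalSub K S L') :
    ∃ c : ℕ, Nat.card {x : ClS K (primesOver K S) // x ^ p = 1} = p ^ c ∧
      (powMonoidHom (α := ClS K (primesOver K S)) p).range.index = p ^ c ∧
      Module.Finite (ZMod p) ((trivCx L' (ZMod p)).H 1) ∧
      Module.finrank (ZMod p) ((trivCx L' (ZMod p)).H 1)
        = InfinitePlace.nrComplexPlaces K + Nat.card (primesOver K S) + c := by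
  have hp : p.Prime := Fact.out
  obtain ⟨c, h1, h2, h3⟩ := exists_card_kummerChars K S p hp2 hpS hK hζ hζK
  have hcard := card_H1_eq_card_kummerChars p hL
  rw [h3] at hcard
  have hfin : Finite ((trivCx L' (ZMod p)).H 1) :=
    Nat.finite_of_card_ne_zero (by rw [hcard]; exact pow_ne_zero _ hp.ne_zero)
  have hmf : Module.Finite (ZMod p) ((trivCx L' (ZMod p)).H 1) := Module.Finite.of_finite
  refine ⟨c, h1, h2, hmf, ?_⟩
  have h4 := Module.natCard_eq_pow_finrank (K := ZMod p) (V := (trivCx L' (ZMod p)).H 1)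
  rw [hcard, Nat.card_zmod] at h4
  exact (Nat.pow_right_injective hp.two_le h4).symm

/-- **G1-H1** for the induced level system `L.sub (Gal(ℚ̄/K))`, `L` a level system on `G_ℚ`
cofinal with the `S`-levels. -/
theorem exists_finrank_H1 (hp2 : p ≠ 2) (hpS : ExtCitation.pPrime p ∈ S)
    (hK : K.IsUnramifiedOutside S) {ζ : Qb} (hζ : IsPrimitiveRoot ζ p) (hζK : ζ ∈ K)
    {L : LevelSys GQ} (hL : IsSCofinal L S) :
    ∃ c : ℕ, Nat.card {x : ClS K (primesOver K S) // x ^ p = 1} = p ^ c ∧
      (powMonoidHom (α := ClS K (primesOver K S)) p).range.index = p ^ c ∧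
      Module.Finite (ZMod p) ((trivCx (L.sub K.fixingSubgroup) (ZMod p)).H 1) ∧
      Module.finrank (ZMod p) ((trivCx (L.sub K.fixingSubgroup) (ZMod p)).H 1)
        = InfinitePlace.nrComplexPlaces K + Nat.card (primesOver K S) + c :=
  exists_finrank_H1_of_cofinal K S p hp2 hpS hK hζ hζK (hL.sub K)

/-- `K ∋ ζ_p`, `p` odd, is totally complex: `2 r₂(K) = [K : ℚ] = [G_ℚ : G_K]`. -/
theorem two_mul_nrComplexPlaces (hp2 : p ≠ 2) {ζ : Qb} (hζ : IsPrimitiveRoot ζ p)
    (hζK : ζ ∈ K) :
    2 * InfinitePlace.nrComplexPlaces K = Module.finrank ℚ K ∧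
      2 * InfinitePlace.nrComplexPlaces K = K.fixingSubgroup.index := by
  have hp : p.Prime := Fact.out
  have hζ' : IsPrimitiveRoot (⟨ζ, hζK⟩ : K) p :=
    IsPrimitiveRoot.coe_submonoidClass_iff.mp hζ
  have h2 : 2 < p := lt_of_le_of_ne hp.two_le (Ne.symm hp2)
  have h0 := InfinitePlace.IsPrimitiveRoot.nrRealPlaces_eq_zero_of_two_lt h2 hζ'
  have h1 := InfinitePlace.card_add_two_mul_card_eq_rank K
  rw [h0, zero_add] at h1
  have : IsGalois ℚ Qb := Fermat.Agent.Lib.FrobeniusExists.isGalois_rat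
  exact ⟨h1, by rw [h1, IntermediateField.finrank_eq_fixingSubgroup_index]⟩

end Concrete

end Fermat.Agent.PT.KumH1
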