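/-
PT, G1-H1 for the concrete level system `Bridge.levS S`, in the `LevelSys.trivCx` vocabulary,
and the `c`-free cardinality form:

  `#H¹(G_K; 𝔽_p) = p ^ (r₂(K) + #S_K) · #(Cl_{S_K} / p)`.
-/
import Fermat.Agent.PT.G.KumH1
import Fermat.Agent.PT.G.ClSMod
import Fermat.Agent.PT.Bridge
import Fermat.Agent.PT.Coh.CountUnip

set_option autoImplicit false

namespace Fermat.Agent.PT.KumH1

open Fermat.Agent.PT IsDedekindDomain NumberField Fermat.Agent.PT.KumBridge
  Fermat.Agent.PT.SelmerSeq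

local notation "Qb" => AlgebraicClosure ℚ
local notation "GQ" => (AlgebraicClosure ℚ ≃ₐ[ℚ] AlgebraicClosure ℚ)

/-- The concrete `S`-level system of `PT/Bridge` is cofinal with the `S`-levels. -/
theorem isSCofinal_levS (S : Finset Nat.Primes) : IsSCofinal (Bridge.levS S) S := by
  constructor
  · rintro N ⟨F, hF, _, rfl⟩
    exact ⟨F, hF, le_rfl⟩
  · intro F hF
    exact Bridge.exists_mem_levS_le hF

variable (K : IntermediateField ℚ Qb) (S : Finset Nat.Primes) (p : ℕ) [NumberField K]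
  [Fact p.Prime]

/-- **G1-H1, cardinality form** (no auxiliary exponent): for `L'` cofinal with the traces of the
`S`-levels on `U = Gal(ℚ̄/K)`,
`#H¹(U; 𝔽_p) = p ^ (r₂(K) + #S_K) · #(Cl_{S_K} / p)`. -/
theorem card_H1_of_cofinal (hp2 : p ≠ 2) (hpS : ExtCitation.pPrime p ∈ S)
    (hK : K.IsUnramifiedOutside S) {ζ : Qb} (hζ : IsPrimitiveRoot ζ p) (hζK : ζ ∈ K)
    {L' : LevelSys K.fixingSubgroup} (hL : IsSCofinalSub K S L') :
    Nat.card ((trivCx L' (ZMod p)).H 1)
      = p ^ (InfinitePlace.nrComplexPlaces K + Nat.card (primesOver K S))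
        * Nat.card (ClSMod K (primesOver K S) p) := by
  have hζ' : IsPrimitiveRoot (⟨ζ, hζK⟩ : K) p :=
    IsPrimitiveRoot.coe_submonoidClass_iff.mp hζ
  rw [card_H1_eq_card_kummerChars p hL, card_kummerChars K S p hpS hK hζ hζK,
    card_selmerGroup_numberField K (primesOver K S) p hp2 hζ', card_ClSMod_eq_torsion]

/-- **G1-H1 for `levS S`**, in the `LevelSys.trivCx` vocabulary:
`#H¹(G_K; 𝔽_p) = p ^ (r₂(K) + #S_K) · #(Cl_{S_K} / p)`. -/
theorem card_H1_levS (hp2 : p ≠ 2) (hpS : ExtCitation.pPrime p ∈ S)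
    (hK : K.IsUnramifiedOutside S) {ζ : Qb} (hζ : IsPrimitiveRoot ζ p) (hζK : ζ ∈ K) :
    Nat.card ((((Bridge.levS S).sub K.fixingSubgroup).trivCx p).H 1)
      = p ^ (InfinitePlace.nrComplexPlaces K + Nat.card (primesOver K S))
        * Nat.card (ClSMod K (primesOver K S) p) :=
  card_H1_of_cofinal K S p hp2 hpS hK hζ hζK ((isSCofinal_levS S).sub K)

/-- **G1-H1 for `levS S`**, dimension form: `H¹(G_K; 𝔽_p)` is finite-dimensional of dimension
`r₂(K) + #S_K + c` with `p ^ c = #(Cl_{S_K} / p)`. -/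
theorem exists_finrank_H1_levS (hp2 : p ≠ 2) (hpS : ExtCitation.pPrime p ∈ S)
    (hK : K.IsUnramifiedOutside S) {ζ : Qb} (hζ : IsPrimitiveRoot ζ p) (hζK : ζ ∈ K) :
    ∃ c : ℕ, Nat.card (ClSMod K (primesOver K S) p) = p ^ c ∧
      Module.Finite (ZMod p) ((((Bridge.levS S).sub K.fixingSubgroup).trivCx p).H 1) ∧
      Module.finrank (ZMod p) ((((Bridge.levS S).sub K.fixingSubgroup).trivCx p).H 1)
        = InfinitePlace.nrComplexPlaces K + Nat.card (primesOver K S) + c := by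
  obtain ⟨c, -, h2, h3, h4⟩ :=
    exists_finrank_H1 K S p hp2 hpS hK hζ hζK (isSCofinal_levS S)
  exact ⟨c, h2, h3, h4⟩

/-- `H⁰(G_K; 𝔽_p)` is one-dimensional (any level system). -/
theorem finrank_H0_trivCx {Γ : Type} [Group Γ] (L : LevelSys Γ) :
    Module.finrank (ZMod p) ((L.trivCx p).H 0) = 1 := by
  rw [(h0TrivEquiv L (ZMod p)).finrank_eq, Module.finrank_self]

instance finite_H0_trivCx {Γ : Type} [Group Γ] (L : LevelSys Γ) :
    Module.Finite (ZMod p) ((L.trivCx p).H 0) :=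
  Module.Finite.equiv (h0TrivEquiv L (ZMod p)).symm

end Fermat.Agent.PT.KumH1
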