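/-
PT, (B1a): G1-H1 stated literally on the BASE vocabulary (`Base.IsBaseField`, `Base.CU`):
for a base field `K` for `(p, S)`, `p` odd, `p ∈ S`, `U = Gal(ℚ̄/K)`:

  `#H¹(U; 𝔽_p) = p ^ (r₂(K) + #S_K) · #(Cl_{S_K} / p)`,   `2 r₂(K) = [G_ℚ : U]`.
-/
import Fermat.Agent.PT.G.KumH1S
import Fermat.Agent.PT.Base.Defs

set_option autoImplicit false

namespace Fermat.Agent.PT.KumH1

open Fermat.Agent.PT IsDedekindDomain NumberField Fermat.Agent.PT.KumBridge
  Fermat.Agent.PT.SelmerSeq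

local notation "Qb" => AlgebraicClosure ℚ
local notation "GQ" => (AlgebraicClosure ℚ ≃ₐ[ℚ] AlgebraicClosure ℚ)

variable (p : ℕ) [Fact p.Prime] (S : Finset Nat.Primes)

/-- A base field contains a primitive `p`-th root of unity. -/
theorem exists_primitiveRoot_mem_of_isBaseField {K : IntermediateField ℚ Qb}
    (hK : Base.IsBaseField p S K) : ∃ ζ : Qb, IsPrimitiveRoot ζ p ∧ ζ ∈ K := by
  obtain ⟨ζ, hζ⟩ := Levels.exists_primitiveRoot_Qbar p
  refine ⟨ζ, hζ, (Kummer.mem_iff_forall_apply_eq K ζ).mpr fun g hg => ?_⟩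
  exact (Levels.cycloChar_eq_one_iff p g hζ).mp (hK.cyc g hg)

/-- A base field is a number field. -/
theorem numberField_of_isBaseField {K : IntermediateField ℚ Qb} (hK : Base.IsBaseField p S K) :
    NumberField K :=
  haveI := hK.unram.1
  ⟨⟩

variable (K : IntermediateField ℚ Qb) [NumberField K]

/-- **(B1a), cardinality form**: for a base field `K`, `p` odd, `p ∈ S`:
`#H¹(G_K; 𝔽_p) = p ^ (r₂(K) + #S_K) · #(Cl_{S_K} / p)`. -/
theorem card_H1_CU (hp2 : p ≠ 2) (hpS : ExtCitation.pPrime p ∈ S)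
    (hK : Base.IsBaseField p S K) :
    Nat.card ((Base.CU p S K.fixingSubgroup).H 1)
      = p ^ (InfinitePlace.nrComplexPlaces K + Nat.card (primesOver K S))
        * Nat.card (ClSMod K (primesOver K S) p) := by
  obtain ⟨ζ, hζ, hζK⟩ := exists_primitiveRoot_mem_of_isBaseField p S hK
  exact card_H1_levS K S p hp2 hpS hK.unram hζ hζK

/-- **(B1a), dimension form**: `H¹(G_K; 𝔽_p)` is finite-dimensional of dimension
`r₂(K) + #S_K + c`, where `p ^ c = #(Cl_{S_K} / p)`. -/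
theorem exists_finrank_H1_CU (hp2 : p ≠ 2) (hpS : ExtCitation.pPrime p ∈ S)
    (hK : Base.IsBaseField p S K) :
    ∃ c : ℕ, Nat.card (ClSMod K (primesOver K S) p) = p ^ c ∧
      Module.Finite (ZMod p) ((Base.CU p S K.fixingSubgroup).H 1) ∧
      Module.finrank (ZMod p) ((Base.CU p S K.fixingSubgroup).H 1)
        = InfinitePlace.nrComplexPlaces K + Nat.card (primesOver K S) + c := by
  obtain ⟨ζ, hζ, hζK⟩ := exists_primitiveRoot_mem_of_isBaseField p S hK
  exact exists_finrank_H1_levS K S p hp2 hpS hK.unram hζ hζK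

/-- **(B1c), second half**: a base field (`p` odd) is totally complex,
`2 r₂(K) = [K : ℚ] = [G_ℚ : G_K]`. -/
theorem two_mul_nrComplexPlaces_of_isBaseField (hp2 : p ≠ 2) (hK : Base.IsBaseField p S K) :
    2 * InfinitePlace.nrComplexPlaces K = K.fixingSubgroup.index := by
  obtain ⟨ζ, hζ, hζK⟩ := exists_primitiveRoot_mem_of_isBaseField p S hK
  exact (two_mul_nrComplexPlaces K p hp2 hζ hζK).2

/-- `h⁰(G_K; 𝔽_p) = 1`. -/
theorem finrank_H0_CU (U : Subgroup GQ) :
    Module.finrank (ZMod p) ((Base.CU p S U).H 0) = 1 :=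
  finrank_H0_trivCx p _

end Fermat.Agent.PT.KumH1
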