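import Mathlib
import Fermat.Agent.PT.LevelTwist
import Fermat.Agent.PT.G.ValConj
import Fermat.Agent.Lib.InertiaLift
import Fermat.Agent.Lib.FrobeniusExists
import Fermat.Agent.ESJ.Rep.Cyclo

/-!
# The mod `p ^ n` cyclotomic character of `Gal(ℚ̄/ℚ)` (PT, layer G; input of (B5))

* `chiPow p n : GQ →* (ZMod (p ^ n))ˣ`, the reduction of the `p`-adic cyclotomic character;
* `chiPow_spec` : `σ ζ = ζ ^ (chiPow p n σ).val` for `ζ ^ p ^ n = 1`;
* `chiPow_eq_one_iff`, `ker_chiPow` : the kernel is `Gal(ℚ̄/ℚ(ζ_{p^n}))`;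
* `chiPow_surjective` (irreducibility of the cyclotomic polynomial);
* `chiPow_frobenius` : the value `q` on Frobenius elements at `q ≠ p`;
* `chiPow_inertia` : trivial on inertia at `q ≠ p`;
* `isUnramifiedOutside_adjoin_primitiveRoot_pow` : `ℚ(ζ_{p^n})` is a level for `S ∋ p`;
* `exists_mem_inertia_chiPow_eq` : the inertia groups at `p` surject onto `(ZMod (p ^ n))ˣ`
  (total ramification of the cyclotomic `p`-tower at `p`).
-/

set_option autoImplicit false

namespace Fermat.Agent.PT.G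

open ExtCitation Fermat.Agent.PT.Levels Fermat.Agent.Lib.FrobeniusExists
open scoped Pointwise

local notation "Qb" => AlgebraicClosure ℚ
local notation "GQ" => (AlgebraicClosure ℚ ≃ₐ[ℚ] AlgebraicClosure ℚ)

attribute [local instance] isAlgClosure_rat isGalois_rat

section Def

variable (p : ℕ) [Fact p.Prime] (n : ℕ)

/-- The mod `p ^ n` cyclotomic character of the absolute Galois group of `ℚ`. -/
noncomputable def chiPow : GQ →* (ZMod (p ^ n))ˣ :=
  (Units.map (PadicInt.toZModPow (p := p) n).toMonoidHom).comp (Fermat.Agent.ESJ.Rep.cyclo p)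

theorem coe_chiPow (σ : GQ) : ((chiPow p n σ : (ZMod (p ^ n))ˣ) : ZMod (p ^ n)) =
    PadicInt.toZModPow n ((Fermat.Agent.ESJ.Rep.cyclo p σ : ℤ_[p]ˣ) : ℤ_[p]) := rfl

/-- The defining property of `chiPow`. -/
theorem chiPow_spec (σ : GQ) (t : Qb) (ht : t ^ p ^ n = 1) :
    σ t = t ^ ((chiPow p n σ : (ZMod (p ^ n))ˣ) : ZMod (p ^ n)).val :=
  Fermat.Agent.ESJ.Rep.Cyclo.cyclo_spec p n σ t ht

/-- Reading off `chiPow` from the action on a primitive root. -/
theorem chiPow_eq_of_apply (σ : GQ) (b : ℕ) {ζ : Qb} (hζ : IsPrimitiveRoot ζ (p ^ n))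
    (h : σ ζ = ζ ^ b) :
    ((chiPow p n σ : (ZMod (p ^ n))ˣ) : ZMod (p ^ n)) = (b : ZMod (p ^ n)) :=
  Fermat.Agent.ESJ.Rep.Cyclo.toZModPow_cyclo_eq p n σ b hζ h

theorem chiPow_eq_one_iff (σ : GQ) {ζ : Qb} (hζ : IsPrimitiveRoot ζ (p ^ n)) :
    chiPow p n σ = 1 ↔ σ ζ = ζ := by
  constructor
  · intro h
    have h1 := chiPow_spec p n σ ζ hζ.pow_eq_one
    rw [h, Units.val_one, ZMod.val_one_eq_one_mod] at h1
    rw [h1]
    conv_lhs => rw [hζ.eq_orderOf]
    rw [pow_mod_orderOf, pow_one]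
  · intro h
    apply Units.ext
    have h1 := chiPow_eq_of_apply p n σ 1 hζ (by rw [pow_one]; exact h)
    rw [h1, Nat.cast_one, Units.val_one]

/-- The kernel of `chiPow p n` is `Gal(ℚ̄/ℚ(ζ_{p^n}))`. -/
theorem ker_chiPow {ζ : Qb} (hζ : IsPrimitiveRoot ζ (p ^ n)) :
    (chiPow p n).ker = (IntermediateField.adjoin ℚ {ζ}).fixingSubgroup := by
  ext σ
  rw [MonoidHom.mem_ker, mem_fixingSubgroup_adjoin_simple_iff, chiPow_eq_one_iff p n σ hζ]

theorem finiteDimensional_adjoin_primitiveRoot_pow {ζ : Qb} (hζ : IsPrimitiveRoot ζ (p ^ n)) :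
    FiniteDimensional ℚ (IntermediateField.adjoin ℚ {ζ}) := by
  have hp : p.Prime := Fact.out
  have hζint : IsIntegral ℚ ζ := (hζ.isIntegral (pow_pos hp.pos n)).tower_top
  exact IntermediateField.adjoin.finiteDimensional hζint

theorem isOpen_ker_chiPow : IsOpen (((chiPow p n).ker : Subgroup GQ) : Set GQ) := by
  obtain ⟨ζ, hζ⟩ := Fermat.Agent.ESJ.Rep.Cyclo.exists_primitiveRoot p n
  have := finiteDimensional_adjoin_primitiveRoot_pow p n hζ
  rw [ker_chiPow p n hζ]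
  exact IntermediateField.fixingSubgroup_isOpen _

/-- The mod `p ^ n` cyclotomic character is surjective. -/
theorem chiPow_surjective : Function.Surjective (chiPow p n) := by
  have hp : p.Prime := Fact.out
  have : NeZero (p ^ n) := ⟨pow_ne_zero _ hp.ne_zero⟩
  intro c
  obtain ⟨ζ, hζ⟩ := Fermat.Agent.ESJ.Rep.Cyclo.exists_primitiveRoot p n
  have hcop : ((c : ZMod (p ^ n)).val).Coprime (p ^ n) := ZMod.val_coe_unit_coprime c
  have hζ' : IsPrimitiveRoot (ζ ^ (c : ZMod (p ^ n)).val) (p ^ n) := hζ.pow_of_coprime _ hcop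
  have hmin : minpoly ℚ ζ = minpoly ℚ (ζ ^ (c : ZMod (p ^ n)).val) := by
    rw [← Polynomial.cyclotomic_eq_minpoly_rat hζ (NeZero.pos _),
      ← Polynomial.cyclotomic_eq_minpoly_rat hζ' (NeZero.pos _)]
  have hconj : IsConjRoot ℚ (ζ ^ (c : ZMod (p ^ n)).val) ζ := hmin.symm
  have : Normal ℚ Qb := IsAlgClosure.normal ℚ Qb
  obtain ⟨σ, hσ⟩ := (isConjRoot_iff_exists_algEquiv (K := ℚ) (L := Qb)).mp hconj
  refine ⟨σ, Units.ext ?_⟩
  rw [chiPow_eq_of_apply p n σ _ hζ hσ, ZMod.natCast_zmod_val]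

/-- The value of `chiPow` on Frobenius elements at `q ≠ p`. -/
theorem chiPow_frobenius {q : ℕ} (hq : q.Prime) (hqp : q ≠ p) (A : ValuationSubring Qb)
    (hA : A.LiesOverPrime q) (σ : GQ) (hσ : A.IsFrobeniusAt σ q) :
    ((chiPow p n σ : (ZMod (p ^ n))ˣ) : ZMod (p ^ n)) = (q : ZMod (p ^ n)) := by
  rw [coe_chiPow, Fermat.Agent.ESJ.Rep.cyclo_frobenius p hq hqp A hA σ hσ, map_natCast]

/-- `chiPow` is trivial on inertia at `q ≠ p`. -/
theorem chiPow_inertia {q : ℕ} (hq : q.Prime) (hqp : q ≠ p) (A : ValuationSubring Qb)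
    (hA : A.LiesOverPrime q) {σ : GQ} (hσ : σ ∈ A.inertiaSubgroupIn ℚ) : chiPow p n σ = 1 := by
  rw [chiPow, MonoidHom.comp_apply, Fermat.Agent.ESJ.Rep.cyclo_inertia p hq hqp A hA σ hσ,
    map_one]

/-- `ℚ(ζ_{p^n})` is a level for every `S ∋ p`. -/
theorem isUnramifiedOutside_adjoin_primitiveRoot_pow (S : Finset Nat.Primes)
    (hpS : pPrime p ∈ S) {ζ : Qb} (hζ : IsPrimitiveRoot ζ (p ^ n)) :
    (IntermediateField.adjoin ℚ {ζ}).IsUnramifiedOutside S := by
  refine ⟨finiteDimensional_adjoin_primitiveRoot_pow p n hζ, fun q hq A hA σ hσ => ?_⟩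
  rw [mem_fixingSubgroup_adjoin_simple_iff, ← chiPow_eq_one_iff p n σ hζ]
  refine chiPow_inertia p n q.2 ?_ A hA hσ
  intro h
  apply hq
  have : q = pPrime p := Subtype.ext h
  rw [this]
  exact hpS

/-- **Total ramification at `p`**: the inertia group of every valuation subring over `p`
surjects onto `(ZMod (p ^ n))ˣ` under the cyclotomic character. -/
theorem exists_mem_inertia_chiPow_eq (A : ValuationSubring Qb) (hA : A.LiesOverPrime p)
    (u : (ZMod (p ^ n))ˣ) : ∃ σ ∈ A.inertiaSubgroupIn ℚ, chiPow p n σ = u := by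
  have hp : p.Prime := Fact.out
  set H : Subgroup (ZMod (p ^ n))ˣ := (A.inertiaSubgroupIn ℚ).map (chiPow p n) with hH
  let f : GQ →* (ZMod (p ^ n))ˣ ⧸ H := (QuotientGroup.mk' H).comp (chiPow p n)
  have hker : (chiPow p n).ker ≤ f.ker := by
    intro σ hσ
    rw [MonoidHom.mem_ker] at hσ ⊢
    show (QuotientGroup.mk' H) (chiPow p n σ) = 1
    rw [hσ, map_one]
  have hopen : IsOpen ((f.ker : Subgroup GQ) : Set GQ) :=
    Subgroup.isOpen_mono hker (isOpen_ker_chiPow p n)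
  have hf : ∀ σ : GQ, f σ = 1 := by
    refine Fermat.Agent.Lib.InertiaLift.monoidHom_eq_one_of_inertia f hopen ?_
    intro ℓ hℓ A' hA' σ hσ
    show (QuotientGroup.mk' H) (chiPow p n σ) = 1
    by_cases hℓp : ℓ = p
    · rw [hℓp] at hA'
      obtain ⟨τ, hτ⟩ := exists_smul_eq hp A A' hA hA'
      have h1 : τ⁻¹ * σ * τ⁻¹⁻¹ ∈ (τ⁻¹ • A').inertiaSubgroupIn ℚ :=
        conj_mem_inertiaSubgroupIn A' τ⁻¹ σ hσ
      rw [← hτ, inv_smul_smul, inv_inv] at h1
      have h2 : chiPow p n (τ⁻¹ * σ * τ) = chiPow p n σ := by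
        rw [map_mul, map_mul, mul_comm, ← mul_assoc, ← map_mul, mul_inv_cancel, map_one, one_mul]
      rw [QuotientGroup.mk'_apply, QuotientGroup.eq_one_iff, ← h2]
      exact Subgroup.mem_map_of_mem _ h1
    · rw [chiPow_inertia p n hℓ hℓp A' hA' hσ, map_one]
  obtain ⟨σ, hσ⟩ := chiPow_surjective p n u
  have h3 : chiPow p n σ ∈ H := by
    have := hf σ
    rwa [show f σ = QuotientGroup.mk' H (chiPow p n σ) from rfl, QuotientGroup.mk'_apply,
      QuotientGroup.eq_one_iff] at this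
  rw [hσ, hH, Subgroup.mem_map] at h3
  exact h3

/-- The decomposition group of every valuation subring over `p` surjects onto
`(ZMod (p ^ n))ˣ`. -/
theorem exists_mem_decomp_chiPow_eq (A : ValuationSubring Qb) (hA : A.LiesOverPrime p)
    (u : (ZMod (p ^ n))ˣ) : ∃ σ ∈ A.decompositionSubgroup ℚ, chiPow p n σ = u := by
  obtain ⟨σ, hσ, hu⟩ := exists_mem_inertia_chiPow_eq p n A hA u
  exact ⟨σ, ((mem_inertiaSubgroupIn_iff A σ).mp hσ).1, hu⟩

/-- For `q ≠ p` the decomposition group of a valuation subring over `q` contains an element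
whose cyclotomic value is `q`. -/
theorem exists_mem_decomp_chiPow_eq_natCast {q : ℕ} (hq : q.Prime) (hqp : q ≠ p)
    (A : ValuationSubring Qb) (hA : A.LiesOverPrime q) :
    ∃ σ ∈ A.decompositionSubgroup ℚ,
      ((chiPow p n σ : (ZMod (p ^ n))ˣ) : ZMod (p ^ n)) = (q : ZMod (p ^ n)) := by
  obtain ⟨σ, hσ⟩ := exists_isFrobeniusAt_of_liesOverPrime hq A hA
  exact ⟨σ, hσ.mem_decompositionSubgroup, chiPow_frobenius p n hq hqp A hA σ hσ⟩

end Def

end Fermat.Agent.PT.G
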