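/-
PT / G : the number of places above a fixed prime stays bounded in the cyclotomic `p`-tower.
Group-theoretic and elementary arithmetic core (Mathlib only).

* `exists_bound_index_zpowers` : for `p` odd and `2 ≤ q`, `p ∤ q`, the index of `⟨q⟩` in
  `(ZMod (p ^ n))ˣ` is bounded independently of `n`.
* `card_doset_le` : `#(D \ G / U) ≤ [N : U] * [G : D ⊔ N]` for `U ≤ N`, `N` normal.
-/
import Mathlib

set_option autoImplicit false

namespace Fermat.Agent.PT.G

open Subgroup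

/-- Lifting the exponent: if `p` is odd, `p ∤ q`, `2 ≤ q` and `q ^ d ≡ 1 mod p ^ n` with `d ≠ 0`,
then `p ^ n ∣ p ^ a * d` where `a = v_p(q ^ (p - 1) - 1)`. -/
theorem pow_dvd_of_pow_modEq_one {p q : ℕ} [hp : Fact p.Prime] (hp2 : p ≠ 2) (hq : 2 ≤ q)
    (hqp : ¬ p ∣ q) {n d : ℕ} (hd : d ≠ 0) (h : q ^ d ≡ 1 [MOD p ^ n]) :
    p ^ n ∣ p ^ (padicValNat p (q ^ (p - 1) - 1)) * d := by
  have hpp := hp.out
  set x := q ^ (p - 1) with hx
  have hx1 : 1 < x := by
    have : 1 ≤ p - 1 := by have := hpp.two_le; omega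
    calc 1 < q := hq
      _ = q ^ 1 := (pow_one q).symm
      _ ≤ q ^ (p - 1) := Nat.pow_le_pow_right (by omega) this
  have hpx : p ∣ x - 1 := by
    have hcop : Nat.Coprime q p := (Nat.Prime.coprime_iff_not_dvd hpp).2 hqp |>.symm
    have := Nat.ModEq.pow_totient hcop
    rw [Nat.totient_prime hpp] at this
    exact (Nat.modEq_iff_dvd' hx1.le).1 this.symm
  have hpx' : ¬ p ∣ x := fun hdiv => hqp (hpp.dvd_of_dvd_pow hdiv)
  have hodd : Odd p := hpp.odd_of_ne_two hp2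
  have hLTE : padicValNat p (x ^ d - 1 ^ d) = padicValNat p (x - 1) + padicValNat p d :=
    padicValNat.pow_sub_pow hodd hx1 hpx hpx' hd
  rw [one_pow] at hLTE
  -- `p ^ n ∣ q ^ d - 1 ∣ x ^ d - 1`
  have hqd1 : 1 ≤ q ^ d := Nat.one_le_pow _ _ (by omega)
  have h1 : p ^ n ∣ q ^ d - 1 := (Nat.modEq_iff_dvd' hqd1).1 h.symm
  have h2 : q ^ d - 1 ∣ x ^ d - 1 := by
    have : x ^ d = (q ^ d) ^ (p - 1) := by rw [hx, ← pow_mul, ← pow_mul, mul_comm]
    rw [this]
    simpa only [one_pow] using Nat.sub_dvd_pow_sub_pow (q ^ d) 1 (p - 1)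
  have h3 : p ^ n ∣ x ^ d - 1 := h1.trans h2
  have hxd : x ^ d - 1 ≠ 0 := by
    have : 1 < x ^ d := Nat.one_lt_pow hd hx1
    omega
  have h4 : n ≤ padicValNat p (x ^ d - 1) := (padicValNat_dvd_iff_le hxd).1 h3
  rw [hLTE] at h4
  have h5 : p ^ (padicValNat p d) ∣ d := pow_padicValNat_dvd
  calc p ^ n ∣ p ^ (padicValNat p (x - 1) + padicValNat p d) := pow_dvd_pow p h4
    _ = p ^ (padicValNat p (x - 1)) * p ^ (padicValNat p d) := pow_add _ _ _
    _ ∣ p ^ (padicValNat p (x - 1)) * d := Nat.mul_dvd_mul_left _ h5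

/-- For `p` odd and `2 ≤ q` prime to `p`, the index of the subgroup generated by `q` in
`(ZMod (p ^ n))ˣ` is bounded independently of `n`. -/
theorem exists_bound_index_zpowers {p q : ℕ} [hp : Fact p.Prime] (hp2 : p ≠ 2) (hq : 2 ≤ q)
    (hqp : ¬ p ∣ q) :
    ∃ B : ℕ, ∀ n : ℕ, ∀ u : (ZMod (p ^ n))ˣ, (u : ZMod (p ^ n)) = (q : ZMod (p ^ n)) →
      (Subgroup.zpowers u).index ≤ B := by
  have hpp := hp.out
  refine ⟨p ^ (padicValNat p (q ^ (p - 1) - 1)), fun n u hu => ?_⟩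
  set a := padicValNat p (q ^ (p - 1) - 1) with ha
  have : NeZero (p ^ n) := ⟨pow_ne_zero _ hpp.ne_zero⟩
  -- `index * orderOf u = φ(p ^ n)`
  have hcard : (Subgroup.zpowers u).index * orderOf u = Nat.totient (p ^ n) := by
    have h1 := Subgroup.index_mul_card (Subgroup.zpowers u)
    rw [Nat.card_zpowers] at h1
    rw [h1, Nat.card_eq_fintype_card, ZMod.card_units_eq_totient]
  have hd0 : orderOf u ≠ 0 := (orderOf_pos u).ne'
  -- `q ^ orderOf u ≡ 1 mod p ^ n`
  have hmod : q ^ orderOf u ≡ 1 [MOD p ^ n] := by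
    have h1 : (u : ZMod (p ^ n)) ^ orderOf u = 1 := by
      rw [← Units.val_pow_eq_pow_val, pow_orderOf_eq_one, Units.val_one]
    rw [hu] at h1
    have h2 : ((q ^ orderOf u : ℕ) : ZMod (p ^ n)) = ((1 : ℕ) : ZMod (p ^ n)) := by
      push_cast; exact h1
    exact (ZMod.natCast_eq_natCast_iff _ _ _).1 h2
  have hdvd : p ^ n ∣ p ^ a * orderOf u := pow_dvd_of_pow_modEq_one hp2 hq hqp hd0 hmod
  -- index * orderOf u = φ(p^n) ≤ p ^ n ≤ p ^ a * orderOf u
  have hle : (Subgroup.zpowers u).index * orderOf u ≤ p ^ a * orderOf u := by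
    rw [hcard]
    exact (Nat.totient_le _).trans (Nat.le_of_dvd (Nat.mul_pos (pow_pos hpp.pos _) (orderOf_pos u)) hdvd)
  exact Nat.le_of_mul_le_mul_right hle (orderOf_pos u)


/-- Double cosets: for `U ≤ N` with `N` normal and `U` of finite index,
`#(D \ G / U) ≤ [N : U] * [G : D ⊔ N]`. -/
theorem card_doset_le {G : Type*} [Group G] (D U N : Subgroup G) [N.Normal] (hUN : U ≤ N)
    [U.FiniteIndex] :
    Nat.card (DoubleCoset.Quotient (D : Set G) (U : Set G)) ≤ U.relIndex N * (D ⊔ N).index := by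
  classical
  have hNfin : N.FiniteIndex := Subgroup.finiteIndex_of_le hUN
  have hDNfin : (D ⊔ N).FiniteIndex := Subgroup.finiteIndex_of_le (le_sup_right : N ≤ D ⊔ N)
  have : Finite (G ⧸ (D ⊔ N)) := Subgroup.finite_quotient_of_finiteIndex
  have hUNfin : (U.subgroupOf N).FiniteIndex := inferInstance
  have : Finite (N ⧸ U.subgroupOf N) := Subgroup.finite_quotient_of_finiteIndex
  let f : (N ⧸ U.subgroupOf N) × (G ⧸ (D ⊔ N)) → DoubleCoset.Quotient (D : Set G) (U : Set G) :=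
    fun xy => DoubleCoset.mk D U ((xy.2.out)⁻¹ * ((xy.1.out : N) : G))
  have hf : Function.Surjective f := by
    intro z
    induction z using Quotient.inductionOn with
    | h g =>
      -- `x := [g⁻¹]`, `x.out = g⁻¹ * m`, `m ∈ D ⊔ N`
      set x : G ⧸ (D ⊔ N) := QuotientGroup.mk g⁻¹ with hx
      have hm : (g⁻¹)⁻¹ * x.out ∈ D ⊔ N := by
        rw [← QuotientGroup.eq]; exact (QuotientGroup.out_eq' x).symm
      rw [inv_inv] at hm
      -- `(g * x.out)⁻¹ = d * n`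
      have hm' : (g * x.out)⁻¹ ∈ D ⊔ N := inv_mem hm
      obtain ⟨d, hd, n, hn, hdn⟩ : ∃ d ∈ D, ∃ n ∈ N, d * n = (g * x.out)⁻¹ := by
        have := hm'
        rw [← SetLike.mem_coe, Subgroup.mul_normal] at this
        exact Set.mem_mul.1 this
      -- `(x.out)⁻¹ = d * n * g = d * g * n'`, `n' = g⁻¹ n g ∈ N`
      set n' : G := g⁻¹ * n * g with hn'
      have hn'N : n' ∈ N := by
        have := ‹N.Normal›.conj_mem n hn g⁻¹
        simpa [hn', mul_assoc] using this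
      have hxout : (x.out)⁻¹ = d * g * n' := by
        have h1 : (x.out)⁻¹ = (g * x.out)⁻¹ * g := by group
        rw [h1, ← hdn, hn']; group
      set y : N ⧸ U.subgroupOf N := QuotientGroup.mk (⟨n', hn'N⟩⁻¹ : N) with hy
      have hu : ((⟨n', hn'N⟩⁻¹ : N))⁻¹ * y.out ∈ U.subgroupOf N := by
        rw [← QuotientGroup.eq]; exact (QuotientGroup.out_eq' y).symm
      rw [inv_inv, Subgroup.mem_subgroupOf] at hu
      refine ⟨(y, x), ?_⟩
      show DoubleCoset.mk D U ((x.out)⁻¹ * ((y.out : N) : G)) = DoubleCoset.mk D U g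
      rw [DoubleCoset.eq]
      refine ⟨d⁻¹, inv_mem hd, (n' * ((y.out : N) : G))⁻¹, inv_mem ?_, ?_⟩
      · simpa using hu
      · rw [hxout]; group
  calc Nat.card (DoubleCoset.Quotient (D : Set G) (U : Set G))
      ≤ Nat.card ((N ⧸ U.subgroupOf N) × (G ⧸ (D ⊔ N))) := Nat.card_le_card_of_surjective f hf
    _ = U.relIndex N * (D ⊔ N).index := by
        rw [Nat.card_prod]; rfl

end Fermat.Agent.PT.G
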