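import Mathlib
import Fermat.Agent.PT.G.ValConj
import Fermat.Agent.PT.G.KumBridge

/-!
# PT (S55): primes of `K` over `q` ↔ double cosets `G_K \ G_ℚ / D_q`

`K` is a number field inside `Qb = ℚ̄`, `A₀` a valuation subring of `Qb` over the prime `q`,
`D = A₀.decompositionSubgroup ℚ` its decomposition group.

* `primeOf_eq_iff` : two valuation subrings over `q` cut out the same prime of `𝓞 K` iff they
  are conjugate under `K.fixingSubgroup`.
* `primeOf_smul_eq_iff` : `g • A₀` and `g' • A₀` cut out the same prime iff `g`, `g'` have the same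
  class in `G_K \ G_ℚ / D`.
* `exists_primeOf_smul_eq` : every prime of `𝓞 K` over `q` is cut out by some `g • A₀`.
* `placeEquiv` : the resulting bijection `G_K \ G_ℚ / D ≃ {v // q ∈ v}`.
* `card_primesOver_eq_sum` : `#S_K = ∑ q ∈ S, #(G_K \ G_ℚ / D_q)`.
-/

set_option autoImplicit false

namespace Fermat.Agent.PT.G

open scoped Pointwise
open IsDedekindDomain NumberField
open Fermat.Agent.Lib.FrobeniusExists Fermat.Agent.PT.KumBridge

local notation "Qb" => AlgebraicClosure ℚ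
local notation "GQ" => (AlgebraicClosure ℚ ≃ₐ[ℚ] AlgebraicClosure ℚ)

attribute [local instance] isAlgClosure_rat isGalois_rat

variable (K : IntermediateField ℚ Qb) [NumberField K]

/-- Two valuation subrings of `ℚ̄` over `q` cut out the same prime of `𝓞 K` iff they are
conjugate under the absolute Galois group of `K`. -/
theorem primeOf_eq_iff {q : ℕ} (hq : q.Prime) (A A' : ValuationSubring Qb)
    (hA : A.LiesOverPrime q) (hA' : A'.LiesOverPrime q) :
    primeOf K A hq.ne_zero hA = primeOf K A' hq.ne_zero hA' ↔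
      ∃ u ∈ K.fixingSubgroup, u • A = A' := by
  constructor
  · intro h
    apply exists_mem_fixingSubgroup_smul_eq hq A A' hA hA' K
    intro x hx
    have h1 := mem_primeOf_iff K A hq.ne_zero hA ⟨x, hx⟩
    have h2 := mem_primeOf_iff K A' hq.ne_zero hA' ⟨x, hx⟩
    rw [h] at h1
    exact h1.symm.trans h2
  · rintro ⟨u, hu, h⟩
    apply HeightOneSpectrum.ext
    ext y
    rw [mem_primeOf_iff, mem_primeOf_iff]
    exact valuation_lt_one_iff_of_smul_eq A A' K hu h (algebraMap (𝓞 K) K y)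

/-- `g • A₀` and `g' • A₀` cut out the same prime of `𝓞 K` iff `g` and `g'` have the same class
in `G_K \ G_ℚ / D`. -/
theorem primeOf_smul_eq_iff {q : ℕ} (hq : q.Prime) (A₀ : ValuationSubring Qb)
    (hA₀ : A₀.LiesOverPrime q) (g g' : GQ) :
    primeOf K (g • A₀) hq.ne_zero (Levels.liesOverPrime_smul hA₀ g) =
        primeOf K (g' • A₀) hq.ne_zero (Levels.liesOverPrime_smul hA₀ g') ↔
      DoubleCoset.mk K.fixingSubgroup (A₀.decompositionSubgroup ℚ) g =
        DoubleCoset.mk K.fixingSubgroup (A₀.decompositionSubgroup ℚ) g' := by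
  rw [primeOf_eq_iff K hq, doubleCoset_mk_eq_iff]

omit [NumberField K] in
/-- A valuation subring over `q'` whose maximal ideal contains the prime `q` lies over `q`. -/
theorem eq_of_liesOverPrime_of_lt {q q' : ℕ} (hq : q.Prime) (hq' : q'.Prime)
    (A : ValuationSubring Qb) (hA : A.LiesOverPrime q') (h : A.valuation (q : Qb) < 1) :
    q' = q := by
  have h1 : A.valuation (((q : ℤ)) : Qb) < 1 := by simpa using h
  rw [val_intCast_lt_one_iff hq' A hA] at h1
  exact (Nat.prime_dvd_prime_iff_eq hq' hq).mp (by exact_mod_cast h1)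

/-- Every prime of `𝓞 K` over `q` is cut out by a conjugate of `A₀`. -/
theorem exists_primeOf_smul_eq {q : ℕ} (hq : q.Prime) (A₀ : ValuationSubring Qb)
    (hA₀ : A₀.LiesOverPrime q) (v : HeightOneSpectrum (𝓞 K))
    (hv : ((q : ℕ) : 𝓞 K) ∈ v.asIdeal) :
    ∃ g : GQ, primeOf K (g • A₀) hq.ne_zero (Levels.liesOverPrime_smul hA₀ g) = v := by
  obtain ⟨q', A, hA, rfl⟩ := exists_primeOf_eq K v
  have h1 : A.valuation (q : Qb) < 1 := by
    have := (mem_primeOf_iff K A q'.2.ne_zero hA _).mp hv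
    rwa [map_natCast] at this
  have h2 : (q' : ℕ) = q := eq_of_liesOverPrime_of_lt hq q'.2 A hA h1
  have hA' : A.LiesOverPrime q := h2 ▸ hA
  obtain ⟨g, hg⟩ := exists_smul_eq hq A₀ A hA₀ hA'
  refine ⟨g, ?_⟩
  apply HeightOneSpectrum.ext
  ext y
  rw [mem_primeOf_iff, mem_primeOf_iff, hg]

/-- The prime of `𝓞 K` over `q` attached to a double coset `G_K g D`. -/
noncomputable def placeOfDoubleCoset {q : ℕ} (hq : q.Prime) (A₀ : ValuationSubring Qb)
    (hA₀ : A₀.LiesOverPrime q) :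
    DoubleCoset.Quotient (K.fixingSubgroup : Set GQ) (A₀.decompositionSubgroup ℚ : Set GQ) →
      {v : HeightOneSpectrum (𝓞 K) // ((q : ℕ) : 𝓞 K) ∈ v.asIdeal} :=
  Quotient.lift (fun g : GQ => (⟨primeOf K (g • A₀) hq.ne_zero (Levels.liesOverPrime_smul hA₀ g),
      natCast_mem_primeIdeal K (g • A₀) (Levels.liesOverPrime_smul hA₀ g)⟩ :
        {v : HeightOneSpectrum (𝓞 K) // ((q : ℕ) : 𝓞 K) ∈ v.asIdeal}))
    (fun g g' h => Subtype.ext ((primeOf_smul_eq_iff K hq A₀ hA₀ g g').mpr (Quotient.sound h)))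

theorem placeOfDoubleCoset_mk {q : ℕ} (hq : q.Prime) (A₀ : ValuationSubring Qb)
    (hA₀ : A₀.LiesOverPrime q) (g : GQ) :
    (placeOfDoubleCoset K hq A₀ hA₀
      (DoubleCoset.mk K.fixingSubgroup (A₀.decompositionSubgroup ℚ) g)).1 =
      primeOf K (g • A₀) hq.ne_zero (Levels.liesOverPrime_smul hA₀ g) := rfl

theorem placeOfDoubleCoset_bijective {q : ℕ} (hq : q.Prime) (A₀ : ValuationSubring Qb)
    (hA₀ : A₀.LiesOverPrime q) : Function.Bijective (placeOfDoubleCoset K hq A₀ hA₀) := by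
  constructor
  · intro x y h
    induction x using Quotient.inductionOn with
    | _ g =>
      induction y using Quotient.inductionOn with
      | _ g' =>
        exact (primeOf_smul_eq_iff K hq A₀ hA₀ g g').mp (congrArg Subtype.val h)
  · rintro ⟨v, hv⟩
    obtain ⟨g, hg⟩ := exists_primeOf_smul_eq K hq A₀ hA₀ v hv
    exact ⟨DoubleCoset.mk K.fixingSubgroup (A₀.decompositionSubgroup ℚ) g, Subtype.ext hg⟩

/-- **The dictionary.** Primes of `𝓞 K` over `q` are in bijection with the double cosets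
`G_K \ G_ℚ / D`, `D` the decomposition group of a valuation subring `A₀` of `ℚ̄` over `q`. -/
noncomputable def placeEquiv {q : ℕ} (hq : q.Prime) (A₀ : ValuationSubring Qb)
    (hA₀ : A₀.LiesOverPrime q) :
    DoubleCoset.Quotient (K.fixingSubgroup : Set GQ) (A₀.decompositionSubgroup ℚ : Set GQ) ≃
      {v : HeightOneSpectrum (𝓞 K) // ((q : ℕ) : 𝓞 K) ∈ v.asIdeal} :=
  Equiv.ofBijective _ (placeOfDoubleCoset_bijective K hq A₀ hA₀)

theorem placeEquiv_mk {q : ℕ} (hq : q.Prime) (A₀ : ValuationSubring Qb)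
    (hA₀ : A₀.LiesOverPrime q) (g : GQ) :
    (placeEquiv K hq A₀ hA₀
      (DoubleCoset.mk K.fixingSubgroup (A₀.decompositionSubgroup ℚ) g)).1 =
      primeOf K (g • A₀) hq.ne_zero (Levels.liesOverPrime_smul hA₀ g) := rfl

theorem finite_primesAbove (q : Nat.Primes) :
    Finite {v : HeightOneSpectrum (𝓞 K) // ((q : ℕ) : 𝓞 K) ∈ v.asIdeal} := by
  have h : {v : HeightOneSpectrum (𝓞 K) | ((q : ℕ) : 𝓞 K) ∈ v.asIdeal} ⊆ primesOver K {q} :=
    fun v hv => ⟨q, Finset.mem_singleton_self q, hv⟩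
  exact ((finite_primesOver K {q}).subset h).to_subtype

theorem finite_doubleCoset {q : ℕ} (hq : q.Prime) (A₀ : ValuationSubring Qb)
    (hA₀ : A₀.LiesOverPrime q) :
    Finite (DoubleCoset.Quotient (K.fixingSubgroup : Set GQ)
      (A₀.decompositionSubgroup ℚ : Set GQ)) := by
  have := finite_primesAbove K ⟨q, hq⟩
  exact Finite.of_equiv _ (placeEquiv K hq A₀ hA₀).symm

theorem card_doubleCoset {q : ℕ} (hq : q.Prime) (A₀ : ValuationSubring Qb)
    (hA₀ : A₀.LiesOverPrime q) :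
    Nat.card (DoubleCoset.Quotient (K.fixingSubgroup : Set GQ)
      (A₀.decompositionSubgroup ℚ : Set GQ)) =
      Nat.card {v : HeightOneSpectrum (𝓞 K) // ((q : ℕ) : 𝓞 K) ∈ v.asIdeal} :=
  Nat.card_congr (placeEquiv K hq A₀ hA₀)

/-- A prime of `𝓞 K` contains at most one rational prime. -/
theorem natPrime_unique (v : HeightOneSpectrum (𝓞 K)) {q q' : ℕ} (hq : q.Prime) (hq' : q'.Prime)
    (h : ((q : ℕ) : 𝓞 K) ∈ v.asIdeal) (h' : ((q' : ℕ) : 𝓞 K) ∈ v.asIdeal) : q = q' := by
  obtain ⟨p, A, hA, rfl⟩ := exists_primeOf_eq K v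
  have h1 : A.valuation (q : Qb) < 1 := by
    have := (mem_primeOf_iff K A p.2.ne_zero hA _).mp h
    rwa [map_natCast] at this
  have h2 : A.valuation (q' : Qb) < 1 := by
    have := (mem_primeOf_iff K A p.2.ne_zero hA _).mp h'
    rwa [map_natCast] at this
  rw [← eq_of_liesOverPrime_of_lt hq p.2 A hA h1, ← eq_of_liesOverPrime_of_lt hq' p.2 A hA h2]

/-- `#S_K = ∑_{q ∈ S} #{v | q}`. -/
theorem card_primesOver_eq_sum (S : Finset Nat.Primes) :
    Nat.card (primesOver K S) =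
      ∑ q ∈ S, Nat.card {v : HeightOneSpectrum (𝓞 K) // ((q : ℕ) : 𝓞 K) ∈ v.asIdeal} := by
  have hfin : ∀ q : S, Finite {v : HeightOneSpectrum (𝓞 K) // ((q.1 : ℕ) : 𝓞 K) ∈ v.asIdeal} :=
    fun q => finite_primesAbove K q.1
  let f : (Σ q : S, {v : HeightOneSpectrum (𝓞 K) // ((q.1 : ℕ) : 𝓞 K) ∈ v.asIdeal}) →
      primesOver K S := fun x => ⟨x.2.1, x.1.1, x.1.2, x.2.2⟩
  have hf : Function.Bijective f := by
    constructor
    · rintro ⟨q, v, hv⟩ ⟨q', v', hv'⟩ h
      have h1 : v = v' := congrArg Subtype.val h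
      subst h1
      have h2 : q = q' := Subtype.ext (Subtype.ext (natPrime_unique K v q.1.2 q'.1.2 hv hv'))
      subst h2
      rfl
    · rintro ⟨v, q, hqS, hv⟩
      exact ⟨⟨⟨q, hqS⟩, v, hv⟩, rfl⟩
  rw [← Nat.card_congr (Equiv.ofBijective f hf), Nat.card_sigma]
  exact Finset.sum_coe_sort S
    (fun q => Nat.card {v : HeightOneSpectrum (𝓞 K) // ((q : ℕ) : 𝓞 K) ∈ v.asIdeal})

/-- `#S_K` as a sum of numbers of double cosets, for any choice of valuation subrings `A₀ q`
over the primes `q ∈ S`. -/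
theorem card_primesOver_eq_sum_doubleCoset (S : Finset Nat.Primes)
    (A₀ : Nat.Primes → ValuationSubring Qb) (hA₀ : ∀ q ∈ S, (A₀ q).LiesOverPrime q) :
    Nat.card (primesOver K S) =
      ∑ q ∈ S, Nat.card (DoubleCoset.Quotient (K.fixingSubgroup : Set GQ)
        ((A₀ q).decompositionSubgroup ℚ : Set GQ)) := by
  rw [card_primesOver_eq_sum]
  exact Finset.sum_congr rfl fun q hq => (card_doubleCoset K q.2 (A₀ q) (hA₀ q hq)).symm

end Fermat.Agent.PT.G
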