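import Mathlib

/-!
# PT, layer G: the auxiliary prime

For a prime `p ≠ 2`, an integer `n ≥ 2` (in the applications the absolute norm of a place) and a
finite set `T` of primes to be avoided, there are a prime `ℓ ∉ T`, `ℓ ≠ p`, `ℓ ∤ n` and an exponent
`b ≥ a` such that the multiplicative order of `n` modulo `ℓ` is exactly `p ^ b`.  In particular
`p ^ a ∣ ord_ℓ(n)` and `ℓ ≡ 1 mod p ^ b`: the Frobenius of a place of norm `n` in the
`ℓ`-th cyclotomic extension has order divisible by `p ^ a`.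

The prime `ℓ` is a prime divisor `≠ p` of `1 + m + ⋯ + m ^ (p - 1)`, `m = n ^ (p ^ (b - 1))`.
-/

set_option autoImplicit false

open Finset

namespace Fermat.Agent.PT.G

/-- `(1 + x) ^ i = 1 + i x` when `x ^ 2 = 0`. -/
theorem one_add_pow_of_sq_eq_zero {R : Type*} [CommRing R] {x : R} (hx : x ^ 2 = 0) (i : ℕ) :
    (1 + x) ^ i = 1 + i * x := by
  induction i with
  | zero => simp
  | succ i ih =>
    rw [pow_succ, ih]
    push_cast
    linear_combination (i : R) * hx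

/-- For an odd prime `p`, the sum `1 + m + ⋯ + m ^ (p - 1)` is not divisible by `p ^ 2`. -/
theorem not_sq_dvd_geom_sum {p : ℕ} [Fact p.Prime] (hp2 : p ≠ 2) (m : ℕ) :
    ¬ p ^ 2 ∣ ∑ i ∈ range p, m ^ i := by
  intro h
  have hp : p.Prime := Fact.out
  have h1 : p ∣ ∑ i ∈ range p, m ^ i := (dvd_pow_self p two_ne_zero).trans h
  -- `m ≡ 1 mod p`
  have hm : (m : ZMod p) = 1 := by
    have hgeom := mul_geom_sum (m : ZMod p) p
    have hs : ∑ i ∈ range p, (m : ZMod p) ^ i = 0 := by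
      have := (ZMod.natCast_eq_zero_iff _ _).mpr h1
      push_cast at this
      exact this
    rw [hs, mul_zero, ZMod.pow_card] at hgeom
    linear_combination -hgeom
  obtain ⟨t, ht⟩ : ∃ t : ℕ, m = 1 + p * t := by
    have h2 : (1 : ZMod p) = ((1 : ℕ) : ZMod p) := by simp
    rw [h2, ZMod.natCast_eq_natCast_iff] at hm
    have hm1 : 1 ≤ m := by
      rcases Nat.eq_zero_or_pos m with rfl | h0
      · exfalso
        have := hm.symm
        rw [Nat.modEq_zero_iff_dvd] at this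
        exact hp.one_lt.ne' (Nat.dvd_one.mp this)
      · exact h0
    obtain ⟨t, ht⟩ := (Nat.modEq_iff_dvd' hm1).mp hm.symm
    exact ⟨t, by omega⟩
  obtain ⟨k, hk⟩ : ∃ k : ℕ, p = 2 * k + 1 := by
    rcases hp.eq_two_or_odd' with h2 | ⟨k, hk⟩
    · exact absurd h2 hp2
    · exact ⟨k, hk⟩
  -- the sum is `≡ p mod p ^ 2`
  have hx : ((p : ZMod (p ^ 2)) * t) ^ 2 = 0 := by
    have : ((p ^ 2 : ℕ) : ZMod (p ^ 2)) = 0 := ZMod.natCast_self _
    push_cast at this
    rw [mul_pow, this, zero_mul]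
  have hsum : ((∑ i ∈ range p, m ^ i : ℕ) : ZMod (p ^ 2)) = p := by
    have hsumid : (∑ i ∈ range p, (i : ZMod (p ^ 2))) = (p : ZMod (p ^ 2)) * k := by
      have h3 : (∑ i ∈ range p, i) = p * k := by
        have := Finset.sum_range_id_mul_two p
        have h4 : p - 1 = 2 * k := by omega
        rw [h4] at this
        have h5 : (∑ i ∈ range p, i) * 2 = (p * k) * 2 := by rw [this]; ring
        exact Nat.eq_of_mul_eq_mul_right two_pos h5
      have := congrArg (fun z : ℕ => (z : ZMod (p ^ 2))) h3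
      push_cast at this
      exact this
    push_cast
    rw [ht]
    push_cast
    simp_rw [one_add_pow_of_sq_eq_zero hx]
    rw [Finset.sum_add_distrib, ← Finset.sum_mul, hsumid, Finset.sum_const, card_range,
      nsmul_eq_mul, mul_one]
    have : (p : ZMod (p ^ 2)) * k * (p * t) = ((p ^ 2 : ℕ) : ZMod (p ^ 2)) * (k * t) := by
      push_cast
      ring
    rw [this, ZMod.natCast_self, zero_mul, add_zero]
  have h0 : ((∑ i ∈ range p, m ^ i : ℕ) : ZMod (p ^ 2)) = 0 := (ZMod.natCast_eq_zero_iff _ _).mpr h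
  rw [hsum, ZMod.natCast_eq_zero_iff] at h0
  have := Nat.le_of_dvd hp.pos h0
  nlinarith [hp.two_le]

/-- For an odd prime `p` and `m ≥ 2`, the sum `1 + m + ⋯ + m ^ (p - 1)` has a prime divisor
different from `p`. -/
theorem exists_prime_ne_dvd_geom_sum {p : ℕ} [Fact p.Prime] (hp2 : p ≠ 2) {m : ℕ} (hm : 2 ≤ m) :
    ∃ ℓ : ℕ, ℓ.Prime ∧ ℓ ≠ p ∧ ℓ ∣ ∑ i ∈ range p, m ^ i := by
  have hp : p.Prime := Fact.out
  by_contra hcon
  push_neg at hcon
  set s := ∑ i ∈ range p, m ^ i with hs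
  have hgt : p < s := by
    have h1 : ∑ i ∈ range p, 2 ^ i ≤ s :=
      Finset.sum_le_sum (fun i _ => Nat.pow_le_pow_left hm i)
    have h2 : (∑ i ∈ range p, 2 ^ i) = 2 ^ p - 1 := by
      have := Nat.geomSum_eq (le_refl 2) p
      simpa using this
    have h3 : p + 2 ≤ 2 ^ p := by
      have hp3 : 3 ≤ p := by
        have := hp.two_le
        omega
      have : ∀ n : ℕ, 3 ≤ n → n + 2 ≤ 2 ^ n := by
        intro n hn
        induction n, hn using Nat.le_induction with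
        | base => norm_num
        | succ n hn ih => rw [pow_succ]; omega
      exact this p hp3
    omega
  have hs0 : s ≠ 0 := by omega
  have hpow := Nat.eq_prime_pow_of_unique_prime_dvd hs0
    (fun {d} hd hds => by
      by_contra hne
      exact hcon d hd hne hds)
  set k := s.primeFactorsList.length with hk
  have hk1 : k ≤ 1 := by
    by_contra hk2
    push_neg at hk2
    apply not_sq_dvd_geom_sum hp2 m
    rw [← hs, hpow]
    exact pow_dvd_pow p hk2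
  have : s ≤ p := by
    rw [hpow]
    calc p ^ k ≤ p ^ 1 := Nat.pow_le_pow_right hp.pos hk1
      _ = p := pow_one p
  omega

/-- For every `b ≥ 1` there is a prime `ℓ ≠ p` such that `n` has order exactly `p ^ b` modulo
`ℓ`. -/
theorem exists_prime_orderOf_eq_pow_succ {p : ℕ} [Fact p.Prime] (hp2 : p ≠ 2) {n : ℕ} (hn : 2 ≤ n)
    (b : ℕ) : ∃ ℓ : ℕ, ℓ.Prime ∧ ℓ ≠ p ∧ orderOf (n : ZMod ℓ) = p ^ (b + 1) := by
  have hp : p.Prime := Fact.out
  set m := n ^ p ^ b with hm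
  have hm2 : 2 ≤ m := by
    calc 2 ≤ n := hn
      _ = n ^ 1 := (pow_one n).symm
      _ ≤ n ^ p ^ b := Nat.pow_le_pow_right (by omega) (Nat.one_le_pow _ _ hp.pos)
  obtain ⟨ℓ, hℓ, hℓp, hdvd⟩ := exists_prime_ne_dvd_geom_sum hp2 hm2
  refine ⟨ℓ, hℓ, hℓp, ?_⟩
  haveI : Fact ℓ.Prime := ⟨hℓ⟩
  have hs : ∑ i ∈ range p, (m : ZMod ℓ) ^ i = 0 := by
    have := (ZMod.natCast_eq_zero_iff _ _).mpr hdvd
    push_cast at this
    exact this
  have hgeom := mul_geom_sum (m : ZMod ℓ) p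
  rw [hs, mul_zero] at hgeom
  have hmp : (m : ZMod ℓ) ^ p = 1 := by linear_combination -hgeom
  have hm1 : (m : ZMod ℓ) ≠ 1 := by
    intro h1
    rw [h1] at hs
    simp only [one_pow, Finset.sum_const, card_range, nsmul_eq_mul, mul_one] at hs
    rw [ZMod.natCast_eq_zero_iff] at hs
    exact hℓp ((Nat.prime_dvd_prime_iff_eq hℓ hp).mp hs)
  apply orderOf_eq_prime_pow
  · intro h
    apply hm1
    rw [hm]
    push_cast
    exact h
  · rw [pow_succ, pow_mul]
    have : ((n : ZMod ℓ) ^ p ^ b) = (m : ZMod ℓ) := by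
      rw [hm]
      push_cast
      rfl
    rw [this]
    exact hmp

/-- **The auxiliary prime.** For an odd prime `p`, `n ≥ 2`, an exponent `a` and a finite set `T`
there are a prime `ℓ ∉ T`, `ℓ ≠ p`, `ℓ ∤ n` and `b ≥ a` such that the order of `n` modulo `ℓ` is
exactly `p ^ b`. -/
theorem exists_prime_orderOf_eq_pow {p : ℕ} [Fact p.Prime] (hp2 : p ≠ 2) {n : ℕ} (hn : 2 ≤ n)
    (a : ℕ) (T : Finset ℕ) :
    ∃ ℓ b : ℕ, ℓ.Prime ∧ ℓ ∉ T ∧ ℓ ≠ p ∧ ¬ ℓ ∣ n ∧ a ≤ b ∧ orderOf (n : ZMod ℓ) = p ^ b := by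
  have hp : p.Prime := Fact.out
  choose f hf using fun b : ℕ => exists_prime_orderOf_eq_pow_succ hp2 hn (a + b)
  have hinj : Function.Injective f := by
    intro b b' hbb
    have h1 := (hf b).2.2
    have h2 := (hf b').2.2
    rw [hbb, h2] at h1
    have := Nat.pow_right_injective hp.two_le h1
    omega
  obtain ⟨b, hb⟩ : ∃ b, f b ∉ T := by
    by_contra hcon
    push_neg at hcon
    exact (Set.infinite_of_injective_forall_mem hinj hcon) T.finite_toSet
  obtain ⟨hℓ, hℓp, hord⟩ := hf b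
  refine ⟨f b, a + b + 1, hℓ, hb, hℓp, ?_, by omega, hord⟩
  intro hdvd
  have h0 : ((n : ℕ) : ZMod (f b)) = 0 := (ZMod.natCast_eq_zero_iff _ _).mpr hdvd
  rw [h0] at hord
  haveI : Fact (f b).Prime := ⟨hℓ⟩
  have h1 : (0 : ZMod (f b)) ^ p ^ (a + b + 1) = 1 := by
    rw [← hord]
    exact pow_orderOf_eq_one _
  rw [zero_pow (pow_ne_zero _ hp.ne_zero)] at h1
  exact zero_ne_one h1

/-- Congruence form of `exists_prime_orderOf_eq_pow`. -/
theorem exists_prime_pow_modEq {p : ℕ} [Fact p.Prime] (hp2 : p ≠ 2) {n : ℕ} (hn : 2 ≤ n)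
    (a : ℕ) (T : Finset ℕ) :
    ∃ ℓ b : ℕ, ℓ.Prime ∧ ℓ ∉ T ∧ ℓ ≠ p ∧ ¬ ℓ ∣ n ∧ a ≤ b ∧ ℓ ≡ 1 [MOD p ^ b] ∧
      p ^ a ∣ orderOf (n : ZMod ℓ) ∧ ∀ e : ℕ, n ^ e ≡ 1 [MOD ℓ] ↔ p ^ b ∣ e := by
  obtain ⟨ℓ, b, hℓ, hT, hℓp, hn', hab, hord⟩ := exists_prime_orderOf_eq_pow hp2 hn a T
  haveI : Fact ℓ.Prime := ⟨hℓ⟩
  refine ⟨ℓ, b, hℓ, hT, hℓp, hn', hab, ?_, ?_, fun e => ?_⟩
  · have hdiv : orderOf (n : ZMod ℓ) ∣ ℓ - 1 :=
      ZMod.orderOf_dvd_card_sub_one (mt (ZMod.natCast_eq_zero_iff _ _).mp hn')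
    rw [hord] at hdiv
    exact ((Nat.modEq_iff_dvd' hℓ.pos).2 hdiv).symm
  · rw [hord]
    exact pow_dvd_pow p hab
  · rw [← hord, orderOf_dvd_iff_pow_eq_one, ← ZMod.natCast_eq_natCast_iff]
    push_cast
    rfl

end Fermat.Agent.PT.G
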