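import Mathlib
import Fermat.Agent.PT.G.PlaceCoset
import Fermat.Agent.PT.G.PlaceDict
import Fermat.Agent.PT.G.KumUnram
import Fermat.Agent.CFT.HNT.NormCongr
import Fermat.Agent.CFT.LocNorm.NumberField
import Fermat.Agent.CFT.HNT.SMain

/-!
# PT (S55), layer G3: the Hasse norm theorem in the vocabulary of `ℚ̄`

`E ≤ F` are finite extensions of `ℚ` inside `Qb = ℚ̄` with `F / E` cyclic of prime degree `p`,
generated by the restriction of `σ ∈ G_E`.  This file transports the number-field statement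
(Hasse norm theorem with local conditions, `CFT/HNT`) to the language of valuation subrings of
`ℚ̄`, decomposition groups and fixing subgroups.

* `algOfLE` : the `E`-algebra structure on `F` (for `[Fact (E ≤ F)]`), a local instance here.
* `isGalois_rel`, `finrank_rel` : `F / E` is Galois of degree `p`.
* `resAut`, `coe_prod_pow_eq_norm` : `∏ i < p, σ ^ i y = N_{F/E} y` for `y ∈ F`.
-/

set_option autoImplicit false

namespace Fermat.Agent.PT.G.HasseBridge

open scoped Pointwise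
open IsDedekindDomain NumberField Module
open Fermat.Agent.Lib.FrobeniusExists

local notation "Qb" => AlgebraicClosure ℚ
local notation "GQ" => (AlgebraicClosure ℚ ≃ₐ[ℚ] AlgebraicClosure ℚ)

attribute [local instance] isAlgClosure_rat isGalois_rat

/-! ### A group-theoretic lemma -/

/-- A normal subgroup with cyclic quotient generated by `σ`, where `σ ^ i ∈ H ↔ p ∣ i`, has
index `p`. -/
theorem index_eq_of_cyclic {G : Type*} [Group G] (H : Subgroup G) [H.Normal] (p : ℕ)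
    [Fact p.Prime] (σ : G) (hgen : ∀ g : G, ∃ i : ℕ, (σ ^ i)⁻¹ * g ∈ H)
    (hord : ∀ i : ℕ, σ ^ i ∈ H ↔ p ∣ i) : H.index = p := by
  have hp : p.Prime := Fact.out
  set s : G ⧸ H := QuotientGroup.mk σ with hs
  have hsp : s ^ p = 1 := by
    rw [hs, ← QuotientGroup.mk_pow, QuotientGroup.eq_one_iff]
    exact (hord p).mpr dvd_rfl
  have hs1 : s ≠ 1 := by
    rw [hs, Ne, QuotientGroup.eq_one_iff]
    intro h
    have h1 := (hord 1).mp (by simpa using h)
    exact hp.one_lt.ne' (Nat.dvd_one.mp h1)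
  have hord' : orderOf s = p := orderOf_eq_prime hsp hs1
  have htop : Subgroup.zpowers s = ⊤ := by
    rw [eq_top_iff]
    rintro x -
    obtain ⟨g, rfl⟩ := QuotientGroup.mk_surjective x
    obtain ⟨i, hi⟩ := hgen g
    rw [Subgroup.mem_zpowers_iff]
    refine ⟨(i : ℤ), ?_⟩
    rw [zpow_natCast, hs, ← QuotientGroup.mk_pow]
    exact QuotientGroup.eq.mpr hi
  rw [Subgroup.index_eq_card, ← hord', ← Nat.card_zpowers, htop, Subgroup.card_top]

/-! ### The relative extension `F / E` -/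

/-- The `E`-algebra structure on `F` given by the inclusion `E ≤ F`. -/
@[instance_reducible]
noncomputable def algOfLE (E F : IntermediateField ℚ Qb) [h : Fact (E ≤ F)] : Algebra ↥E ↥F :=
  (IntermediateField.inclusion h.out).toRingHom.toAlgebra

attribute [local instance] algOfLE

variable (E F : IntermediateField ℚ Qb) [hEF : Fact (E ≤ F)]

theorem coe_algebraMap (x : E) : ((algebraMap ↥E ↥F x : ↥F) : Qb) = (x : Qb) := rfl

theorem isScalarTower_top : IsScalarTower ↥E ↥F Qb :=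
  IsScalarTower.of_algebraMap_eq (fun _ => rfl)

theorem isScalarTower_bot : IsScalarTower ℚ ↥E ↥F :=
  IsScalarTower.of_algebraMap_eq (fun _ => rfl)

attribute [local instance] isScalarTower_top isScalarTower_bot

/-- `F` as an intermediate field of `ℚ̄ / E` is `F`. -/
noncomputable def extAlgEquiv : ↥(IntermediateField.extendScalars hEF.out) ≃ₐ[↥E] ↥F where
  toFun x := ⟨x.1, (IntermediateField.mem_extendScalars hEF.out).mp x.2⟩
  invFun x := ⟨x.1, (IntermediateField.mem_extendScalars hEF.out).mpr x.2⟩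
  left_inv _ := rfl
  right_inv _ := rfl
  map_mul' _ _ := rfl
  map_add' _ _ := rfl
  commutes' _ := rfl

theorem finiteDimensional_rel [FiniteDimensional ℚ F] : FiniteDimensional ↥E ↥F :=
  Module.Finite.of_restrictScalars_finite ℚ ↥E ↥F

/-- The element of `Gal(ℚ̄ / E)` defined by an element of `G_E`. -/
noncomputable def toGalE (σ : GQ) (hσ : σ ∈ E.fixingSubgroup) : Qb ≃ₐ[↥E] Qb :=
  IntermediateField.fixingSubgroupEquiv E ⟨σ, hσ⟩

theorem toGalE_apply (σ : GQ) (hσ : σ ∈ E.fixingSubgroup) (x : Qb) : toGalE E σ hσ x = σ x := rfl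

theorem restrictScalars_mem (g : Qb ≃ₐ[↥E] Qb) : g.restrictScalars ℚ ∈ E.fixingSubgroup := by
  rw [IntermediateField.mem_fixingSubgroup_iff]
  intro x hx
  exact g.commutes ⟨x, hx⟩

theorem mem_fixingSubgroup_extendScalars_iff (g : Qb ≃ₐ[↥E] Qb) :
    g ∈ (IntermediateField.extendScalars hEF.out).fixingSubgroup ↔
      g.restrictScalars ℚ ∈ F.fixingSubgroup := by
  rw [IntermediateField.mem_fixingSubgroup_iff, IntermediateField.mem_fixingSubgroup_iff]
  constructor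
  · intro h x hx
    exact h x ((IntermediateField.mem_extendScalars hEF.out).mpr hx)
  · intro h x hx
    exact h x ((IntermediateField.mem_extendScalars hEF.out).mp hx)

theorem normal_fixingSubgroup_extendScalars
    (hnorm : ∀ g ∈ E.fixingSubgroup, ∀ n ∈ F.fixingSubgroup, g * n * g⁻¹ ∈ F.fixingSubgroup) :
    (IntermediateField.extendScalars hEF.out).fixingSubgroup.Normal := by
  constructor
  intro n hn g
  rw [mem_fixingSubgroup_extendScalars_iff] at hn ⊢
  have h1 : (g * n * g⁻¹).restrictScalars ℚ =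
      g.restrictScalars ℚ * n.restrictScalars ℚ * (g.restrictScalars ℚ)⁻¹ := by
    apply AlgEquiv.ext
    intro x
    rfl
  rw [h1]
  exact hnorm _ (restrictScalars_mem E g) _ hn

/-- `F / E` is Galois as soon as `G_F` is normal in `G_E`. -/
theorem isGalois_rel
    (hnorm : ∀ g ∈ E.fixingSubgroup, ∀ n ∈ F.fixingSubgroup, g * n * g⁻¹ ∈ F.fixingSubgroup) :
    IsGalois ↥E ↥F := by
  have hN := normal_fixingSubgroup_extendScalars E F hnorm
  have hG : IsGalois ↥E ↥(IntermediateField.extendScalars hEF.out) :=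
    (InfiniteGalois.normal_iff_isGalois _).mp hN
  exact IsGalois.of_algEquiv (extAlgEquiv E F)

/-- `[F : E] = p` when `G_E / G_F` is cyclic of order `p`. -/
theorem finrank_rel (p : ℕ) [Fact p.Prime] (σ : GQ) (hσE : σ ∈ E.fixingSubgroup)
    (hnorm : ∀ g ∈ E.fixingSubgroup, ∀ n ∈ F.fixingSubgroup, g * n * g⁻¹ ∈ F.fixingSubgroup)
    (hgen : ∀ g ∈ E.fixingSubgroup, ∃ i : ℕ, (σ ^ i)⁻¹ * g ∈ F.fixingSubgroup)
    (hord : ∀ i : ℕ, σ ^ i ∈ F.fixingSubgroup ↔ p ∣ i) :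
    finrank ↥E ↥F = p := by
  have hN := normal_fixingSubgroup_extendScalars E F hnorm
  rw [← (extAlgEquiv E F).toLinearEquiv.finrank_eq,
    IntermediateField.finrank_eq_fixingSubgroup_index]
  apply index_eq_of_cyclic _ p (toGalE E σ hσE)
  · intro g
    obtain ⟨i, hi⟩ := hgen _ (restrictScalars_mem E g)
    refine ⟨i, ?_⟩
    rw [mem_fixingSubgroup_extendScalars_iff]
    have h1 : ((toGalE E σ hσE ^ i)⁻¹ * g).restrictScalars ℚ = (σ ^ i)⁻¹ * g.restrictScalars ℚ := by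
      rw [toGalE, ← map_pow, ← map_inv]
      rfl
    rw [h1]
    exact hi
  · intro i
    rw [mem_fixingSubgroup_extendScalars_iff, ← hord i]
    have h1 : (toGalE E σ hσE ^ i).restrictScalars ℚ = σ ^ i := by
      rw [toGalE, ← map_pow]
      rfl
    rw [h1]

/-! ### The generator of `Gal(F / E)` and the norm -/

/-- The restriction of `σ ∈ G_E` to `F` (for `F / E` normal). -/
noncomputable def resAut [Normal ↥E ↥F] (σ : GQ) (hσ : σ ∈ E.fixingSubgroup) : ↥F ≃ₐ[↥E] ↥F :=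
  (toGalE E σ hσ).restrictNormal ↥F

theorem coe_resAut [Normal ↥E ↥F] (σ : GQ) (hσ : σ ∈ E.fixingSubgroup) (y : F) :
    ((resAut E F σ hσ y : ↥F) : Qb) = σ (y : Qb) :=
  AlgEquiv.restrictNormal_commutes (toGalE E σ hσ) ↥F y

theorem coe_resAut_pow [Normal ↥E ↥F] (σ : GQ) (hσ : σ ∈ E.fixingSubgroup) (i : ℕ) (y : F) :
    (((resAut E F σ hσ ^ i) y : ↥F) : Qb) = (σ ^ i) (y : Qb) := by
  induction i generalizing y with
  | zero => rfl
  | succ n ih =>
    rw [pow_succ, pow_succ]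
    show (((resAut E F σ hσ ^ n) (resAut E F σ hσ y) : ↥F) : Qb) = (σ ^ n) (σ (y : Qb))
    rw [ih, coe_resAut]

theorem resAut_ne_one [Normal ↥E ↥F] (σ : GQ) (hσ : σ ∈ E.fixingSubgroup)
    (hσF : σ ∉ F.fixingSubgroup) : resAut E F σ hσ ≠ 1 := by
  intro h
  apply hσF
  rw [IntermediateField.mem_fixingSubgroup_iff]
  intro x hx
  have h1 := coe_resAut E F σ hσ ⟨x, hx⟩
  rw [h] at h1
  exact h1.symm

/-- The norm of `F / E` is `y ↦ ∏ i < p, σ ^ i y`. -/
theorem prod_pow_eq_norm [IsGalois ↥E ↥F] [FiniteDimensional ↥E ↥F] {p : ℕ} (hp : p.Prime)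
    (hdeg : finrank ↥E ↥F = p) (σ : GQ) (hσ : σ ∈ E.fixingSubgroup)
    (hσF : σ ∉ F.fixingSubgroup) (y : F) :
    ∏ i ∈ Finset.range p, (σ ^ i) (y : Qb) = ((Algebra.norm ↥E y : ↥E) : Qb) := by
  have h := Fermat.Agent.CFT.LocNorm.algebraMap_norm_eq_nm hp hdeg (resAut E F σ hσ)
    (resAut_ne_one E F σ hσ hσF) y
  have h2 := congrArg (fun t : ↥F => (t : Qb)) h
  simp only [coe_algebraMap] at h2
  rw [h2, Fermat.Agent.CFT.LocNorm.nm]
  rw [show ((∏ j ∈ Finset.range p, (resAut E F σ hσ ^ j) y : ↥F) : Qb) =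
    algebraMap ↥F Qb (∏ j ∈ Finset.range p, (resAut E F σ hσ ^ j) y) from rfl, map_prod]
  exact Finset.prod_congr rfl fun i _ => (coe_resAut_pow E F σ hσ i y).symm

/-! ### Primes of `E`, `F` and valuation subrings of `ℚ̄` -/

section Local

open Fermat.Agent.CFT

theorem primeOf_eq (K : IntermediateField ℚ Qb) [NumberField K] {q : ℕ} (hq : q.Prime)
    (A : ValuationSubring Qb) (hA : A.LiesOverPrime q) :
    KumBridge.primeOf K A hq.ne_zero hA = PlaceDict.primeOf K hq hA := by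
  apply HeightOneSpectrum.ext
  rfl

variable [NumberField ↥E] [NumberField ↥F]

omit [NumberField ↥E] [NumberField ↥F] in
/-- The prime of `F` below `A` lies over the prime of `E` below `A`. -/
theorem under_primeOf {q : ℕ} (hq : q.Prime) (A : ValuationSubring Qb) (hA : A.LiesOverPrime q) :
    (PlaceDict.primeOf F hq hA).under (𝓞 ↥E) = PlaceDict.primeOf E hq hA := by
  apply HeightOneSpectrum.ext
  ext y
  show algebraMap (𝓞 ↥E) (𝓞 ↥F) y ∈ PlaceDict.idealOf F A ↔ y ∈ PlaceDict.idealOf E A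
  rw [PlaceDict.mem_idealOf_iff, PlaceDict.mem_idealOf_iff]
  rfl

/-- **Non-split places have a decomposition element generating `Gal(F / E)`.** -/
theorem exists_mem_decomp_of_isNonSplit [IsGalois ↥E ↥F] {p : ℕ} (hp : p.Prime)
    (hdeg : finrank ↥E ↥F = p) (σ : GQ) (hσE : σ ∈ E.fixingSubgroup)
    (hσF : σ ∉ F.fixingSubgroup) {q : ℕ} (hq : q.Prime) (A : ValuationSubring Qb)
    (hA : A.LiesOverPrime q) (hns : HNT.IsNonSplit ↥F (PlaceDict.primeOf E hq hA)) :
    ∃ g ∈ A.decompositionSubgroup ℚ ⊓ E.fixingSubgroup, g ∉ F.fixingSubgroup := by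
  set τ := resAut E F σ hσE with hτ
  have hτ1 : τ ≠ 1 := resAut_ne_one E F σ hσE hσF
  have h := (HNT.isNonSplit_iff_forall_smul hp hdeg τ hτ1 _).mp hns (PlaceDict.primeOf F hq hA)
    (under_primeOf E F hq A hA)
  have hinv : ∀ x : F, ((τ⁻¹ x : ↥F) : Qb) = σ⁻¹ (x : Qb) := by
    intro x
    have h1 := coe_resAut E F σ hσE (τ⁻¹ x)
    have h2 : resAut E F σ hσE (τ⁻¹ x) = x := by
      rw [← hτ]
      exact AlgEquiv.apply_symm_apply τ x
    rw [h2] at h1
    rw [h1]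
    exact (Lib.InertiaLift.inv_apply_apply σ _).symm
  obtain ⟨u, hu, hmem⟩ := exists_mem_fixingSubgroup_mul_mem_decompositionSubgroup hq A hA F σ (by
    intro x hx
    obtain ⟨y, rfl⟩ : ∃ y : 𝓞 ↥F, (y : ↥F) = x := ⟨⟨x, hx⟩, rfl⟩
    have h1 : y ∈ τ • (PlaceDict.primeOf F hq hA).asIdeal ↔
        y ∈ (PlaceDict.primeOf F hq hA).asIdeal := by rw [h]
    rw [Ideal.mem_pointwise_smul_iff_inv_smul_mem] at h1
    have h2 : τ⁻¹ • y ∈ (PlaceDict.primeOf F hq hA).asIdeal ↔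
        A.valuation (σ⁻¹ ((y : ↥F) : Qb)) < 1 := by
      rw [← hinv (y : ↥F)]
      rfl
    have h3 : y ∈ (PlaceDict.primeOf F hq hA).asIdeal ↔
        A.valuation ((y : ↥F) : Qb) < 1 := Iff.rfl
    rw [← h2, ← h3]
    exact h1)
  have hGF : F.fixingSubgroup ≤ E.fixingSubgroup := IntermediateField.fixingSubgroup_antitone hEF.out
  refine ⟨u * σ, ⟨hmem, mul_mem (hGF hu) hσE⟩, fun hc => hσF ?_⟩
  have := mul_mem (inv_mem hu) hc
  simpa using this

/-- Injectivity of `n ↦ v(q ^ n)` at a valuation subring over `q`. -/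
theorem zpow_eq_of_valuation_eq {q : ℕ} (A : ValuationSubring Qb) (hA : A.LiesOverPrime q)
    (hq : q ≠ 0) {m n : ℤ} (h : A.valuation ((q : Qb) ^ m) = A.valuation ((q : Qb) ^ n)) :
    m = n := by
  have h1 : A.valuation (q : Qb) < 1 := A.mem_nonunits_iff.mp hA
  have h0 : 0 < A.valuation (q : Qb) := by
    rw [zero_lt_iff, Valuation.ne_zero_iff]
    exact_mod_cast hq
  rw [map_zpow₀, map_zpow₀] at h
  exact zpow_right_injective₀ h0 h1.ne h

/-- **Outside `S`.** The valuation condition on `a` at `A` gives `p ∣ ord_v a` at the prime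
`v` of `E` below `A`. -/
theorem dvd_log_of_valuation_eq {S : Finset Nat.Primes} (hE : E.IsUnramifiedOutside S)
    (q : Nat.Primes) (hqS : q ∉ S) (A : ValuationSubring Qb) (hA : A.LiesOverPrime q)
    (a : (↥E)ˣ) (p : ℕ) (m : ℤ)
    (h : A.valuation (((a : ↥E) : Qb)) = A.valuation (((q : ℕ) : Qb) ^ ((p : ℤ) * m))) :
    (p : ℤ) ∣ WithZero.log ((PlaceDict.primeOf E q.2 hA).valuation ↥E (a : ↥E)) := by
  have hval : ∀ x : ↥E, x ≠ 0 →
      ∃ n : ℤ, A.valuation (algebraMap ↥E Qb x) = A.valuation (((q : ℕ) : Qb) ^ n) :=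
    fun x hx => Kummer.exists_zpow_valuation_eq_of_level hE x.2
      (fun h0 => hx (Subtype.ext h0)) q hqS A hA
  have h1 := KumBridge.valuation_eq_zpow_ordK E A q.2.ne_zero hA hval a
  have h2 : SelmerSeq.ordK ↥E (KumBridge.primeOf E A q.2.ne_zero hA) a = (p : ℤ) * m :=
    zpow_eq_of_valuation_eq A hA q.2.ne_zero (h1.symm.trans h)
  rw [SelmerSeq.ordK_eq_neg_log, primeOf_eq E q.2 A hA] at h2
  exact ⟨-m, by rw [mul_neg, ← h2, neg_neg]⟩

/-- **Inside `S`.** Approximability of `a` by norms at `A` (in the vocabulary of `ℚ̄`) gives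
`a ∈ normCongr F v` at the prime `v` of `E` below `A`. -/
theorem mem_normCongr_of_approx [IsGalois ↥E ↥F] [FiniteDimensional ↥E ↥F] {p : ℕ}
    (hp : p.Prime) (hdeg : finrank ↥E ↥F = p) (σ : GQ) (hσE : σ ∈ E.fixingSubgroup)
    (hσF : σ ∉ F.fixingSubgroup) {q : ℕ} (hq : q.Prime) (A : ValuationSubring Qb)
    (hA : A.LiesOverPrime q) (a : (↥E)ˣ)
    (h : ∀ n : ℕ, ∃ y : Qb, y ∈ F ∧ y ≠ 0 ∧
      A.valuation (((a : ↥E) : Qb) / ∏ i ∈ Finset.range p, (σ ^ i) y - 1) ≤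
        A.valuation ((q : Qb) ^ n)) :
    a ∈ HNT.normCongr ↥F (PlaceDict.primeOf E hq hA) := by
  rw [HNT.mem_normCongr]
  intro n
  obtain ⟨y, hyF, hy0, hy⟩ := h n
  refine ⟨⟨y, hyF⟩, fun h0 => hy0 (congrArg Subtype.val h0), ?_⟩
  rw [prod_pow_eq_norm E F hp hdeg σ hσE hσF ⟨y, hyF⟩] at hy
  have h1 : (PlaceDict.primeOf E hq hA).valuation ↥E
      ((a : ↥E) / Algebra.norm ↥E (⟨y, hyF⟩ : ↥F) - 1) ≤
        (PlaceDict.primeOf E hq hA).valuation ↥E ((q : ↥E) ^ n) := by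
    rw [PlaceDict.adic_le_iff E hq hA]
    exact hy
  refine h1.trans ?_
  have h2 : (PlaceDict.primeOf E hq hA).valuation ↥E (q : ↥E) ≤ WithZero.exp (-1 : ℤ) := by
    rw [← LocNorm.lt_one_iff_le_exp_neg_one, PlaceDict.adic_lt_one_iff E hq hA, map_natCast]
    exact A.mem_nonunits_iff.mp hA
  rw [map_pow]
  refine (pow_le_pow_left' h2 n).trans (le_of_eq ?_)
  rw [← WithZero.exp_nsmul]
  simp

omit [NumberField ↥E] in
/-- **Ramification.** A prime of `F` not above `S` is unramified over `E`. -/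
theorem ramificationIdx_eq_one_of_level {S : Finset Nat.Primes} (hF : F.IsUnramifiedOutside S)
    (w : HeightOneSpectrum (𝓞 ↥F)) (hw : w.under (𝓞 ↥E) ∉ KumBridge.primesOver E S) :
    w.asIdeal.ramificationIdx (𝓞 ↥E) = 1 := by
  obtain ⟨q, A, hA, rfl⟩ := KumBridge.exists_primeOf_eq F w
  set w := KumBridge.primeOf F A q.2.ne_zero hA with hwdef
  have hqS : q ∉ S := by
    intro hq
    apply hw
    refine ⟨q, hq, ?_⟩
    show algebraMap (𝓞 ↥E) (𝓞 ↥F) ((q : ℕ) : 𝓞 ↥E) ∈ w.asIdeal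
    rw [map_natCast]
    exact KumBridge.natCast_mem_primeIdeal F A hA
  have hvq : A.valuation ((q : ℕ) : Qb) < 1 := A.mem_nonunits_iff.mp hA
  have hvq0 : 0 < A.valuation ((q : ℕ) : Qb) := by
    rw [zero_lt_iff, Valuation.ne_zero_iff]
    exact_mod_cast q.2.ne_zero
  -- elements of `w` have valuation at most that of `q`
  have hle : ∀ x : 𝓞 ↥F, x ∈ w.asIdeal →
      A.valuation (algebraMap (𝓞 ↥F) Qb x) ≤ A.valuation ((q : ℕ) : Qb) := by
    intro x hx
    rcases eq_or_ne x 0 with rfl | hx0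
    · simp
    have hx1 : A.valuation (algebraMap (𝓞 ↥F) Qb x) < 1 :=
      (KumBridge.mem_primeOf_iff F A q.2.ne_zero hA x).mp hx
    have hx0' : algebraMap (𝓞 ↥F) Qb x ≠ 0 := by
      rw [Ne, map_eq_zero_iff _ (FaithfulSMul.algebraMap_injective (𝓞 ↥F) Qb)]
      exact hx0
    obtain ⟨n, hn⟩ := Kummer.exists_zpow_valuation_eq_of_level hF
      (x := algebraMap (𝓞 ↥F) Qb x) (algebraMap (𝓞 ↥F) ↥F x).2 hx0' q hqS A hA
    rw [hn, map_zpow₀] at hx1 ⊢
    have hn1 : 1 ≤ n := by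
      by_contra hcon
      have hn0 : n ≤ 0 := by omega
      have : 1 ≤ A.valuation ((q : ℕ) : Qb) ^ n := by
        obtain ⟨k, rfl⟩ : ∃ k : ℕ, n = -(k : ℤ) := ⟨(-n).toNat, by omega⟩
        rw [zpow_neg, zpow_natCast]
        exact (one_le_inv₀ (pow_pos hvq0 k)).mpr (pow_le_one₀ hvq0.le hvq.le)
      exact absurd hx1 (not_lt.mpr this)
    calc A.valuation ((q : ℕ) : Qb) ^ n ≤ A.valuation ((q : ℕ) : Qb) ^ (1 : ℤ) :=
          zpow_le_zpow_right_of_le_one₀ hvq0 hvq.le hn1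
      _ = A.valuation ((q : ℕ) : Qb) := zpow_one _
  -- the ideal of elements of valuation less than that of `q`
  let J : Ideal (𝓞 ↥F) :=
    { carrier := {x | A.valuation (algebraMap (𝓞 ↥F) Qb x) < A.valuation ((q : ℕ) : Qb)}
      add_mem' := by
        intro a b ha hb
        simp only [Set.mem_ofPred_eq, map_add] at ha hb ⊢
        exact lt_of_le_of_lt (A.valuation.map_add _ _) (max_lt ha hb)
      zero_mem' := by simpa using hvq0
      smul_mem' := by
        intro c x hx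
        simp only [Set.mem_ofPred_eq, smul_eq_mul, map_mul] at hx ⊢
        exact lt_of_le_of_lt (mul_le_of_le_one_left' (KumBridge.valuation_algebraMap_le_one F A c))
          hx }
  have hJ : w.asIdeal ^ 2 ≤ J := by
    rw [pow_two, Ideal.mul_le]
    intro a ha b hb
    show A.valuation (algebraMap (𝓞 ↥F) Qb (a * b)) < A.valuation ((q : ℕ) : Qb)
    rw [map_mul, map_mul]
    have hb1 : A.valuation (algebraMap (𝓞 ↥F) Qb b) < 1 :=
      (KumBridge.mem_primeOf_iff F A q.2.ne_zero hA b).mp hb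
    calc A.valuation (algebraMap (𝓞 ↥F) Qb a) * A.valuation (algebraMap (𝓞 ↥F) Qb b)
        ≤ A.valuation ((q : ℕ) : Qb) * A.valuation (algebraMap (𝓞 ↥F) Qb b) :=
          mul_le_mul_left (hle a ha) _
      _ < A.valuation ((q : ℕ) : Qb) * 1 := by
          exact (mul_lt_mul_iff_right₀ hvq0).mpr hb1
      _ = A.valuation ((q : ℕ) : Qb) := mul_one _
  have hlo : w.asIdeal.LiesOver (w.under (𝓞 ↥E)).asIdeal := ⟨rfl⟩
  have hqv : ((q : ℕ) : 𝓞 ↥E) ∈ (w.under (𝓞 ↥E)).asIdeal := by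
    show algebraMap (𝓞 ↥E) (𝓞 ↥F) ((q : ℕ) : 𝓞 ↥E) ∈ w.asIdeal
    rw [map_natCast]
    exact KumBridge.natCast_mem_primeIdeal F A hA
  rw [← Ideal.ramificationIdx'_eq_ramificationIdx (w.under (𝓞 ↥E)).asIdeal w.asIdeal
    (w.under (𝓞 ↥E)).ne_bot]
  apply Ideal.ramificationIdx'_spec
  · rw [pow_one, Ideal.map_le_iff_le_comap]
    exact le_of_eq rfl
  · intro hcon
    have h1 : algebraMap (𝓞 ↥E) (𝓞 ↥F) ((q : ℕ) : 𝓞 ↥E) ∈ J :=
      hJ (hcon (Ideal.mem_map_of_mem _ hqv))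
    rw [map_natCast] at h1
    have h2 : A.valuation (algebraMap (𝓞 ↥F) Qb ((q : ℕ) : 𝓞 ↥F)) < A.valuation ((q : ℕ) : Qb) :=
      h1
    rw [map_natCast] at h2
    exact lt_irrefl _ h2

/-- **Transport of the Hasse norm theorem to the vocabulary of `ℚ̄`.** `hS` is the number-field
statement for `F / E` (local conditions: `p ∣ ord_v` at the non-split primes outside `S`,
congruence-norm at the non-split primes above `S`). -/
theorem hnt_Qb_of (p : ℕ) [Fact p.Prime] (S : Finset Nat.Primes)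
    (hF : F.IsUnramifiedOutside S) (σ : GQ) (hσE : σ ∈ E.fixingSubgroup)
    (hnorm : ∀ g ∈ E.fixingSubgroup, ∀ n ∈ F.fixingSubgroup, g * n * g⁻¹ ∈ F.fixingSubgroup)
    (hgen : ∀ g ∈ E.fixingSubgroup, ∃ i : ℕ, (σ ^ i)⁻¹ * g ∈ F.fixingSubgroup)
    (hord : ∀ i : ℕ, σ ^ i ∈ F.fixingSubgroup ↔ p ∣ i)
    (hS : ∀ a' : (↥E)ˣ,
      (∀ v : HeightOneSpectrum (𝓞 ↥E), v ∉ KumBridge.primesOver E S → HNT.IsNonSplit ↥F v →
        (p : ℤ) ∣ WithZero.log (v.valuation ↥E (a' : ↥E))) →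
      (∀ v ∈ KumBridge.primesOver E S, HNT.IsNonSplit ↥F v → a' ∈ HNT.normCongr ↥F v) →
      ∃ z : ↥F, Algebra.norm ↥E z = (a' : ↥E))
    (a : Qb) (ha : a ∈ E) (ha0 : a ≠ 0)
    (h1 : ∀ q : Nat.Primes, q ∉ S → ∀ A : ValuationSubring Qb, A.LiesOverPrime (q : ℕ) →
      (∃ g ∈ A.decompositionSubgroup ℚ ⊓ E.fixingSubgroup, g ∉ F.fixingSubgroup) →
      ∃ m : ℤ, A.valuation a = A.valuation (((q : ℕ) : Qb) ^ ((p : ℤ) * m)))
    (h2 : ∀ q : Nat.Primes, q ∈ S → ∀ A : ValuationSubring Qb, A.LiesOverPrime (q : ℕ) →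
      (∃ g ∈ A.decompositionSubgroup ℚ ⊓ E.fixingSubgroup, g ∉ F.fixingSubgroup) →
      ∀ n : ℕ, ∃ y : Qb, y ∈ F ∧ y ≠ 0 ∧
        A.valuation (a / ∏ i ∈ Finset.range p, (σ ^ i) y - 1) ≤
          A.valuation (((q : ℕ) : Qb) ^ n)) :
    ∃ b : Qb, b ∈ F ∧ b ≠ 0 ∧ a = ∏ i ∈ Finset.range p, (σ ^ i) b := by
  have hp : p.Prime := Fact.out
  have hFfin : FiniteDimensional ℚ ↥F := hF.1
  have hEunr : E.IsUnramifiedOutside S := hF.of_le hEF.out
  have hrel : FiniteDimensional ↥E ↥F := finiteDimensional_rel E F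
  have hgal : IsGalois ↥E ↥F := isGalois_rel E F hnorm
  have hdeg : finrank ↥E ↥F = p := finrank_rel E F p σ hσE hnorm hgen hord
  have hσF : σ ∉ F.fixingSubgroup := by
    intro h
    have h3 := (hord 1).mp (by simpa using h)
    exact hp.one_lt.ne' (Nat.dvd_one.mp h3)
  let a' : (↥E)ˣ := Units.mk0 ⟨a, ha⟩ (fun h => ha0 (congrArg Subtype.val h))
  have c1 : ∀ v : HeightOneSpectrum (𝓞 ↥E), v ∉ KumBridge.primesOver E S → HNT.IsNonSplit ↥F v →
      (p : ℤ) ∣ WithZero.log (v.valuation ↥E (a' : ↥E)) := by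
    intro v hv hns
    obtain ⟨q, A, hA, rfl⟩ := KumBridge.exists_primeOf_eq E v
    have hqS : q ∉ S := fun hq => hv ⟨q, hq, KumBridge.natCast_mem_primeIdeal E A hA⟩
    rw [primeOf_eq E q.2 A hA] at hns ⊢
    obtain ⟨g, hg, hgF⟩ := exists_mem_decomp_of_isNonSplit E F hp hdeg σ hσE hσF q.2 A hA hns
    obtain ⟨m, hm⟩ := h1 q hqS A hA ⟨g, hg, hgF⟩
    exact dvd_log_of_valuation_eq E hEunr q hqS A hA a' p m hm
  have c2 : ∀ v ∈ KumBridge.primesOver E S, HNT.IsNonSplit ↥F v → a' ∈ HNT.normCongr ↥F v := by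
    intro v hv hns
    obtain ⟨q', A, hA, rfl⟩ := KumBridge.exists_primeOf_eq E v
    obtain ⟨q, hqS, hqv⟩ := hv
    have hqq : q = q' :=
      Subtype.ext (natPrime_unique E _ q.2 q'.2 hqv (KumBridge.natCast_mem_primeIdeal E A hA))
    subst hqq
    rw [primeOf_eq E q.2 A hA] at hns ⊢
    obtain ⟨g, hg, hgF⟩ := exists_mem_decomp_of_isNonSplit E F hp hdeg σ hσE hσF q.2 A hA hns
    exact mem_normCongr_of_approx E F hp hdeg σ hσE hσF q.2 A hA a' (h2 q hqS A hA ⟨g, hg, hgF⟩)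
  obtain ⟨z, hz⟩ := hS a' c1 c2
  refine ⟨z, z.2, ?_, ?_⟩
  · intro hz0
    have hz0' : z = 0 := Subtype.ext hz0
    rw [hz0', Algebra.norm_zero] at hz
    exact a'.ne_zero hz.symm
  · rw [prod_pow_eq_norm E F hp hdeg σ hσE hσF z, hz]
    rfl

end Local

end Fermat.Agent.PT.G.HasseBridge

namespace Fermat.Agent.PT.G

open scoped Pointwise
open IsDedekindDomain NumberField Module

local notation "Qb" => AlgebraicClosure ℚ
local notation "GQ" => (AlgebraicClosure ℚ ≃ₐ[ℚ] AlgebraicClosure ℚ)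

attribute [local instance] HasseBridge.algOfLE

/-- **The Hasse norm theorem in the vocabulary of `ℚ̄`** (cyclic of odd prime degree `p`,
ramified inside `S`).  `E ≤ F` finite over `ℚ` inside `ℚ̄`, `F` unramified outside `S`,
`G_F` normal in `G_E` with quotient cyclic of order `p` generated by `σ`.  If `a ∈ Eˣ` has
valuation divisible by `p` at the non-split places outside `S` and is congruent to a norm modulo
every power of `q` at the non-split places over `q ∈ S`, then `a = ∏ i < p, σ ^ i b` is a norm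
from `F`. -/
theorem hnt_Qb (p : ℕ) [Fact p.Prime] (hp2 : p ≠ 2) (S : Finset Nat.Primes)
    (E F : IntermediateField ℚ (AlgebraicClosure ℚ)) (hEF : E ≤ F)
    (hF : F.IsUnramifiedOutside S)
    (σ : AlgebraicClosure ℚ ≃ₐ[ℚ] AlgebraicClosure ℚ) (hσE : σ ∈ E.fixingSubgroup)
    (hnorm : ∀ g ∈ E.fixingSubgroup, ∀ n ∈ F.fixingSubgroup, g * n * g⁻¹ ∈ F.fixingSubgroup)
    (hgen : ∀ g ∈ E.fixingSubgroup, ∃ i : ℕ, (σ ^ i)⁻¹ * g ∈ F.fixingSubgroup)
    (hord : ∀ i : ℕ, σ ^ i ∈ F.fixingSubgroup ↔ p ∣ i)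
    (a : AlgebraicClosure ℚ) (ha : a ∈ E) (ha0 : a ≠ 0)
    (h1 : ∀ q : Nat.Primes, q ∉ S → ∀ A : ValuationSubring (AlgebraicClosure ℚ),
      A.LiesOverPrime (q : ℕ) →
      (∃ g ∈ A.decompositionSubgroup ℚ ⊓ E.fixingSubgroup, g ∉ F.fixingSubgroup) →
      ∃ m : ℤ, A.valuation a = A.valuation (((q : ℕ) : AlgebraicClosure ℚ) ^ ((p : ℤ) * m)))
    (h2 : ∀ q : Nat.Primes, q ∈ S → ∀ A : ValuationSubring (AlgebraicClosure ℚ),
      A.LiesOverPrime (q : ℕ) →
      (∃ g ∈ A.decompositionSubgroup ℚ ⊓ E.fixingSubgroup, g ∉ F.fixingSubgroup) →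
      ∀ n : ℕ, ∃ y : AlgebraicClosure ℚ, y ∈ F ∧ y ≠ 0 ∧
        A.valuation (a / ∏ i ∈ Finset.range p, (σ ^ i) y - 1) ≤
          A.valuation (((q : ℕ) : AlgebraicClosure ℚ) ^ n)) :
    ∃ b : AlgebraicClosure ℚ, b ∈ F ∧ b ≠ 0 ∧ a = ∏ i ∈ Finset.range p, (σ ^ i) b := by
  have hfact : Fact (E ≤ F) := ⟨hEF⟩
  have hFfin : FiniteDimensional ℚ ↥F := hF.1
  have hEfin : FiniteDimensional ℚ ↥E := (hF.of_le hEF).1
  have hnfE : NumberField ↥E := ⟨⟩
  have hnfF : NumberField ↥F := ⟨⟩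
  refine HasseBridge.hnt_Qb_of E F p S hF σ hσE hnorm hgen hord ?_ a ha ha0 h1 h2
  intro a' c1 c2
  have hgal : IsGalois ↥E ↥F := HasseBridge.isGalois_rel E F hnorm
  have hdeg : finrank ↥E ↥F = p := HasseBridge.finrank_rel E F p σ hσE hnorm hgen hord
  refine CFT.HNT.exists_norm_eq_of_normCongr (Fact.out : p.Prime) hp2 hdeg
    (KumBridge.finite_primesOver E S).toFinset ?_ a' ?_ ?_
  · intro w hw
    rw [Set.Finite.mem_toFinset] at hw
    exact HasseBridge.ramificationIdx_eq_one_of_level E F hF w hw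
  · intro v hv
    rw [Set.Finite.mem_toFinset] at hv
    exact c1 v hv
  · intro v hv
    rw [Set.Finite.mem_toFinset] at hv
    exact c2 v hv

end Fermat.Agent.PT.G
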