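import Fermat.Agent.PT.G.HasseLoc
import Fermat.Agent.PT.G.HasseBridge

/-!
# PT (S55), layer G3: the Hasse principle, unconditional

`hntStatement` discharges the hypothesis `HNTStatement p S` of `PT/G/HasseLoc.lean` by
`hnt_Qb` (`PT/G/HasseBridge.lean`, the Hasse norm theorem of `CFT/HNT/SMain.lean` in the
vocabulary of `ℚ̄`).  `hasse_principle_Qb'` and `hasse_principle_mu'` are the resulting
unconditional forms of the Hasse principle for `p`-primary `S`-level `2`-cocycles.
-/

set_option autoImplicit false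

namespace Fermat.Agent.PT.G

local notation "Qb" => AlgebraicClosure ℚ
local notation "GQ" => (AlgebraicClosure ℚ ≃ₐ[ℚ] AlgebraicClosure ℚ)

open Fermat.Agent.PT.Br Fermat.Agent.PT.Br.MulBridge Finset
open Fermat.Agent.Lib.GalQbar

attribute [local instance] additiveAction isAlgClosure_rat isGalois_rat
  Fermat.Agent.Lib.GalQbar.isAlgebraic_rat

/-- The Hasse norm theorem for cyclic extensions of odd prime degree, in the form consumed by
`hasse_principle_Qb`. -/
theorem hntStatement (p : ℕ) [Fact p.Prime] (hp2 : p ≠ 2) (S : Finset Nat.Primes) :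
    HNTStatement p S :=
  fun E F hEF hF σ hσ hn hg ho a ha ha0 h1 h2 =>
    hnt_Qb p hp2 S E F hEF hF σ hσ hn hg ho a ha ha0 h1 h2

/-- **Hasse principle**, unconditional form of `hasse_principle_Qb`. -/
theorem hasse_principle_Qb' (p : ℕ) [Fact p.Prime] (hp2 : p ≠ 2) (S : Finset Nat.Primes)
    (K L : IntermediateField ℚ Qb) (hKL : K ≤ L)
    (hL : L.IsUnramifiedOutside S) [Normal ℚ L]
    (z : GQ × GQ → Additive Qbˣ) (hz : CocOn₂ K.fixingSubgroup z)
    (hi : InflOn₂ K.fixingSubgroup L.fixingSubgroup z)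
    (hLT : LTloc S L.fixingSubgroup K.fixingSubgroup z) (k : ℕ)
    (hk : CobOn₂ K.fixingSubgroup L.fixingSubgroup (((p ^ k : ℕ) : ℤ) • z)) :
    CobOn₂ K.fixingSubgroup L.fixingSubgroup z :=
  hasse_principle_Qb p S (hntStatement p hp2 S) K L hKL hL z hz hi hLT k hk

/-- **Hasse principle for `μ_p`-valued cocycles**, unconditional form of `hasse_principle_mu`. -/
theorem hasse_principle_mu' (p : ℕ) [Fact p.Prime] (hp2 : p ≠ 2) (S : Finset Nat.Primes)
    (K L : IntermediateField ℚ Qb) (hKL : K ≤ L)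
    (hL : L.IsUnramifiedOutside S) [Normal ℚ L]
    (z : GQ × GQ → Additive Qbˣ) (hz : CocOn₂ K.fixingSubgroup z)
    (hi : InflOn₂ K.fixingSubgroup L.fixingSubgroup z)
    (hp : ∀ g ∈ K.fixingSubgroup, ∀ h ∈ K.fixingSubgroup, p • z (g, h) = 0)
    (hloc : ∀ q : Nat.Primes, q ∈ S → ∀ A : ValuationSubring Qb, A.LiesOverPrime (q : ℕ) →
      ∃ F : IntermediateField ℚ Qb, FiniteDimensional ℚ F ∧
        CobOn₂ (A.decompositionSubgroup ℚ ⊓ K.fixingSubgroup)
          (A.decompositionSubgroup ℚ ⊓ F.fixingSubgroup) z) :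
    CobOn₂ K.fixingSubgroup L.fixingSubgroup z :=
  hasse_principle_mu p S (hntStatement p hp2 S) K L hKL hL z hz hi hp hloc

end Fermat.Agent.PT.G
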