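/-
PT, G3-GE, ideal-theoretic half ("GE-IDEAL").

`K` a level for `S` (finite over `ℚ`, unramified outside `S`), `S_K = primesOver K S`,
`Cl_S = ClS K S_K`.

* `exists_radical_rep` : every class `x` of `Cl_S` is, modulo `p`-th powers, the class of an
  ideal `I` which has a "radical representative": `γ ∈ ℚ̄ˣ` with `γ ^ (p ^ e) ∈ K` and
  `v_A(γ) = v_A(q) ^ ord_v(I)` for every valuation subring `A` of `ℚ̄` over a prime `q ∉ S`
  (`v = primeOf K A`);
* `mk_mem_pow_range_of_valuation` : if `γ` represents `I` and `γ / a₁` has `p`-divisible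
  valuations outside `S` for some `a₁ ∈ Kˣ`, then the class of `I` is a `p`-th power in `Cl_S`;
* `radRep_div`, `radRep_mul`, `radRep_inv`, `radRep_pow` : compatibility of the representation
  with the group laws.
-/
import Fermat.Agent.PT.G.KumBridge
import Fermat.Agent.PT.G.ClSMod

set_option autoImplicit false

namespace Fermat.Agent.PT.GeIdeal

local notation "Qb" => AlgebraicClosure ℚ
local notation "GQ" => (AlgebraicClosure ℚ ≃ₐ[ℚ] AlgebraicClosure ℚ)

open IsDedekindDomain NumberField Fermat.Agent.PT.KumBridge Fermat.Agent.PT.SelmerSeq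
  Fermat.Agent.PT.Kummer
open scoped nonZeroDivisors

section Valuation

/-- `n ↦ v_A(q ^ n)` is injective for `A` over `q`. -/
theorem zpow_valuation_injective {q : ℕ} (A : ValuationSubring Qb) (hq : q ≠ 0)
    (hA : A.LiesOverPrime q) {m n : ℤ}
    (h : A.valuation ((q : Qb) ^ m) = A.valuation ((q : Qb) ^ n)) : m = n := by
  have hq0 : A.valuation (q : Qb) ≠ 0 := by
    rw [Valuation.ne_zero_iff]
    exact_mod_cast hq
  have hq1 : A.valuation (q : Qb) < 1 := A.mem_nonunits_iff.mp hA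
  rw [map_zpow₀, map_zpow₀] at h
  exact zpow_right_injective₀ (zero_lt_iff.mpr hq0) hq1.ne h

/-- `t ↦ t ^ N` is injective on the value group. -/
theorem valuation_eq_of_pow_eq (A : ValuationSubring Qb) {x y : Qb} {N : ℕ} (hN : N ≠ 0)
    (h : A.valuation x ^ N = A.valuation y ^ N) : A.valuation x = A.valuation y :=
  (pow_left_inj₀ zero_le zero_le hN).mp h

end Valuation

variable (K : IntermediateField ℚ Qb) [NumberField K] (S : Finset Nat.Primes)

/-- The rational prime below `primeOf K A` lies in it. -/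
theorem natCast_mem_primeOf (A : ValuationSubring Qb) {q : ℕ} (hq : q ≠ 0)
    (hA : A.LiesOverPrime q) : ((q : ℕ) : 𝓞 K) ∈ (primeOf K A hq hA).asIdeal :=
  natCast_mem_primeIdeal K A hA

/-- A prime of `K` outside `S_K` is cut out by a valuation subring over a prime outside `S`. -/
theorem exists_primeOf_eq_of_notMem {v : HeightOneSpectrum (𝓞 K)} (hv : v ∉ primesOver K S) :
    ∃ (q : Nat.Primes) (_ : q ∉ S) (A : ValuationSubring Qb) (hA : A.LiesOverPrime q),
      primeOf K A q.2.ne_zero hA = v := by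
  obtain ⟨q, A, hA, rfl⟩ := exists_primeOf_eq K v
  refine ⟨q, fun hqS => hv ⟨q, hqS, ?_⟩, A, hA, rfl⟩
  exact natCast_mem_primeOf K A q.2.ne_zero hA

variable {K S}

/-- On a level for `S`, the valuation at `A` over `q ∉ S` of `z ∈ Kˣ` is that of
`q ^ ord_v z`, `v = primeOf K A`. -/
theorem valuation_eq_zpow_ordK_of_level (hK : K.IsUnramifiedOutside S) (q : Nat.Primes)
    (hq : q ∉ S) (A : ValuationSubring Qb) (hA : A.LiesOverPrime q) (z : Kˣ) :
    A.valuation (((z : K) : Qb))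
      = A.valuation (((q : ℕ) : Qb) ^ (ordK K (primeOf K A q.2.ne_zero hA) z)) := by
  refine valuation_eq_zpow_ordK K A q.2.ne_zero hA (fun x hx => ?_) z
  exact exists_zpow_valuation_eq_of_level hK x.2
    (fun h => hx (Subtype.ext h)) q hq A hA

variable (K S) in
/-- `γ ∈ ℚ̄` is a radical representative of the ideal `I` outside `S`:
`v_A(γ) = v_A(q) ^ ord_v(I)` for all `A` over `q ∉ S`, `v = primeOf K A`. -/
def RadRep (γ : Qb) (I : (FractionalIdeal (𝓞 K)⁰ K)ˣ) : Prop :=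
  ∀ q : Nat.Primes, q ∉ S → ∀ A : ValuationSubring Qb, ∀ hA : A.LiesOverPrime q,
    A.valuation γ = A.valuation (((q : ℕ) : Qb) ^ (cnt K (primeOf K A q.2.ne_zero hA) I))

theorem radRep_iff {γ : Qb} {I : (FractionalIdeal (𝓞 K)⁰ K)ˣ} :
    RadRep K S γ I ↔ ∀ q : Nat.Primes, q ∉ S → ∀ A : ValuationSubring Qb,
      ∀ hA : A.LiesOverPrime q,
      A.valuation γ = A.valuation (((q : ℕ) : Qb) ^ (cnt K (primeOf K A q.2.ne_zero hA) I)) :=
  Iff.rfl

theorem RadRep.exists_zpow {γ : Qb} {I : (FractionalIdeal (𝓞 K)⁰ K)ˣ} (h : RadRep K S γ I)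
    (q : Nat.Primes) (hq : q ∉ S) (A : ValuationSubring Qb) (hA : A.LiesOverPrime q) :
    ∃ n : ℤ, A.valuation γ = A.valuation (((q : ℕ) : Qb) ^ n) :=
  ⟨_, h q hq A hA⟩

/-- **(I3)** radical representatives are compatible with products. -/
theorem radRep_mul {γ γ' : Qb} {I I' : (FractionalIdeal (𝓞 K)⁰ K)ˣ} (h : RadRep K S γ I)
    (h' : RadRep K S γ' I') : RadRep K S (γ * γ') (I * I') := by
  intro q hq A hA
  rw [map_mul, h q hq A hA, h' q hq A hA, ← map_mul, cnt_mul,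
    zpow_add₀ (by exact_mod_cast q.2.ne_zero)]

/-- **(I3)** radical representatives are compatible with inverses. -/
theorem radRep_inv {γ : Qb} {I : (FractionalIdeal (𝓞 K)⁰ K)ˣ} (h : RadRep K S γ I) :
    RadRep K S γ⁻¹ I⁻¹ := by
  intro q hq A hA
  rw [map_inv₀, h q hq A hA, ← map_inv₀, cnt_inv, zpow_neg]

/-- **(I3)** radical representatives are compatible with quotients. -/
theorem radRep_div {γ γ' : Qb} {I I' : (FractionalIdeal (𝓞 K)⁰ K)ˣ} (h : RadRep K S γ I)
    (h' : RadRep K S γ' I') : RadRep K S (γ / γ') (I / I') := by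
  rw [div_eq_mul_inv, div_eq_mul_inv]
  exact radRep_mul h (radRep_inv h')

theorem radRep_one : RadRep K S 1 1 := by
  intro q hq A hA
  rw [cnt_one, zpow_zero]

/-- radical representatives are compatible with powers. -/
theorem radRep_pow {γ : Qb} {I : (FractionalIdeal (𝓞 K)⁰ K)ˣ} (h : RadRep K S γ I) (n : ℕ) :
    RadRep K S (γ ^ n) (I ^ n) := by
  induction n with
  | zero => simpa using radRep_one
  | succ n ih =>
    rw [pow_succ, pow_succ]
    exact radRep_mul ih h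

/-- An element of `Kˣ` represents its principal ideal. -/
theorem radRep_principal (hK : K.IsUnramifiedOutside S) (a : Kˣ) :
    RadRep K S ((a : K) : Qb) (toPrincipalIdeal (𝓞 K) K a) := by
  intro q hq A hA
  exact valuation_eq_zpow_ordK_of_level hK q hq A hA a

variable (p : ℕ) [Fact p.Prime]

/-- **(I1)** Every class of `Cl_S` is, modulo `p`-th powers, the class of an ideal `I` with a
radical representative `γ`, `γ ^ (p ^ e) ∈ K`. -/
theorem exists_radical_rep (hK : K.IsUnramifiedOutside S) (x : ClS K (primesOver K S)) :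
    ∃ (I : (FractionalIdeal (𝓞 K)⁰ K)ˣ) (γ : Qb) (e : ℕ), γ ≠ 0 ∧ γ ^ (p ^ e) ∈ K ∧
      (QuotientGroup.mk I : ClS K (primesOver K S)) / x
        ∈ (powMonoidHom (α := ClS K (primesOver K S)) p).range ∧
      ∀ q : Nat.Primes, q ∉ S → ∀ A : ValuationSubring Qb, ∀ hA : A.LiesOverPrime q,
        A.valuation γ
          = A.valuation (((q : ℕ) : Qb) ^ (cnt K (primeOf K A q.2.ne_zero hA) I)) := by
  have hp : p.Prime := Fact.out
  -- `#Cl_S = p ^ e * m`, `p ∤ m`, `m * m' ≡ 1 mod p`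
  have hn0 : Nat.card (ClS K (primesOver K S)) ≠ 0 := Nat.card_pos.ne'
  obtain ⟨e, m, hm, hn⟩ := Nat.exists_eq_pow_mul_and_not_dvd hn0 p hp.ne_one
  have hcop : Nat.Coprime m p := ((Nat.Prime.coprime_iff_not_dvd hp).mpr hm).symm
  obtain ⟨m', -, hm'⟩ := Nat.exists_mul_mod_eq_one_of_coprime hcop hp.one_lt
  have hmm : m * m' = p * (m * m' / p) + 1 := by
    have := Nat.div_add_mod (m * m') p
    omega
  -- `y = x ^ (m * m')`
  obtain ⟨I, hI⟩ := QuotientGroup.mk_surjective (x ^ (m * m'))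
  have hy1 : (QuotientGroup.mk (I ^ (p ^ e)) : ClS K (primesOver K S)) = 1 := by
    rw [QuotientGroup.mk_pow, hI, ← pow_mul, mul_comm (m * m'), ← mul_assoc, ← hn, pow_mul,
      pow_card_eq_one', one_pow]
  obtain ⟨a, ha⟩ := mk_eq_one_iff.mp hy1
  obtain ⟨γ, hγ⟩ := IsAlgClosed.exists_pow_nat_eq (((a : K) : Qb)) (pow_pos hp.pos e)
  have ha0 : (((a : K) : Qb)) ≠ 0 := fun h => a.ne_zero (Subtype.ext h)
  have hγ0 : γ ≠ 0 := by
    rintro rfl
    rw [zero_pow (pow_pos hp.pos e).ne'] at hγ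
    exact ha0 hγ.symm
  refine ⟨I, γ, e, hγ0, by rw [hγ]; exact (a : K).2, ?_, fun q hq A hA => ?_⟩
  · refine ⟨x ^ (m * m' / p), ?_⟩
    rw [powMonoidHom_apply, hI, ← pow_mul, eq_div_iff_mul_eq', ← pow_succ, mul_comm _ p, ← hmm]
  · have hv := primeOf_notMem_primesOver K S A q hq hA
    have h1 := valuation_eq_zpow_ordK_of_level hK q hq A hA a
    rw [← ha _ hv, cnt_pow] at h1
    apply valuation_eq_of_pow_eq A (pow_pos hp.pos e).ne'
    rw [← map_pow, hγ, h1, ← map_pow, ← zpow_natCast, ← zpow_mul, mul_comm]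

/-- **(I2)** If `γ` is a radical representative of `I` and, for some `a₁ ∈ Kˣ`, the valuations
of `γ / a₁` outside `S` are `p`-divisible, then the class of `I` is a `p`-th power in `Cl_S`. -/
theorem mk_mem_pow_range_of_valuation (hK : K.IsUnramifiedOutside S)
    (I : (FractionalIdeal (𝓞 K)⁰ K)ˣ) (γ a₁ : Qb) (ha₁ : a₁ ∈ K) (ha₁0 : a₁ ≠ 0)
    (hrep : ∀ q : Nat.Primes, q ∉ S → ∀ A : ValuationSubring Qb, ∀ hA : A.LiesOverPrime q,
      A.valuation γ
        = A.valuation (((q : ℕ) : Qb) ^ (cnt K (primeOf K A q.2.ne_zero hA) I)))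
    (h : ∀ q : Nat.Primes, q ∉ S → ∀ A : ValuationSubring Qb, A.LiesOverPrime q →
      ∃ m : ℤ, A.valuation (γ / a₁) = A.valuation (((q : ℕ) : Qb) ^ ((p : ℤ) * m))) :
    (QuotientGroup.mk I : ClS K (primesOver K S))
      ∈ (powMonoidHom (α := ClS K (primesOver K S)) p).range := by
  have hp : p.Prime := Fact.out
  rw [mk_mem_pow_range_iff hp.ne_zero]
  have hu0 : (⟨a₁, ha₁⟩ : K) ≠ 0 := fun h0 => ha₁0 (congrArg Subtype.val h0)
  refine ⟨Units.mk0 (⟨a₁, ha₁⟩ : K) hu0, fun v hv => ?_⟩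
  obtain ⟨q, hq, A, hA, rfl⟩ := exists_primeOf_eq_of_notMem K S hv
  obtain ⟨m, hm⟩ := h q hq A hA
  have h1 := valuation_eq_zpow_ordK_of_level hK q hq A hA (Units.mk0 (⟨a₁, ha₁⟩ : K) hu0)
  have h2 : A.valuation (γ / a₁) = A.valuation (((q : ℕ) : Qb) ^
      (cnt K (primeOf K A q.2.ne_zero hA) I
        - ordK K (primeOf K A q.2.ne_zero hA) (Units.mk0 (⟨a₁, ha₁⟩ : K) hu0))) := by
    have e1 : (((Units.mk0 (⟨a₁, ha₁⟩ : K) hu0 : Kˣ) : K) : Qb) = a₁ := rfl
    rw [e1] at h1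
    rw [map_div₀, hrep q hq A hA, h1, ← map_div₀,
      zpow_sub₀ (by exact_mod_cast q.2.ne_zero)]
  rw [hm] at h2
  exact ⟨m, (zpow_valuation_injective A q.2.ne_zero hA h2).symm⟩

/-- **(I1) on `Cl_S / p`**: every class of `Cl_S / p` is the class of an ideal `I` with a
radical representative `γ`, `γ ^ (p ^ e) ∈ K`. -/
theorem exists_radRep_mod (hK : K.IsUnramifiedOutside S) (x : ClSMod K (primesOver K S) p) :
    ∃ (I : (FractionalIdeal (𝓞 K)⁰ K)ˣ) (γ : Qb) (e : ℕ), γ ≠ 0 ∧ γ ^ (p ^ e) ∈ K ∧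
      (QuotientGroup.mk (QuotientGroup.mk I : ClS K (primesOver K S)) :
        ClSMod K (primesOver K S) p) = x ∧ RadRep K S γ I := by
  obtain ⟨x, rfl⟩ := QuotientGroup.mk_surjective x
  obtain ⟨I, γ, e, hγ0, hγK, hIx, hrep⟩ := exists_radical_rep p hK x
  refine ⟨I, γ, e, hγ0, hγK, ?_, hrep⟩
  exact QuotientGroup.eq_iff_div_mem.mpr hIx

/-- **(I2) + (I3) on `Cl_S / p`**: if `γ`, `γ'` are radical representatives of `I`, `I'` and,
for some `a₁ ∈ Kˣ`, the valuations of `γ / γ' / a₁` outside `S` are `p`-divisible, then `I` and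
`I'` have the same class in `Cl_S / p`. -/
theorem mk_mk_eq_of_valuation (hK : K.IsUnramifiedOutside S)
    {I I' : (FractionalIdeal (𝓞 K)⁰ K)ˣ} {γ γ' : Qb} (hrep : RadRep K S γ I)
    (hrep' : RadRep K S γ' I') (a₁ : Qb) (ha₁ : a₁ ∈ K) (ha₁0 : a₁ ≠ 0)
    (h : ∀ q : Nat.Primes, q ∉ S → ∀ A : ValuationSubring Qb, A.LiesOverPrime q →
      ∃ m : ℤ, A.valuation (γ / γ' / a₁) = A.valuation (((q : ℕ) : Qb) ^ ((p : ℤ) * m))) :
    (QuotientGroup.mk (QuotientGroup.mk I : ClS K (primesOver K S)) :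
        ClSMod K (primesOver K S) p)
      = QuotientGroup.mk (QuotientGroup.mk I' : ClS K (primesOver K S)) := by
  have h1 := mk_mem_pow_range_of_valuation p hK (I / I') (γ / γ') a₁ ha₁ ha₁0
    (radRep_div hrep hrep') h
  rw [QuotientGroup.mk_div] at h1
  exact QuotientGroup.eq_iff_div_mem.mpr h1

end Fermat.Agent.PT.GeIdeal
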