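/-
PT / G : the ideal-theoretic half of the injection `Ш²(G_K; 𝔽_p) ↪ Cl_S(K)/p`.

* `exists_unit_cnt_of_valuation` : an element `γ ∈ ℚ̄ˣ` whose valuations outside `S` are integral
  and `G_K`-invariant modulo `p` defines a fractional ideal of `K`, well defined modulo `p`-th
  powers;
* `exists_unit_valuation_of_mk_mk_eq` : two ideals with the same class in `Cl_S(K)/p` differ,
  outside `S` and modulo `p`, by a principal ideal.
-/
import Fermat.Agent.PT.G.GeIdeal
import Fermat.Agent.PT.G.PlaceCoset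
import Fermat.Agent.PT.G.KumUnram

set_option autoImplicit false

namespace Fermat.Agent.PT.G

open IsDedekindDomain NumberField Fermat.Agent.PT.KumBridge Fermat.Agent.PT.SelmerSeq
open Fermat.Agent.Lib.FrobeniusExists
open scoped nonZeroDivisors Pointwise

local notation "Qb" => AlgebraicClosure ℚ
local notation "GQ" => (AlgebraicClosure ℚ ≃ₐ[ℚ] AlgebraicClosure ℚ)

attribute [local instance] isAlgClosure_rat isGalois_rat

lemma valuation_eq_iff_div_le_one {F Γ₀ : Type*} [Field F] [LinearOrderedCommGroupWithZero Γ₀]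
    (v : Valuation F Γ₀) {x y : F} (hx : x ≠ 0) (hy : y ≠ 0) :
    v x = v y ↔ v (x / y) ≤ 1 ∧ v (y / x) ≤ 1 := by
  have hvx : 0 < v x := zero_lt_iff.mpr ((Valuation.ne_zero_iff _).mpr hx)
  have hvy : 0 < v y := zero_lt_iff.mpr ((Valuation.ne_zero_iff _).mpr hy)
  rw [map_div₀, map_div₀, div_le_one₀ hvy, div_le_one₀ hvx]
  exact ⟨fun h => ⟨h.le, h.ge⟩, fun h => le_antisymm h.1 h.2⟩

/-- Equalities of valuations at a conjugate valuation subring. -/
theorem smul_valuation_eq_iff (g : GQ) (A : ValuationSubring Qb) {x y : Qb} (hx : x ≠ 0)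
    (hy : y ≠ 0) :
    (g • A).valuation x = (g • A).valuation y ↔ A.valuation (g⁻¹ x) = A.valuation (g⁻¹ y) := by
  have hx' : g⁻¹ x ≠ 0 := (map_ne_zero_iff _ (g⁻¹).injective).mpr hx
  have hy' : g⁻¹ y ≠ 0 := (map_ne_zero_iff _ (g⁻¹).injective).mpr hy
  rw [valuation_eq_iff_div_le_one _ hx hy, valuation_eq_iff_div_le_one _ hx' hy',
    smul_valuation_le_one_iff, smul_valuation_le_one_iff, map_div₀ g⁻¹ x y, map_div₀ g⁻¹ y x]

/-- A nonzero algebraic number is a unit at all valuation subrings not dividing a suitable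
nonzero integer. -/
theorem exists_int_valuation_eq_one (γ : Qb) (hγ : γ ≠ 0) :
    ∃ N : ℤ, N ≠ 0 ∧ ∀ A : ValuationSubring Qb, A.valuation (N : Qb) = 1 →
      A.valuation γ = 1 := by
  obtain ⟨m, hm0, hm⟩ := (isAlgebraic_int γ).exists_integral_multiple
  obtain ⟨m', hm'0, hm'⟩ := (isAlgebraic_int γ⁻¹).exists_integral_multiple
  refine ⟨m * m', mul_ne_zero hm0 hm'0, fun A hA => ?_⟩
  have hint : ∀ n : ℤ, A.valuation ((n : ℤ) : Qb) ≤ 1 := fun n =>
    (A.valuation_le_one_iff _).mpr (intCast_mem A n)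
  rw [Int.cast_mul, map_mul] at hA
  have h1 : A.valuation (m : Qb) = 1 := by
    refine le_antisymm (hint m) ?_
    by_contra hlt
    rw [not_le] at hlt
    have := mul_lt_one_of_lt_of_le hlt (hint m')
    rw [hA] at this
    exact lt_irrefl _ this
  have h2 : A.valuation (m' : Qb) = 1 := by
    rw [h1, one_mul] at hA
    exact hA
  have h3 : A.valuation (m • γ) ≤ 1 := val_le_one_of_isIntegral _ hm
  have h4 : A.valuation (m' • γ⁻¹) ≤ 1 := val_le_one_of_isIntegral _ hm'
  rw [zsmul_eq_mul, map_mul, h1, one_mul] at h3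
  rw [zsmul_eq_mul, map_mul, h2, one_mul, map_inv₀] at h4
  refine le_antisymm h3 ?_
  have hpos : 0 < A.valuation γ := zero_lt_iff.mpr ((Valuation.ne_zero_iff _).mpr hγ)
  exact (inv_le_one₀ hpos).1 h4

variable (K : IntermediateField ℚ Qb) [NumberField K] (S : Finset Nat.Primes)

/-- **The ideal of a `G_K`-invariant-modulo-`p` element.**  Let `γ ∈ ℚ̄ˣ` have, at every valuation
subring `A` of `ℚ̄` over a prime `q ∉ S`, the valuation of a power of `q`, and assume that for
`u ∈ G_K` the valuations of `u γ / γ` are those of `p`-th powers of powers of `q`.  Then there is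
a fractional ideal `I` of `K` with `ord_A γ ≡ ord_v I mod p` for all `A` over `v ∉ S_K`. -/
theorem exists_unit_cnt_of_valuation (p : ℕ) (γ : Qb) (hγ : γ ≠ 0)
    (h1 : ∀ q : Nat.Primes, q ∉ S → ∀ A : ValuationSubring Qb, A.LiesOverPrime (q : ℕ) →
      ∃ n : ℤ, A.valuation γ = A.valuation (((q : ℕ) : Qb) ^ n))
    (h2 : ∀ u ∈ K.fixingSubgroup, ∀ q : Nat.Primes, q ∉ S → ∀ A : ValuationSubring Qb,
      A.LiesOverPrime (q : ℕ) →
      ∃ m : ℤ, A.valuation (u γ / γ) = A.valuation (((q : ℕ) : Qb) ^ ((p : ℤ) * m))) :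
    ∃ I : (FractionalIdeal (𝓞 K)⁰ K)ˣ, ∀ q : Nat.Primes, q ∉ S →
      ∀ (A : ValuationSubring Qb) (hA : A.LiesOverPrime (q : ℕ)), ∃ m : ℤ,
        A.valuation γ = A.valuation (((q : ℕ) : Qb) ^
          (cnt K (primeOf K A q.2.ne_zero hA) I + (p : ℤ) * m)) := by
  classical
  have core : ∀ q : Nat.Primes, q ∉ S → ∀ (A A' : ValuationSubring Qb)
      (hA : A.LiesOverPrime (q : ℕ)) (hA' : A'.LiesOverPrime (q : ℕ)),
      primeOf K A q.2.ne_zero hA = primeOf K A' q.2.ne_zero hA' → ∀ n n' : ℤ,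
      A.valuation γ = A.valuation (((q : ℕ) : Qb) ^ n) →
      A'.valuation γ = A'.valuation (((q : ℕ) : Qb) ^ n') → ∃ m : ℤ, n' = n + (p : ℤ) * m := by
    intro q hq A A' hA hA' hv n n' hn hn'
    obtain ⟨u, hu, rfl⟩ := (primeOf_eq_iff K q.2 A A' hA hA').1 hv
    have hq0 : (((q : ℕ) : Qb)) ≠ 0 := by exact_mod_cast q.2.ne_zero
    rw [smul_valuation_eq_iff u A hγ (zpow_ne_zero _ hq0), map_zpow₀, map_natCast] at hn'
    obtain ⟨m, hm⟩ := h2 u⁻¹ (K.fixingSubgroup.inv_mem hu) q hq A hA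
    refine ⟨m, ?_⟩
    apply GeIdeal.zpow_valuation_injective A q.2.ne_zero hA
    rw [← hn', zpow_add₀ hq0, map_mul, ← hn, ← hm, ← map_mul, mul_div_cancel₀ _ hγ]
  have key : ∀ q q' : Nat.Primes, q ∉ S → q' = q → ∀ (A A' : ValuationSubring Qb)
      (hA : A.LiesOverPrime (q : ℕ)) (hA' : A'.LiesOverPrime (q' : ℕ)),
      primeOf K A' q'.2.ne_zero hA' = primeOf K A q.2.ne_zero hA → ∀ n n' : ℤ,
      A'.valuation γ = A'.valuation (((q' : ℕ) : Qb) ^ n) →
      A.valuation γ = A.valuation (((q : ℕ) : Qb) ^ n') → ∃ m : ℤ, n' = n + (p : ℤ) * m := by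
    intro q q' hq hqq
    subst hqq
    intro A A' hA hA' hv n n' hn hn'
    exact core q' hq A' A hA' hA hv n n' hn hn'
  choose qf Af hAf hvf using exists_primeOf_eq K
  let e : HeightOneSpectrum (𝓞 K) → ℤ := fun v =>
    if h : qf v ∉ S then Classical.choose (h1 (qf v) h (Af v) (hAf v)) else 0
  have he_spec : ∀ v (_ : qf v ∉ S),
      (Af v).valuation γ = (Af v).valuation (((qf v : ℕ) : Qb) ^ e v) := by
    intro v h
    simp only [e, dif_pos h]
    exact Classical.choose_spec (h1 (qf v) h (Af v) (hAf v))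
  obtain ⟨N, hN0, hN⟩ := exists_int_valuation_eq_one γ hγ
  have hfin : ∀ᶠ v in Filter.cofinite, e v = 0 := by
    rw [Filter.eventually_cofinite]
    have hT : {v : HeightOneSpectrum (𝓞 K) | v.asIdeal ∣ Ideal.span {((N : ℤ) : 𝓞 K)}}.Finite := by
      apply Ideal.finite_factors
      rw [Ne, Ideal.zero_eq_bot, Ideal.span_singleton_eq_bot]
      exact_mod_cast hN0
    refine hT.subset fun v hv => ?_
    by_contra hnot
    apply hv
    rw [Set.mem_setOf_eq, Ideal.dvd_span_singleton] at hnot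
    by_cases h : qf v ∉ S
    · have h3 := he_spec v h
      have hval1 : (Af v).valuation γ = 1 := by
        apply hN
        have h4 : ¬ (Af v).valuation (algebraMap (𝓞 K) Qb ((N : ℤ) : 𝓞 K)) < 1 := by
          rw [← mem_primeOf_iff K (Af v) (qf v).2.ne_zero (hAf v), hvf v]
          exact hnot
        rw [map_intCast] at h4
        exact le_antisymm ((ValuationSubring.valuation_le_one_iff _ _).mpr (intCast_mem (Af v) N))
          (not_lt.1 h4)
      rw [hval1] at h3
      apply GeIdeal.zpow_valuation_injective (Af v) (qf v).2.ne_zero (hAf v)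
      rw [← h3, zpow_zero, map_one]
    · simp only [e, dif_neg h]
  obtain ⟨J, hJ⟩ := exists_unit_cnt K e hfin
  refine ⟨J, fun q hq A hA => ?_⟩
  have hqv : qf (primeOf K A q.2.ne_zero hA) = q := by
    apply Subtype.ext
    apply natPrime_unique K (primeOf K A q.2.ne_zero hA) (qf _).2 q.2
    · have := GeIdeal.natCast_mem_primeOf K (Af (primeOf K A q.2.ne_zero hA)) (qf _).2.ne_zero
        (hAf _)
      rwa [hvf] at this
    · exact GeIdeal.natCast_mem_primeOf K A q.2.ne_zero hA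
  obtain ⟨n', hn'⟩ := h1 q hq A hA
  have hqS : qf (primeOf K A q.2.ne_zero hA) ∉ S := by
    rw [hqv]
    exact hq
  obtain ⟨m, hm⟩ := key q _ hq hqv A _ hA (hAf _) (hvf _) _ n' (he_spec _ hqS) hn'
  refine ⟨m, ?_⟩
  rw [hJ, ← hm]
  exact hn'

/-- Two ideals with the same class in `Cl_S(K)/p` differ outside `S`, modulo `p`, by a principal
ideal (in valuation form). -/
theorem exists_unit_valuation_of_mk_mk_eq (p : ℕ) (hp : p ≠ 0) (hK : K.IsUnramifiedOutside S)
    (I I' : (FractionalIdeal (𝓞 K)⁰ K)ˣ)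
    (h : (QuotientGroup.mk (QuotientGroup.mk I : ClS K (primesOver K S)) :
        ClSMod K (primesOver K S) p)
      = QuotientGroup.mk (QuotientGroup.mk I' : ClS K (primesOver K S))) :
    ∃ a : Kˣ, ∀ q : Nat.Primes, q ∉ S →
      ∀ (A : ValuationSubring Qb) (hA : A.LiesOverPrime (q : ℕ)), ∃ m : ℤ,
        A.valuation (((a : K) : Qb)) = A.valuation (((q : ℕ) : Qb) ^
          (cnt K (primeOf K A q.2.ne_zero hA) I - cnt K (primeOf K A q.2.ne_zero hA) I'
            + (p : ℤ) * m)) := by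
  have h1 : (QuotientGroup.mk (I * I'⁻¹) : ClS K (primesOver K S))
      ∈ (powMonoidHom (α := ClS K (primesOver K S)) p).range := by
    have h0 := QuotientGroup.eq_iff_div_mem.mp h
    rwa [← QuotientGroup.mk_div, div_eq_mul_inv] at h0
  obtain ⟨x, hx⟩ := (mk_div_mem_pow_range_iff hp I I').1 h1
  refine ⟨x, fun q hq A hA => ?_⟩
  obtain ⟨k, hk⟩ := hx _ (primeOf_notMem_primesOver K S A q hq hA)
  refine ⟨-k, ?_⟩
  rw [GeIdeal.valuation_eq_zpow_ordK_of_level hK q hq A hA x]
  congr 2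
  linear_combination (-1 : ℤ) * hk

end Fermat.Agent.PT.G
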