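/-
PT / G : the abstract induction behind the Hasse principle for `p`-primary Brauer classes.

Relative vocabulary of `PT/Br` (ambient group `Γ`, additive coefficients `A`, cochains are plain
functions, `N₀ ≤ U` a level).

* `cobOn₂_relIndex_zsmul` : Sylow step with levels — if `z` (inflated from `U/N₀`) is a level-`N₀`
  coboundary on `P` (`N₀ ≤ P ≤ U`), then `[U : P] • z` is a level-`N₀` coboundary on `U`.
* `exists_central_step` : a normal level `N₀' ⊲ M` of `p`-power index `> 1` sits below some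
  `N ⊲ M` with `N/N₀'` cyclic of order `p`.
* `exists_sylow_between` : a "Sylow subgroup" `N₀ ≤ P ≤ U`.
* `hasse_induction` : if every carry class which is "locally trivial" (an abstract predicate `LT`,
  stable under restriction and under level-`N₀` coboundaries) is the carry class of a norm
  (cyclic Hasse norm theorem), then every locally trivial class of `p`-power order is trivial.
-/
import Fermat.Agent.PT.Br.Cyclic

set_option autoImplicit false
set_option linter.style.haveILetI false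

namespace Fermat.Agent.PT.G

open Fermat.Agent.PT.Br Finset

variable {Γ A : Type*} [Group Γ] [AddCommGroup A] [DistribMulAction Γ A]

/-! ### Sylow step with levels -/

/-- Kill `z (g, m)` for `m ∈ P` (no normality of `P` needed). -/
lemma exists_d1_vanish_right' {U P N₀ : Subgroup Γ} (hPU : P ≤ U) (h0P : N₀ ≤ P)
    {z : Γ × Γ → A} (hz : CocOn₂ U z) (hi : InflOn₂ U N₀ z)
    (hv : ∀ n ∈ P, ∀ n' ∈ P, z (n, n') = 0) :
    ∃ h : Γ → A, InflOn₁ U N₀ h ∧ ∀ g ∈ U, ∀ m ∈ P, (z + d1 h) (g, m) = 0 := by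
  obtain ⟨τ, τ1, τ2, τ3⟩ := exists_transversal P
  have τM : ∀ g ∈ U, τ g ∈ U := fun g hg => by
    have : τ g = g * ((τ g)⁻¹ * g)⁻¹ := by group
    rw [this]; exact U.mul_mem hg (U.inv_mem (hPU (τ1 g)))
  have hz11 : z (1, 1) = 0 := hv 1 P.one_mem 1 P.one_mem
  refine ⟨fun g => z (τ g, (τ g)⁻¹ * g), ⟨fun g hg s hs => ?_, fun g hg s hs => ?_⟩,
    fun g hg m hm => ?_⟩
  · simp only [τ2 g s (h0P hs)]
    rw [← mul_assoc]
    exact hi.right₂ (τM g hg) (hPU (τ1 g)) hs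
  · exact hi.2 _ (τM g hg) _ (hPU (τ1 g)) s hs
  · simp only [Pi.add_apply, d1_apply]
    have e1 : z (τ m, (τ m)⁻¹ * m) = 0 := by
      rw [τ3 m hm]; simp only [inv_one, one_mul]
      rw [hz.map_one_fst (hPU hm), hz11]
    have e2 : τ (g * m) = τ g := τ2 g m hm
    have e3 := hz (τ g) (τM g hg) ((τ g)⁻¹ * g) (hPU (τ1 g)) m (hPU hm)
    rw [hv _ (τ1 g) m hm, smul_zero, mul_inv_cancel_left] at e3
    rw [e1, e2, smul_zero]
    have e4 : (τ g)⁻¹ * (g * m) = (τ g)⁻¹ * g * m := by group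
    rw [e4]
    linear_combination (norm := abel) e3

/-- Averaging: a cocycle with `z (g, m) = 0` for `m ∈ P` has `[U : P] • z` a coboundary. -/
lemma cobOn₂_relIndex_zsmul_of_vanish {U P N₀ : Subgroup Γ} (hPU : P ≤ U)
    (hfin : P.relIndex U ≠ 0) {z : Γ × Γ → A} (hz : CocOn₂ U z) (hi : InflOn₂ U N₀ z)
    (hv : ∀ g ∈ U, ∀ m ∈ P, z (g, m) = 0) :
    CobOn₂ U N₀ ((P.relIndex U : ℤ) • z) := by
  classical
  have hfi : (P.subgroupOf U).FiniteIndex := ⟨hfin⟩
  have hfinQ : Finite (U ⧸ P.subgroupOf U) := Subgroup.finite_quotient_of_finiteIndex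
  let _ : Fintype (U ⧸ P.subgroupOf U) := Fintype.ofFinite _
  -- right `P`-invariance in the second variable
  have hinv : ∀ g ∈ U, ∀ k ∈ U, ∀ m ∈ P, z (g, k * m) = z (g, k) := by
    intro g hg k hk m hm
    have e := hz g hg k hk m (hPU hm)
    rw [hv _ (U.mul_mem hg hk) m hm, hv k hk m hm, smul_zero] at e
    linear_combination (norm := abel) - e
  have hout : ∀ g ∈ U, ∀ k : U, z (g, (((k : U ⧸ P.subgroupOf U).out : U) : Γ)) = z (g, (k : Γ)) := by
    intro g hg k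
    have h1 : ((k : U ⧸ P.subgroupOf U).out : U ⧸ P.subgroupOf U) = (k : U ⧸ P.subgroupOf U) :=
      QuotientGroup.out_eq' _
    have h2 : k⁻¹ * (k : U ⧸ P.subgroupOf U).out ∈ P.subgroupOf U := QuotientGroup.eq.1 h1.symm
    rw [Subgroup.mem_subgroupOf] at h2
    have h3 : (((k : U ⧸ P.subgroupOf U).out : U) : Γ)
        = (k : Γ) * ((k⁻¹ * (k : U ⧸ P.subgroupOf U).out : U) : Γ) := by
      push_cast; group
    rw [h3]
    exact hinv g hg k k.2 _ h2
  let β : Γ → A := fun g => ∑ q : U ⧸ P.subgroupOf U, z (g, ((q.out : U) : Γ))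
  refine ⟨β, ⟨fun g hg s hs => ?_, fun g hg s hs => ?_⟩, fun g hg h hh => ?_⟩
  · exact Finset.sum_congr rfl fun q _ => hi.right₁ hg (q.out).2 hs
  · show s • ∑ q : U ⧸ P.subgroupOf U, z (g, ((q.out : U) : Γ)) = _
    rw [Finset.smul_sum]
    exact Finset.sum_congr rfl fun q _ => hi.2 g hg _ (q.out).2 s hs
  · -- sum of the cocycle identity over the cosets
    have key : ∀ q : U ⧸ P.subgroupOf U,
        z (g * h, ((q.out : U) : Γ)) + z (g, h) =
          g • z (h, ((q.out : U) : Γ)) + z (g, (((⟨h, hh⟩ : U) • q).out : U)) := by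
      intro q
      have e := hz g hg h hh _ (q.out).2
      rw [e]
      congr 1
      have hq : (⟨h, hh⟩ : U) • q = ((⟨h, hh⟩ * q.out : U) : U ⧸ P.subgroupOf U) := by
        conv_lhs => rw [← QuotientGroup.out_eq' q]
        rfl
      rw [hq, hout g hg]
      rfl
    have hsum : ∑ q : U ⧸ P.subgroupOf U, (z (g * h, ((q.out : U) : Γ)) + z (g, h))
        = ∑ q : U ⧸ P.subgroupOf U,
          (g • z (h, ((q.out : U) : Γ)) + z (g, (((⟨h, hh⟩ : U) • q).out : U))) :=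
      Finset.sum_congr rfl fun q _ => key q
    rw [Finset.sum_add_distrib, Finset.sum_add_distrib, Finset.sum_const, Finset.card_univ,
      ← Nat.card_eq_fintype_card, ← Subgroup.index_eq_card, ← Finset.smul_sum] at hsum
    have hperm : ∑ q : U ⧸ P.subgroupOf U, z (g, (((⟨h, hh⟩ : U) • q).out : U))
        = ∑ q : U ⧸ P.subgroupOf U, z (g, ((q.out : U) : Γ)) :=
      Fintype.sum_equiv (MulAction.toPerm (⟨h, hh⟩ : U)) _ _ fun q => rfl
    rw [hperm] at hsum
    show ((P.relIndex U : ℤ) • z) (g, h) = d1 β (g, h)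
    rw [Pi.smul_apply, natCast_zsmul, d1_apply]
    show P.relIndex U • z (g, h) = g • β h - β (g * h) + β g
    have : (P.subgroupOf U).index = P.relIndex U := rfl
    rw [this] at hsum
    linear_combination (norm := abel) hsum

/-- **Sylow step with levels.** If `z`, inflated from `U/N₀`, is a level-`N₀` coboundary on a
subgroup `N₀ ≤ P ≤ U` of finite index, then `[U : P] • z` is a level-`N₀` coboundary on `U`. -/
theorem cobOn₂_relIndex_zsmul {U P N₀ : Subgroup Γ} (hPU : P ≤ U) (h0P : N₀ ≤ P)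
    (hN₀ : NormalIn N₀ U) (hfin : P.relIndex U ≠ 0) {z : Γ × Γ → A} (hz : CocOn₂ U z)
    (hi : InflOn₂ U N₀ z) (hres : CobOn₂ P N₀ z) :
    CobOn₂ U N₀ ((P.relIndex U : ℤ) • z) := by
  classical
  obtain ⟨f₀, hf₀, he₀⟩ := hres
  -- extend `f₀` by zero
  let b₀ : Γ → A := fun g => if g ∈ P then f₀ g else 0
  have hb₀ : InflOn₁ U N₀ b₀ := by
    refine ⟨fun g hg s hs => ?_, fun g hg s hs => ?_⟩
    · have hiff : g * s ∈ P ↔ g ∈ P := by
        constructor
        · intro h; simpa using P.mul_mem h (P.inv_mem (h0P hs))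
        · intro h; exact P.mul_mem h (h0P hs)
      by_cases hgP : g ∈ P
      · simp only [b₀, if_pos hgP, if_pos (hiff.2 hgP)]
        exact hf₀.1 g hgP s hs
      · simp only [b₀, if_neg hgP, if_neg (fun h => hgP (hiff.1 h))]
    · by_cases hgP : g ∈ P
      · simp only [b₀, if_pos hgP]
        exact hf₀.2 g hgP s hs
      · simp only [b₀, if_neg hgP, smul_zero]
  have hb₀cob : CobOn₂ U N₀ (d1 b₀) := ⟨b₀, hb₀, fun _ _ _ _ => rfl⟩
  have hz₁ : CocOn₂ U (z - d1 b₀) := hz.sub (cocOn₂_d1 U b₀)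
  have hi₁ : InflOn₂ U N₀ (z - d1 b₀) := hi.sub (hb₀.d1 hN₀)
  have hv₁ : ∀ n ∈ P, ∀ n' ∈ P, (z - d1 b₀) (n, n') = 0 := by
    intro n hn n' hn'
    simp only [Pi.sub_apply, d1_apply, b₀, if_pos hn, if_pos hn', if_pos (P.mul_mem hn hn')]
    rw [he₀ n hn n' hn', d1_apply]
    abel
  obtain ⟨b₁, hb₁, hv₂⟩ := exists_d1_vanish_right' hPU h0P hz₁ hi₁ hv₁
  have hb₁cob : CobOn₂ U N₀ (d1 b₁) := ⟨b₁, hb₁, fun _ _ _ _ => rfl⟩
  have hz₂ : CocOn₂ U (z - d1 b₀ + d1 b₁) := hz₁.add (cocOn₂_d1 U b₁)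
  have hi₂ : InflOn₂ U N₀ (z - d1 b₀ + d1 b₁) := hi₁.add (hb₁.d1 hN₀)
  have h2 := cobOn₂_relIndex_zsmul_of_vanish hPU hfin hz₂ hi₂ hv₂
  have heq : (P.relIndex U : ℤ) • z = (P.relIndex U : ℤ) • (z - d1 b₀ + d1 b₁)
      + (P.relIndex U : ℤ) • d1 b₀ - (P.relIndex U : ℤ) • d1 b₁ := by
    rw [← smul_add, ← smul_sub]
    congr 1
    abel
  rw [heq]
  exact (h2.add (hb₀cob.zsmul _)).sub (hb₁cob.zsmul _)

/-! ### Group theory: central steps and Sylow subgroups between levels -/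

lemma normal_subgroupOf_of_normalIn {N M : Subgroup Γ} (h : NormalIn N M) :
    (N.subgroupOf M).Normal := by
  refine ⟨fun n hn g => ?_⟩
  rw [Subgroup.mem_subgroupOf] at hn ⊢
  simpa using h.conj g g.2 n hn

/-- A normal level of `p`-power index `> 1` in `M` sits below a subgroup `N`, normal in `M`, with
`N/N₀'` cyclic of order `p` generated by `σ`. -/
lemma exists_central_step (p : ℕ) [hp : Fact p.Prime] {M N₀' : Subgroup Γ}
    (h : NormalIn N₀' M) (j : ℕ) (hidx : N₀'.relIndex M = p ^ (j + 1)) :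
    ∃ (N : Subgroup Γ) (σ : Γ), N₀' ≤ N ∧ NormalIn N M ∧ σ ∈ N ∧
      (∀ g ∈ N, ∃ i : ℕ, (σ ^ i)⁻¹ * g ∈ N₀') ∧ (∀ i : ℕ, σ ^ i ∈ N₀' ↔ p ∣ i) := by
  classical
  haveI := normal_subgroupOf_of_normalIn h
  have hcard : Nat.card (M ⧸ N₀'.subgroupOf M) = p ^ (j + 1) := by
    rw [← Subgroup.index_eq_card]; exact hidx
  haveI : Finite (M ⧸ N₀'.subgroupOf M) :=
    Nat.finite_of_card_ne_zero (by rw [hcard]; exact pow_ne_zero _ hp.out.ne_zero)
  have hpg : IsPGroup p (M ⧸ N₀'.subgroupOf M) := IsPGroup.of_card hcard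
  haveI : Nontrivial (M ⧸ N₀'.subgroupOf M) := by
    rw [← Finite.one_lt_card_iff_nontrivial, hcard]
    exact Nat.one_lt_pow (Nat.succ_ne_zero j) hp.out.one_lt
  haveI : Nontrivial (Subgroup.center (M ⧸ N₀'.subgroupOf M)) := hpg.center_nontrivial
  -- an element of order `p` in the centre
  have hpgc : IsPGroup p (Subgroup.center (M ⧸ N₀'.subgroupOf M)) := hpg.to_subgroup _
  obtain ⟨s, hs⟩ := hpgc.exists_card_eq
  have hs0 : s ≠ 0 := by
    rintro rfl
    rw [pow_zero] at hs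
    have : 1 < Nat.card (Subgroup.center (M ⧸ N₀'.subgroupOf M)) :=
      Finite.one_lt_card_iff_nontrivial.2 inferInstance
    omega
  have hdvd : p ∣ Nat.card (Subgroup.center (M ⧸ N₀'.subgroupOf M)) := by
    rw [hs]; exact dvd_pow_self p hs0
  obtain ⟨x, hx⟩ := exists_prime_orderOf_dvd_card' p hdvd
  have hxc : (x : M ⧸ N₀'.subgroupOf M) ∈ Subgroup.center (M ⧸ N₀'.subgroupOf M) := x.2
  have hxo : orderOf (x : M ⧸ N₀'.subgroupOf M) = p := by
    rw [← hx]; exact (Subgroup.orderOf_coe x)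
  obtain ⟨σ', hσ'⟩ := QuotientGroup.mk_surjective (x : M ⧸ N₀'.subgroupOf M)
  set y : M ⧸ N₀'.subgroupOf M := (x : M ⧸ N₀'.subgroupOf M) with hy
  have hmk : ∀ g : M, (QuotientGroup.mk g : M ⧸ N₀'.subgroupOf M) = 1 ↔ (g : Γ) ∈ N₀' := by
    intro g
    rw [QuotientGroup.eq_one_iff, Subgroup.mem_subgroupOf]
  let N : Subgroup Γ :=
    ((Subgroup.zpowers y).comap (QuotientGroup.mk' (N₀'.subgroupOf M))).map M.subtype
  have hNmem : ∀ g : Γ, g ∈ N ↔ ∃ hg : g ∈ M,
      (QuotientGroup.mk (⟨g, hg⟩ : M) : M ⧸ N₀'.subgroupOf M) ∈ Subgroup.zpowers y := by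
    intro g
    constructor
    · rintro ⟨g', hg', rfl⟩
      exact ⟨g'.2, hg'⟩
    · rintro ⟨hg, hg'⟩
      exact ⟨⟨g, hg⟩, hg', rfl⟩
  refine ⟨N, (σ' : Γ), ?_, ⟨?_, ?_⟩, ?_, ?_, ?_⟩
  · intro g hg
    rw [hNmem]
    refine ⟨h.le hg, ?_⟩
    have : (QuotientGroup.mk (⟨g, h.le hg⟩ : M) : M ⧸ N₀'.subgroupOf M) = 1 := (hmk _).2 hg
    rw [this]; exact Subgroup.one_mem _
  · intro g hg
    obtain ⟨hgM, -⟩ := (hNmem g).1 hg
    exact hgM
  · intro g hg n hn
    obtain ⟨hnM, hn'⟩ := (hNmem n).1 hn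
    rw [hNmem]
    refine ⟨M.mul_mem (M.mul_mem hg hnM) (M.inv_mem hg), ?_⟩
    obtain ⟨k, hk⟩ := hn'
    have e1 : (QuotientGroup.mk (⟨g * n * g⁻¹, M.mul_mem (M.mul_mem hg hnM) (M.inv_mem hg)⟩ : M)
        : M ⧸ N₀'.subgroupOf M)
        = QuotientGroup.mk (⟨g, hg⟩ : M) * QuotientGroup.mk (⟨n, hnM⟩ : M)
          * (QuotientGroup.mk (⟨g, hg⟩ : M))⁻¹ := rfl
    rw [e1, ← hk]
    have hcomm : ∀ a : M ⧸ N₀'.subgroupOf M, a * y ^ k = y ^ k * a := by
      intro a
      have := (Subgroup.mem_center_iff.1 (Subgroup.zpow_mem _ hxc k)) a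
      exact this
    rw [hcomm, mul_inv_cancel_right]
    exact ⟨k, rfl⟩
  · rw [hNmem]
    exact ⟨σ'.2, by rw [show (⟨(σ' : Γ), σ'.2⟩ : M) = σ' from rfl, hσ']; exact Subgroup.mem_zpowers y⟩
  · intro g hg
    obtain ⟨hgM, k, hk⟩ := (hNmem g).1 hg
    -- `y ^ k = y ^ i` with `i = (k mod p)`
    have hppos : (0 : ℤ) < p := by exact_mod_cast hp.out.pos
    refine ⟨(k % (p : ℤ)).toNat, ?_⟩
    have hi : ((k % (p : ℤ)).toNat : ℤ) = k % p := Int.toNat_of_nonneg (Int.emod_nonneg _ hppos.ne')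
    have hyk : y ^ k = y ^ (k % (p : ℤ)).toNat := by
      rw [← zpow_natCast, hi, ← hxo, zpow_mod_orderOf]
    have hmem : ((σ' ^ (k % (p : ℤ)).toNat)⁻¹ * ⟨g, hgM⟩ : M) ∈ N₀'.subgroupOf M := by
      rw [← QuotientGroup.eq_one_iff]
      show ((QuotientGroup.mk σ' : M ⧸ N₀'.subgroupOf M) ^ (k % (p : ℤ)).toNat)⁻¹
        * QuotientGroup.mk (⟨g, hgM⟩ : M) = 1
      have hk' : y ^ k = QuotientGroup.mk (⟨g, hgM⟩ : M) := hk
      rw [hσ', ← hk', hyk, inv_mul_cancel]
    rw [Subgroup.mem_subgroupOf] at hmem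
    simpa using hmem
  · intro i
    have : (σ' : Γ) ^ i ∈ N₀' ↔ (QuotientGroup.mk (σ' ^ i) : M ⧸ N₀'.subgroupOf M) = 1 := by
      rw [hmk]; simp
    rw [this]
    show (QuotientGroup.mk σ' : M ⧸ N₀'.subgroupOf M) ^ i = 1 ↔ p ∣ i
    rw [hσ', ← hxo, orderOf_dvd_iff_pow_eq_one]

/-- A "Sylow `p`-subgroup" between a normal level `N₀` of finite index and `U`. -/
lemma exists_sylow_between (p : ℕ) [hp : Fact p.Prime] {U N₀ : Subgroup Γ}
    (h : NormalIn N₀ U) (hfin : N₀.relIndex U ≠ 0) :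
    ∃ P : Subgroup Γ, N₀ ≤ P ∧ P ≤ U ∧ (∃ j : ℕ, N₀.relIndex P = p ^ j) ∧
      Nat.Coprime p (P.relIndex U) ∧ P.relIndex U ≠ 0 := by
  classical
  haveI := normal_subgroupOf_of_normalIn h
  haveI : (N₀.subgroupOf U).FiniteIndex := ⟨hfin⟩
  haveI : Finite (U ⧸ N₀.subgroupOf U) := Subgroup.finite_quotient_of_finiteIndex
  obtain ⟨PQ⟩ : Nonempty (Sylow p (U ⧸ N₀.subgroupOf U)) := inferInstance
  let P' : Subgroup U := (PQ : Subgroup (U ⧸ N₀.subgroupOf U)).comap
    (QuotientGroup.mk' (N₀.subgroupOf U))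
  let P : Subgroup Γ := P'.map U.subtype
  have hPU : P ≤ U := Subgroup.map_subtype_le _
  have h0P : N₀ ≤ P := by
    intro g hg
    refine ⟨⟨g, h.le hg⟩, ?_, rfl⟩
    show (QuotientGroup.mk (⟨g, h.le hg⟩ : U) : U ⧸ N₀.subgroupOf U) ∈ PQ
    have : (QuotientGroup.mk (⟨g, h.le hg⟩ : U) : U ⧸ N₀.subgroupOf U) = 1 := by
      rw [QuotientGroup.eq_one_iff, Subgroup.mem_subgroupOf]; exact hg
    rw [this]; exact Subgroup.one_mem _
  have hsub : P.subgroupOf U = P' := by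
    ext g
    rw [Subgroup.mem_subgroupOf]
    constructor
    · rintro ⟨g', hg', hgg'⟩
      have : g' = g := Subtype.ext hgg'
      rwa [← this]
    · intro hg
      exact ⟨g, hg, rfl⟩
  have hidxP : P.relIndex U = (PQ : Subgroup (U ⧸ N₀.subgroupOf U)).index := by
    show (P.subgroupOf U).index = _
    rw [hsub]
    exact Subgroup.index_comap_of_surjective _ (QuotientGroup.mk'_surjective _)
  have hne : (PQ : Subgroup (U ⧸ N₀.subgroupOf U)).index ≠ 0 := Subgroup.index_ne_zero_of_finite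
  have hmul : N₀.relIndex P * P.relIndex U = N₀.relIndex U :=
    Subgroup.relIndex_mul_relIndex N₀ P U h0P hPU
  have hcardQ : N₀.relIndex U = Nat.card (U ⧸ N₀.subgroupOf U) := Subgroup.index_eq_card _
  have hcardmul : Nat.card (PQ : Subgroup (U ⧸ N₀.subgroupOf U))
      * (PQ : Subgroup (U ⧸ N₀.subgroupOf U)).index = Nat.card (U ⧸ N₀.subgroupOf U) :=
    Subgroup.card_mul_index _
  have hrel : N₀.relIndex P = Nat.card (PQ : Subgroup (U ⧸ N₀.subgroupOf U)) := by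
    have : N₀.relIndex P * (PQ : Subgroup (U ⧸ N₀.subgroupOf U)).index
        = Nat.card (PQ : Subgroup (U ⧸ N₀.subgroupOf U))
          * (PQ : Subgroup (U ⧸ N₀.subgroupOf U)).index := by
      rw [hcardmul, ← hcardQ, ← hidxP, hmul]
    exact Nat.eq_of_mul_eq_mul_right (Nat.pos_of_ne_zero hne) this
  refine ⟨P, h0P, hPU, ?_, ?_, ?_⟩
  · obtain ⟨j, hj⟩ := (PQ.isPGroup').exists_card_eq
    exact ⟨j, by rw [hrel, hj]⟩
  · rw [hidxP]
    exact (Nat.Prime.coprime_iff_not_dvd hp.out).2 PQ.not_dvd_index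
  · rw [hidxP]; exact hne

/-! ### The induction -/

/-- The `p`-group part of the induction: levels `N₀'` with `N₀ ≤ N₀' ⊲ M ≤ U` and `[M : N₀']` a
power of `p`. -/
lemma hasse_induction_pgroup (p : ℕ) [hp : Fact p.Prime] (U N₀ : Subgroup Γ)
    (hH : ∀ N N' : Subgroup Γ, N₀ ≤ N' → N' ≤ N → N ≤ U → H90On A N N')
    (LT : Subgroup Γ → (Γ × Γ → A) → Prop)
    (LT_mono : ∀ (M M' : Subgroup Γ) (z : Γ × Γ → A), M' ≤ M → LT M z → LT M' z)
    (LT_sub : ∀ (M : Subgroup Γ) (z z' : Γ × Γ → A), N₀ ≤ M → M ≤ U → LT M z →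
      CobOn₂ M N₀ z' → LT M (z - z'))
    (cyc : ∀ (M N : Subgroup Γ) (σ : Γ) (e : Γ → ℕ), N₀ ≤ N → M ≤ U → CycData M N p σ e →
      ∀ a : A, (∀ g ∈ M, g • a = a) → LT M (carryCoc p e a) →
        ∃ b : A, (∀ n ∈ N, n • b = b) ∧ a = partialNm σ p b) :
    ∀ (n : ℕ) (M N₀' : Subgroup Γ), N₀ ≤ N₀' → NormalIn N₀' M → M ≤ U →
      N₀'.relIndex M = p ^ n → ∀ z : Γ × Γ → A, CocOn₂ M z → InflOn₂ M N₀' z → LT M z →
        CobOn₂ M N₀ z := by
  intro n
  induction n with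
  | zero =>
    intro M N₀' h0 hN hMU hidx z hz hi _
    -- `M = N₀'`
    rw [pow_zero, Subgroup.relIndex_eq_one] at hidx
    have hfix : ∀ g ∈ M, g • z (1, 1) = z (1, 1) := fun g hg =>
      hi.2 1 M.one_mem 1 M.one_mem g (hidx hg)
    have hconst : ∀ g ∈ M, ∀ k ∈ M, z (g, k) = z (1, 1) := by
      intro g hg k hk
      have := hi.1 1 M.one_mem 1 M.one_mem g (hidx hg) k (hidx hk)
      simpa using this
    refine ⟨fun _ => z (1, 1), ⟨fun _ _ _ _ => rfl, fun g hg s hs => ?_⟩, fun g hg k hk => ?_⟩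
    · exact hi.2 1 M.one_mem 1 M.one_mem s (h0 hs)
    · rw [hconst g hg k hk, d1_apply, hfix g hg]
      abel
  | succ n ih =>
    intro M N₀' h0 hN hMU hidx z hz hi hLT
    obtain ⟨N, σ, h0N, hNM, hσN, hgen, hord⟩ := exists_central_step p hN n hidx
    have hNN : NormalIn N₀' N := hN.mono hNM.le h0N
    obtain ⟨e, he⟩ := CycData.exists_of_gen hNN hσN hp.out.one_lt hgen hord
    have hNU : N ≤ U := hNM.le.trans hMU
    -- the restriction to `N` is a coboundary
    have hzN : CocOn₂ N z := hz.mono hNM.le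
    have hiN : InflOn₂ N N₀' z := hi.mono_left hNM.le
    obtain ⟨a, ha, hcob⟩ := he.exists_carryCoc_cohomologous hzN hiN
    have hLTN : LT N z := LT_mono M N z hNM.le hLT
    have hLTc : LT N (carryCoc p e a) := by
      have := LT_sub N z (z - carryCoc p e a) (h0.trans h0N) hNU hLTN (hcob.mono h0)
      rwa [sub_sub_cancel] at this
    obtain ⟨b, hb, hab⟩ := cyc N N₀' σ e h0 hNU he a ha hLTc
    have hcarry : CobOn₂ N N₀' (carryCoc p e a) := by
      rw [hab]; exact he.cobOn₂_carryCoc_Nm hb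
    have hresN : CobOn₂ N N₀' z := by
      have := hcob.add hcarry
      rwa [sub_add_cancel] at this
    -- inflation–restriction
    obtain ⟨h₁, hh₁, hinf, hcoc⟩ := exists_inflOn₂_sub_d1 hNM hN h0N
      (hH N N₀' h0 h0N hNU) hz hi hresN
    have hd : CobOn₂ M N₀ (d1 h₁) := ⟨h₁, hh₁.mono h0, fun _ _ _ _ => rfl⟩
    have hLT' : LT M (z - d1 h₁) := LT_sub M z (d1 h₁) (h0.trans hN.le) hMU hLT hd
    -- index of `N` in `M`
    have hmul : N₀'.relIndex N * N.relIndex M = N₀'.relIndex M :=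
      Subgroup.relIndex_mul_relIndex N₀' N M h0N hNM.le
    have hNp : N₀'.relIndex N = p := by
      -- `N / N₀'` is cyclic of order `p`: count via the exponent function
      have h1 : N₀'.relIndex N ∣ p ^ (n + 1) := by rw [← hidx, ← hmul]; exact dvd_mul_right _ _
      obtain ⟨k, hk, hk'⟩ := (Nat.dvd_prime_pow hp.out).1 h1
      -- `relIndex ≠ 1` since `σ ∉ N₀'`, and `σ ^ p ∈ N₀'` bounds it by `p`
      have hne1 : N₀'.relIndex N ≠ 1 := by
        intro h1'
        rw [Subgroup.relIndex_eq_one] at h1'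
        have := (hord 1).1 (by simpa using h1' hσN)
        exact hp.out.one_lt.ne' (Nat.dvd_one.1 this)
      -- at most `p` cosets: every `g ∈ N` is `σ ^ i * n₀` with `i < p`
      have hle : N₀'.relIndex N ≤ p := by
        classical
        haveI := normal_subgroupOf_of_normalIn hNN
        have hsurj : Function.Surjective
            (fun i : Fin p => (QuotientGroup.mk (⟨σ, hσN⟩ ^ (i : ℕ) : N) : N ⧸ N₀'.subgroupOf N)) := by
          intro q
          induction q using QuotientGroup.induction_on with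
          | H g =>
            have hlt := he.e_lt g g.2
            refine ⟨⟨e g, hlt⟩, ?_⟩
            show (QuotientGroup.mk (⟨σ, hσN⟩ ^ e (g : Γ) : N) : N ⧸ N₀'.subgroupOf N)
              = QuotientGroup.mk g
            rw [QuotientGroup.eq, Subgroup.mem_subgroupOf]
            simpa using he.e_spec g g.2
        have := Nat.card_le_card_of_surjective _ hsurj
        rw [Nat.card_fin] at this
        show (N₀'.subgroupOf N).index ≤ p
        rw [Subgroup.index_eq_card]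
        exact this
      rw [hk'] at hne1 hle ⊢
      have hk1 : k = 1 := by
        have hk0 : k ≠ 0 := by
          rintro rfl
          simp at hne1
        have hle' : p ^ k ≤ p ^ 1 := by simpa using hle
        have := (Nat.pow_le_pow_iff_right hp.out.one_lt).1 hle'
        omega
      rw [hk1, pow_one]
    have hidx' : N.relIndex M = p ^ n := by
      rw [hNp, hidx, pow_succ, mul_comm] at hmul
      exact Nat.eq_of_mul_eq_mul_right hp.out.pos hmul
    have hfinal := ih M N (h0.trans h0N) hNM hMU hidx' (z - d1 h₁) hcoc hinf hLT'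
    have := hfinal.add hd
    rwa [sub_add_cancel] at this

/-- **Abstract Hasse principle.** `N₀ ⊲ U` a level of finite index, Hilbert 90 at all intermediate
levels, `LT` an abstract "local triviality" predicate stable under restriction and level-`N₀`
coboundaries. If every locally trivial carry class of a cyclic step of degree `p` is the carry
class of a norm, then every locally trivial level-`N₀` class of `p`-power order on `U` is
trivial. -/
theorem hasse_induction (p : ℕ) [hp : Fact p.Prime] (U N₀ : Subgroup Γ) (hN₀ : NormalIn N₀ U)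
    (hfin : N₀.relIndex U ≠ 0)
    (hH : ∀ N N' : Subgroup Γ, N₀ ≤ N' → N' ≤ N → N ≤ U → H90On A N N')
    (LT : Subgroup Γ → (Γ × Γ → A) → Prop)
    (LT_mono : ∀ (M M' : Subgroup Γ) (z : Γ × Γ → A), M' ≤ M → LT M z → LT M' z)
    (LT_sub : ∀ (M : Subgroup Γ) (z z' : Γ × Γ → A), N₀ ≤ M → M ≤ U → LT M z →
      CobOn₂ M N₀ z' → LT M (z - z'))
    (cyc : ∀ (M N : Subgroup Γ) (σ : Γ) (e : Γ → ℕ), N₀ ≤ N → M ≤ U → CycData M N p σ e →
      ∀ a : A, (∀ g ∈ M, g • a = a) → LT M (carryCoc p e a) →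
        ∃ b : A, (∀ n ∈ N, n • b = b) ∧ a = partialNm σ p b)
    (z : Γ × Γ → A) (hz : CocOn₂ U z) (hi : InflOn₂ U N₀ z) (hLT : LT U z) (k : ℕ)
    (hk : CobOn₂ U N₀ (((p ^ k : ℕ) : ℤ) • z)) :
    CobOn₂ U N₀ z := by
  obtain ⟨P, h0P, hPU, ⟨j, hj⟩, hcop, hne⟩ := exists_sylow_between p hN₀ hfin
  have hNP : NormalIn N₀ P := hN₀.mono hPU h0P
  have hP : CobOn₂ P N₀ z :=
    hasse_induction_pgroup p U N₀ hH LT LT_mono LT_sub cyc j P N₀ le_rfl hNP hPU hj z
      (hz.mono hPU) (hi.mono_left hPU) (LT_mono U P z hPU hLT)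
  have h1 := cobOn₂_relIndex_zsmul hPU h0P hN₀ hne hz hi hP
  -- Bézout
  have hcop' : Nat.Coprime (p ^ k) (P.relIndex U) := Nat.Coprime.pow_left k hcop
  have hb : ((p ^ k : ℕ) : ℤ) * Nat.gcdA (p ^ k) (P.relIndex U)
      + (P.relIndex U : ℤ) * Nat.gcdB (p ^ k) (P.relIndex U) = 1 := by
    have := Nat.gcd_eq_gcd_ab (p ^ k) (P.relIndex U)
    rw [hcop'.gcd_eq_one] at this
    exact_mod_cast this.symm
  have h2 : z = Nat.gcdA (p ^ k) (P.relIndex U) • (((p ^ k : ℕ) : ℤ) • z)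
      + Nat.gcdB (p ^ k) (P.relIndex U) • ((P.relIndex U : ℤ) • z) := by
    rw [smul_smul, smul_smul, ← add_smul, mul_comm _ ((p ^ k : ℕ) : ℤ),
      mul_comm _ (P.relIndex U : ℤ), hb, one_smul]
  rw [h2]
  exact (hk.zsmul _).add (h1.zsmul _)

end Fermat.Agent.PT.G
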