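/-
PT / G : the Hasse principle for `p`-primary level classes on `G_K ≤ G_ℚ`, from the cyclic Hasse
norm theorem (in `ℚ̄`-vocabulary, `HNTStatement`).

Coefficients: `Additive ℚ̄ˣ` with the Galois action; cochains in the relative vocabulary of `PT/Br`.
-/
import Fermat.Agent.PT.G.HasseInd
import Fermat.Agent.PT.G.DecompBasic
import Fermat.Agent.PT.Br.MulBridge
import Fermat.Agent.PT.G.KumH90
import Fermat.Agent.PT.G.KumUnram
import Fermat.Agent.PT.DevissageGQ
import Fermat.Agent.PT.G.HensNorm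

set_option autoImplicit false
set_option linter.style.haveILetI false
set_option linter.unusedSimpArgs false

namespace Fermat.Agent.PT.G

local notation "Qb" => AlgebraicClosure ℚ
local notation "GQ" => (AlgebraicClosure ℚ ≃ₐ[ℚ] AlgebraicClosure ℚ)

open Fermat.Agent.PT.Br Fermat.Agent.PT.Br.MulBridge Finset
open Fermat.Agent.Lib.GalQbar

attribute [local instance] additiveAction isAlgClosure_rat isGalois_rat
  Fermat.Agent.Lib.GalQbar.isAlgebraic_rat

/-! ### Coefficients -/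

/-- The element of `ℚ̄` underlying an additive coefficient. -/
def toQb (a : Additive Qbˣ) : Qb := ((Additive.toMul a : Qbˣ) : Qb)

/-- The additive coefficient of a nonzero element of `ℚ̄`. -/
noncomputable def ofQb (x : Qb) (hx : x ≠ 0) : Additive Qbˣ := Additive.ofMul (Units.mk0 x hx)

lemma toQb_ofQb (x : Qb) (hx : x ≠ 0) : toQb (ofQb x hx) = x := rfl

lemma toQb_ne_zero (a : Additive Qbˣ) : toQb a ≠ 0 := (Additive.toMul a).ne_zero

lemma toQb_add (a b : Additive Qbˣ) : toQb (a + b) = toQb a * toQb b := rfl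

lemma toQb_zero : toQb 0 = 1 := rfl

lemma toQb_neg (a : Additive Qbˣ) : toQb (-a) = (toQb a)⁻¹ := by
  simp [toQb]

lemma toQb_sub (a b : Additive Qbˣ) : toQb (a - b) = toQb a / toQb b := by
  rw [sub_eq_add_neg, toQb_add, toQb_neg, div_eq_mul_inv]

lemma toQb_nsmul (n : ℕ) (a : Additive Qbˣ) : toQb (n • a) = toQb a ^ n := by
  simp [toQb, toMul_nsmul]

lemma toQb_smul (g : GQ) (a : Additive Qbˣ) : toQb (g • a) = g (toQb a) := rfl

lemma toQb_sum {ι : Type*} (s : Finset ι) (f : ι → Additive Qbˣ) :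
    toQb (∑ i ∈ s, f i) = ∏ i ∈ s, toQb (f i) := by
  classical
  induction s using Finset.induction_on with
  | empty => simp [toQb_zero]
  | insert a s ha ih => rw [Finset.sum_insert ha, Finset.prod_insert ha, toQb_add, ih]

lemma toQb_injective : Function.Injective toQb := fun a b h => by
  apply Additive.toMul.injective
  exact Units.ext h

lemma smul_eq_iff_apply (g : GQ) (a : Additive Qbˣ) : g • a = a ↔ g (toQb a) = toQb a := by
  rw [← toQb_smul]
  exact toQb_injective.eq_iff.symm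

lemma toQb_partialNm (σ : GQ) (k : ℕ) (b : Additive Qbˣ) :
    toQb (partialNm σ k b) = ∏ i ∈ range k, (σ ^ i) (toQb b) := by
  rw [partialNm, toQb_sum]
  rfl

/-! ### Hilbert 90 -/

/-- Hilbert 90 for a closed subgroup `N` of `G_ℚ` at any level containing `N ⊓ G_F`, `F/ℚ`
finite. -/
lemma h90On_Qb (N N' : Subgroup GQ)
    (hN : (IntermediateField.fixedField N).fixingSubgroup = N)
    (F : IntermediateField ℚ Qb) [FiniteDimensional ℚ F] (hF : N ⊓ F.fixingSubgroup ≤ N') :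
    H90On (Additive Qbˣ) N N' := by
  intro u hu hr
  have hc : ∀ g ∈ (IntermediateField.fixedField N).fixingSubgroup,
      ∀ h ∈ (IntermediateField.fixedField N).fixingSubgroup,
      Additive.toMul (u (g * h)) = Additive.toMul (u g) * g • Additive.toMul (u h) := by
    intro g hg h hh
    rw [hN] at hg hh
    rw [hu g hg h hh, mul_comm]
    rfl
  have hlev : ∀ g ∈ (IntermediateField.fixedField N).fixingSubgroup,
      ∀ s ∈ (IntermediateField.fixedField N).fixingSubgroup, s ∈ F.fixingSubgroup →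
      Additive.toMul (u (g * s)) = Additive.toMul (u g) := by
    intro g hg s hs hsF
    rw [hN] at hg hs
    rw [hr g hg s (hF ⟨hs, hsF⟩)]
  obtain ⟨b, hb⟩ := Fermat.Agent.PT.Kummer.hilbert90_units (IntermediateField.fixedField N)
    (fun g => Additive.toMul (u g)) hc F hlev
  refine ⟨Additive.ofMul b, fun n hn => ?_⟩
  rw [← hN] at hn
  have := hb n hn
  apply Additive.toMul.injective
  exact this

/-- Subgroups containing the fixing subgroup of a finite extension are closed, hence fixing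
subgroups. -/
lemma fixingSubgroup_fixedField_of_le (L : IntermediateField ℚ Qb) [FiniteDimensional ℚ L]
    (N : Subgroup GQ) (hN : L.fixingSubgroup ≤ N) :
    (IntermediateField.fixedField N).fixingSubgroup = N := by
  have hopen : IsOpen (N : Set GQ) := Subgroup.isOpen_mono hN L.fixingSubgroup_isOpen
  have hcl : IsClosed (N : Set GQ) := Subgroup.isClosed_of_isOpen _ hopen
  exact InfiniteGalois.fixingSubgroup_fixedField (⟨N, hcl⟩ : ClosedSubgroup GQ)

/-! ### Combinatorics of the carry -/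

lemma sum_carry_range (p : ℕ) (hp : 0 < p) (f' : ℕ) :
    ∑ i ∈ range (p * f'), (i % p + 1) / p = f' := by
  induction f' with
  | zero => simp
  | succ f' ih =>
    rw [Nat.mul_succ, Finset.sum_range_add, ih]
    congr 1
    obtain ⟨p', rfl⟩ : ∃ p', p = p' + 1 := ⟨p - 1, by omega⟩
    rw [Finset.sum_range_succ]
    have h1 : ∑ x ∈ range p', (((p' + 1) * f' + x) % (p' + 1) + 1) / (p' + 1) = 0 := by
      refine Finset.sum_eq_zero fun x hx => ?_
      rw [Finset.mem_range] at hx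
      rw [Nat.mul_add_mod, Nat.mod_eq_of_lt (by omega)]
      exact Nat.div_eq_of_lt (by omega)
    rw [h1, zero_add, Nat.mul_add_mod, Nat.mod_eq_of_lt (by omega)]
    exact Nat.div_self (by omega)

/-! ### Exponent functions of cyclic data -/

section CycLemmas

variable {Γ : Type*} [Group Γ] {M N : Subgroup Γ} {m : ℕ} {σ : Γ} {e : Γ → ℕ}

lemma CycData_mem_of_e_eq_zero (h : CycData M N m σ e) {g : Γ} (hg : g ∈ M) (h0 : e g = 0) :
    g ∈ N := by
  have := h.e_spec g hg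
  rwa [h0, pow_zero, inv_one, one_mul] at this

lemma CycData_inv_mul_mem (h : CycData M N m σ e) {x y : Γ} (hx : x ∈ M) (hy : y ∈ M)
    (hxy : e x = e y) : x⁻¹ * y ∈ N := by
  have ht : x⁻¹ * y ∈ M := M.mul_mem (M.inv_mem hx) hy
  refine CycData_mem_of_e_eq_zero h ht ?_
  have h1 := h.e_mul x hx (x⁻¹ * y) ht
  rw [mul_inv_cancel_left] at h1
  have h2 := h.e_lt x hx
  have h3 := h.e_lt _ ht
  rw [← hxy] at h1
  by_contra hne
  by_cases hlt : e x + e (x⁻¹ * y) < m
  · rw [Nat.mod_eq_of_lt hlt] at h1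
    omega
  · have h4 : (e x + e (x⁻¹ * y)) % m = e x + e (x⁻¹ * y) - m := by
      rw [Nat.mod_eq_sub_mod (by omega), Nat.mod_eq_of_lt (by omega)]
    omega

lemma CycData_e_pow_of_mem (h : CycData M N m σ e) {g : Γ} (hg : g ∈ M) (k : ℕ) :
    e (g ^ k) = (k * e g) % m := by
  induction k with
  | zero => simp [h.e_one]
  | succ k ih =>
    rw [pow_succ, h.e_mul _ (M.pow_mem hg k) _ hg, ih, Nat.succ_mul]
    exact Nat.mod_add_mod _ _ _

end CycLemmas

/-! ### Local triviality -/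

/-- Local triviality of a level class on `M ≤ G_ℚ` (level `N₀`): at the places over `S` the class
is a level coboundary on the decomposition group; at the places outside `S` the "Frobenius sums"
have valuation divisible by their length. -/
def LTloc (S : Finset Nat.Primes) (N₀ M : Subgroup GQ) (z : GQ × GQ → Additive Qbˣ) : Prop :=
  (∀ q : Nat.Primes, q ∈ S → ∀ A : ValuationSubring Qb, A.LiesOverPrime (q : ℕ) →
    ∃ F : IntermediateField ℚ Qb, FiniteDimensional ℚ F ∧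
      CobOn₂ (A.decompositionSubgroup ℚ ⊓ M) (A.decompositionSubgroup ℚ ⊓ F.fixingSubgroup) z) ∧
  (∀ q : Nat.Primes, q ∉ S → ∀ A : ValuationSubring Qb, A.LiesOverPrime (q : ℕ) →
    ∀ φ ∈ A.decompositionSubgroup ℚ ⊓ M, ∀ f : ℕ, φ ^ f ∈ N₀ →
      ∃ x : Additive Qbˣ, (∀ n ∈ N₀, n • x = x) ∧
        A.valuation (toQb (∑ i ∈ range f, z (φ ^ i, φ))) = A.valuation (toQb (f • x)))

lemma LTloc.mono {S : Finset Nat.Primes} {N₀ M M' : Subgroup GQ} {z : GQ × GQ → Additive Qbˣ}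
    (h : M' ≤ M) (hLT : LTloc S N₀ M z) : LTloc S N₀ M' z := by
  refine ⟨fun q hq A hA => ?_, fun q hq A hA φ hφ f hf => hLT.2 q hq A hA φ ⟨hφ.1, h hφ.2⟩ f hf⟩
  obtain ⟨F, hF, hc⟩ := hLT.1 q hq A hA
  exact ⟨F, hF, hc.mono_left (inf_le_inf_left _ h)⟩

lemma sum_d1_pow (h : GQ → Additive Qbˣ) (φ : GQ) (f : ℕ) :
    ∑ i ∈ range f, d1 h (φ ^ i, φ) = partialNm φ f (h φ) - h (φ ^ f) + h 1 := by
  induction f with
  | zero => simp [partialNm]
  | succ f ih =>
    rw [Finset.sum_range_succ, ih, d1_apply, partialNm, partialNm, Finset.sum_range_succ,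
      ← pow_succ]
    abel

lemma LTloc.sub {S : Finset Nat.Primes} {L : IntermediateField ℚ Qb} [FiniteDimensional ℚ L]
    {M : Subgroup GQ} {z z' : GQ × GQ → Additive Qbˣ}
    (hLT : LTloc S L.fixingSubgroup M z) (hc : CobOn₂ M L.fixingSubgroup z') :
    LTloc S L.fixingSubgroup M (z - z') := by
  obtain ⟨h, hh, he⟩ := hc
  refine ⟨fun q hq A hA => ?_, fun q hq A hA φ hφ f hf => ?_⟩
  · obtain ⟨F, hFfin, hcF⟩ := hLT.1 q hq A hA
    haveI := hFfin
    refine ⟨F ⊔ L, inferInstance, ?_⟩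
    have h1 : (F ⊔ L).fixingSubgroup ≤ F.fixingSubgroup :=
      IntermediateField.fixingSubgroup_antitone le_sup_left
    have h2 : (F ⊔ L).fixingSubgroup ≤ L.fixingSubgroup :=
      IntermediateField.fixingSubgroup_antitone le_sup_right
    have hc' : CobOn₂ (A.decompositionSubgroup ℚ ⊓ M)
        (A.decompositionSubgroup ℚ ⊓ (F ⊔ L).fixingSubgroup) z' :=
      ⟨h, ⟨fun g hg n hn => hh.1 g hg.2 n (h2 hn.2), fun g hg n hn => hh.2 g hg.2 n (h2 hn.2)⟩,
        fun g hg k hk => he g hg.2 k hk.2⟩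
    exact (hcF.mono (inf_le_inf_left _ h1)).sub hc'
  · obtain ⟨x, hx, hval⟩ := hLT.2 q hq A hA φ hφ f hf
    refine ⟨x - h φ, fun n hn => ?_, ?_⟩
    · rw [smul_sub, hx n hn, hh.2 φ hφ.2 n hn]
    · have hsum : ∑ i ∈ range f, (z - z') (φ ^ i, φ)
          = ∑ i ∈ range f, z (φ ^ i, φ) - partialNm φ f (h φ) := by
        have h1 : ∑ i ∈ range f, z' (φ ^ i, φ) = partialNm φ f (h φ) := by
          have h2 : ∑ i ∈ range f, z' (φ ^ i, φ) = ∑ i ∈ range f, d1 h (φ ^ i, φ) :=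
            Finset.sum_congr rfl fun i _ => he _ (M.pow_mem hφ.2 i) _ hφ.2
          rw [h2, sum_d1_pow]
          have h3 : h (φ ^ f) = h 1 := by
            have := hh.1 1 M.one_mem (φ ^ f) hf
            rwa [one_mul] at this
          rw [h3]
          abel
        simp only [Pi.sub_apply, Finset.sum_sub_distrib, h1]
      rw [hsum, toQb_sub, map_div₀, hval, toQb_partialNm, map_prod, toQb_nsmul, toQb_nsmul,
        toQb_sub, map_pow, map_pow, map_div₀, div_pow]
      congr 1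
      rw [Finset.prod_congr rfl fun i _ =>
        valuation_apply_eq_of_mem_decomp (Subgroup.pow_mem _ hφ.1 i) (toQb (h φ))]
      simp

/-! ### The arithmetic input, as a statement -/

/-- The cyclic Hasse norm theorem of prime degree `p`, unramified outside `S`, in congruence
form and `ℚ̄`-vocabulary. -/
def HNTStatement (p : ℕ) (S : Finset Nat.Primes) : Prop :=
  ∀ (E F : IntermediateField ℚ Qb), E ≤ F → F.IsUnramifiedOutside S →
    ∀ σ : GQ, σ ∈ E.fixingSubgroup →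
    (∀ g ∈ E.fixingSubgroup, ∀ n ∈ F.fixingSubgroup, g * n * g⁻¹ ∈ F.fixingSubgroup) →
    (∀ g ∈ E.fixingSubgroup, ∃ i : ℕ, (σ ^ i)⁻¹ * g ∈ F.fixingSubgroup) →
    (∀ i : ℕ, σ ^ i ∈ F.fixingSubgroup ↔ p ∣ i) →
    ∀ a : Qb, a ∈ E → a ≠ 0 →
    (∀ q : Nat.Primes, q ∉ S → ∀ A : ValuationSubring Qb, A.LiesOverPrime (q : ℕ) →
      (∃ g ∈ A.decompositionSubgroup ℚ ⊓ E.fixingSubgroup, g ∉ F.fixingSubgroup) →
      ∃ m : ℤ, A.valuation a = A.valuation (((q : ℕ) : Qb) ^ ((p : ℤ) * m))) →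
    (∀ q : Nat.Primes, q ∈ S → ∀ A : ValuationSubring Qb, A.LiesOverPrime (q : ℕ) →
      (∃ g ∈ A.decompositionSubgroup ℚ ⊓ E.fixingSubgroup, g ∉ F.fixingSubgroup) →
      ∀ n : ℕ, ∃ y : Qb, y ∈ F ∧ y ≠ 0 ∧
        A.valuation (a / ∏ i ∈ Finset.range p, (σ ^ i) y - 1)
          ≤ A.valuation (((q : ℕ) : Qb) ^ n)) →
    ∃ b : Qb, b ∈ F ∧ b ≠ 0 ∧ a = ∏ i ∈ Finset.range p, (σ ^ i) b

lemma eq_of_pow_eq_pow₀ {Γ₀ : Type*} [LinearOrderedCommGroupWithZero Γ₀] {a b : Γ₀} {n : ℕ}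
    (hn : n ≠ 0) (hb : b ≠ 0) (h : a ^ n = b ^ n) : a = b := by
  have h1 : (a / b) ^ n = 1 := by rw [div_pow, h, div_self (pow_ne_zero n hb)]
  have h2 : a / b = 1 := by
    rcases lt_trichotomy (a / b) 1 with h3 | h3 | h3
    · exact absurd h1 (ne_of_lt (pow_lt_one₀ zero_le h3 hn))
    · exact h3
    · exact absurd h1 (ne_of_gt (one_lt_pow₀ h3 hn))
  exact (div_eq_one_iff_eq hb).1 h2


/-! ### The cyclic step -/

section CycStep

variable {M N : Subgroup GQ} {p : ℕ} {σ : GQ} {e : GQ → ℕ}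

/-- A "Frobenius-like" element at a non-split place: an element of `D ⊓ M` of exponent `1`. -/
lemma exists_mem_e_eq_one [Fact p.Prime] (he : CycData M N p σ e) (D : Subgroup GQ)
    (h : ∃ g ∈ D ⊓ M, g ∉ N) : ∃ φ ∈ D ⊓ M, e φ = 1 := by
  obtain ⟨g, hg, hgN⟩ := h
  have hp : p.Prime := Fact.out
  have heg0 : e g ≠ 0 := fun h0 => hgN (CycData_mem_of_e_eq_zero he hg.2 h0)
  have hegp : ((e g : ℕ) : ZMod p) ≠ 0 := by
    rw [Ne, ZMod.natCast_eq_zero_iff]
    intro hdvd
    exact absurd (Nat.le_of_dvd (Nat.pos_of_ne_zero heg0) hdvd) (not_le.2 (he.e_lt g hg.2))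
  refine ⟨g ^ ((e g : ZMod p)⁻¹).val, (D ⊓ M).pow_mem hg _, ?_⟩
  rw [CycData_e_pow_of_mem he hg.2]
  have h1 : (((((e g : ZMod p)⁻¹).val * e g : ℕ)) : ZMod p) = ((1 : ℕ) : ZMod p) := by
    rw [Nat.cast_mul, ZMod.natCast_val, ZMod.cast_id', id, Nat.cast_one, inv_mul_cancel₀ hegp]
  have h2 := (ZMod.natCast_eq_natCast_iff' _ _ _).1 h1
  rw [h2, Nat.mod_eq_of_lt hp.one_lt]

lemma e_pow_of_e_eq_one (he : CycData M N p σ e) {φ : GQ} (hφ : φ ∈ M) (h1 : e φ = 1) (i : ℕ) :
    e (φ ^ i) = i % p := by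
  rw [CycData_e_pow_of_mem he hφ, h1, mul_one]

/-- Two elements of exponent `1` have the same powers modulo `N`. -/
lemma pow_inv_mul_pow_mem (he : CycData M N p σ e) {φ : GQ} (hφ : φ ∈ M) (h1 : e φ = 1) (i : ℕ) :
    (σ ^ i)⁻¹ * φ ^ i ∈ N :=
  CycData_inv_mul_mem he (he.pow_mem i) (M.pow_mem hφ i)
    (by rw [he.e_pow, e_pow_of_e_eq_one he hφ h1])

/-- The local cyclic data at a non-split place. -/
lemma cycData_inf (he : CycData M N p σ e) (D : Subgroup GQ) {φ : GQ} (hφ : φ ∈ D ⊓ M)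
    (h1 : e φ = 1) : CycData (D ⊓ M) (D ⊓ N) p φ e where
  normal := ⟨inf_le_inf_left _ he.normal.le, fun g hg n hn =>
    ⟨D.mul_mem (D.mul_mem hg.1 hn.1) (D.inv_mem hg.1), he.normal.conj g hg.2 n hn.2⟩⟩
  one_lt := he.one_lt
  σ_mem := hφ
  e_lt := fun g hg => he.e_lt g hg.2
  e_spec := fun g hg => by
    refine ⟨D.mul_mem (D.inv_mem (D.pow_mem hφ.1 _)) hg.1, ?_⟩
    refine CycData_inv_mul_mem he (M.pow_mem hφ.2 _) hg.2 ?_
    rw [e_pow_of_e_eq_one he hφ.2 h1, Nat.mod_eq_of_lt (he.e_lt g hg.2)]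
  e_mul := fun g hg h hh => he.e_mul g hg.2 h hh.2
  e_σ := h1
  e_N := fun n hn => he.e_N n hn.2

/-- The Frobenius sum of a carry cocycle along an element of exponent `1`. -/
lemma sum_carryCoc_pow (he : CycData M N p σ e) {φ : GQ} (hφ : φ ∈ M) (h1 : e φ = 1)
    (a : Additive Qbˣ) (f' : ℕ) :
    ∑ i ∈ range (p * f'), carryCoc p e a (φ ^ i, φ) = f' • a := by
  have hp : 0 < p := lt_trans Nat.zero_lt_one he.one_lt
  have h2 : ∀ i ∈ range (p * f'), carryCoc p e a (φ ^ i, φ) = ((i % p + 1) / p) • a := by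
    intro i _
    rw [carryCoc_apply, carry, e_pow_of_e_eq_one he hφ h1, h1]
  rw [Finset.sum_congr rfl h2, ← Finset.sum_smul, sum_carry_range p hp]

end CycStep

/-- **The cyclic step of the Hasse principle**: for `M/N` cyclic of order `p` between levels, an
`M`-fixed `a` whose carry cocycle is locally trivial is a norm from the fixed field of `N`. -/
theorem cyc_Qb (p : ℕ) [Fact p.Prime] (S : Finset Nat.Primes) (hHNT : HNTStatement p S)
    (L : IntermediateField ℚ Qb) (hL : L.IsUnramifiedOutside S)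
    (M N : Subgroup GQ) (σ : GQ) (e : GQ → ℕ) (h0N : L.fixingSubgroup ≤ N)
    (he : CycData M N p σ e) (a : Additive Qbˣ) (ha : ∀ g ∈ M, g • a = a)
    (hLT : LTloc S L.fixingSubgroup M (carryCoc p e a)) :
    ∃ b : Additive Qbˣ, (∀ n ∈ N, n • b = b) ∧ a = partialNm σ p b := by
  haveI := hL.1
  have hp : p.Prime := Fact.out
  have hNM : N ≤ M := he.normal.le
  obtain ⟨E, hEL, hE, rfl⟩ := Fermat.Agent.PT.DevissageGQ.exists_level_of_le S hL M (h0N.trans hNM)
  obtain ⟨F, hFL, hF, rfl⟩ := Fermat.Agent.PT.DevissageGQ.exists_level_of_le S hL N h0N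
  haveI := hF.1
  have hEF : E ≤ F := by
    intro x hx
    rw [Fermat.Agent.PT.Kummer.mem_iff_forall_apply_eq] at hx ⊢
    exact fun g hg => hx g (hNM hg)
  have haE : toQb a ∈ E := by
    rw [Fermat.Agent.PT.Kummer.mem_iff_forall_apply_eq]
    exact fun g hg => (smul_eq_iff_apply g a).1 (ha g hg)
  have hord : ∀ i : ℕ, σ ^ i ∈ F.fixingSubgroup ↔ p ∣ i := by
    intro i
    constructor
    · intro hi
      have h1 := he.e_N _ hi
      rw [he.e_pow] at h1
      exact Nat.dvd_of_mod_eq_zero h1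
    · rintro ⟨c, rfl⟩
      rw [pow_mul]
      exact Subgroup.pow_mem _ he.pow_m_mem c
  -- the local conditions
  have h1 : ∀ q : Nat.Primes, q ∉ S → ∀ A : ValuationSubring Qb, A.LiesOverPrime (q : ℕ) →
      (∃ g ∈ A.decompositionSubgroup ℚ ⊓ E.fixingSubgroup, g ∉ F.fixingSubgroup) →
      ∃ m : ℤ, A.valuation (toQb a) = A.valuation (((q : ℕ) : Qb) ^ ((p : ℤ) * m)) := by
    intro q hq A hA hns
    obtain ⟨φ, hφ, hφ1⟩ := exists_mem_e_eq_one he _ hns
    haveI := Fermat.Agent.PT.DevissageGQ.finiteIndex_fixingSubgroup L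
    set f' := (L.fixingSubgroup.index).factorial with hf'
    have hf'0 : f' ≠ 0 := Nat.factorial_ne_zero _
    have hmem : φ ^ (p * f') ∈ L.fixingSubgroup := by
      refine Subgroup.pow_mem_of_index_ne_zero_of_dvd Subgroup.FiniteIndex.index_ne_zero φ ?_
      intro m hm hmi
      exact Dvd.dvd.mul_left (Nat.dvd_factorial hm hmi) p
    obtain ⟨x, hx, hval⟩ := hLT.2 q hq A hA φ hφ (p * f') hmem
    rw [sum_carryCoc_pow he hφ.2 hφ1, toQb_nsmul, toQb_nsmul, map_pow, map_pow, pow_mul] at hval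
    have hxL : toQb x ∈ L := by
      rw [Fermat.Agent.PT.Kummer.mem_iff_forall_apply_eq]
      exact fun g hg => (smul_eq_iff_apply g x).1 (hx g hg)
    have hne : A.valuation (toQb x) ^ p ≠ 0 :=
      pow_ne_zero _ ((Valuation.ne_zero_iff _).2 (toQb_ne_zero x))
    have hval' := eq_of_pow_eq_pow₀ hf'0 hne hval
    obtain ⟨n, hn⟩ := Fermat.Agent.PT.Kummer.exists_zpow_valuation_eq_of_level hL hxL
      (toQb_ne_zero x) q hq A hA
    refine ⟨n, ?_⟩
    rw [hval', hn, ← map_pow, mul_comm, zpow_mul, zpow_natCast]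
  have h2 : ∀ q : Nat.Primes, q ∈ S → ∀ A : ValuationSubring Qb, A.LiesOverPrime (q : ℕ) →
      (∃ g ∈ A.decompositionSubgroup ℚ ⊓ E.fixingSubgroup, g ∉ F.fixingSubgroup) →
      ∀ n : ℕ, ∃ y : Qb, y ∈ F ∧ y ≠ 0 ∧
        A.valuation (toQb a / ∏ i ∈ Finset.range p, (σ ^ i) y - 1)
          ≤ A.valuation (((q : ℕ) : Qb) ^ n) := by
    intro q hq A hA hns n
    obtain ⟨φ, hφ, hφ1⟩ := exists_mem_e_eq_one he _ hns
    obtain ⟨F₁, hF₁fin, hcF⟩ := hLT.1 q hq A hA
    haveI := hF₁fin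
    have hloc := cycData_inf he (A.decompositionSubgroup ℚ) hφ hφ1
    have hle1 : (F₁ ⊔ L).fixingSubgroup ≤ F₁.fixingSubgroup :=
      IntermediateField.fixingSubgroup_antitone le_sup_left
    have hle2 : (F₁ ⊔ L).fixingSubgroup ≤ F.fixingSubgroup :=
      (IntermediateField.fixingSubgroup_antitone le_sup_right).trans h0N
    have hH : H90On (Additive Qbˣ) (A.decompositionSubgroup ℚ ⊓ F.fixingSubgroup)
        (A.decompositionSubgroup ℚ ⊓ (F₁ ⊔ L).fixingSubgroup) :=
      h90On_Qb _ _ (fixingSubgroup_fixedField_decomp_inf A F) (F₁ ⊔ L)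
        (fun g hg => ⟨hg.1.1, hg.2⟩)
    obtain ⟨b₀, hb₀, hab₀⟩ := (hloc.cobOn₂_carryCoc_iff (inf_le_inf_left _ hle2) hH
      (fun g hg => ha g hg.2)).1 (hcF.mono (inf_le_inf_left _ hle1))
    obtain ⟨y, hyF, hy0, hy⟩ := exists_prod_div_sub_one_le A q.2 hA F hφ.1 p (toQb b₀)
      (toQb_ne_zero b₀) (fun g hgD hgF => (smul_eq_iff_apply g b₀).1 (hb₀ g ⟨hgD, hgF⟩)) n
    refine ⟨y, hyF, hy0, ?_⟩
    have e1 : ∏ i ∈ Finset.range p, (σ ^ i) y = ∏ i ∈ Finset.range p, (φ ^ i) y := by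
      refine Finset.prod_congr rfl fun i _ => ?_
      have h3 := (Fermat.Agent.PT.Kummer.mem_iff_forall_apply_eq F y).1 hyF _
        (pow_inv_mul_pow_mem he hφ.2 hφ1 i)
      rw [AlgEquiv.mul_apply] at h3
      have h4 := congrArg (σ ^ i) h3
      rw [← AlgEquiv.mul_apply, mul_inv_cancel, AlgEquiv.one_apply] at h4
      exact h4.symm
    rw [e1, hab₀, toQb_partialNm]
    exact hy
  obtain ⟨b, hbF, hb0, hab⟩ := hHNT E F hEF hF σ he.σ_mem
    (fun g hg n hn => he.normal.conj g hg n hn) (fun g hg => ⟨e g, he.e_spec g hg⟩) hord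
    (toQb a) haE (toQb_ne_zero a) h1 h2
  refine ⟨ofQb b hb0, fun n hn => ?_, ?_⟩
  · rw [smul_eq_iff_apply, toQb_ofQb]
    exact (Fermat.Agent.PT.Kummer.mem_iff_forall_apply_eq F b).1 hbF n hn
  · apply toQb_injective
    rw [toQb_partialNm, toQb_ofQb]
    exact hab


/-! ### The Hasse principle -/

/-- **Hasse principle** for level classes on `G_K` which are killed by a power of `p`: a
2-cocycle of `Gal(L/K)` with values in `Lˣ` (`L/ℚ` Galois, unramified outside `S`) which is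
locally trivial (`LTloc`) is the coboundary of a 1-cochain of `Gal(L/K)` with values in `Lˣ`. -/
theorem hasse_principle_Qb (p : ℕ) [Fact p.Prime] (S : Finset Nat.Primes)
    (hHNT : HNTStatement p S) (K L : IntermediateField ℚ Qb) (hKL : K ≤ L)
    (hL : L.IsUnramifiedOutside S) [Normal ℚ L]
    (z : GQ × GQ → Additive Qbˣ) (hz : CocOn₂ K.fixingSubgroup z)
    (hi : InflOn₂ K.fixingSubgroup L.fixingSubgroup z)
    (hLT : LTloc S L.fixingSubgroup K.fixingSubgroup z) (k : ℕ)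
    (hk : CobOn₂ K.fixingSubgroup L.fixingSubgroup (((p ^ k : ℕ) : ℤ) • z)) :
    CobOn₂ K.fixingSubgroup L.fixingSubgroup z := by
  haveI := hL.1
  haveI hnorm := Fermat.Agent.PT.Levels.fixingSubgroup_normal L
  haveI := Fermat.Agent.PT.DevissageGQ.finiteIndex_fixingSubgroup L
  have hLK : L.fixingSubgroup ≤ K.fixingSubgroup := IntermediateField.fixingSubgroup_antitone hKL
  refine hasse_induction p K.fixingSubgroup L.fixingSubgroup
    ⟨hLK, fun g _ n hn => hnorm.conj_mem n hn g⟩ ?_ ?_ (LTloc S L.fixingSubgroup)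
    (fun M M' z h => LTloc.mono h) (fun M z z' _ _ h h' => h.sub h') ?_ z hz hi hLT k hk
  · exact fun h => Subgroup.FiniteIndex.index_ne_zero (Subgroup.index_eq_zero_of_relIndex_eq_zero h)
  · intro N N' h0N' hN'N _
    exact h90On_Qb N N' (fixingSubgroup_fixedField_of_le L N (h0N'.trans hN'N)) L
      (inf_le_right.trans h0N')
  · intro M N σ e h0N _ he a ha hLT'
    exact cyc_Qb p S hHNT L hL M N σ e h0N he a ha hLT'

/-- Torsion-valued cochains satisfy the condition of `LTloc` at the places outside `S`. -/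
lemma ltloc_of_torsion (S : Finset Nat.Primes) (N₀ M : Subgroup GQ) (z : GQ × GQ → Additive Qbˣ)
    (htor : ∀ g ∈ M, ∀ h ∈ M, ∃ n : ℕ, 0 < n ∧ n • z (g, h) = 0)
    (hloc : ∀ q : Nat.Primes, q ∈ S → ∀ A : ValuationSubring Qb, A.LiesOverPrime (q : ℕ) →
      ∃ F : IntermediateField ℚ Qb, FiniteDimensional ℚ F ∧
        CobOn₂ (A.decompositionSubgroup ℚ ⊓ M) (A.decompositionSubgroup ℚ ⊓ F.fixingSubgroup) z) :
    LTloc S N₀ M z := by
  refine ⟨hloc, fun q _ A _ φ hφ f _ => ⟨0, fun n _ => smul_zero n, ?_⟩⟩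
  have hsum : ∀ s : Finset ℕ, ∃ n : ℕ, 0 < n ∧ n • ∑ i ∈ s, z (φ ^ i, φ) = 0 := by
    classical
    intro s
    induction s using Finset.induction_on with
    | empty => exact ⟨1, Nat.one_pos, by simp⟩
    | insert i s hi ih =>
      obtain ⟨n, hn, hns⟩ := ih
      obtain ⟨m, hm, hmz⟩ := htor (φ ^ i) (M.pow_mem hφ.2 i) φ hφ.2
      refine ⟨m * n, Nat.mul_pos hm hn, ?_⟩
      rw [Finset.sum_insert hi, nsmul_add, mul_nsmul, hmz, nsmul_zero, mul_nsmul', hns, nsmul_zero,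
        add_zero]
  obtain ⟨n, hn, hns⟩ := hsum (range f)
  have h1 : toQb (∑ i ∈ range f, z (φ ^ i, φ)) ^ n = 1 := by
    rw [← toQb_nsmul, hns, toQb_zero]
  have h2 : A.valuation (toQb (∑ i ∈ range f, z (φ ^ i, φ))) = 1 := by
    refine eq_of_pow_eq_pow₀ hn.ne' one_ne_zero ?_
    rw [← map_pow, h1, map_one, one_pow]
  rw [h2, smul_zero, toQb_zero, map_one]

/-- **Hasse principle for `μ_p`-valued classes**: a 2-cocycle of `Gal(L/K)` with values in
`μ_p(L)` (`L/ℚ` Galois, unramified outside `S`) which is a coboundary of finite level on the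
decomposition groups over `S` is the coboundary of a 1-cochain of `Gal(L/K)` with values in
`Lˣ`. -/
theorem hasse_principle_mu (p : ℕ) [Fact p.Prime] (S : Finset Nat.Primes)
    (hHNT : HNTStatement p S) (K L : IntermediateField ℚ Qb) (hKL : K ≤ L)
    (hL : L.IsUnramifiedOutside S) [Normal ℚ L]
    (z : GQ × GQ → Additive Qbˣ) (hz : CocOn₂ K.fixingSubgroup z)
    (hi : InflOn₂ K.fixingSubgroup L.fixingSubgroup z)
    (hp : ∀ g ∈ K.fixingSubgroup, ∀ h ∈ K.fixingSubgroup, p • z (g, h) = 0)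
    (hloc : ∀ q : Nat.Primes, q ∈ S → ∀ A : ValuationSubring Qb, A.LiesOverPrime (q : ℕ) →
      ∃ F : IntermediateField ℚ Qb, FiniteDimensional ℚ F ∧
        CobOn₂ (A.decompositionSubgroup ℚ ⊓ K.fixingSubgroup)
          (A.decompositionSubgroup ℚ ⊓ F.fixingSubgroup) z) :
    CobOn₂ K.fixingSubgroup L.fixingSubgroup z := by
  have hp0 : 0 < p := (Fact.out : p.Prime).pos
  refine hasse_principle_Qb p S hHNT K L hKL hL z hz hi
    (ltloc_of_torsion S _ _ z (fun g hg h hh => ⟨p, hp0, hp g hg h hh⟩) hloc) 1 ?_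
  refine (cobOn₂_zero _ _).congr fun g hg h hh => ?_
  rw [Pi.smul_apply, pow_one, natCast_zsmul, hp g hg h hh]
  rfl

end Fermat.Agent.PT.G
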