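/-
PT / G : `Ш²(G_K; 𝔽_p) ↪ Cl_S(K)/p` for base fields `K` (the literal `Base.G3LeHyp`), from the
Hasse principle for `μ_p`-valued classes (`hasse_principle_mu`, i.e. from `HNTStatement p S`).

For a class `x ∈ Ш²` with cocycle `z`: `ζ ^ z = d h` with `h : Gal(L/K) → Lˣ` (Hasse), `h ^ p = d γ`
with `γ ∈ Lˣ` (Hilbert 90), and the invariant is the class in `Cl_S(K)/p` of an ideal `I` with
`ord_A γ ≡ ord_v I mod p` outside `S`.  If two classes have the same invariant, then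
`γ / (γ' a)` (`a ∈ Kˣ`) has a `p`-th root `β` in a level (Kummer), and `h / h' / d β` is a
`μ_p`-valued `S`-level cochain with coboundary `ζ ^ (z - z')`.
-/
import Fermat.Agent.PT.G.HasseLoc
import Fermat.Agent.PT.G.HasseKerIdeal
import Fermat.Agent.PT.Base.B1
import Fermat.Agent.PT.Base.ElemGQ

set_option autoImplicit false
set_option linter.style.haveILetI false
set_option linter.unusedSimpArgs false

namespace Fermat.Agent.PT.G

local notation "Qb" => AlgebraicClosure ℚ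
local notation "GQ" => (AlgebraicClosure ℚ ≃ₐ[ℚ] AlgebraicClosure ℚ)

open Fermat.Agent.PT.Br Fermat.Agent.PT.Br.MulBridge Finset
open Fermat.Agent.Lib.GalQbar
open IsDedekindDomain NumberField Fermat.Agent.PT.KumBridge Fermat.Agent.PT.SelmerSeq
open Fermat.Agent.PT.Base ExtCitation
open scoped nonZeroDivisors

attribute [local instance] additiveAction isAlgClosure_rat isGalois_rat
  Fermat.Agent.Lib.GalQbar.isAlgebraic_rat

/-! ### `μ_p`-valued coefficients -/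

section Mu

variable (p : ℕ) [Fact p.Prime]

/-- `c ↦ ζ ^ c` as a homomorphism `𝔽_p → ℚ̄ˣ` (additive coefficients). -/
noncomputable def muHom (ζ : Qb) (hζ : ζ ^ p = 1) : ZMod p →+ Additive Qbˣ where
  toFun c := ofQb (ζ ^ c.val) (pow_ne_zero _ (fun h0 => by
    rw [h0, zero_pow (Fact.out : p.Prime).ne_zero] at hζ
    exact zero_ne_one hζ))
  map_zero' := by
    apply toQb_injective
    rw [toQb_ofQb, ZMod.val_zero, pow_zero, toQb_zero]
  map_add' a b := by
    apply toQb_injective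
    rw [toQb_add, toQb_ofQb, toQb_ofQb, toQb_ofQb]
    exact Fermat.Agent.PT.Kummer.zeta_pow_val_add p hζ a b

variable {p}

lemma toQb_muHom (ζ : Qb) (hζ : ζ ^ p = 1) (c : ZMod p) : toQb (muHom p ζ hζ c) = ζ ^ c.val := rfl

lemma smul_muHom {ζ : Qb} (hζ : ζ ^ p = 1) {g : GQ} (hg : g ζ = ζ) (c : ZMod p) :
    g • muHom p ζ hζ c = muHom p ζ hζ c := by
  rw [smul_eq_iff_apply, toQb_muHom, map_pow, hg]

lemma nsmul_muHom (ζ : Qb) (hζ : ζ ^ p = 1) (c : ZMod p) : p • muHom p ζ hζ c = 0 := by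
  rw [← map_nsmul, nsmul_eq_mul, ZMod.natCast_self, zero_mul, map_zero]

lemma muHom_injective {ζ : Qb} (hζ : IsPrimitiveRoot ζ p) :
    Function.Injective (muHom p ζ hζ.pow_eq_one) := fun a b h =>
  Fermat.Agent.PT.Kummer.zeta_pow_val_injective p hζ (congrArg toQb h)

end Mu

/-! ### The data attached to a class -/

/-- `γ` is a Kummer invariant of the `𝔽_p`-valued 2-cochain `z` on `G_K`: `ζ ^ z = d h` on `G_K`
for an `S`-level cochain `h` with `h ^ p = d γ`, `γ` in a level. -/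
def KerData (p : ℕ) [Fact p.Prime] (S : Finset Nat.Primes) (K : IntermediateField ℚ Qb) (ζ : Qb)
    (hζ : ζ ^ p = 1) (z : GQ × GQ → ZMod p) (γ : Qb) : Prop :=
  γ ≠ 0 ∧ ∃ (L : IntermediateField ℚ Qb) (h : GQ → Additive Qbˣ), L.IsUnramifiedOutside S ∧
    (∀ g ∈ K.fixingSubgroup, ∀ s ∈ K.fixingSubgroup, s ∈ L.fixingSubgroup → h (g * s) = h g) ∧
    γ ∈ L ∧
    (∀ g ∈ K.fixingSubgroup, ∀ k ∈ K.fixingSubgroup, muHom p ζ hζ (z (g, k)) = d1 h (g, k)) ∧
    (∀ g ∈ K.fixingSubgroup, toQb (h g) ^ p = g γ / γ)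

/-- `ord_A γ ≡ ord_v I mod p` at all `A` over `v ∉ S_K`. -/
def RadRepMod (K : IntermediateField ℚ Qb) [NumberField K] (S : Finset Nat.Primes) (p : ℕ)
    (γ : Qb) (I : (FractionalIdeal (𝓞 K)⁰ K)ˣ) : Prop :=
  ∀ q : Nat.Primes, q ∉ S → ∀ (A : ValuationSubring Qb) (hA : A.LiesOverPrime (q : ℕ)),
    ∃ m : ℤ, A.valuation γ = A.valuation (((q : ℕ) : Qb) ^
      (cnt K (primeOf K A q.2.ne_zero hA) I + (p : ℤ) * m))

/-- **Existence of the invariant** (Hasse principle + Hilbert 90): a relative `S`-level 2-cocycle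
on `G_K` which is locally (at the places over `S`) a level coboundary has a Kummer invariant `γ`
and an ideal `I` of `K` with `ord γ ≡ ord I mod p` outside `S`. -/
theorem exists_kerData (p : ℕ) [Fact p.Prime] (S : Finset Nat.Primes) (hHNT : HNTStatement p S)
    (K : IntermediateField ℚ Qb) [NumberField K] (hK : K.IsUnramifiedOutside S)
    {ζ : Qb} (hζ : IsPrimitiveRoot ζ p) (hζK : ζ ∈ K)
    (z : GQ × GQ → ZMod p) (hz : IsCocU p S K.fixingSubgroup z)
    (hloc : ∀ A : ValuationSubring Qb, (∃ q ∈ S, A.LiesOverPrime (q : ℕ)) → ∃ y : GQ → ZMod p,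
      (∃ F : IntermediateField ℚ Qb, FiniteDimensional ℚ F ∧
        ∀ g ∈ K.fixingSubgroup ⊓ decomp A, ∀ s ∈ K.fixingSubgroup ⊓ decomp A,
          s ∈ F.fixingSubgroup → y (g * s) = y g) ∧
      ∀ g ∈ K.fixingSubgroup ⊓ decomp A, ∀ h ∈ K.fixingSubgroup ⊓ decomp A,
        z (g, h) = y h - y (g * h) + y g) :
    ∃ (γ : Qb) (I : (FractionalIdeal (𝓞 K)⁰ K)ˣ),
      KerData p S K ζ hζ.pow_eq_one z γ ∧ RadRepMod K S p γ I := by
  have hζ1 := hζ.pow_eq_one
  have hfix : ∀ g ∈ K.fixingSubgroup, ∀ c : ZMod p, g • muHom p ζ hζ1 c = muHom p ζ hζ1 c :=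
    fun g hg c => smul_muHom hζ1 ((Fermat.Agent.PT.Kummer.mem_iff_forall_apply_eq K ζ).1 hζK g hg) c
  obtain ⟨F₀, hF₀, hlev⟩ := hz.lev
  obtain ⟨L, hle, hL, hLn⟩ := Fermat.Agent.PT.Levels.exists_normal_level_ge (hF₀.sup hK)
  haveI := hLn
  haveI := hL.1
  have hKL : K ≤ L := le_sup_right.trans hle
  have hLU : L.fixingSubgroup ≤ K.fixingSubgroup := IntermediateField.fixingSubgroup_antitone hKL
  have hLF₀ : L.fixingSubgroup ≤ F₀.fixingSubgroup :=
    IntermediateField.fixingSubgroup_antitone (le_sup_left.trans hle)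
  set Z : GQ × GQ → Additive Qbˣ := fun x => muHom p ζ hζ1 (z x) with hZ
  have hZcoc : CocOn₂ K.fixingSubgroup Z := by
    intro g hg h hh j hj
    show muHom p ζ hζ1 (z (g * h, j)) + muHom p ζ hζ1 (z (g, h))
      = g • muHom p ζ hζ1 (z (h, j)) + muHom p ζ hζ1 (z (g, h * j))
    rw [hfix g hg, ← map_add, ← map_add]
    congr 1
    have := hz.coc g hg h hh j hj
    linear_combination (-1 : ZMod p) * this
  have hZinfl : InflOn₂ K.fixingSubgroup L.fixingSubgroup Z := by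
    refine ⟨fun g hg k hk n hn n' hn' => ?_, fun g hg k hk n hn => hfix n (hLU hn) _⟩
    show muHom p ζ hζ1 (z (g * n, k * n')) = muHom p ζ hζ1 (z (g, k))
    rw [hlev g hg k hk n (hLU hn) n' (hLU hn') (hLF₀ hn) (hLF₀ hn')]
  have hZp : ∀ g ∈ K.fixingSubgroup, ∀ h ∈ K.fixingSubgroup, p • Z (g, h) = 0 :=
    fun g _ h _ => nsmul_muHom ζ hζ1 _
  have hZloc : ∀ q : Nat.Primes, q ∈ S → ∀ A : ValuationSubring Qb, A.LiesOverPrime (q : ℕ) →
      ∃ F : IntermediateField ℚ Qb, FiniteDimensional ℚ F ∧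
        CobOn₂ (A.decompositionSubgroup ℚ ⊓ K.fixingSubgroup)
          (A.decompositionSubgroup ℚ ⊓ F.fixingSubgroup) Z := by
    intro q hq A hA
    obtain ⟨y, ⟨F, hFfin, hyF⟩, hy⟩ := hloc A ⟨q, hq, hA⟩
    haveI := hFfin
    haveI := hK.1
    refine ⟨F ⊔ K, inferInstance, fun g => muHom p ζ hζ1 (y g),
      ⟨fun g hg n hn => ?_, fun g hg n hn => ?_⟩, fun g hg k hk => ?_⟩
    · have hnF : n ∈ F.fixingSubgroup := IntermediateField.fixingSubgroup_antitone le_sup_left hn.2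
      have hnK : n ∈ K.fixingSubgroup :=
        IntermediateField.fixingSubgroup_antitone le_sup_right hn.2
      show muHom p ζ hζ1 (y (g * n)) = muHom p ζ hζ1 (y g)
      rw [hyF g ⟨hg.2, hg.1⟩ n ⟨hnK, hn.1⟩ hnF]
    · exact hfix n (IntermediateField.fixingSubgroup_antitone le_sup_right hn.2) _
    · show muHom p ζ hζ1 (z (g, k)) = d1 (fun g => muHom p ζ hζ1 (y g)) (g, k)
      rw [d1_apply, hfix g hg.2, hy g ⟨hg.2, hg.1⟩ k ⟨hk.2, hk.1⟩, map_add, map_sub]
  obtain ⟨h, hh, hZh⟩ := hasse_principle_mu p S hHNT K L hKL hL Z hZcoc hZinfl hZp hZloc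
  -- Hilbert 90 for `h ^ p`
  have hH : H90On (Additive Qbˣ) K.fixingSubgroup L.fixingSubgroup :=
    h90On_Qb K.fixingSubgroup L.fixingSubgroup (fixingSubgroup_fixedField_of_le L _ hLU) L
      inf_le_right
  have hu : CocOn₁ K.fixingSubgroup (fun g => p • h g) := by
    intro g hg k hk
    have e2 := hZp g hg k hk
    rw [hZh g hg k hk, d1_apply, nsmul_add, nsmul_sub] at e2
    show p • h (g * k) = g • p • h k + p • h g
    have e5 : g • p • h k = p • g • h k :=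
      map_nsmul (DistribSMul.toAddMonoidHom (Additive Qbˣ) g) p (h k)
    rw [e5]
    have e6 : p • g • h k + p • h g - p • h (g * k) = 0 := by
      rw [← e2]
      abel
    exact (sub_eq_zero.1 e6).symm
  obtain ⟨c, hc⟩ := hH (fun g => p • h g) hu (fun n hn s hs => by
    show p • h (n * s) = p • h n
    rw [hh.1 n hn s hs])
  have hγ0 : toQb c ≠ 0 := toQb_ne_zero c
  have hpow : ∀ g ∈ K.fixingSubgroup, toQb (h g) ^ p = g (toQb c) / toQb c := by
    intro g hg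
    have := congrArg toQb (hc g hg)
    rwa [toQb_nsmul, toQb_sub, toQb_smul] at this
  have hhL : ∀ g ∈ K.fixingSubgroup, toQb (h g) ∈ L := fun g hg =>
    (Fermat.Agent.PT.Kummer.mem_iff_forall_apply_eq L _).2 fun n hn =>
      (smul_eq_iff_apply n (h g)).1 (hh.2 g hg n hn)
  have hγL : toQb c ∈ L := by
    rw [Fermat.Agent.PT.Kummer.mem_iff_forall_apply_eq]
    intro n hn
    have e1 : h n = h 1 := by
      have := hh.1 1 K.fixingSubgroup.one_mem n hn
      rwa [one_mul] at this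
    have e2 := hpow n (hLU hn)
    have e3 := hpow 1 K.fixingSubgroup.one_mem
    rw [e1, e3] at e2
    have e4 := (div_left_inj' hγ0).1 e2
    rw [AlgEquiv.one_apply] at e4
    exact e4.symm
  obtain ⟨I, hI⟩ := exists_unit_cnt_of_valuation K S p (toQb c) hγ0
    (fun q hq A hA =>
      Fermat.Agent.PT.Kummer.exists_zpow_valuation_eq_of_level hL hγL hγ0 q hq A hA)
    (fun u hu q hq A hA => by
      rw [← hpow u hu]
      exact Fermat.Agent.PT.Kummer.exists_valuation_eq_zpow_mul_of_level hL (hhL u hu) rfl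
        (pow_ne_zero _ (toQb_ne_zero _)) q hq A hA)
  exact ⟨toQb c, I, ⟨hγ0, L, h, hL, fun g hg s _ hsL => hh.1 g hg s hsL, hγL, hZh, hpow⟩, hI⟩


/-- **Injectivity of the invariant** (Kummer theory): two cochains with Kummer invariants whose
ideals have the same class in `Cl_S(K)/p` differ, on `G_K`, by the coboundary of an `S`-level
`𝔽_p`-valued 1-cochain. -/
theorem kerData_cob (p : ℕ) [Fact p.Prime] (S : Finset Nat.Primes) (hpS : pPrime p ∈ S)
    (K : IntermediateField ℚ Qb) [NumberField K] (hK : K.IsUnramifiedOutside S)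
    {ζ : Qb} (hζ : IsPrimitiveRoot ζ p) (hζK : ζ ∈ K)
    {z z' : GQ × GQ → ZMod p} {γ γ' : Qb} {I I' : (FractionalIdeal (𝓞 K)⁰ K)ˣ}
    (hd : KerData p S K ζ hζ.pow_eq_one z γ) (hd' : KerData p S K ζ hζ.pow_eq_one z' γ')
    (hI : RadRepMod K S p γ I) (hI' : RadRepMod K S p γ' I')
    (hcl : (QuotientGroup.mk (QuotientGroup.mk I : ClS K (primesOver K S)) :
        ClSMod K (primesOver K S) p)
      = QuotientGroup.mk (QuotientGroup.mk I' : ClS K (primesOver K S))) :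
    ∃ y : GQ → ZMod p,
      (∃ F : IntermediateField ℚ Qb, F.IsUnramifiedOutside S ∧
        ∀ g ∈ K.fixingSubgroup, ∀ s ∈ K.fixingSubgroup, s ∈ F.fixingSubgroup → y (g * s) = y g) ∧
      ∀ g ∈ K.fixingSubgroup, ∀ k ∈ K.fixingSubgroup,
        z (g, k) - z' (g, k) = y k - y (g * k) + y g := by
  have hp : p.Prime := Fact.out
  haveI : NeZero p := ⟨hp.ne_zero⟩
  have hζ1 := hζ.pow_eq_one
  obtain ⟨hγ0, L, h, hL, hhL, hγL, hZh, hpow⟩ := hd
  obtain ⟨hγ'0, L', h', hL', hhL', hγ'L, hZh', hpow'⟩ := hd'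
  obtain ⟨a, ha⟩ := exists_unit_valuation_of_mk_mk_eq K S p hp.ne_zero hK I I' hcl
  have ha0 : (((a : K) : Qb)) ≠ 0 := fun h0 => a.ne_zero (Subtype.ext h0)
  have haK : (((a : K) : Qb)) ∈ K := (a : K).2
  -- the element whose valuations outside `S` are divisible by `p`
  set δ : Qb := γ / (γ' * ((a : K) : Qb)) with hδ
  have hδ0 : δ ≠ 0 := div_ne_zero hγ0 (mul_ne_zero hγ'0 ha0)
  have hL₂ : (L ⊔ L' ⊔ K).IsUnramifiedOutside S := (hL.sup hL').sup hK
  have hδL : δ ∈ L ⊔ L' ⊔ K :=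
    div_mem ((le_sup_left.trans le_sup_left : L ≤ L ⊔ L' ⊔ K) hγL)
      (mul_mem ((le_sup_right.trans le_sup_left : L' ≤ L ⊔ L' ⊔ K) hγ'L)
        ((le_sup_right : K ≤ L ⊔ L' ⊔ K) haK))
  have hδval : ∀ q : Nat.Primes, q ∉ S → ∀ A : ValuationSubring Qb, A.LiesOverPrime (q : ℕ) →
      ∃ n : ℤ, A.valuation δ = A.valuation (((q : ℕ) : Qb) ^ ((p : ℤ) * n)) := by
    intro q hq A hA
    have hq0 : (((q : ℕ) : Qb)) ≠ 0 := by exact_mod_cast q.2.ne_zero
    obtain ⟨m₁, h₁⟩ := hI q hq A hA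
    obtain ⟨m₂, h₂⟩ := hI' q hq A hA
    obtain ⟨m₃, h₃⟩ := ha q hq A hA
    refine ⟨m₁ - m₂ - m₃, ?_⟩
    rw [hδ, map_div₀, map_mul, h₁, h₂, h₃, ← map_mul, ← map_div₀, ← zpow_add₀ hq0,
      ← zpow_sub₀ hq0]
    congr 2
    ring
  obtain ⟨β, hβ⟩ := IsAlgClosed.exists_pow_nat_eq δ hp.pos
  have hβ0 : β ≠ 0 := by
    rintro rfl
    rw [zero_pow hp.ne_zero] at hβ
    exact hδ0 hβ.symm
  have hL₃ : (L ⊔ L' ⊔ K ⊔ IntermediateField.adjoin ℚ {β}).IsUnramifiedOutside S :=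
    Fermat.Agent.PT.Kummer.isUnramifiedOutside_sup_adjoin_root' p S hpS hL₂ hδL hδ0 hβ hδval
  have hβL₃ : β ∈ L ⊔ L' ⊔ K ⊔ IntermediateField.adjoin ℚ {β} :=
    (le_sup_right : IntermediateField.adjoin ℚ {β} ≤ _)
      (IntermediateField.mem_adjoin_simple_self ℚ β)
  have hfixK : ∀ g ∈ K.fixingSubgroup, ∀ x ∈ K, g x = x := fun g hg x hx =>
    (Fermat.Agent.PT.Kummer.mem_iff_forall_apply_eq K x).1 hx g hg
  -- the `μ_p`-valued cochain
  have hy₀ : ∀ g ∈ K.fixingSubgroup,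
      (toQb (h g) / toQb (h' g) / (g β / β)) ^ p = 1 := by
    intro g hg
    rw [div_pow, div_pow, div_pow, hpow g hg, hpow' g hg, ← map_pow, hβ, hδ, map_div₀, map_mul,
      hfixK g hg _ haK]
    have hgγ : g γ ≠ 0 := (map_ne_zero _).2 hγ0
    have hgγ' : g γ' ≠ 0 := (map_ne_zero _).2 hγ'0
    field_simp
  have hex : ∀ g : GQ, ∃ c : ZMod p, g ∈ K.fixingSubgroup →
      ζ ^ c.val = toQb (h g) / toQb (h' g) / (g β / β) := by
    intro g
    by_cases hg : g ∈ K.fixingSubgroup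
    · obtain ⟨i, hi, hiζ⟩ := hζ.eq_pow_of_pow_eq_one (hy₀ g hg)
      exact ⟨(i : ZMod p), fun _ => by rw [ZMod.val_natCast_of_lt hi, hiζ]⟩
    · exact ⟨0, fun hg' => absurd hg' hg⟩
  choose y hy using hex
  refine ⟨y, ⟨_, hL₃, fun g hg s hs hsL => ?_⟩, fun g hg k hk => ?_⟩
  · -- level
    apply Fermat.Agent.PT.Kummer.zeta_pow_val_injective p hζ
    have hsL1 : s ∈ L.fixingSubgroup := IntermediateField.fixingSubgroup_antitone
      (le_sup_left.trans (le_sup_left.trans le_sup_left)) hsL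
    have hsL2 : s ∈ L'.fixingSubgroup := IntermediateField.fixingSubgroup_antitone
      (le_sup_right.trans (le_sup_left.trans le_sup_left)) hsL
    have hsβ : s β = β := (Fermat.Agent.PT.Kummer.mem_iff_forall_apply_eq _ β).1 hβL₃ s hsL
    rw [hy (g * s) (K.fixingSubgroup.mul_mem hg hs), hy g hg, hhL g hg s hs hsL1,
      hhL' g hg s hs hsL2, AlgEquiv.mul_apply, hsβ]
  · -- coboundary
    apply muHom_injective hζ
    apply toQb_injective
    have hgζ : g ζ = ζ := hfixK g hg ζ hζK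
    have e1 : toQb (muHom p ζ hζ1 (z (g, k))) = g (toQb (h k)) / toQb (h (g * k)) * toQb (h g) := by
      rw [hZh g hg k hk, d1_apply, toQb_add, toQb_sub, toQb_smul]
    have e2 : toQb (muHom p ζ hζ1 (z' (g, k)))
        = g (toQb (h' k)) / toQb (h' (g * k)) * toQb (h' g) := by
      rw [hZh' g hg k hk, d1_apply, toQb_add, toQb_sub, toQb_smul]
    have e3 : ζ ^ (y k).val = g (toQb (h k)) / g (toQb (h' k)) / (g (k β) / g β) := by
      have := congrArg g (hy k hk)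
      rwa [map_pow, hgζ, map_div₀, map_div₀, map_div₀] at this
    rw [map_sub, map_add, map_sub, toQb_sub, toQb_add, toQb_sub, e1, e2, toQb_muHom, toQb_muHom,
      toQb_muHom, e3, hy (g * k) (K.fixingSubgroup.mul_mem hg hk), hy g hg, AlgEquiv.mul_apply]
    have n1 : toQb (h g) ≠ 0 := toQb_ne_zero _
    have n2 : toQb (h' g) ≠ 0 := toQb_ne_zero _
    have n3 : toQb (h (g * k)) ≠ 0 := toQb_ne_zero _
    have n4 : toQb (h' (g * k)) ≠ 0 := toQb_ne_zero _
    have n5 : g (toQb (h k)) ≠ 0 := (map_ne_zero _).2 (toQb_ne_zero _)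
    have n6 : g (toQb (h' k)) ≠ 0 := (map_ne_zero _).2 (toQb_ne_zero _)
    have n7 : g β ≠ 0 := (map_ne_zero _).2 hβ0
    have n8 : g (k β) ≠ 0 := (map_ne_zero _).2 ((map_ne_zero _).2 hβ0)
    field_simp

/-- Two relative cocycles differing by the coboundary of an `S`-level 1-cochain have the same
class. -/
theorem clsU_eq_of_sub_cob {p : ℕ} [Fact p.Prime] {S : Finset Nat.Primes} {U : Subgroup GQ}
    {z z' : GQ × GQ → ZMod p} (hz : IsCocU p S U z) (hz' : IsCocU p S U z') (y : GQ → ZMod p)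
    (hylev : ∃ F : IntermediateField ℚ Qb, F.IsUnramifiedOutside S ∧
      ∀ g ∈ U, ∀ s ∈ U, s ∈ F.fixingSubgroup → y (g * s) = y g)
    (hy : ∀ g ∈ U, ∀ k ∈ U, z (g, k) - z' (g, k) = y k - y (g * k) + y g) :
    clsU p S U z hz = clsU p S U z' hz' := by
  unfold clsU
  rw [Elem.cls₂_eq_cls₂_iff]
  obtain ⟨F, hF, hyF⟩ := hylev
  refine ⟨fun g : U => y g, ?_, fun g k => hy g g.2 k k.2⟩
  rw [isLevelConst_sub_to₁_iff]
  exact ⟨F, hF, fun g s hsF => hyF g g.2 s s.2 hsF⟩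

/-- **(G3-LE)** from the cyclic Hasse norm theorem: for every base field `K`,
`Ш²(G_K; 𝔽_p)` injects into `Cl_S(K)/p`. -/
theorem g3Le_of_hnt (p : ℕ) [Fact p.Prime] (S : Finset Nat.Primes) (hpS : pPrime p ∈ S)
    (hHNT : HNTStatement p S) : G3LeHyp p S := by
  intro K _ hK
  classical
  obtain ⟨ζ, hζ, hζK⟩ := Fermat.Agent.PT.KumH1.exists_primitiveRoot_mem_of_isBaseField p S hK
  have hex : ∀ x : ↥(Sha2 p S K.fixingSubgroup), ∃ (z : GQ × GQ → ZMod p) (γ : Qb)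
      (I : (FractionalIdeal (𝓞 K)⁰ K)ˣ),
      (∃ hz : IsCocU p S K.fixingSubgroup z, clsU p S K.fixingSubgroup z hz = x.1) ∧
      KerData p S K ζ hζ.pow_eq_one z γ ∧ RadRepMod K S p γ I := by
    intro x
    obtain ⟨z, hz, hzx⟩ := exists_clsU p S K.fixingSubgroup x.1
    have hmem : clsU p S K.fixingSubgroup z hz ∈ Sha2 p S K.fixingSubgroup := by
      rw [hzx]
      exact x.2
    obtain ⟨γ, I, hd, hI⟩ := exists_kerData p S hHNT K hK.unram hζ hζK z hz
      ((clsU_mem_Sha2_iff hz).1 hmem)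
    exact ⟨z, γ, I, ⟨hz, hzx⟩, hd, hI⟩
  choose zf γf If hzf hdf hIf using hex
  refine ⟨fun x => QuotientGroup.mk (QuotientGroup.mk (If x)), fun x x' hxx' => ?_⟩
  obtain ⟨y, hylev, hy⟩ := kerData_cob p S hpS K hK.unram hζ hζK (hdf x) (hdf x') (hIf x)
    (hIf x') hxx'
  obtain ⟨hz, hzx⟩ := hzf x
  obtain ⟨hz', hzx'⟩ := hzf x'
  apply Subtype.ext
  rw [← hzx, ← hzx']
  exact clsU_eq_of_sub_cob hz hz' y hylev hy

end Fermat.Agent.PT.G
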