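/-
PT / G : **(G3-LE), unconditional** — for every base field `K` (finite over `ℚ`, unramified outside
`S ∋ p`, containing `μ_p`; `p` odd), `Ш²(G_K; 𝔽_p)` injects into `Cl_S(K)/p`.

Assembly of `g3Le_of_hnt` (`PT/G/HasseKer.lean`: Hasse principle for `μ_p`-classes + Hilbert 90 +
Kummer theory) with the cyclic Hasse norm theorem in `ℚ̄`-vocabulary (`hntStatement`,
`PT/G/HasseHNT.lean`).
-/
import Fermat.Agent.PT.G.HasseKer
import Fermat.Agent.PT.G.HasseHNT

set_option autoImplicit false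

namespace Fermat.Agent.PT.G

/-- **(G3-LE)**: `Ш²(G_K; 𝔽_p) ↪ Cl_S(K)/p` for every base field `K`. -/
theorem g3Le (p : ℕ) [Fact p.Prime] (S : Finset Nat.Primes) (hp2 : p ≠ 2)
    (hpS : ExtCitation.pPrime p ∈ S) : Fermat.Agent.PT.Base.G3LeHyp p S :=
  g3Le_of_hnt p S hpS (hntStatement p hp2 S)

end Fermat.Agent.PT.G
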