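import Fermat.Agent.PT.G.HasseGeMain
import Fermat.Agent.PT.Base.B1

/-!
# PT, G3 "≥" in the literal shape of `Base.G3GeHyp`

`g3GeHyp hpS : Base.G3GeHyp p S` — for every base field `K`, `Cl_S(K) / p` injects into
`H²(G_K; 𝔽_p)` with image in `Ш²(G_K; 𝔽_p)` (input of `Base.b1_of` / `Base.b6_of`).
-/

set_option autoImplicit false

namespace Fermat.Agent.PT.HasseGe

open Fermat.Agent.PT.Base

/-- **(G3-GE)**, literally the hypothesis `Base.G3GeHyp` of `Base.b1_of` and `Base.b6_of`. -/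
theorem g3GeHyp {p : ℕ} [Fact p.Prime] {S : Finset Nat.Primes}
    (hpS : ExtCitation.pPrime p ∈ S) : G3GeHyp p S := by
  intro K _ hK
  obtain ⟨Φ, hΦ⟩ := exists_injective_ClSMod_Sha2 p S K hpS hK
  exact ⟨fun x => (Φ x).1, fun x y h => hΦ (Subtype.ext h), fun x => (Φ x).2⟩

end Fermat.Agent.PT.HasseGe
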