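import Mathlib
import Fermat.Agent.PT.G.KumLocal
import Fermat.Agent.PT.G.KumUnram
import Fermat.Agent.PT.Local.UnitPow

/-
# Local count for (B2): `#(O_M / p)` and `#(Mˣ / Mˣᵖ)` for the henselisation of a number field

`M = decompField K A` is the henselisation of the number field `K ⊂ ℚ̄` at the valuation subring
`A` of `ℚ̄` over `q`, and `O_M = A ∩ M`.

* generic (Mathlib only): for a tower `F ⊆ E ⊆ Ω` and a valuation subring `A` of `Ω` stable under
  conjugation over `F`, `A ∩ E` is the integral closure of `A ∩ F` in `E`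
  (`isIntegralClosure_comap`), and if `A ∩ F` is a DVR and `E/F` is finite separable then
  `#((A ∩ E) / 𝔪_F (A ∩ E)) = #(k_F) ^ [E : F]` (`card_quotient_map_comapTower`);
* `ℚ_p^h = decompField ⊥ A` has uniformiser `p` and residue field `𝔽_p`;
* `finrank_inclusion_eq_relIndex`: `[M : M₀] = [G_{M₀} : G_M]` for `M₀ ≤ M ≤ ℚ̄`;
* `card_quotient_span_natCast_self`: `#(O_M / p) = p ^ [D_A : D_A ∩ G_K]` for `A | p`;
  `card_quotient_span_natCast_of_ne`: `#(O_M / p) = 1` for `A | q ≠ p`;
* `card_units_quot_pow_decompField`: `#(Mˣ / Mˣᵖ) = p ^ (2 + [q = p] · [D_A : D_A ∩ G_K])` if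
  `ζ_p ∈ K`.
-/

set_option autoImplicit false
set_option linter.style.haveILetI false
set_option linter.unusedSectionVars false
set_option linter.deprecated false

namespace Fermat.Agent.PT.Kummer

section Generic

open Polynomial IsLocalRing

variable {F E Ω : Type*} [Field F] [Field E] [Field Ω] [Algebra F E] [Algebra E Ω] [Algebra F Ω]
  [IsScalarTower F E Ω] (A : ValuationSubring Ω)

/-- The inclusion `A ∩ F → A ∩ E` for a tower `F ⊆ E ⊆ Ω` and a valuation subring `A` of `Ω`. -/
def comapTower : A.comap (algebraMap F Ω) →+* A.comap (algebraMap E Ω) where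
  toFun x := ⟨algebraMap F E (x : F), by
    rw [ValuationSubring.mem_comap, ← IsScalarTower.algebraMap_apply]; exact x.2⟩
  map_one' := Subtype.ext (map_one _)
  map_mul' x y := Subtype.ext (map_mul _ _ _)
  map_zero' := Subtype.ext (map_zero _)
  map_add' x y := Subtype.ext (map_add _ _ _)

theorem comapTower_coe (x : A.comap (algebraMap F Ω)) :
    ((comapTower (E := E) A x : A.comap (algebraMap E Ω)) : E) = algebraMap F E (x : F) := rfl

/-- If all roots in `Ω` of the minimal polynomial of `x` over `F` lie in `A`, then so do its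
coefficients. -/
theorem coeff_minpoly_mem [IsAlgClosed Ω] (x : E) (hx : IsIntegral F x)
    (hroots : ∀ r : Ω, aeval r (minpoly F x) = 0 → r ∈ A) (i : ℕ) :
    algebraMap F Ω ((minpoly F x).coeff i) ∈ A := by
  have hsplit : ((minpoly F x).map (algebraMap F Ω)).Splits := IsAlgClosed.splits _
  have hmonic : ((minpoly F x).map (algebraMap F Ω)).Monic := (minpoly.monic hx).map _
  have hl := hsplit.mem_lift_of_roots_mem_range hmonic A.subtype (fun a ha => by
    rw [Polynomial.mem_roots hmonic.ne_zero, IsRoot.def, eval_map_algebraMap] at ha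
    exact ⟨⟨a, hroots a ha⟩, rfl⟩)
  rw [Polynomial.lifts_iff_coeff_lifts] at hl
  obtain ⟨y, hy⟩ := hl i
  rw [coeff_map] at hy
  rw [← hy]
  exact y.2

/-- An element of `E` all of whose conjugates over `F` lie in `A` is integral over `A ∩ F`. -/
theorem isIntegral_comap_of_roots [IsAlgClosed Ω] (x : E) (hx : IsIntegral F x)
    (hroots : ∀ r : Ω, aeval r (minpoly F x) = 0 → r ∈ A) :
    IsIntegral (A.comap (algebraMap F Ω)) x := by
  have hl : minpoly F x ∈ Polynomial.lifts (algebraMap (A.comap (algebraMap F Ω)) F) := by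
    rw [Polynomial.lifts_iff_coeff_lifts]
    intro i
    exact ⟨⟨(minpoly F x).coeff i, coeff_minpoly_mem A x hx hroots i⟩, rfl⟩
  obtain ⟨q, hq, -, hqm⟩ := Polynomial.lifts_and_natDegree_eq_and_monic hl (minpoly.monic hx)
  refine ⟨q, hqm, ?_⟩
  have h1 : algebraMap (A.comap (algebraMap F Ω)) E
      = (algebraMap F E).comp (algebraMap (A.comap (algebraMap F Ω)) F) := rfl
  rw [h1, ← Polynomial.eval₂_map, hq]
  exact minpoly.aeval F x

/-- **`A ∩ E` is the integral closure of `A ∩ F` in `E`**, when `A` is stable under conjugation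
over `F` (all `F`-conjugates in `Ω` of an element of `A ∩ E` lie in `A`). -/
theorem isIntegralClosure_comap [IsAlgClosed Ω] [Algebra.IsIntegral F E]
    (hroots : ∀ x : E, algebraMap E Ω x ∈ A → ∀ r : Ω, aeval r (minpoly F x) = 0 → r ∈ A) :
    IsIntegralClosure (A.comap (algebraMap E Ω)) (A.comap (algebraMap F Ω)) E := by
  refine ⟨Subtype.val_injective, ?_⟩
  intro x
  constructor
  · intro hx
    let φ : A.comap (algebraMap F Ω) →+* A :=
      { toFun := fun y => ⟨algebraMap F Ω (y : F), y.2⟩
        map_one' := Subtype.ext (map_one _)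
        map_mul' := fun a b => Subtype.ext (map_mul _ _ _)
        map_zero' := Subtype.ext (map_zero _)
        map_add' := fun a b => Subtype.ext (map_add _ _ _) }
    have h2 : IsIntegral A (algebraMap E Ω x) := by
      refine IsIntegral.map_of_comp_eq φ (algebraMap E Ω) ?_ hx
      ext y
      show algebraMap F Ω (y : F) = algebraMap E Ω (algebraMap F E (y : F))
      rw [← IsScalarTower.algebraMap_apply]
    obtain ⟨y, hy⟩ := IsIntegrallyClosed.isIntegral_iff.mp h2
    refine ⟨⟨x, ?_⟩, rfl⟩
    rw [ValuationSubring.mem_comap, ← hy]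
    exact y.2
  · rintro ⟨y, rfl⟩
    exact isIntegral_comap_of_roots A (y : E) (Algebra.IsIntegral.isIntegral _)
      (hroots (y : E) y.2)

/-- **Degree formula for the integral closure**: if `A ∩ F` is a discrete valuation ring, `E/F` is
finite separable and `A` is stable under conjugation over `F`, then
`#((A ∩ E) / 𝔪_F (A ∩ E)) = #(k_F) ^ [E : F]`. -/
theorem card_quotient_map_comapTower [IsAlgClosed Ω] [FiniteDimensional F E]
    [Algebra.IsSeparable F E] [IsDiscreteValuationRing (A.comap (algebraMap F Ω))]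
    (hroots : ∀ x : E, algebraMap E Ω x ∈ A → ∀ r : Ω, aeval r (minpoly F x) = 0 → r ∈ A) :
    Nat.card (A.comap (algebraMap E Ω) ⧸
        (maximalIdeal (A.comap (algebraMap F Ω))).map (comapTower (E := E) A)) =
      Nat.card (A.comap (algebraMap F Ω) ⧸ maximalIdeal (A.comap (algebraMap F Ω))) ^
        Module.finrank F E := by
  letI : Algebra (A.comap (algebraMap F Ω)) (A.comap (algebraMap E Ω)) :=
    (comapTower (E := E) A).toAlgebra
  haveI : IsScalarTower (A.comap (algebraMap F Ω)) (A.comap (algebraMap E Ω)) E :=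
    IsScalarTower.of_algebraMap_eq (fun x => rfl)
  haveI : IsScalarTower (A.comap (algebraMap F Ω)) F E :=
    IsScalarTower.of_algebraMap_eq (fun x => rfl)
  haveI := isIntegralClosure_comap (E := E) A hroots
  haveI : Module.Finite (A.comap (algebraMap F Ω)) (A.comap (algebraMap E Ω)) :=
    IsIntegralClosure.finite (A.comap (algebraMap F Ω)) F E (A.comap (algebraMap E Ω))
  haveI hmax : (maximalIdeal (A.comap (algebraMap F Ω))).IsMaximal := maximalIdeal.isMaximal _
  letI := Ideal.Quotient.field (maximalIdeal (A.comap (algebraMap F Ω)))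
  have h := Ideal.finrank_quotient_map (R := A.comap (algebraMap F Ω))
    (S := A.comap (algebraMap E Ω)) (maximalIdeal (A.comap (algebraMap F Ω))) F E
  haveI : Module.Finite (A.comap (algebraMap F Ω) ⧸ maximalIdeal (A.comap (algebraMap F Ω)))
      (A.comap (algebraMap E Ω) ⧸ (maximalIdeal (A.comap (algebraMap F Ω))).map
        (algebraMap (A.comap (algebraMap F Ω)) (A.comap (algebraMap E Ω)))) :=
    Module.Finite.of_restrictScalars_finite (A.comap (algebraMap F Ω)) _ _
  have h2 := Module.natCard_eq_pow_finrank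
    (K := A.comap (algebraMap F Ω) ⧸ maximalIdeal (A.comap (algebraMap F Ω)))
    (V := A.comap (algebraMap E Ω) ⧸ (maximalIdeal (A.comap (algebraMap F Ω))).map
        (algebraMap (A.comap (algebraMap F Ω)) (A.comap (algebraMap E Ω))))
  rw [h] at h2
  exact h2

end Generic

section Concrete

open scoped Pointwise
open Fermat.Agent.PT.PlaceDict NumberField IsLocalRing

local notation "Qb" => AlgebraicClosure ℚ
local notation "GQ" => (AlgebraicClosure ℚ ≃ₐ[ℚ] AlgebraicClosure ℚ)

attribute [local instance] Fermat.Agent.Lib.GalQbar.isAlgClosure_rat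
  Fermat.Agent.Lib.GalQbar.isGalois_rat Fermat.Agent.Lib.GalQbar.isAlgebraic_rat
  Fermat.Agent.Lib.GalQbar.normal_rat

theorem decompField_mono {K K' : IntermediateField ℚ Qb} (h : K ≤ K') (A : ValuationSubring Qb) :
    decompField K A ≤ decompField K' A := by
  intro x hx
  rw [mem_decompField_iff] at hx ⊢
  intro g hg
  exact hx g ⟨hg.1, IntermediateField.fixingSubgroup_antitone h hg.2⟩

theorem fixingSubgroup_decompField_bot (A : ValuationSubring Qb) :
    (decompField ⊥ A).fixingSubgroup = A.decompositionSubgroup ℚ := by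
  rw [fixingSubgroup_decompField, IntermediateField.fixingSubgroup_bot, inf_top_eq]

/-- The decomposition field of `A` over `ℚ` (`= ℚ_p^h`) has value group `p ^ ℤ`. -/
theorem exists_zpow_valuation_eq_of_mem_decompField_bot {p : ℕ} (hp : p.Prime)
    (A : ValuationSubring Qb) (hA : A.LiesOverPrime p) {x : Qb} (hx : x ∈ decompField ⊥ A)
    (hx0 : x ≠ 0) : ∃ n : ℤ, A.valuation x = A.valuation ((p : Qb) ^ n) := by
  obtain ⟨y, hy, hyx⟩ := exists_mem_valuation_eq hp hA ⊥ (decompField ⊥ A)
    (dense_decompField ⊥ hp A hA) hx hx0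
  have hy0 : y ≠ 0 := by
    rintro rfl
    rw [map_zero] at hyx
    exact hx0 ((map_eq_zero _).mp hyx.symm)
  haveI : Normal ℚ (⊥ : IntermediateField ℚ Qb) :=
    Normal.of_algEquiv (IntermediateField.botEquiv ℚ Qb).symm
  obtain ⟨n, hn⟩ := exists_zpow_valuation_eq (⊥ : IntermediateField ℚ Qb) hp A hA
    (by rw [IntermediateField.fixingSubgroup_bot]; exact le_top) hy hy0
  exact ⟨n, hyx ▸ hn⟩

/-- `p` is a uniformiser of the decomposition field of `A` over `ℚ`. -/
theorem maximalIdeal_comap_decompField_bot {p : ℕ} (hp : p.Prime)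
    (A : ValuationSubring Qb) (hA : A.LiesOverPrime p) :
    maximalIdeal (A.comap (algebraMap (decompField ⊥ A) Qb)) =
      Ideal.span {((p : ℕ) : A.comap (algebraMap (decompField ⊥ A) Qb))} := by
  have hvp : A.valuation (p : Qb) < 1 := A.mem_nonunits_iff.mp hA
  have hp0 : (p : Qb) ≠ 0 := by exact_mod_cast hp.ne_zero
  have hvp0 : 0 < A.valuation (p : Qb) := zero_lt_iff.mpr ((Valuation.ne_zero_iff _).mpr hp0)
  have hcast : algebraMap (decompField ⊥ A) Qb
      (((p : ℕ) : A.comap (algebraMap (decompField ⊥ A) Qb)) : decompField ⊥ A) = (p : Qb) := by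
    simp
  apply le_antisymm
  · intro x hx
    rw [Ideal.mem_span_singleton]
    rw [mem_maximalIdeal_comap_iff] at hx
    refine dvd_comap_of_valuation_le A _ _ ?_ ?_
    · intro h
      have := congrArg (fun t : A.comap (algebraMap (decompField ⊥ A) Qb) =>
        algebraMap (decompField ⊥ A) Qb (t : decompField ⊥ A)) h
      simp only [hcast] at this
      exact hp0 (by simpa using this)
    · rw [hcast]
      rcases eq_or_ne (algebraMap (decompField ⊥ A) Qb (x : decompField ⊥ A)) 0 with h0 | h0
      · rw [h0, map_zero]; exact zero_le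
      obtain ⟨n, hn⟩ := exists_zpow_valuation_eq_of_mem_decompField_bot hp A hA
        (x : decompField ⊥ A).2 h0
      have hn' : A.valuation (algebraMap (decompField ⊥ A) Qb (x : decompField ⊥ A))
          = A.valuation (p : Qb) ^ n := by
        rw [← map_zpow₀]; exact hn
      rw [hn'] at hx ⊢
      have hn1 : 1 ≤ n := by
        by_contra hcon
        rw [not_le] at hcon
        rcases (Int.lt_iff_add_one_le.mp hcon).lt_or_eq with h1 | h1
        · have h2 : n < 0 := by omega
          exact absurd hx (not_lt.mpr (one_lt_zpow_of_neg₀ hvp0 hvp h2).le)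
        · have h2 : n = 0 := by omega
          rw [h2, zpow_zero] at hx
          exact lt_irrefl _ hx
      calc A.valuation (p : Qb) ^ n ≤ A.valuation (p : Qb) ^ (1 : ℤ) :=
            zpow_le_zpow_right_of_le_one₀ hvp0 hvp.le hn1
        _ = A.valuation (p : Qb) := zpow_one _
  · rw [Ideal.span_singleton_le_iff_mem, mem_maximalIdeal_comap_iff, hcast]
    exact hvp

/-- The residue field of the decomposition field of `A` over `ℚ` is `𝔽_p`. -/
theorem card_residueField_decompField_bot {p : ℕ} (hp : p.Prime)
    (A : ValuationSubring Qb) (hA : A.LiesOverPrime p) :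
    Nat.card (A.comap (algebraMap (decompField ⊥ A) Qb) ⧸
      maximalIdeal (A.comap (algebraMap (decompField ⊥ A) Qb))) = p := by
  have hvp : A.valuation (p : Qb) < 1 := A.mem_nonunits_iff.mp hA
  haveI : NumberField (⊥ : IntermediateField ℚ Qb) := PlaceDict.numberField ⊥
  let φ : ℤ →+* (A.comap (algebraMap (decompField ⊥ A) Qb) ⧸
      maximalIdeal (A.comap (algebraMap (decompField ⊥ A) Qb))) := Int.castRingHom _
  have hsurj : Function.Surjective φ := by
    intro t
    obtain ⟨x, rfl⟩ := Ideal.Quotient.mk_surjective t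
    obtain ⟨z, hz⟩ := exists_integer_valuation_sub_lt_one' hp hA ⊥ (decompField ⊥ A)
      (dense_decompField ⊥ hp A hA) (x : decompField ⊥ A).2 ((A.valuation_le_one_iff _).mpr x.2)
    have hzint : IsIntegral ℤ (algebraMap (𝓞 (⊥ : IntermediateField ℚ Qb)) Qb z) := by
      have h1 : IsIntegral ℤ (algebraMap (𝓞 (⊥ : IntermediateField ℚ Qb))
          (⊥ : IntermediateField ℚ Qb) z) := NumberField.RingOfIntegers.isIntegral_coe z
      have h2 := h1.algebraMap (B := Qb)
      rwa [← IsScalarTower.algebraMap_apply] at h2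
    obtain ⟨r, hr⟩ := IntermediateField.mem_bot.mp
      (algebraMap (𝓞 (⊥ : IntermediateField ℚ Qb)) (⊥ : IntermediateField ℚ Qb) z).2
    have hr' : algebraMap ℚ Qb r = algebraMap (𝓞 (⊥ : IntermediateField ℚ Qb)) Qb z := hr
    rw [← hr'] at hzint hz
    rw [isIntegral_algebraMap_iff (algebraMap ℚ Qb).injective] at hzint
    obtain ⟨n, hn⟩ := IsIntegrallyClosed.isIntegral_iff.mp hzint
    refine ⟨n, ?_⟩
    rw [(eq_intCast φ n).trans (map_intCast (Ideal.Quotient.mk
      (maximalIdeal (A.comap (algebraMap (decompField ⊥ A) Qb)))) n).symm]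
    rw [eq_comm, Ideal.Quotient.eq, mem_maximalIdeal_comap_iff]
    have e : algebraMap (decompField ⊥ A) Qb ((x - (n : A.comap (algebraMap (decompField ⊥ A) Qb)) :
        A.comap (algebraMap (decompField ⊥ A) Qb)) : decompField ⊥ A)
        = algebraMap (decompField ⊥ A) Qb (x : decompField ⊥ A) - algebraMap ℚ Qb r := by
      rw [← hn]
      simp
    rw [e]
    exact hz
  have hmax : (Ideal.span {(p : ℤ)}).IsMaximal :=
    PrincipalIdealRing.isMaximal_of_irreducible (Nat.prime_iff_prime_int.mp hp).irreducible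
  have hle : Ideal.span {(p : ℤ)} ≤ RingHom.ker φ := by
    rw [Ideal.span_singleton_le_iff_mem, RingHom.mem_ker]
    rw [(eq_intCast φ _).trans (Int.cast_natCast p),
      ← map_natCast (Ideal.Quotient.mk (maximalIdeal (A.comap (algebraMap (decompField ⊥ A) Qb)))),
      Ideal.Quotient.eq_zero_iff_mem, mem_maximalIdeal_comap_iff]
    simpa using hvp
  have hker : Ideal.span {(p : ℤ)} = RingHom.ker φ := hmax.eq_of_le (RingHom.ker_ne_top φ) hle
  rw [← Nat.card_congr (RingHom.quotientKerEquivOfSurjective hsurj).toEquiv, ← hker,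
    Nat.card_congr (Int.quotientSpanNatEquivZMod p).toEquiv, Nat.card_zmod]

/-- `A` is stable under conjugation over its decomposition field. -/
theorem mem_of_aeval_minpoly_decompField_bot (A : ValuationSubring Qb) (x : Qb) (hx : x ∈ A)
    (r : Qb) (hr : Polynomial.aeval r (minpoly (decompField ⊥ A) x) = 0) : r ∈ A := by
  haveI : Normal (decompField ⊥ A) Qb := Normal.tower_top_of_normal ℚ (decompField ⊥ A) Qb
  obtain ⟨σ, hσ⟩ := minpoly.exists_algEquiv_of_root'
    (Algebra.IsAlgebraic.isAlgebraic (R := decompField ⊥ A) x) hr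
  have hmem : σ.restrictScalars ℚ ∈ A.decompositionSubgroup ℚ := by
    rw [← fixingSubgroup_decompField_bot, IntermediateField.mem_fixingSubgroup_iff]
    intro y hy
    exact σ.commutes ⟨y, hy⟩
  rw [← hσ]
  exact (apply_mem_iff_of_mem_decompositionSubgroup A hmem x).mpr hx


/-- `[M : M₀] = [Gal(ℚ̄/M₀) : Gal(ℚ̄/M)]` for intermediate fields `M₀ ≤ M` of `ℚ̄/ℚ` (both sides
are `0` if the degree is infinite). -/
theorem finrank_inclusion_eq_relIndex {M₀ M : IntermediateField ℚ Qb} (h : M₀ ≤ M) :
    letI : Algebra M₀ M := (IntermediateField.inclusion h).toRingHom.toAlgebra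
    Module.finrank M₀ M = M.fixingSubgroup.relIndex M₀.fixingSubgroup := by
  letI : Algebra M₀ M := (IntermediateField.inclusion h).toRingHom.toAlgebra
  show Module.finrank M₀ M = M.fixingSubgroup.relIndex M₀.fixingSubgroup
  haveI : IsGalois M₀ Qb := IsGalois.tower_top_of_isGalois ℚ M₀ Qb
  let E' : IntermediateField M₀ Qb := IntermediateField.extendScalars h
  let e : E' ≃ₗ[M₀] M :=
    { toFun := fun x => ⟨x.1, x.2⟩
      invFun := fun x => ⟨x.1, x.2⟩
      map_add' := fun _ _ => rfl
      map_smul' := fun _ _ => rfl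
      left_inv := fun _ => rfl
      right_inv := fun _ => rfl }
  rw [← e.finrank_eq]
  refine (IntermediateField.finrank_eq_fixingSubgroup_index Qb E').trans ?_
  have hcomap : E'.fixingSubgroup.comap (IntermediateField.fixingSubgroupEquiv M₀).toMonoidHom
      = M.fixingSubgroup.subgroupOf M₀.fixingSubgroup := by
    ext σ
    rw [Subgroup.mem_comap, Subgroup.mem_subgroupOf, IntermediateField.mem_fixingSubgroup_iff,
      IntermediateField.mem_fixingSubgroup_iff]
    constructor
    · intro hσ x hx
      exact hσ x hx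
    · intro hσ x hx
      exact hσ x hx
  rw [Subgroup.relIndex, ← hcomap]
  exact (Subgroup.index_comap_of_surjective _ (MulEquiv.surjective _)).symm


/-- **Local count for (B2), `q ≠ p`**: `p` is a unit in the valuation ring of the decomposition
field, so `#(O_M / p) = 1`. -/
theorem card_quotient_span_natCast_of_ne (K : IntermediateField ℚ Qb) {q p : ℕ}
    (hq : q.Prime) (A : ValuationSubring Qb) (hA : A.LiesOverPrime q) (hp : p.Prime)
    (hpq : p ≠ q) :
    Nat.card (A.comap (algebraMap (decompField K A) Qb) ⧸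
        Ideal.span {((p : ℕ) : A.comap (algebraMap (decompField K A) Qb))}) = 1 := by
  have hvq : A.valuation (q : Qb) < 1 := A.mem_nonunits_iff.mp hA
  have hvp : A.valuation (p : Qb) = 1 := by
    have hcop : IsCoprime (p : ℤ) (q : ℤ) :=
      Nat.isCoprime_iff_coprime.mpr ((Nat.coprime_primes hp hq).mpr hpq)
    obtain ⟨a, b, hab⟩ := hcop
    have hab' : (a : Qb) * (p : Qb) + (b : Qb) * (q : Qb) = 1 := by exact_mod_cast hab
    have hva : A.valuation (a : Qb) ≤ 1 := (A.valuation_le_one_iff _).mpr (intCast_mem A a)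
    have hvb : A.valuation (b : Qb) ≤ 1 := (A.valuation_le_one_iff _).mpr (intCast_mem A b)
    have hvp1 : A.valuation (p : Qb) ≤ 1 := (A.valuation_le_one_iff _).mpr (natCast_mem A p)
    refine le_antisymm hvp1 (not_lt.mp fun hlt => ?_)
    have h1 : A.valuation ((a : Qb) * (p : Qb) + (b : Qb) * (q : Qb)) < 1 := by
      refine lt_of_le_of_lt (A.valuation.map_add _ _) (max_lt ?_ ?_)
      · rw [map_mul, mul_comm]; exact mul_lt_one_of_lt_of_le hlt hva
      · rw [map_mul, mul_comm]; exact mul_lt_one_of_lt_of_le hvq hvb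
    rw [hab', map_one] at h1
    exact lt_irrefl _ h1
  have hunit : IsUnit ((p : ℕ) : A.comap (algebraMap (decompField K A) Qb)) := by
    rw [isUnit_comap_iff]
    simpa using hvp
  rw [Ideal.span_singleton_eq_top.mpr hunit]
  haveI : Subsingleton (A.comap (algebraMap (decompField K A) Qb) ⧸
      (⊤ : Ideal (A.comap (algebraMap (decompField K A) Qb)))) :=
    Ideal.Quotient.subsingleton_iff.mpr rfl
  exact Nat.card_unique

/-- **Local count for (B2), `q = p`**: for a number field `K ⊂ ℚ̄`, a valuation subring `A` of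
`ℚ̄` over `p`, and `M = decompField K A` (the henselisation of `K` at `A`):
`#(O_M / p) = p ^ [D_A : D_A ∩ G_K]`. -/
theorem card_quotient_span_natCast_self (K : IntermediateField ℚ Qb) [NumberField K] {p : ℕ}
    (hp : p.Prime) (A : ValuationSubring Qb) (hA : A.LiesOverPrime p) :
    Nat.card (A.comap (algebraMap (decompField K A) Qb) ⧸
        Ideal.span {((p : ℕ) : A.comap (algebraMap (decompField K A) Qb))}) =
      p ^ (K.fixingSubgroup.relIndex (A.decompositionSubgroup ℚ)) := by
  have h : decompField ⊥ A ≤ decompField K A := decompField_mono bot_le A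
  letI : Algebra (decompField ⊥ A) (decompField K A) :=
    (IntermediateField.inclusion h).toRingHom.toAlgebra
  haveI : IsScalarTower (decompField ⊥ A) (decompField K A) Qb :=
    IsScalarTower.of_algebraMap_eq (fun x => rfl)
  have hfr : Module.finrank (decompField ⊥ A) (decompField K A)
      = K.fixingSubgroup.relIndex (A.decompositionSubgroup ℚ) := by
    have h1 := finrank_inclusion_eq_relIndex h
    rw [fixingSubgroup_decompField, fixingSubgroup_decompField_bot,
      Subgroup.inf_relIndex_left] at h1
    exact h1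
  have hidx : K.fixingSubgroup.index ≠ 0 := by
    rw [← IntermediateField.finrank_eq_fixingSubgroup_index Qb K]
    exact Module.finrank_pos.ne'
  haveI : K.fixingSubgroup.FiniteIndex := ⟨hidx⟩
  have hne : K.fixingSubgroup.relIndex (A.decompositionSubgroup ℚ) ≠ 0 :=
    Subgroup.FiniteIndex.index_ne_zero
  haveI : FiniteDimensional (decompField ⊥ A) (decompField K A) :=
    Module.finite_of_finrank_pos (by rw [hfr]; exact Nat.pos_of_ne_zero hne)
  haveI : NumberField (⊥ : IntermediateField ℚ Qb) := PlaceDict.numberField ⊥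
  haveI := isDiscreteValuationRing_decompField ⊥ hp A hA
  have hcard := card_quotient_map_comapTower (F := decompField ⊥ A) (E := decompField K A) A
    (fun x hx r hr => by
      refine mem_of_aeval_minpoly_decompField_bot A _ hx r ?_
      rwa [minpoly.algebraMap_eq (algebraMap (decompField K A) Qb).injective])
  rw [card_residueField_decompField_bot hp A hA, maximalIdeal_comap_decompField_bot hp A hA,
    Ideal.map_span, Set.image_singleton, map_natCast, hfr] at hcard
  exact hcard


/-- **`#(Mˣ / Mˣᵖ)` for the henselisation `M = decompField K A` of a number field `K ∋ ζ_p`**: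
`p ^ (2 + [q = p] · [D_A : D_A ∩ G_K])`. (With Kummer theory this is `#H¹(D_A ∩ G_K; 𝔽_p)`.) -/
theorem card_units_quot_pow_decompField (K : IntermediateField ℚ Qb) [NumberField K] {q p : ℕ}
    (hq : q.Prime) (A : ValuationSubring Qb) (hA : A.LiesOverPrime q) (hp : p.Prime)
    {ζ : Qb} (hζ : IsPrimitiveRoot ζ p) (hζK : ζ ∈ K) :
    Nat.card ((decompField K A)ˣ ⧸
        (powMonoidHom p : (decompField K A)ˣ →* (decompField K A)ˣ).range) =
      p ^ (2 + if q = p then K.fixingSubgroup.relIndex (A.decompositionSubgroup ℚ) else 0) := by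
  haveI := henselianLocalRing_decompField K A
  haveI := isDiscreteValuationRing_decompField K hq A hA
  haveI := finite_residueField_decompField K hq A hA
  haveI : NeZero p := ⟨hp.ne_zero⟩
  have hp0 : ((p : ℕ) : A.comap (algebraMap (decompField K A) Qb)) ≠ 0 := by
    intro h0
    have := congrArg (fun t : A.comap (algebraMap (decompField K A) Qb) =>
      algebraMap (decompField K A) Qb (t : decompField K A)) h0
    simp only [ZeroMemClass.coe_zero, map_zero] at this
    have h2 : (p : Qb) = 0 := by simpa using this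
    exact hp.ne_zero (by exact_mod_cast h2)
  have h := Fermat.Agent.PT.Local.card_fracUnits_quot_pow
    (A.comap (algebraMap (decompField K A) Qb)) (decompField K A) p hp0
  have hζ' : IsPrimitiveRoot (⟨ζ, le_decompField K A hζK⟩ : decompField K A) p :=
    IsPrimitiveRoot.coe_submonoidClass_iff.mp hζ
  have hroots : Nat.card (rootsOfUnity p (decompField K A)) = p := hζ'.card_rootsOfUnity
  rw [h, hroots]
  by_cases hqp : q = p
  · subst hqp
    rw [card_quotient_span_natCast_self K hq A hA, if_pos rfl]
    ring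
  · rw [card_quotient_span_natCast_of_ne K hq A hA hp (Ne.symm hqp), if_neg hqp]
    ring

end Concrete

end Fermat.Agent.PT.Kummer
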