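import Mathlib
import Fermat.Agent.PT.G.KumH1
import Fermat.Agent.PT.G.KumH90
import Fermat.Agent.PT.G.KumCount
import Fermat.Agent.PT.Base.Interfaces

/-
# (B2) of the BASE interface: local `H¹` by Kummer theory

* `card_levelChars_eq`: for ANY intermediate field `M ∋ ζ_p` of `ℚ̄/ℚ`, the all-level characters
  `Gal(ℚ̄/M) → 𝔽_p` are in bijection with `Mˣ / Mˣᵖ` (`kLevelChar`, `kLevelChar_eq_iff`,
  `kLevelChar_surjective`);
* `card_H1_CV_eq_of_fixingSubgroup_eq`, `card_H1_CV_decomp`: `#H¹(V; 𝔽_p) = #(Mˣ / Mˣᵖ)` for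
  `V = Gal(ℚ̄/M)`, in particular `V = G_K ⊓ D_A`, `M = decompField K A`;
* `card_H1_CV_decomp_eq_pow`, `finrank_H1_CV_decomp`:
  `h¹(G_K ⊓ D_A; 𝔽_p) = 2 + [q = p]·[D_A : G_K ⊓ D_A]` for a number field `K ∋ ζ_p`, `A | q`;
* `b2 : Base.B2 p S`.
-/

set_option autoImplicit false
set_option linter.style.haveILetI false
set_option linter.unusedSectionVars false

namespace Fermat.Agent.PT.Kummer

open Fermat.Agent.PT Fermat.Agent.PT.KumH1

local notation "Qb" => AlgebraicClosure ℚ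
local notation "GQ" => (AlgebraicClosure ℚ ≃ₐ[ℚ] AlgebraicClosure ℚ)

attribute [local instance] Fermat.Agent.Lib.GalQbar.isAlgClosure_rat
  Fermat.Agent.Lib.GalQbar.isGalois_rat Fermat.Agent.Lib.GalQbar.isAlgebraic_rat
  Fermat.Agent.Lib.GalQbar.normal_rat

section KummerIso

variable (p : ℕ) [Fact p.Prime] (M : IntermediateField ℚ Qb)

/-- A chosen `p`-th root in `ℚ̄` of a unit of `M`. -/
noncomputable def kRoot (a : Mˣ) : Qb :=
  Classical.choose (IsAlgClosed.exists_pow_nat_eq (((a : M) : Qb)) (Fact.out : p.Prime).pos)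

theorem kRoot_pow (a : Mˣ) : kRoot p M a ^ p = ((a : M) : Qb) :=
  Classical.choose_spec (IsAlgClosed.exists_pow_nat_eq (((a : M) : Qb)) (Fact.out : p.Prime).pos)

theorem kRoot_ne_zero (a : Mˣ) : kRoot p M a ≠ 0 := by
  intro h
  have h1 := kRoot_pow p M a
  rw [h, zero_pow (Fact.out : p.Prime).ne_zero] at h1
  exact a.ne_zero (Subtype.ext h1.symm)

theorem kRoot_pow_mem (a : Mˣ) : kRoot p M a ^ p ∈ M := by
  rw [kRoot_pow]
  exact (a : M).2

variable {p M} {ζ : Qb} (hζ : IsPrimitiveRoot ζ p) (hζM : ζ ∈ M)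

/-- The Kummer character of a unit `a` of `M` (a function on all of `G_ℚ`; only its values on
`Gal(ℚ̄/M)` matter). -/
noncomputable def kChar (a : Mˣ) : GQ → ZMod p :=
  Classical.choose (exists_character_of_root p M hζ hζM (kRoot_ne_zero p M a) (kRoot_pow_mem p M a))

theorem kChar_spec (a : Mˣ) :
    (∀ g ∈ M.fixingSubgroup, g (kRoot p M a) = ζ ^ (kChar hζ hζM a g).val * kRoot p M a) ∧
      (∀ g ∈ M.fixingSubgroup, ∀ h ∈ M.fixingSubgroup,
        kChar hζ hζM a (g * h) = kChar hζ hζM a g + kChar hζ hζM a h) ∧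
      (∀ g s : GQ, s (kRoot p M a) = kRoot p M a → kChar hζ hζM a (g * s) = kChar hζ hζM a g) :=
  Classical.choose_spec
    (exists_character_of_root p M hζ hζM (kRoot_ne_zero p M a) (kRoot_pow_mem p M a))

/-- The Kummer character of `a ∈ Mˣ` as a level character of `Gal(ℚ̄/M)`. -/
noncomputable def kLevelChar (a : Mˣ) : levelChars (Bridge.levD M.fixingSubgroup) (ZMod p) :=
  ⟨fun g => kChar hζ hζM a g.1, by
    rw [mem_levelChars_iff]
    refine ⟨fun g h => (kChar_spec hζ hζM a).2.1 g.1 g.2 h.1 h.2,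
      (isLevelConst_one_iff (χ := fun g : M.fixingSubgroup => kChar hζ hζM a g.1)).mpr ?_⟩
    have hint : IsIntegral ℚ (kRoot p M a) := Algebra.IsIntegral.isIntegral _
    haveI : FiniteDimensional ℚ (IntermediateField.adjoin ℚ {kRoot p M a}) :=
      IntermediateField.adjoin.finiteDimensional hint
    let F : IntermediateField ℚ Qb :=
      IntermediateField.normalClosure ℚ (IntermediateField.adjoin ℚ {kRoot p M a}) Qb
    have hαF : kRoot p M a ∈ F :=
      IntermediateField.le_normalClosure _ (IntermediateField.mem_adjoin_simple_self ℚ _)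
    refine ⟨F.fixingSubgroup.subgroupOf M.fixingSubgroup,
      ⟨F, inferInstance, normalClosure.normal ℚ _ Qb, rfl⟩, fun g s hs => ?_⟩
    have hs' : (s : GQ) ∈ F.fixingSubgroup := Subgroup.mem_subgroupOf.mp hs
    exact (kChar_spec hζ hζM a).2.2 g.1 s.1
      ((IntermediateField.mem_fixingSubgroup_iff F _).mp hs' _ hαF)⟩

theorem kLevelChar_apply (a : Mˣ) (g : M.fixingSubgroup) :
    (kLevelChar hζ hζM a : M.fixingSubgroup → ZMod p) g = kChar hζ hζM a g.1 := rfl

include hζ hζM in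
theorem apply_zeta_eq (g : GQ) (hg : g ∈ M.fixingSubgroup) : g ζ = ζ :=
  (mem_iff_forall_apply_eq M ζ).mp hζM g hg

/-- Two units have the same Kummer character iff they differ by a `p`-th power. -/
theorem kLevelChar_eq_iff (a b : Mˣ) :
    kLevelChar hζ hζM a = kLevelChar hζ hζM b ↔ a⁻¹ * b ∈ (powMonoidHom p : Mˣ →* Mˣ).range := by
  have hp : p.Prime := Fact.out
  have hα0 := kRoot_ne_zero p M a
  have hβ0 := kRoot_ne_zero p M b
  have hαp := kRoot_pow p M a
  have hβp := kRoot_pow p M b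
  have ha0 : ((a : M) : Qb) ≠ 0 := fun h => a.ne_zero (Subtype.ext h)
  constructor
  · intro h
    have hγM : kRoot p M b / kRoot p M a ∈ M := by
      rw [mem_iff_forall_apply_eq]
      intro g hg
      have h1 := congrFun (congrArg Subtype.val h) ⟨g, hg⟩
      rw [kLevelChar_apply, kLevelChar_apply] at h1
      rw [map_div₀, (kChar_spec hζ hζM a).1 g hg, (kChar_spec hζ hζM b).1 g hg, h1]
      have hz : ζ ^ (kChar hζ hζM b g).val ≠ 0 := pow_ne_zero _ (hζ.ne_zero hp.ne_zero)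
      field_simp
    have hγ0 : kRoot p M b / kRoot p M a ≠ 0 := div_ne_zero hβ0 hα0
    refine ⟨Units.mk0 ⟨_, hγM⟩ (fun h0 => hγ0 (congrArg Subtype.val h0)), ?_⟩
    apply Units.ext
    apply Subtype.ext
    show (kRoot p M b / kRoot p M a) ^ p = (((a⁻¹ * b : Mˣ) : M) : Qb)
    rw [div_pow, hαp, hβp, Units.val_mul, Units.val_inv_eq_inv_val]
    show _ = ((a : M) : Qb)⁻¹ * ((b : M) : Qb)
    rw [div_eq_inv_mul]
  · rintro ⟨u, hu⟩
    have hu' : ((u : M) : Qb) ^ p = ((a : M) : Qb)⁻¹ * ((b : M) : Qb) := by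
      have := congrArg (fun t : Mˣ => ((t : M) : Qb)) hu
      simpa using this
    have hu0 : ((u : M) : Qb) ≠ 0 := fun h => u.ne_zero (Subtype.ext h)
    have h1 : (kRoot p M b / (kRoot p M a * ((u : M) : Qb))) ^ p = 1 := by
      rw [div_pow, mul_pow, hαp, hβp, hu']
      have hb0 : ((b : M) : Qb) ≠ 0 := fun h => b.ne_zero (Subtype.ext h)
      field_simp
    obtain ⟨j, -, hj⟩ := hζ.eq_pow_of_pow_eq_one h1
    have hβ : kRoot p M b = ζ ^ j * (kRoot p M a * ((u : M) : Qb)) := by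
      rw [hj]
      field_simp
    apply Subtype.ext
    funext g
    rw [kLevelChar_apply, kLevelChar_apply]
    have hgζ := apply_zeta_eq hζ hζM g.1 g.2
    have hgu : (g : GQ) ((u : M) : Qb) = ((u : M) : Qb) :=
      (mem_iff_forall_apply_eq M _).mp (u : M).2 g.1 g.2
    have h2 := (kChar_spec hζ hζM b).1 g.1 g.2
    have h3 : (g : GQ) (kRoot p M b) = ζ ^ (kChar hζ hζM a g.1).val * kRoot p M b := by
      conv_lhs => rw [hβ]
      rw [map_mul, map_pow, hgζ, map_mul, hgu, (kChar_spec hζ hζM a).1 g.1 g.2, hβ]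
      ring
    rw [h3] at h2
    exact zeta_pow_val_injective p hζ (mul_right_cancel₀ hβ0 h2)

/-- Every level character of `Gal(ℚ̄/M)` is a Kummer character. -/
theorem kLevelChar_surjective : Function.Surjective (kLevelChar (p := p) (M := M) hζ hζM) := by
  classical
  have hp : p.Prime := Fact.out
  intro χ'
  obtain ⟨hadd, hlev⟩ := mem_levelChars_iff.mp χ'.2
  obtain ⟨N, hN, hNc⟩ := (isLevelConst_one_iff (χ := (χ' : M.fixingSubgroup → ZMod p))).mp hlev
  obtain ⟨F, hFfin, -, rfl⟩ := (Bridge.mem_levD_iff _ _).mp hN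
  let χ : GQ → ZMod p := fun g =>
    if h : g ∈ M.fixingSubgroup then (χ' : M.fixingSubgroup → ZMod p) ⟨g, h⟩ else 0
  have hχ_eq : ∀ (g : GQ) (hg : g ∈ M.fixingSubgroup),
      χ g = (χ' : M.fixingSubgroup → ZMod p) ⟨g, hg⟩ := fun g hg => dif_pos hg
  have hχ : ∀ g ∈ M.fixingSubgroup, ∀ h ∈ M.fixingSubgroup, χ (g * h) = χ g + χ h := by
    intro g hg h hh
    rw [hχ_eq g hg, hχ_eq h hh, hχ_eq (g * h) (mul_mem hg hh)]
    exact hadd ⟨g, hg⟩ ⟨h, hh⟩
  have hF : ∀ g ∈ M.fixingSubgroup, ∀ s ∈ M.fixingSubgroup, s ∈ F.fixingSubgroup →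
      χ (g * s) = χ g := by
    intro g hg s hs hsF
    rw [hχ_eq g hg, hχ_eq (g * s) (mul_mem hg hs)]
    exact hNc ⟨g, hg⟩ ⟨s, hs⟩ (Subgroup.mem_subgroupOf.mpr hsF)
  obtain ⟨α, hα0, hαM, hα⟩ := exists_root_of_character p M hζ hζM χ hχ F hF
  let a : Mˣ := Units.mk0 ⟨α ^ p, hαM⟩ (fun h0 => pow_ne_zero p hα0 (congrArg Subtype.val h0))
  refine ⟨a, ?_⟩
  apply Subtype.ext
  funext g
  rw [kLevelChar_apply, ← hχ_eq g.1 g.2]
  have hα'p : kRoot p M a ^ p = α ^ p := kRoot_pow p M a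
  have hα'0 := kRoot_ne_zero p M a
  have h1 : (kRoot p M a / α) ^ p = 1 := by
    rw [div_pow, hα'p]
    exact div_self (pow_ne_zero p hα0)
  obtain ⟨j, -, hj⟩ := hζ.eq_pow_of_pow_eq_one h1
  have hα' : kRoot p M a = ζ ^ j * α := by
    rw [hj]
    field_simp
  have hgζ := apply_zeta_eq hζ hζM g.1 g.2
  have h2 := (kChar_spec hζ hζM a).1 g.1 g.2
  have h3 : (g : GQ) (kRoot p M a) = ζ ^ (χ g.1).val * kRoot p M a := by
    conv_lhs => rw [hα']
    rw [map_mul, map_pow, hgζ, hα g.1 g.2, hα']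
    ring
  rw [h3] at h2
  exact (zeta_pow_val_injective p hζ (mul_right_cancel₀ hα'0 h2)).symm

include hζ hζM in
/-- **Kummer theory, counting form**: for any intermediate field `M ∋ ζ_p` of `ℚ̄/ℚ`, the level
characters `Gal(ℚ̄/M) → 𝔽_p` are in bijection with `Mˣ / Mˣᵖ`. -/
theorem card_levelChars_eq :
    Nat.card (levelChars (Bridge.levD M.fixingSubgroup) (ZMod p)) =
      Nat.card (Mˣ ⧸ (powMonoidHom p : Mˣ →* Mˣ).range) := by
  let f : Mˣ ⧸ (powMonoidHom p : Mˣ →* Mˣ).range →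
      levelChars (Bridge.levD M.fixingSubgroup) (ZMod p) :=
    Quotient.lift (kLevelChar hζ hζM) (fun a b hab =>
      (kLevelChar_eq_iff hζ hζM a b).mpr (QuotientGroup.leftRel_apply.mp hab))
  have hf : Function.Bijective f := by
    constructor
    · intro x y
      refine Quotient.inductionOn₂ x y fun a b h => ?_
      exact Quotient.sound (QuotientGroup.leftRel_apply.mpr
        ((kLevelChar_eq_iff hζ hζM a b).mp h))
    · intro χ
      obtain ⟨a, ha⟩ := kLevelChar_surjective hζ hζM χ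
      exact ⟨Quotient.mk _ a, ha⟩
  exact (Nat.card_congr (Equiv.ofBijective f hf)).symm

end KummerIso

section B2

open Fermat.Agent.PT.Base

variable (p : ℕ) [Fact p.Prime]

/-- **(B2-KUM), general form**: for any intermediate field `M ∋ ζ_p` with `Gal(ℚ̄/M) = V`,
`#H¹(V; 𝔽_p) = #(Mˣ / Mˣᵖ)` (all-level cohomology). -/
theorem card_H1_CV_eq_of_fixingSubgroup_eq (M : IntermediateField ℚ Qb) {ζ : Qb}
    (hζ : IsPrimitiveRoot ζ p) (hζM : ζ ∈ M) (V : Subgroup GQ) (hV : M.fixingSubgroup = V) :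
    Nat.card ((CV p V).H 1) = Nat.card (Mˣ ⧸ (powMonoidHom p : Mˣ →* Mˣ).range) := by
  subst hV
  rw [← card_levelChars_eq hζ hζM]
  exact Nat.card_congr (h1TrivEquiv (Bridge.levD M.fixingSubgroup) (ZMod p)).toEquiv

/-- **(B2-KUM)**: for `K ∋ ζ_p` and a valuation subring `A` of `ℚ̄`, with
`M = decompField K A` (the henselisation of `K` at `A`):
`#H¹(G_K ⊓ D_A; 𝔽_p) = #(Mˣ / Mˣᵖ)`. -/
theorem card_H1_CV_decomp (K : IntermediateField ℚ Qb) (A : ValuationSubring Qb) {ζ : Qb}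
    (hζ : IsPrimitiveRoot ζ p) (hζK : ζ ∈ K) :
    Nat.card ((CV p (K.fixingSubgroup ⊓ decomp A)).H 1) =
      Nat.card ((decompField K A)ˣ ⧸
        (powMonoidHom p : (decompField K A)ˣ →* (decompField K A)ˣ).range) :=
  card_H1_CV_eq_of_fixingSubgroup_eq p (decompField K A) hζ (le_decompField K A hζK) _
    (by rw [fixingSubgroup_decompField, inf_comm])

/-- **(B2), cardinality form**: `#H¹(G_K ⊓ D_A; 𝔽_p) = p ^ (2 + [q = p]·[D_A : G_K ⊓ D_A])` for a
number field `K ∋ ζ_p` and `A` over `q`. -/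
theorem card_H1_CV_decomp_eq_pow (K : IntermediateField ℚ Qb) [NumberField K] {q : ℕ}
    (hq : q.Prime) (A : ValuationSubring Qb) (hA : A.LiesOverPrime q) {ζ : Qb}
    (hζ : IsPrimitiveRoot ζ p) (hζK : ζ ∈ K) :
    Nat.card ((CV p (K.fixingSubgroup ⊓ decomp A)).H 1) =
      p ^ (2 + if q = p then K.fixingSubgroup.relIndex (decomp A) else 0) := by
  rw [card_H1_CV_decomp p K A hζ hζK]
  exact card_units_quot_pow_decompField K hq A hA Fact.out hζ hζK

/-- **(B2)**: `h¹(G_K ⊓ D_A; 𝔽_p) = 2 + [q = p]·[D_A : G_K ⊓ D_A]`, with finiteness. -/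
theorem finrank_H1_CV_decomp (K : IntermediateField ℚ Qb) [NumberField K] {q : ℕ}
    (hq : q.Prime) (A : ValuationSubring Qb) (hA : A.LiesOverPrime q) {ζ : Qb}
    (hζ : IsPrimitiveRoot ζ p) (hζK : ζ ∈ K) :
    Module.Finite (ZMod p) ((CV p (K.fixingSubgroup ⊓ decomp A)).H 1) ∧
      Module.finrank (ZMod p) ((CV p (K.fixingSubgroup ⊓ decomp A)).H 1) =
        2 + if q = p then K.fixingSubgroup.relIndex (decomp A) else 0 := by
  have hp : p.Prime := Fact.out
  have hcard := card_H1_CV_decomp_eq_pow p K hq A hA hζ hζK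
  have hfin : Finite ((CV p (K.fixingSubgroup ⊓ decomp A)).H 1) :=
    Nat.finite_of_card_ne_zero (by rw [hcard]; exact pow_ne_zero _ hp.ne_zero)
  have hmf : Module.Finite (ZMod p) ((CV p (K.fixingSubgroup ⊓ decomp A)).H 1) :=
    Module.Finite.of_finite
  refine ⟨hmf, ?_⟩
  have h4 := Module.natCard_eq_pow_finrank (K := ZMod p)
    (V := (CV p (K.fixingSubgroup ⊓ decomp A)).H 1)
  rw [hcard, Nat.card_zmod] at h4
  exact (Nat.pow_right_injective hp.two_le h4).symm

/-- **(B2) of the BASE interface.** -/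
theorem b2 (S : Finset Nat.Primes) : B2 p S := by
  intro K hKfin hcyc q _ A hA
  haveI := hKfin
  haveI : NumberField K := PlaceDict.numberField K
  obtain ⟨ζ, hζ⟩ := Levels.exists_primitiveRoot_Qbar p
  have hζK : ζ ∈ K := (mem_iff_forall_apply_eq K ζ).mpr fun g hg =>
    (Levels.cycloChar_eq_one_iff p g hζ).mp (hcyc g hg)
  exact (finrank_H1_CV_decomp p K q.2 A hA hζ hζK).2

end B2

end Fermat.Agent.PT.Kummer
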