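import Mathlib
import Fermat.Agent.PT.G.AuxPrime
import Fermat.Agent.PT.G.CycloField

/-!
# The auxiliary prime and subgroup of (B4) (PT, layer G; piece (AUX))

* `exists_aux_prime_subgroup` : for an odd prime `p`, a prime `q₀` and a finite set `T` of
  excluded primes there are a prime `ℓ ∉ T`, `ℓ ∉ {p, q₀, 2}`, and a subgroup `H` of `(ℤ/ℓ)ˣ`
  with `-1 ∈ H`, of `p`-power index, such that the order of `q₀` in `(ℤ/ℓ)ˣ ⧸ H` is divisible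
  by `p`.
* `exists_zpowers_cycloChar_eq_top` : some `σ ∈ Gal(ℚ̄/ℚ)` has cyclotomic value generating
  `(ℤ/ℓ)ˣ`.
-/

set_option autoImplicit false

namespace Fermat.Agent.PT.G

open ExtCitation Fermat.Agent.PT.Levels Fermat.Agent.Lib.FrobeniusExists
open scoped Pointwise

local notation "Qb" => AlgebraicClosure ℚ
local notation "GQ" => (AlgebraicClosure ℚ ≃ₐ[ℚ] AlgebraicClosure ℚ)

attribute [local instance] isAlgClosure_rat isGalois_rat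

/-- **(AUX)** The auxiliary prime `ℓ` and the subgroup `H ≤ (ℤ/ℓ)ˣ` of `p`-power index. -/
theorem exists_aux_prime_subgroup {p : ℕ} [Fact p.Prime] (hp2 : p ≠ 2) {q₀ : ℕ}
    (hq₀ : q₀.Prime) (T : Finset ℕ) :
    ∃ (ℓ : ℕ) (_ : Fact ℓ.Prime) (H : Subgroup (ZMod ℓ)ˣ) (u₀ : (ZMod ℓ)ˣ) (c : ℕ),
      ℓ ∉ T ∧ ℓ ≠ p ∧ ℓ ≠ q₀ ∧ ℓ ≠ 2 ∧ (-1 : (ZMod ℓ)ˣ) ∈ H ∧ H.index = p ^ c ∧
      (u₀ : ZMod ℓ) = (q₀ : ZMod ℓ) ∧
      p ∣ orderOf (QuotientGroup.mk u₀ : (ZMod ℓ)ˣ ⧸ H) := by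
  classical
  have hp : p.Prime := Fact.out
  obtain ⟨ℓ, b, hℓ, hT, hℓp, hndvd, hb, hord⟩ :=
    exists_prime_orderOf_eq_pow hp2 hq₀.two_le 1 (insert 2 (insert q₀ T))
  have hℓ2 : ℓ ≠ 2 := fun h => hT (h ▸ Finset.mem_insert_self _ _)
  have hℓq : ℓ ≠ q₀ := fun h =>
    hT (h ▸ Finset.mem_insert_of_mem (Finset.mem_insert_self _ _))
  have hℓT : ℓ ∉ T := fun h =>
    hT (Finset.mem_insert_of_mem (Finset.mem_insert_of_mem h))
  have hfact : Fact ℓ.Prime := ⟨hℓ⟩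
  have hq0 : (q₀ : ZMod ℓ) ≠ 0 := fun h => hndvd ((ZMod.natCast_eq_zero_iff _ _).mp h)
  -- `ℓ - 1 = p ^ c * m'`, `p ∤ m'`
  have hℓ1 : ℓ - 1 ≠ 0 := by
    have := hℓ.two_le
    omega
  obtain ⟨c, m', hm', hcm⟩ := Nat.exists_eq_pow_mul_and_not_dvd hℓ1 p hp.ne_one
  have hcard : Nat.card (ZMod ℓ)ˣ = ℓ - 1 := by
    rw [Nat.card_eq_fintype_card, ZMod.card_units_eq_totient, Nat.totient_prime hℓ]
  set H : Subgroup (ZMod ℓ)ˣ := (powMonoidHom (p ^ c) : (ZMod ℓ)ˣ →* (ZMod ℓ)ˣ).range with hH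
  have hidx : H.index = p ^ c := by
    rw [hH, IsCyclic.index_powMonoidHom_range, hcard, hcm]
    exact Nat.gcd_eq_right (Dvd.intro _ rfl)
  set u₀ : (ZMod ℓ)ˣ := Units.mk0 (q₀ : ZMod ℓ) hq0 with hu₀
  have hordu : orderOf u₀ = p ^ b := by
    rw [← orderOf_units, hu₀, Units.val_mk0]
    exact hord
  refine ⟨ℓ, hfact, H, u₀, c, hℓT, hℓp, hℓq, hℓ2, ?_, hidx, rfl, ?_⟩
  · -- `-1 = (-1) ^ (p ^ c)`
    refine ⟨-1, ?_⟩
    rw [powMonoidHom_apply]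
    exact Odd.neg_one_pow ((hp.odd_of_ne_two hp2).pow)
  · -- the order of `q₀` modulo `H` is divisible by `p`
    by_contra hnd
    have hdvd : orderOf (QuotientGroup.mk u₀ : (ZMod ℓ)ˣ ⧸ H) ∣ p ^ c := by
      have h1 := orderOf_dvd_natCard (QuotientGroup.mk u₀ : (ZMod ℓ)ˣ ⧸ H)
      rwa [← Subgroup.index_eq_card, hidx] at h1
    obtain ⟨j, -, hj⟩ := (Nat.dvd_prime_pow hp).mp hdvd
    have hj0 : j = 0 := by
      by_contra hj0
      apply hnd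
      rw [hj]
      exact dvd_pow_self p hj0
    rw [hj0, pow_zero, orderOf_eq_one_iff, QuotientGroup.eq_one_iff] at hj
    obtain ⟨v, hv⟩ := hj
    rw [powMonoidHom_apply] at hv
    have h1 : u₀ ^ m' = 1 := by
      rw [← hv, ← pow_mul, ← hcm, ← hcard]
      exact pow_card_eq_one'
    have h2 : p ^ b ∣ m' := by
      rw [← hordu]
      exact orderOf_dvd_of_pow_eq_one h1
    exact hm' ((dvd_pow_self p (by omega : b ≠ 0)).trans h2)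

section Cyclo

variable (ℓ : ℕ) [Fact ℓ.Prime]

/-- Some element of `Gal(ℚ̄/ℚ)` has cyclotomic value generating `(ℤ/ℓ)ˣ`. -/
theorem exists_zpowers_cycloChar_eq_top : ∃ σ : GQ, Subgroup.zpowers (cycloChar ℓ σ) = ⊤ := by
  obtain ⟨g, hg⟩ := isCyclic_iff_exists_zpowers_eq_top.mp
    (inferInstance : IsCyclic (ZMod ℓ)ˣ)
  obtain ⟨σ, hσ⟩ := cycloChar_surjective ℓ g
  exact ⟨σ, by rw [hσ]; exact hg⟩

end Cyclo

end Fermat.Agent.PT.G
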