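/-
PT / G : conjugation transport of level coboundaries (B4 assembly, abstract part).

Relative vocabulary of `PT/Br` (ambient group `Γ`, additive coefficients `A`).

For a 2-cocycle `z` of the WHOLE group `Γ`, inflated from `Γ/N`, and `g ∈ Γ`:
`z (h, k) = g • z (g⁻¹ h g, g⁻¹ k g) - d1 t (h, k)` with `t x = z (g, g⁻¹ x g) - z (x, g)`
(inner automorphisms act trivially on cohomology, explicit homotopy).  Hence if `z` is a level
coboundary on a subgroup `M₀`, it is a level coboundary on every conjugate `g M₀ g⁻¹`.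
-/
import Fermat.Agent.PT.Br.Basic

set_option autoImplicit false

namespace Fermat.Agent.PT.G

open Fermat.Agent.PT.Br

variable {Γ A : Type*} [Group Γ] [AddCommGroup A] [DistribMulAction Γ A]

/-- Conjugation identity for a 2-cocycle on the whole group. -/
lemma b4_conj_identity {z : Γ × Γ → A} (hz : CocOn₂ (⊤ : Subgroup Γ) z) (g h k : Γ) :
    z (h, k) = g • z (g⁻¹ * h * g, g⁻¹ * k * g)
      - d1 (fun x => z (g, g⁻¹ * x * g) - z (x, g)) (h, k) := by
  have e1 := hz g trivial (g⁻¹ * h * g) trivial (g⁻¹ * k * g) trivial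
  have e2 := hz h trivial g trivial (g⁻¹ * k * g) trivial
  have e3 := hz h trivial k trivial g trivial
  have a1 : g * (g⁻¹ * h * g) = h * g := by group
  have a2 : g⁻¹ * h * g * (g⁻¹ * k * g) = g⁻¹ * (h * k) * g := by group
  have a3 : g * (g⁻¹ * k * g) = k * g := by group
  rw [a1, a2] at e1
  rw [a3] at e2
  simp only [d1_apply, smul_sub]
  linear_combination (norm := abel) e1 - e2 + e3

/-- **Conjugation transport.**  A 2-cocycle of `Γ` inflated from `Γ/N` which is a level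
coboundary on `M₀` is a level coboundary on every subgroup `M` with `g⁻¹ M g ≤ M₀`. -/
theorem b4_cobOn₂_conj {z : Γ × Γ → A} (hz : CocOn₂ (⊤ : Subgroup Γ) z) {N : Subgroup Γ}
    (hi : InflOn₂ (⊤ : Subgroup Γ) N z) (g : Γ) {M₀ N₀ M N₁ : Subgroup Γ}
    (hc : CobOn₂ M₀ N₀ z) (hM : ∀ h ∈ M, g⁻¹ * h * g ∈ M₀)
    (hN₁ : ∀ n ∈ N₁, g⁻¹ * n * g ∈ N₀ ∧ n ∈ N ∧ g⁻¹ * n * g ∈ N) : CobOn₂ M N₁ z := by
  obtain ⟨f, hf, he⟩ := hc
  refine ⟨fun x => g • f (g⁻¹ * x * g) - (z (g, g⁻¹ * x * g) - z (x, g)),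
    ⟨fun h hh n hn => ?_, fun h hh n hn => ?_⟩, fun h hh k hk => ?_⟩
  · obtain ⟨h1, h2, h3⟩ := hN₁ n hn
    have a : g⁻¹ * (h * n) * g = (g⁻¹ * h * g) * (g⁻¹ * n * g) := by group
    have b0 : f (g⁻¹ * (h * n) * g) = f (g⁻¹ * h * g) := by
      rw [a, hf.1 _ (hM h hh) _ h1]
    have b1 : z (g, g⁻¹ * (h * n) * g) = z (g, g⁻¹ * h * g) := by
      rw [a]
      have := hi.1 g trivial (g⁻¹ * h * g) trivial 1 N.one_mem _ h3
      rwa [mul_one] at this
    have b2 : z (h * n, g) = z (h, g) := by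
      have := hi.1 h trivial g trivial n h2 1 N.one_mem
      rwa [mul_one] at this
    show g • f (g⁻¹ * (h * n) * g) - (z (g, g⁻¹ * (h * n) * g) - z (h * n, g))
      = g • f (g⁻¹ * h * g) - (z (g, g⁻¹ * h * g) - z (h, g))
    rw [b0, b1, b2]
  · obtain ⟨h1, h2, h3⟩ := hN₁ n hn
    show n • (g • f (g⁻¹ * h * g) - (z (g, g⁻¹ * h * g) - z (h, g)))
      = g • f (g⁻¹ * h * g) - (z (g, g⁻¹ * h * g) - z (h, g))
    rw [smul_sub, smul_sub, hi.2 _ trivial _ trivial n h2, hi.2 _ trivial _ trivial n h2]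
    congr 1
    rw [← mul_smul]
    have e : n * g = g * (g⁻¹ * n * g) := by group
    rw [e, mul_smul, hf.2 _ (hM h hh) _ h1]
  · rw [b4_conj_identity hz g h k, he _ (hM h hh) _ (hM k hk)]
    have a : g⁻¹ * (h * k) * g = (g⁻¹ * h * g) * (g⁻¹ * k * g) := by group
    have b : g • (g⁻¹ * h * g) • f (g⁻¹ * k * g) = h • g • f (g⁻¹ * k * g) := by
      rw [← mul_smul, ← mul_smul]
      congr 1
      group
    simp only [d1_apply, smul_sub, smul_add, a, b]
    abel

end Fermat.Agent.PT.G
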