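/-
PT / G : restriction of a carry cocycle to a subgroup (B4, local half — abstract part).

Relative vocabulary of `PT/Br` (ambient group `Γ`, additive coefficients `A`).

`M/N` cyclic of order `d` generated by `σ` (exponent `e`), `M' ≤ M` with `M'/(M' ⊓ N)` cyclic of
order `m` generated by `σ'` (exponent `e'`).  Then for an `M`-fixed `a`:

* `cobOn₂_sub_carryCoc_sum` : explicit form of (C4) — a cocycle `z` inflated from the cyclic
  quotient is cohomologous to the carry cocycle of `∑ l < m, z (σ^l, σ)`;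
* `exists_cobOn₂_carryCoc_sub` : on `M'`, `carryCoc d e a ~ carryCoc m e' (j • a)` with
  `j * d = m * e σ'`, `gcd (j, m) = 1`;
* `exists_cobOn₂_carryCoc_res_iff` : hence (Hilbert 90 for `M' ⊓ N`) the restriction of
  `carryCoc d e a` to `M'` is a level coboundary iff `j • a` is a norm from `A^(M' ⊓ N)`;
* `carryCoc_eq_zero_of_le` : the split case `M' ≤ N`;
* `partialNm_eq_of_cycData` : the norm does not depend on the generator.
-/
import Fermat.Agent.PT.Br.Cyclic

set_option autoImplicit false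

namespace Fermat.Agent.PT.G.CarryRes

open Fermat.Agent.PT.Br Finset

variable {Γ A : Type*} [Group Γ] [AddCommGroup A] [DistribMulAction Γ A]

section explicit

variable {M N : Subgroup Γ} {m : ℕ} {σ : Γ} {e : Γ → ℕ}

/-- `∑ i < m, d1 f (σ^i, σ)` is the norm of `f σ` (for `f` inflated from `M/N`). -/
lemma sum_d1_pow (h : CycData M N m σ e) {f : Γ → A} (hf : InflOn₁ M N f) :
    ∑ i ∈ range m, d1 f (σ ^ i, σ) = partialNm σ m (f σ) := by
  simp only [d1_apply]
  have htel : ∑ i ∈ range m, (f (σ ^ (i + 1)) - f (σ ^ i)) = f (σ ^ m) - f (σ ^ 0) :=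
    sum_range_sub (fun i => f (σ ^ i)) m
  have hfm : f (σ ^ m) = f 1 := by
    simpa using hf.1 1 M.one_mem _ h.pow_m_mem
  rw [hfm, pow_zero, sub_self] at htel
  have : ∑ i ∈ range m, (σ ^ i • f σ - f (σ ^ i * σ) + f (σ ^ i)) =
      ∑ i ∈ range m, σ ^ i • f σ - ∑ i ∈ range m, (f (σ ^ (i + 1)) - f (σ ^ i)) := by
    rw [← sum_sub_distrib]
    refine sum_congr rfl fun i _ => ?_
    rw [pow_succ]; abel
  rw [this, htel, sub_zero, partialNm]

/-- `∑ i < m, carryCoc m e a (σ^i, σ) = a`. -/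
lemma sum_carryCoc_pow (h : CycData M N m σ e) (a : A) :
    ∑ i ∈ range m, carryCoc m e a (σ ^ i, σ) = a := by
  obtain ⟨m', rfl⟩ : ∃ m', m = m' + 1 := ⟨m - 1, by have := h.one_lt; omega⟩
  rw [sum_range_succ]
  have h0 : ∑ i ∈ range m', carryCoc (m' + 1) e a (σ ^ i, σ) = 0 := by
    apply sum_eq_zero
    intro i hi
    rw [mem_range] at hi
    simp only [carryCoc_apply, carry, h.e_pow, h.e_σ]
    rw [Nat.mod_eq_of_lt (by omega), Nat.div_eq_of_lt (by omega), zero_smul]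
  rw [h0, zero_add]
  simp only [carryCoc_apply, carry, h.e_pow, h.e_σ]
  rw [Nat.mod_eq_of_lt (by omega), Nat.div_self (by omega), one_smul]

/-- **Explicit (C4).**  A 2-cocycle of `M` inflated from the cyclic quotient `M/N` is
cohomologous to the carry cocycle of `∑ l < m, z (σ^l, σ)`. -/
theorem cobOn₂_sub_carryCoc_sum (h : CycData M N m σ e) {z : Γ × Γ → A} (hz : CocOn₂ M z)
    (hi : InflOn₂ M N z) :
    CobOn₂ M N (z - carryCoc m e (∑ l ∈ range m, z (σ ^ l, σ))) := by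
  obtain ⟨a, ha, f, hf, hfe⟩ := h.exists_carryCoc_cohomologous hz hi
  have hsum : ∑ l ∈ range m, z (σ ^ l, σ) = a + partialNm σ m (f σ) := by
    have h1 : ∑ l ∈ range m, (z - carryCoc m e a) (σ ^ l, σ) = ∑ l ∈ range m, d1 f (σ ^ l, σ) :=
      sum_congr rfl fun l _ => hfe _ (h.pow_mem l) _ h.σ_mem
    rw [sum_d1_pow h hf] at h1
    simp only [Pi.sub_apply, sum_sub_distrib] at h1
    rw [sum_carryCoc_pow h a] at h1
    rw [← h1]; abel
  have hfσ : ∀ n ∈ N, n • f σ = f σ := hf.2 σ h.σ_mem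
  have h2 : CobOn₂ M N (z - carryCoc m e a) := ⟨f, hf, hfe⟩
  have h3 := h2.sub (h.cobOn₂_carryCoc_Nm hfσ)
  refine h3.congr fun g _ k _ => ?_
  rw [hsum, carryCoc_add]
  simp only [Pi.sub_apply, Pi.add_apply]; abel

/-- Counting the carries along the powers of `τ ∈ M`. -/
lemma e_pow_add_sum_carry (h : CycData M N m σ e) {τ : Γ} (hτ : τ ∈ M) (k : ℕ) :
    e (τ ^ k) + m * ∑ l ∈ range k, carry m e (τ ^ l) τ = k * e τ := by
  induction k with
  | zero => simp [h.e_one]
  | succ k ih =>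
    have e1 := h.e_add (M.pow_mem hτ k) hτ
    rw [← pow_succ] at e1
    rw [sum_range_succ, mul_add, add_mul, one_mul]
    omega

/-- The norm from `A^N` does not depend on the generator of `M/N`: the exponents of the powers of
another generator are a permutation. -/
lemma e_pow_e_pow {σ' : Γ} {e' : Γ → ℕ} (h : CycData M N m σ e) (h' : CycData M N m σ' e')
    {i : ℕ} (hi : i < m) : e' (σ ^ e (σ' ^ i)) = i := by
  have h1 := h.e_spec _ (h'.pow_mem i)
  have h2 : σ' ^ i = σ ^ e (σ' ^ i) * ((σ ^ e (σ' ^ i))⁻¹ * σ' ^ i) := by group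
  have h3 := h'.e_mul_right (h.pow_mem (e (σ' ^ i))) h1
  rw [← h2, h'.e_pow, Nat.mod_eq_of_lt hi] at h3
  exact h3.symm

/-- The norm from `A^N` does not depend on the generator of `M/N`. -/
theorem partialNm_eq_of_cycData {σ' : Γ} {e' : Γ → ℕ} (h : CycData M N m σ e)
    (h' : CycData M N m σ' e') {y : A} (hy : ∀ n ∈ N, n • y = y) :
    partialNm σ m y = partialNm σ' m y := by
  unfold partialNm
  symm
  refine sum_nbij' (fun i => e (σ' ^ i)) (fun j => e' (σ ^ j)) ?_ ?_ ?_ ?_ ?_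
  · intro i _
    exact mem_range.2 (h.e_lt _ (h'.pow_mem i))
  · intro j _
    exact mem_range.2 (h'.e_lt _ (h.pow_mem j))
  · intro i hi
    exact e_pow_e_pow h h' (mem_range.1 hi)
  · intro j hj
    exact e_pow_e_pow h' h (mem_range.1 hj)
  · intro i _
    exact h.smul_eq hy (h'.pow_mem i)

end explicit

section restriction

variable {M N M' : Subgroup Γ} {d m : ℕ} {σ σ' : Γ} {e e' : Γ → ℕ}

/-- The split case: the carry cocycle of `M/N` vanishes on every subgroup of `N`. -/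
lemma carryCoc_eq_zero_of_le (h : CycData M N d σ e) (hM'N : M' ≤ N) (a : A) :
    ∀ g ∈ M', ∀ k ∈ M', carryCoc d e a (g, k) = 0 := by
  intro g hg k hk
  have hd : 0 < d := lt_trans Nat.zero_lt_one h.one_lt
  simp only [carryCoc_apply, carry, h.e_N g (hM'N hg), h.e_N k (hM'N hk), add_zero,
    Nat.zero_div, zero_smul]

lemma cobOn₂_carryCoc_of_le (h : CycData M N d σ e) (hM'N : M' ≤ N) (a : A) (N₀ : Subgroup Γ) :
    CobOn₂ M' N₀ (carryCoc d e a) :=
  (cobOn₂_zero M' N₀).congr fun g hg k hk => by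
    rw [carryCoc_eq_zero_of_le h hM'N a g hg k hk]; rfl

/-- The number of carries `j = ∑ l < m, carry d e (σ'^l) σ'` along a generator `σ'` of
`M'/(M' ⊓ N)`: `j * d = m * e σ'` and `gcd (j, m) = 1`. -/
lemma sum_carry_spec (h : CycData M N d σ e) (hM' : M' ≤ M)
    (h' : CycData M' (M' ⊓ N) m σ' e') :
    (∑ l ∈ range m, carry d e (σ' ^ l) σ') * d = m * e σ' ∧
      Nat.Coprime (∑ l ∈ range m, carry d e (σ' ^ l) σ') m := by
  have hσ'M : σ' ∈ M := hM' h'.σ_mem
  have hd : 0 < d := lt_trans Nat.zero_lt_one h.one_lt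
  have hm : 0 < m := lt_trans Nat.zero_lt_one h'.one_lt
  have hcount := e_pow_add_sum_carry h hσ'M
  have h1 : (∑ l ∈ range m, carry d e (σ' ^ l) σ') * d = m * e σ' := by
    have := hcount m
    rw [h.e_N _ h'.pow_m_mem.2, zero_add] at this
    rw [mul_comm]; exact this
  refine ⟨h1, ?_⟩
  rw [Nat.coprime_iff_gcd_eq_one]
  by_contra hg
  obtain ⟨r, hr, hrg⟩ := Nat.exists_prime_and_dvd hg
  obtain ⟨j₁, hj₁⟩ := hrg.trans (Nat.gcd_dvd_left _ _)
  obtain ⟨m₁, hm₁⟩ := hrg.trans (Nat.gcd_dvd_right _ _)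
  have hr0 : 0 < r := hr.pos
  have hm₁0 : 0 < m₁ := by
    rcases Nat.eq_zero_or_pos m₁ with h0 | h0
    · rw [h0, mul_zero] at hm₁; omega
    · exact h0
  have hm₁lt : m₁ < m := by
    have := hr.two_le
    nlinarith
  -- `m₁ * e σ' = j₁ * d`
  have h2 : m₁ * e σ' = j₁ * d := by
    rw [hj₁, hm₁] at h1
    have : r * (j₁ * d) = r * (m₁ * e σ') := by rw [← mul_assoc, h1, mul_assoc]
    exact (Nat.eq_of_mul_eq_mul_left hr0 this).symm
  have h3 := hcount m₁
  rw [h2] at h3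
  have h4 : d ∣ e (σ' ^ m₁) := by
    have : d ∣ e (σ' ^ m₁) + d * ∑ l ∈ range m₁, carry d e (σ' ^ l) σ' := by
      rw [h3]; exact dvd_mul_left d j₁
    exact (Nat.dvd_add_left (dvd_mul_right d _)).1 this
  have h5 : e (σ' ^ m₁) = 0 :=
    Nat.eq_zero_of_dvd_of_lt h4 (h.e_lt _ (M.pow_mem hσ'M m₁))
  have h6 : σ' ^ m₁ ∈ M' ⊓ N := by
    refine ⟨M'.pow_mem h'.σ_mem m₁, ?_⟩
    have := h.e_spec _ (M.pow_mem hσ'M m₁)
    rw [h5] at this
    simpa using this
  have h7 := h'.e_N _ h6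
  rw [h'.e_pow, Nat.mod_eq_of_lt hm₁lt] at h7
  omega

/-- **Restriction of a carry cocycle.**  On `M'`, the carry cocycle of `M/N` attached to the
`M`-fixed `a` is cohomologous (at level `M' ⊓ N`) to the carry cocycle of `M'/(M' ⊓ N)` attached
to `j • a`, where `j * d = m * e σ'` and `gcd (j, m) = 1`. -/
theorem exists_cobOn₂_carryCoc_sub (h : CycData M N d σ e) (hM' : M' ≤ M)
    (h' : CycData M' (M' ⊓ N) m σ' e') {a : A} (ha : ∀ g ∈ M, g • a = a) :
    ∃ j : ℕ, j * d = m * e σ' ∧ Nat.Coprime j m ∧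
      CobOn₂ M' (M' ⊓ N) (carryCoc d e a - carryCoc m e' (j • a)) := by
  obtain ⟨h1, h2⟩ := sum_carry_spec h hM' h'
  refine ⟨_, h1, h2, ?_⟩
  have hz : CocOn₂ M' (carryCoc d e a) := (h.cocOn₂_carryCoc ha).mono hM'
  have hi : InflOn₂ M' (M' ⊓ N) (carryCoc d e a) :=
    ((h.inflOn₂_carryCoc ha).mono_left hM').mono inf_le_right
  have h3 := cobOn₂_sub_carryCoc_sum h' hz hi
  have h4 : ∑ l ∈ range m, carryCoc d e a (σ' ^ l, σ') =
      (∑ l ∈ range m, carry d e (σ' ^ l) σ') • a := by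
    simp only [carryCoc_apply, sum_smul]
  rwa [h4] at h3

/-- **Local norm criterion for a global carry class.**  With Hilbert 90 for `M' ⊓ N` at the level
`N₀`, the restriction to `M'` of the carry cocycle of `M/N` attached to `a` is a level-`N₀`
coboundary iff `j • a` is a norm from `A^(M' ⊓ N)` (`j * d = m * e σ'`, `gcd (j, m) = 1`). -/
theorem exists_cobOn₂_carryCoc_res_iff (h : CycData M N d σ e) (hM' : M' ≤ M)
    (h' : CycData M' (M' ⊓ N) m σ' e') {a : A} (ha : ∀ g ∈ M, g • a = a) :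
    ∃ j : ℕ, j * d = m * e σ' ∧ Nat.Coprime j m ∧
      ∀ N₀ : Subgroup Γ, N₀ ≤ M' ⊓ N → H90On A (M' ⊓ N) N₀ →
        (CobOn₂ M' N₀ (carryCoc d e a) ↔
          ∃ y : A, (∀ n ∈ M' ⊓ N, n • y = y) ∧ j • a = partialNm σ' m y) := by
  obtain ⟨j, h1, h2, h3⟩ := exists_cobOn₂_carryCoc_sub h hM' h' ha
  refine ⟨j, h1, h2, fun N₀ h0 hH => ?_⟩
  have ha' : ∀ g ∈ M', g • (j • a) = j • a := fun g hg => by
    rw [smul_comm, ha g (hM' hg)]
  rw [← h'.cobOn₂_carryCoc_iff h0 hH ha']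
  have h3' := h3.mono h0
  constructor
  · intro hc
    have := hc.sub h3'
    refine this.congr fun g _ k _ => ?_
    simp only [Pi.sub_apply]; abel
  · intro hc
    have := hc.add h3'
    refine this.congr fun g _ k _ => ?_
    simp only [Pi.sub_apply, Pi.add_apply]; abel

end restriction

end Fermat.Agent.PT.G.CarryRes
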