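import Mathlib

/-!
# Elementary cyclotomic reciprocity over `ℚ`

`ℓ` a prime, `H` a subgroup of `(ℤ/ℓ)ˣ` containing `-1` (the subgroup corresponding to a real
subfield `E` of `ℚ(ζ_ℓ)`), `b ∈ ℚˣ`.  If `q ^ v_q(b) ∈ H` for all primes `q ∉ {ℓ, q₀}` ("`b` is a
local norm from `E` at `q`") and the `ℓ`-unit part of `b` lies in `H` ("`b` is a local norm at
`ℓ`"), then `q₀ ^ v_{q₀}(b) ∈ H` (`rat_reciprocity`).  This is the product formula
`b = ± ∏_q q ^ v_q(b)`.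
-/

set_option autoImplicit false

namespace Fermat.Agent.PT.G

section InH

variable {ℓ : ℕ} [Fact ℓ.Prime] (H : Subgroup (ZMod ℓ)ˣ)

/-- `x : ZMod ℓ` is (the image of) an element of the subgroup `H` of `(ZMod ℓ)ˣ`. -/
def InH (x : ZMod ℓ) : Prop := ∃ u ∈ H, (u : ZMod ℓ) = x

variable {H}

theorem InH.ne_zero {x : ZMod ℓ} (hx : InH H x) : x ≠ 0 := by
  obtain ⟨u, -, rfl⟩ := hx
  exact u.ne_zero

theorem inH_one : InH H (1 : ZMod ℓ) := ⟨1, H.one_mem, rfl⟩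

theorem InH.mul {x y : ZMod ℓ} (hx : InH H x) (hy : InH H y) : InH H (x * y) := by
  obtain ⟨u, hu, rfl⟩ := hx
  obtain ⟨v, hv, rfl⟩ := hy
  exact ⟨u * v, H.mul_mem hu hv, Units.val_mul u v⟩

theorem InH.inv {x : ZMod ℓ} (hx : InH H x) : InH H x⁻¹ := by
  obtain ⟨u, hu, rfl⟩ := hx
  exact ⟨u⁻¹, H.inv_mem hu, Units.val_inv_eq_inv_val u⟩

theorem InH.div {x y : ZMod ℓ} (hx : InH H x) (hy : InH H y) : InH H (x / y) := by
  rw [div_eq_mul_inv]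
  exact hx.mul hy.inv

theorem InH.neg (hneg : (-1 : (ZMod ℓ)ˣ) ∈ H) {x : ZMod ℓ} (hx : InH H x) : InH H (-x) := by
  have h1 : InH H (-1 : ZMod ℓ) := ⟨-1, hneg, by rw [Units.val_neg, Units.val_one]⟩
  have := h1.mul hx
  rwa [neg_one_mul] at this

theorem inH_prod {ι : Type*} (T : Finset ι) (f : ι → ZMod ℓ) (hf : ∀ i ∈ T, InH H (f i)) :
    InH H (∏ i ∈ T, f i) := by
  classical
  induction T using Finset.induction_on with
  | empty =>
    rw [Finset.prod_empty]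
    exact inH_one
  | insert i T hi ih =>
    rw [Finset.prod_insert hi]
    exact (hf i (Finset.mem_insert_self i T)).mul
      (ih fun j hj => hf j (Finset.mem_insert_of_mem hj))

end InH

/-- A nonzero natural number, reduced modulo `ℓ`, as the product of its prime powers over any
finite set containing its prime factors. -/
theorem rr_natCast_eq_prod (ℓ : ℕ) (M : ℕ) (hM : M ≠ 0) (T : Finset ℕ)
    (hT : M.primeFactors ⊆ T) :
    (M : ZMod ℓ) = ∏ q ∈ T, (q : ZMod ℓ) ^ M.factorization q := by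
  have h1 : M = ∏ q ∈ T, q ^ M.factorization q := by
    conv_lhs => rw [← Nat.prod_factorization_pow_eq_self hM]
    refine Finset.prod_subset hT fun q _ hq => ?_
    have : M.factorization q = 0 := Finsupp.notMem_support_iff.mp hq
    show q ^ M.factorization q = 1
    rw [this, pow_zero]
  conv_lhs => rw [h1]
  push_cast
  rfl

/-- The valuation at a prime `q ≠ ℓ` of `b = ℓ ^ k * m / n`. -/
theorem rr_padicValRat_eq {ℓ q : ℕ} (hq : q.Prime) (hqℓ : q ≠ ℓ) (hℓ : ℓ.Prime) (b : ℚ)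
    (k m n : ℤ) (hm : m ≠ 0) (hn : n ≠ 0) (hbmn : b * n = (ℓ : ℚ) ^ k * m) :
    padicValRat q b = (m.natAbs.factorization q : ℤ) - n.natAbs.factorization q := by
  have : Fact q.Prime := ⟨hq⟩
  have hnQ : (n : ℚ) ≠ 0 := Int.cast_ne_zero.mpr hn
  have hmQ : (m : ℚ) ≠ 0 := Int.cast_ne_zero.mpr hm
  have hℓQ : (ℓ : ℚ) ≠ 0 := Nat.cast_ne_zero.mpr hℓ.ne_zero
  have hb : b ≠ 0 := by
    rintro rfl
    rw [zero_mul] at hbmn
    exact mul_ne_zero (zpow_ne_zero k hℓQ) hmQ hbmn.symm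
  have h1 := congrArg (padicValRat q) hbmn
  rw [padicValRat.mul hb hnQ, padicValRat.mul (zpow_ne_zero k hℓQ) hmQ, padicValRat.zpow]
    at h1
  have h2 : padicValRat q (ℓ : ℚ) = 0 := by
    rw [padicValRat.of_nat]
    have : padicValNat q ℓ = 0 := by
      apply padicValNat.eq_zero_of_not_dvd
      intro hdvd
      exact hqℓ ((Nat.prime_dvd_prime_iff_eq hq hℓ).mp hdvd)
    rw [this]
    rfl
  have h3 : ∀ z : ℤ, padicValRat q (z : ℚ) = (z.natAbs.factorization q : ℤ) := by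
    intro z
    rw [padicValRat.of_int, Nat.factorization_def _ hq]
    rfl
  rw [h2, mul_zero, zero_add, h3, h3] at h1
  omega

/-- **Elementary cyclotomic reciprocity over `ℚ`.** -/
theorem rat_reciprocity (ℓ : ℕ) [Fact ℓ.Prime] (H : Subgroup (ZMod ℓ)ˣ)
    (hneg : (-1 : (ZMod ℓ)ˣ) ∈ H) (b : ℚ) (q₀ : ℕ) (hq₀ : q₀.Prime)
    (hq₀ℓ : q₀ ≠ ℓ)
    (hq : ∀ q : ℕ, q.Prime → q ≠ ℓ → q ≠ q₀ →
      ∃ u ∈ H, (u : ZMod ℓ) = (q : ZMod ℓ) ^ padicValRat q b)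
    (hℓ : ∃ (k m n : ℤ), ¬ (ℓ : ℤ) ∣ m ∧ ¬ (ℓ : ℤ) ∣ n ∧ b * n = (ℓ : ℚ) ^ k * m ∧
      ∃ u ∈ H, (u : ZMod ℓ) * n = m) :
    ∃ u ∈ H, (u : ZMod ℓ) = (q₀ : ZMod ℓ) ^ padicValRat q₀ b := by
  classical
  have hℓp : ℓ.Prime := Fact.out
  obtain ⟨k, m, n, hm, hn, hbmn, u, hu, hun⟩ := hℓ
  have hm0 : m ≠ 0 := fun h => hm (h ▸ dvd_zero _)
  have hn0 : n ≠ 0 := fun h => hn (h ▸ dvd_zero _)
  have hnZ : (n : ZMod ℓ) ≠ 0 := fun h => hn ((ZMod.intCast_zmod_eq_zero_iff_dvd n ℓ).mp h)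
  have hmZ : (m : ZMod ℓ) ≠ 0 := fun h => hm ((ZMod.intCast_zmod_eq_zero_iff_dvd m ℓ).mp h)
  set M := m.natAbs with hM
  set N := n.natAbs with hN
  have hM0 : M ≠ 0 := Int.natAbs_ne_zero.mpr hm0
  have hN0 : N ≠ 0 := Int.natAbs_ne_zero.mpr hn0
  have hMℓ : ¬ ℓ ∣ M := fun h => hm (Int.natCast_dvd.mpr h)
  have hNℓ : ¬ ℓ ∣ N := fun h => hn (Int.natCast_dvd.mpr h)
  have hMZ : (M : ZMod ℓ) ≠ 0 := fun h => hMℓ ((ZMod.natCast_eq_zero_iff M ℓ).mp h)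
  have hNZ : (N : ZMod ℓ) ≠ 0 := fun h => hNℓ ((ZMod.natCast_eq_zero_iff N ℓ).mp h)
  -- `m / n = ± M / N`
  have hMN : InH H ((M : ZMod ℓ) / N) := by
    have h1 : InH H ((m : ZMod ℓ) / n) := ⟨u, hu, by rw [eq_div_iff hnZ]; exact hun⟩
    have hmM : (m : ZMod ℓ) = M ∨ (m : ZMod ℓ) = -M := by
      rcases Int.natAbs_eq m with h | h
      · left
        conv_lhs => rw [h]
        simp [hM]
      · right
        conv_lhs => rw [h]
        simp [hM]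
    have hnN : (n : ZMod ℓ) = N ∨ (n : ZMod ℓ) = -N := by
      rcases Int.natAbs_eq n with h | h
      · left
        conv_lhs => rw [h]
        simp [hN]
      · right
        conv_lhs => rw [h]
        simp [hN]
    rcases hmM with e1 | e1 <;> rcases hnN with e2 | e2 <;> rw [e1, e2] at h1
    · exact h1
    · have := h1.neg hneg
      rwa [div_neg, neg_neg] at this
    · have := h1.neg hneg
      rwa [neg_div, neg_neg] at this
    · rwa [neg_div_neg_eq] at h1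
  -- the product over primes
  set T : Finset ℕ := insert q₀ (M.primeFactors ∪ N.primeFactors) with hT
  have hTprime : ∀ q ∈ T, q.Prime := by
    intro q hqT
    rw [hT, Finset.mem_insert, Finset.mem_union] at hqT
    rcases hqT with rfl | h | h
    · exact hq₀
    · exact Nat.prime_of_mem_primeFactors h
    · exact Nat.prime_of_mem_primeFactors h
  have hMT : M.primeFactors ⊆ T := fun q hq' =>
    Finset.mem_insert_of_mem (Finset.mem_union_left _ hq')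
  have hNT : N.primeFactors ⊆ T := fun q hq' =>
    Finset.mem_insert_of_mem (Finset.mem_union_right _ hq')
  set e : ℕ → ℤ := fun q => (M.factorization q : ℤ) - N.factorization q with he
  have hfactℓ : ∀ X : ℕ, ¬ ℓ ∣ X → X.factorization ℓ = 0 := fun X hX =>
    Nat.factorization_eq_zero_of_not_dvd hX
  have hprod : (M : ZMod ℓ) / N = ∏ q ∈ T, (q : ZMod ℓ) ^ e q := by
    rw [rr_natCast_eq_prod ℓ M hM0 T hMT, rr_natCast_eq_prod ℓ N hN0 T hNT,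
      ← Finset.prod_div_distrib]
    refine Finset.prod_congr rfl fun q hqT => ?_
    by_cases hqℓ : q = ℓ
    · rw [he]
      simp only
      rw [hqℓ, hfactℓ M hMℓ, hfactℓ N hNℓ]
      simp
    · have hqZ : (q : ZMod ℓ) ≠ 0 := by
        intro h
        rw [ZMod.natCast_eq_zero_iff] at h
        exact hqℓ ((Nat.prime_dvd_prime_iff_eq hℓp (hTprime q hqT)).mp h).symm
      rw [he]
      simp only
      rw [zpow_sub₀ hqZ, zpow_natCast, zpow_natCast]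
  have hval : ∀ q ∈ T, q ≠ ℓ → padicValRat q b = e q := fun q hqT hqℓ =>
    rr_padicValRat_eq (hTprime q hqT) hqℓ hℓp b k m n hm0 hn0 hbmn
  have hq₀T : q₀ ∈ T := Finset.mem_insert_self _ _
  rw [hprod, ← Finset.mul_prod_erase T _ hq₀T] at hMN
  have hrest : InH H (∏ q ∈ T.erase q₀, (q : ZMod ℓ) ^ e q) := by
    refine inH_prod _ _ fun q hqT' => ?_
    rw [Finset.mem_erase] at hqT'
    by_cases hqℓ : q = ℓ
    · rw [he]
      simp only
      rw [hqℓ, hfactℓ M hMℓ, hfactℓ N hNℓ]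
      simp only [Nat.cast_zero, sub_zero, zpow_zero]
      exact inH_one
    · rw [← hval q hqT'.2 hqℓ]
      exact hq q (hTprime q hqT'.2) hqℓ hqT'.1
  have hfin : InH H ((q₀ : ZMod ℓ) ^ e q₀) := by
    have := hMN.div hrest
    rwa [mul_div_cancel_right₀ _ hrest.ne_zero] at this
  rw [hval q₀ hq₀T hq₀ℓ]
  exact hfin

/-- Membership of a power in `H` in terms of the order in the quotient `(ℤ/ℓ)ˣ ⧸ H`. -/
theorem zpow_mem_iff_orderOf_dvd {ℓ : ℕ} (H : Subgroup (ZMod ℓ)ˣ) (u : (ZMod ℓ)ˣ) (e : ℤ) :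
    u ^ e ∈ H ↔ (orderOf (QuotientGroup.mk u : (ZMod ℓ)ˣ ⧸ H) : ℤ) ∣ e := by
  rw [orderOf_dvd_iff_zpow_eq_one, ← QuotientGroup.mk_zpow, QuotientGroup.eq_one_iff]

/-- **Elementary cyclotomic reciprocity over `ℚ`, divisibility form**: the order of `q₀` in
`(ℤ/ℓ)ˣ ⧸ H` divides `v_{q₀}(b)`. -/
theorem rat_reciprocity_dvd (ℓ : ℕ) [Fact ℓ.Prime] (H : Subgroup (ZMod ℓ)ˣ)
    (hneg : (-1 : (ZMod ℓ)ˣ) ∈ H) (b : ℚ) (q₀ : ℕ) (hq₀ : q₀.Prime)
    (hq₀ℓ : q₀ ≠ ℓ)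
    (hq : ∀ q : ℕ, q.Prime → q ≠ ℓ → q ≠ q₀ →
      ∃ u ∈ H, (u : ZMod ℓ) = (q : ZMod ℓ) ^ padicValRat q b)
    (hℓ : ∃ (k m n : ℤ), ¬ (ℓ : ℤ) ∣ m ∧ ¬ (ℓ : ℤ) ∣ n ∧ b * n = (ℓ : ℚ) ^ k * m ∧
      ∃ u ∈ H, (u : ZMod ℓ) * n = m)
    (u₀ : (ZMod ℓ)ˣ) (hu₀ : (u₀ : ZMod ℓ) = q₀) :
    (orderOf (QuotientGroup.mk u₀ : (ZMod ℓ)ˣ ⧸ H) : ℤ) ∣ padicValRat q₀ b := by
  obtain ⟨u, hu, huq⟩ := rat_reciprocity ℓ H hneg b q₀ hq₀ hq₀ℓ hq hℓ
  rw [← zpow_mem_iff_orderOf_dvd]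
  have : u = u₀ ^ padicValRat q₀ b := by
    apply Units.ext
    rw [huq, ← hu₀]
    simp
  rw [← this]
  exact hu

/-- The subgroup of `(ℤ/ℓ)ˣ` of elements killed by `r` (the subgroup corresponding to the
subfield of `ℚ(ζ_ℓ)` of degree `(ℓ - 1) / r` when `r ∣ ℓ - 1`): membership of the `ℓ`-unit part
`m / n` in the shape produced by `tame_norm_subfield`. -/
theorem inH_of_pow_eq {ℓ : ℕ} [Fact ℓ.Prime] (r : ℕ) (H : Subgroup (ZMod ℓ)ˣ)
    (hH : ∀ u : (ZMod ℓ)ˣ, u ^ r = 1 → u ∈ H) (m n : ℤ) (hn : ¬ (ℓ : ℤ) ∣ n)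
    (hm : ¬ (ℓ : ℤ) ∣ m) (h : (m : ZMod ℓ) ^ r = (n : ZMod ℓ) ^ r) :
    ∃ u ∈ H, (u : ZMod ℓ) * n = m := by
  have hnZ : (n : ZMod ℓ) ≠ 0 := fun h => hn ((ZMod.intCast_zmod_eq_zero_iff_dvd n ℓ).mp h)
  have hmZ : (m : ZMod ℓ) ≠ 0 := fun h => hm ((ZMod.intCast_zmod_eq_zero_iff_dvd m ℓ).mp h)
  refine ⟨Units.mk0 ((m : ZMod ℓ) / n) (div_ne_zero hmZ hnZ), hH _ ?_, ?_⟩
  · apply Units.ext
    simp only [Units.val_pow_eq_pow_val, Units.val_mk0, Units.val_one]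
    rw [div_pow, h, div_self (pow_ne_zero r hnZ)]
  · simp only [Units.val_mk0]
    field_simp

end Fermat.Agent.PT.G
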