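import Mathlib
import Fermat.Agent.CFT.Recip.CycloNorm

/-!
# The tame norm dictionary at `ℓ` (number-field form)

`F` a number field with a prime `𝔩` of degree one, unramified over the odd prime `ℓ`,
`Ω = F(ζ_ℓ)`, `E` an intermediate field of `Ω / F`.  If a rational number `b` is the norm
`N_{E/F}(w)` of some `w ∈ Eˣ`, then the `ℓ`-unit part of `b` becomes `1` in `(ℤ/ℓ)ˣ` after raising
to the power `[Ω : E]` (`tame_norm_subfield`): i.e. it lies in the subgroup of `(ℤ/ℓ)ˣ`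
corresponding to `E`.
-/

set_option autoImplicit false
set_option linter.unusedSectionVars false

open NumberField

namespace Fermat.Agent.PT.G

open Fermat.Agent.CFT.Recip

/-- A nonzero rational is `ℓ ^ k * m / n` with `ℓ ∤ m`, `ℓ ∤ n`. -/
theorem tn_exists_rat_decomp (ℓ : ℕ) (hℓ : ℓ.Prime) (b : ℚ) (hb : b ≠ 0) :
    ∃ (k : ℤ) (m n : ℤ), ¬ (ℓ : ℤ) ∣ m ∧ ¬ (ℓ : ℤ) ∣ n ∧ b * n = (ℓ : ℚ) ^ k * m := by
  obtain ⟨ε, N, hε, hεnum, hN0⟩ : ∃ (ε : ℤ) (N : ℕ), (ε = 1 ∨ ε = -1) ∧ b.num = ε * (N : ℤ) ∧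
      N ≠ 0 := by
    have hnum : b.num.natAbs ≠ 0 := Int.natAbs_ne_zero.mpr (Rat.num_ne_zero.mpr hb)
    rcases Int.natAbs_eq b.num with h | h
    · exact ⟨1, _, Or.inl rfl, by rw [one_mul]; exact h, hnum⟩
    · exact ⟨-1, _, Or.inr rfl, by rw [neg_one_mul]; exact h, hnum⟩
  obtain ⟨e₁, m', hm', hm⟩ := Nat.exists_eq_pow_mul_and_not_dvd hN0 ℓ hℓ.ne_one
  obtain ⟨e₂, n', hn', hn⟩ := Nat.exists_eq_pow_mul_and_not_dvd b.den_ne_zero ℓ hℓ.ne_one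
  have hℓQ : (ℓ : ℚ) ≠ 0 := Nat.cast_ne_zero.mpr hℓ.ne_zero
  have hn'0 : (n' : ℚ) ≠ 0 := by
    intro h
    apply hn'
    have : n' = 0 := by exact_mod_cast h
    rw [this]
    exact dvd_zero _
  have hnumeq : (b.num : ℚ) = (ε : ℚ) * ((ℓ : ℚ) ^ e₁ * m') := by
    rw [hεnum, hm]
    push_cast
    rfl
  have hdeneq : (b.den : ℚ) = (ℓ : ℚ) ^ e₂ * n' := by
    conv_lhs => rw [hn]
    push_cast
    rfl
  refine ⟨(e₁ : ℤ) - e₂, ε * m', n', ?_, ?_, ?_⟩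
  · intro h
    have hsign : IsUnit ε := by
      rcases hε with h | h <;> rw [h] <;> simp
    have h2 : (ℓ : ℤ) ∣ (m' : ℤ) := (hsign.dvd_mul_left).mp h
    exact hm' (Int.natCast_dvd_natCast.mp h2)
  · intro h
    exact hn' (Int.natCast_dvd_natCast.mp h)
  · have hb' : b = (b.num : ℚ) / (b.den : ℚ) := (Rat.num_div_den b).symm
    have e : b * (n' : ℚ) = (ℓ : ℚ) ^ ((e₁ : ℤ) - e₂) * ((ε : ℚ) * m') := by
      rw [hb', hnumeq, hdeneq, zpow_sub₀ hℓQ, zpow_natCast, zpow_natCast]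
      field_simp
    rw [show ((n' : ℕ) : ℤ) = (n' : ℤ) from rfl]
    push_cast
    exact e

variable {F : Type*} [Field F] [NumberField F]

/-- Integers in a prime above `ℓ` are divisible by `ℓ`. -/
theorem tn_dvd_of_intCast_mem {ℓ : ℕ} (hℓ : ℓ.Prime) (𝔩 : Ideal (𝓞 F)) [𝔩.IsPrime]
    (hℓ𝔩 : (ℓ : 𝓞 F) ∈ 𝔩) (z : ℤ) (hz : (z : 𝓞 F) ∈ 𝔩) : (ℓ : ℤ) ∣ z := by
  by_contra hndvd
  have hcop : IsCoprime z (ℓ : ℤ) := by
    rw [isCoprime_comm]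
    exact (Nat.prime_iff_prime_int.mp hℓ).coprime_iff_not_dvd.mpr hndvd
  obtain ⟨a, c, hac⟩ := hcop
  have h1 : ((a * z + c * ℓ : ℤ) : 𝓞 F) ∈ 𝔩 := by
    push_cast
    exact 𝔩.add_mem (𝔩.mul_mem_left _ hz) (𝔩.mul_mem_left _ hℓ𝔩)
  rw [hac] at h1
  apply (Ideal.IsPrime.ne_top inferInstance : 𝔩 ≠ ⊤)
  rw [Ideal.eq_top_iff_one]
  simpa using h1

/-- Comparing two factorisations `ℓ ^ a * P = ℓ ^ c * Q` with `P, Q` units at `𝔩`. -/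
theorem tn_zpow_mul_eq {ℓ : ℕ} (hℓ : ℓ.Prime) (𝔩 : Ideal (𝓞 F)) [𝔩.IsPrime]
    (hℓ𝔩 : (ℓ : 𝓞 F) ∈ 𝔩) (a c : ℤ) (P Q : 𝓞 F) (hP : P ∉ 𝔩) (hQ : Q ∉ 𝔩)
    (h : (ℓ : F) ^ a * (P : F) = (ℓ : F) ^ c * (Q : F)) : P = Q := by
  have hℓF : (ℓ : F) ≠ 0 := Nat.cast_ne_zero.mpr hℓ.ne_zero
  have key : ∀ (a c : ℤ) (P Q : 𝓞 F), Q ∉ 𝔩 → a < c →
      (ℓ : F) ^ a * (P : F) = (ℓ : F) ^ c * (Q : F) → P ∈ 𝔩 := by
    intro a c P Q _ hac h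
    obtain ⟨d, hd⟩ : ∃ d : ℕ, c = a + (d + 1) := by
      refine ⟨(c - a - 1).toNat, ?_⟩
      have : ((c - a - 1).toNat : ℤ) = c - a - 1 := Int.toNat_of_nonneg (by omega)
      omega
    rw [hd, zpow_add₀ hℓF, mul_assoc] at h
    have h2 : (P : F) = (ℓ : F) ^ ((d : ℤ) + 1) * (Q : F) :=
      mul_left_cancel₀ (zpow_ne_zero a hℓF) h
    have h3 : P = (ℓ : 𝓞 F) ^ (d + 1) * Q := by
      apply RingOfIntegers.coe_injective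
      have e : (ℓ : F) ^ ((d : ℤ) + 1) = (ℓ : F) ^ (d + 1) := by
        rw [← zpow_natCast]
        push_cast
        rfl
      show (algebraMap (𝓞 F) F) P = (algebraMap (𝓞 F) F) ((ℓ : 𝓞 F) ^ (d + 1) * Q)
      rw [map_mul, map_pow, map_natCast, ← e]
      exact h2
    rw [h3, pow_succ]
    exact 𝔩.mul_mem_right _ (𝔩.mul_mem_left _ hℓ𝔩)
  rcases lt_trichotomy a c with hac | hac | hac
  · exact absurd (key a c P Q hQ hac h) hP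
  · rw [hac] at h
    exact RingOfIntegers.coe_injective (mul_left_cancel₀ (zpow_ne_zero c hℓF) h)
  · exact absurd (key c a Q P hP hac h.symm) hQ

/-- Elements congruent to `1` modulo a prime are not in it. -/
theorem tn_not_mem_of_sub_one_mem (𝔩 : Ideal (𝓞 F)) [𝔩.IsPrime] {u : 𝓞 F} (hu : u - 1 ∈ 𝔩) :
    u ∉ 𝔩 := by
  intro h
  apply (Ideal.IsPrime.ne_top inferInstance : 𝔩 ≠ ⊤)
  rw [Ideal.eq_top_iff_one]
  have := 𝔩.sub_mem h hu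
  simpa using this

/-- The arithmetic core: from `ℓ ^ j * v * b ^ r = ℓ ^ k * u` with `u ≡ v ≡ 1` modulo `𝔩` the
`ℓ`-unit part of the rational number `b` has trivial `r`-th power in `ZMod ℓ`. -/
theorem tn_core {ℓ : ℕ} [Fact ℓ.Prime] (𝔩 : Ideal (𝓞 F)) [𝔩.IsPrime]
    (hℓ𝔩 : (ℓ : 𝓞 F) ∈ 𝔩) (b : ℚ) (hb : b ≠ 0) (r j k : ℕ) (u v : 𝓞 F) (hu : u - 1 ∈ 𝔩)
    (hv : v - 1 ∈ 𝔩)
    (h : (ℓ : F) ^ j * (v : F) * (algebraMap ℚ F b) ^ r = (ℓ : F) ^ k * (u : F)) :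
    ∃ (t : ℤ) (m n : ℤ), ¬ (ℓ : ℤ) ∣ m ∧ ¬ (ℓ : ℤ) ∣ n ∧ b * n = (ℓ : ℚ) ^ t * m ∧
      (m : ZMod ℓ) ^ r = (n : ZMod ℓ) ^ r := by
  have hℓ : ℓ.Prime := Fact.out
  have hℓF : (ℓ : F) ≠ 0 := Nat.cast_ne_zero.mpr hℓ.ne_zero
  obtain ⟨t, m, n, hm, hn, hbmn⟩ := tn_exists_rat_decomp ℓ hℓ b hb
  refine ⟨t, m, n, hm, hn, hbmn, ?_⟩
  have hn0 : (n : ℚ) ≠ 0 := by
    intro h0
    apply hn
    have : n = 0 := by exact_mod_cast h0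
    rw [this]
    exact dvd_zero _
  have hnF : (n : F) ≠ 0 := by
    intro h0
    apply hn0
    have : n = 0 := by exact_mod_cast h0
    rw [this]
    simp
  have hbF : algebraMap ℚ F b * (n : F) = (ℓ : F) ^ t * (m : F) := by
    have := congrArg (algebraMap ℚ F) hbmn
    simpa using this
  -- multiply the relation by `n ^ r`
  have h2 : (ℓ : F) ^ ((j : ℤ) + t * r) * ((v * (m : 𝓞 F) ^ r : 𝓞 F) : F) =
      (ℓ : F) ^ (k : ℤ) * ((u * (n : 𝓞 F) ^ r : 𝓞 F) : F) := by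
    have e1 : (algebraMap ℚ F b) ^ r * (n : F) ^ r = ((ℓ : F) ^ t) ^ r * (m : F) ^ r := by
      rw [← mul_pow, hbF, mul_pow]
    have e2 : ((ℓ : F) ^ t) ^ r = (ℓ : F) ^ (t * r) := by
      rw [zpow_mul, zpow_natCast]
    rw [zpow_add₀ hℓF, zpow_natCast, zpow_natCast, ← e2]
    push_cast
    calc (ℓ : F) ^ j * ((ℓ : F) ^ t) ^ r * ((v : F) * (m : F) ^ r)
        = (ℓ : F) ^ j * (v : F) * (((ℓ : F) ^ t) ^ r * (m : F) ^ r) := by ring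
      _ = (ℓ : F) ^ j * (v : F) * ((algebraMap ℚ F b) ^ r * (n : F) ^ r) := by rw [e1]
      _ = ((ℓ : F) ^ j * (v : F) * (algebraMap ℚ F b) ^ r) * (n : F) ^ r := by ring
      _ = (ℓ : F) ^ k * (u : F) * (n : F) ^ r := by rw [h]
      _ = (ℓ : F) ^ k * ((u : F) * (n : F) ^ r) := by ring
  have hmn𝔩 : ∀ z : ℤ, ¬ (ℓ : ℤ) ∣ z → (z : 𝓞 F) ∉ 𝔩 := fun z hz hmem =>
    hz (tn_dvd_of_intCast_mem hℓ 𝔩 hℓ𝔩 z hmem)
  have hP : v * (m : 𝓞 F) ^ r ∉ 𝔩 := fun hmem =>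
    (Ideal.IsPrime.mem_or_mem inferInstance hmem).elim (tn_not_mem_of_sub_one_mem 𝔩 hv)
      (fun h' => hmn𝔩 m hm (Ideal.IsPrime.mem_of_pow_mem inferInstance r h'))
  have hQ : u * (n : 𝓞 F) ^ r ∉ 𝔩 := fun hmem =>
    (Ideal.IsPrime.mem_or_mem inferInstance hmem).elim (tn_not_mem_of_sub_one_mem 𝔩 hu)
      (fun h' => hmn𝔩 n hn (Ideal.IsPrime.mem_of_pow_mem inferInstance r h'))
  have h3 := tn_zpow_mul_eq hℓ 𝔩 hℓ𝔩 _ _ _ _ hP hQ h2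
  -- reduce modulo `𝔩`
  have h4 : ((m ^ r - n ^ r : ℤ) : 𝓞 F) ∈ 𝔩 := by
    have e : ((m ^ r - n ^ r : ℤ) : 𝓞 F) =
        (u - 1) * (n : 𝓞 F) ^ r - (v - 1) * (m : 𝓞 F) ^ r := by
      push_cast
      linear_combination h3
    rw [e]
    exact 𝔩.sub_mem (𝔩.mul_mem_right _ hu) (𝔩.mul_mem_right _ hv)
  have h5 := tn_dvd_of_intCast_mem hℓ 𝔩 hℓ𝔩 _ h4
  have h6 : ((m ^ r - n ^ r : ℤ) : ZMod ℓ) = 0 := (ZMod.intCast_zmod_eq_zero_iff_dvd _ ℓ).mpr h5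
  push_cast at h6
  exact sub_eq_zero.mp h6

/-- **Tame norm dictionary at `ℓ`.**  `𝔩` a prime of degree one of `F`, unramified over the odd
prime `ℓ`; `Ω = F(ζ_ℓ)`; `E` an intermediate field.  If `b ∈ ℚˣ` is a norm from `E` to `F`, then
the `ℓ`-unit part `m / n` of `b` satisfies `(m / n) ^ [Ω : E] = 1` in `ZMod ℓ`. -/
theorem tame_norm_subfield {ℓ : ℕ} [Fact ℓ.Prime] (hℓ2 : ℓ ≠ 2) {F Ω : Type*} [Field F]
    [NumberField F] [Field Ω] [Algebra F Ω] [IsCyclotomicExtension {ℓ} F Ω]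
    (𝔩 : Ideal (𝓞 F)) [𝔩.IsPrime] (hℓ𝔩 : (ℓ : 𝓞 F) ∈ 𝔩) (hsq : (ℓ : 𝓞 F) ∉ 𝔩 ^ 2)
    (hN : Ideal.absNorm 𝔩 = ℓ) (E : IntermediateField F Ω) (w : E) (hw : w ≠ 0) (b : ℚ)
    (hb : algebraMap ℚ F b = Algebra.norm F w) :
    ∃ (k : ℤ) (m n : ℤ), ¬ (ℓ : ℤ) ∣ m ∧ ¬ (ℓ : ℤ) ∣ n ∧ b * n = (ℓ : ℚ) ^ k * m ∧
      (m : ZMod ℓ) ^ Module.finrank E Ω = (n : ZMod ℓ) ^ Module.finrank E Ω := by
  have : FiniteDimensional F Ω := IsCyclotomicExtension.finiteDimensional {ℓ} F Ω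
  have hw' : (w : Ω) ≠ 0 := fun h => hw (Subtype.ext h)
  obtain ⟨j, k, u, v, hu, hv, h⟩ := norm_cyclo_local hℓ2 𝔩 hℓ𝔩 hsq hN (w : Ω) hw'
  have hnorm : Algebra.norm F (w : Ω) = (Algebra.norm F w) ^ Module.finrank E Ω := by
    rw [← Algebra.norm_norm (S := E) (a := (w : Ω))]
    have : Algebra.norm E (w : Ω) = w ^ Module.finrank E Ω :=
      Algebra.norm_algebraMap (S := Ω) w
    rw [this, map_pow]
  have hb0 : b ≠ 0 := by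
    rintro rfl
    rw [map_zero] at hb
    exact hw (Algebra.norm_eq_zero_iff.mp hb.symm)
  rw [hnorm, ← hb] at h
  exact tn_core 𝔩 hℓ𝔩 b hb0 _ j k u v hu hv h

/-- The degrees: `[E : F] * [Ω : E] = ℓ - 1`. -/
theorem tame_finrank_mul {ℓ : ℕ} [Fact ℓ.Prime] {F Ω : Type*} [Field F]
    [NumberField F] [Field Ω] [Algebra F Ω] [IsCyclotomicExtension {ℓ} F Ω]
    (𝔩 : Ideal (𝓞 F)) [𝔩.IsPrime] (hℓ𝔩 : (ℓ : 𝓞 F) ∈ 𝔩) (hsq : (ℓ : 𝓞 F) ∉ 𝔩 ^ 2)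
    (E : IntermediateField F Ω) : Module.finrank F E * Module.finrank E Ω = ℓ - 1 := by
  have : FiniteDimensional F Ω := IsCyclotomicExtension.finiteDimensional {ℓ} F Ω
  have hirr := irreducible_cyclotomic_of_splits 𝔩 hℓ𝔩 hsq
  rw [Module.finrank_mul_finrank, IsCyclotomicExtension.finrank Ω hirr,
    Nat.totient_prime Fact.out]

end Fermat.Agent.PT.G
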