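import Mathlib
import Fermat.Agent.PT.G.CycloField
import Fermat.Agent.PT.G.TameNorm
import Fermat.Agent.PT.G.RatRecip

/-!
# (GLOB-TAME) norms from `cycloField ℓ H` are tame at `ℓ`  (PT, layer G, B4 / G2 over `ℚ`)

`ℓ` an odd prime, `H ≤ (ZMod ℓ)ˣ`, `E = cycloField ℓ H ⊆ ℚ(ζ_ℓ) ⊆ ℚ̄`, `σ ∈ G_ℚ` with
`χ_ℓ(σ)` a generator of `(ZMod ℓ)ˣ`, `d = [E : ℚ] = H.index`.  For `w ∈ Eˣ` the partial norm
`∏_{i < d} σ^i w` is a rational number `b` (it is `N_{E/ℚ}(w)`), and the `ℓ`-unit part of `b`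
lies in `H` modulo `ℓ`:

  `cycloField_norm_tame`.

Proof: `b ^ |H| = N_{ℚ(ζ_ℓ)/ℚ}(w)`, the local norm congruence `norm_cyclo_local` at the prime
`(ℓ)` of `ℚ`, and cyclicity of `(ZMod ℓ)ˣ`.
-/

set_option autoImplicit false

namespace Fermat.Agent.PT.G

open ExtCitation Fermat.Agent.PT.Levels Fermat.Agent.Lib.FrobeniusExists NumberField

local notation "Qb" => AlgebraicClosure ℚ
local notation "GQ" => (AlgebraicClosure ℚ ≃ₐ[ℚ] AlgebraicClosure ℚ)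

attribute [local instance] isAlgClosure_rat isGalois_rat

section Periodic

variable {M : Type*} [CommGroupWithZero M]

/-- The product of a nowhere vanishing `d`-periodic function over `d` consecutive integers does
not depend on the starting point. -/
theorem ct_prod_range_shift (f : ℕ → M) (d : ℕ) (hper : ∀ j, f (j + d) = f j)
    (hf : ∀ j, f j ≠ 0) (t : ℕ) :
    ∏ i ∈ Finset.range d, f (t + i) = ∏ i ∈ Finset.range d, f i := by
  induction t with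
  | zero => simp
  | succ t ih =>
    rw [← ih]
    have h1 : ∏ i ∈ Finset.range (d + 1), f (t + i) =
        (∏ i ∈ Finset.range d, f (t + 1 + i)) * f t := by
      rw [Finset.prod_range_succ']
      refine congrArg₂ _ (Finset.prod_congr rfl fun i _ => ?_) (by rw [add_zero])
      rw [add_assoc, add_comm 1 i]
    have h2 : ∏ i ∈ Finset.range (d + 1), f (t + i) =
        (∏ i ∈ Finset.range d, f (t + i)) * f t := by
      rw [Finset.prod_range_succ, hper]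
    exact mul_right_cancel₀ (hf t) (h1.symm.trans h2)

/-- The product of a `d`-periodic function over `d * r` consecutive integers. -/
theorem ct_prod_range_mul (f : ℕ → M) (d : ℕ) (hper : ∀ j, f (j + d) = f j) (r : ℕ) :
    ∏ i ∈ Finset.range (d * r), f i = (∏ i ∈ Finset.range d, f i) ^ r := by
  have hper' : ∀ s j, f (d * s + j) = f j := by
    intro s
    induction s with
    | zero => intro j; rw [mul_zero, zero_add]
    | succ s ih =>
      intro j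
      rw [mul_add, mul_one, add_assoc, add_comm d j, ← add_assoc, hper, ih]
  induction r with
  | zero => simp
  | succ r ih =>
    rw [mul_add, mul_one, Finset.prod_range_add, ih, pow_succ]
    exact congrArg _ (Finset.prod_congr rfl fun i _ => hper' r i)

end Periodic

section RatPrime

/-- The prime ideal `(ℓ)` of `𝓞 ℚ`. -/
theorem ct_prime_natCast {ℓ : ℕ} (hℓ : ℓ.Prime) : Prime ((ℓ : ℕ) : 𝓞 ℚ) := by
  have h := (MulEquiv.prime_iff (Rat.ringOfIntegersEquiv : 𝓞 ℚ ≃+* ℤ).toMulEquiv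
    (p := ((ℓ : ℕ) : 𝓞 ℚ)))
  refine h.mp ?_
  have : (Rat.ringOfIntegersEquiv : 𝓞 ℚ ≃+* ℤ).toMulEquiv ((ℓ : ℕ) : 𝓞 ℚ) = ((ℓ : ℕ) : ℤ) :=
    map_natCast (Rat.ringOfIntegersEquiv : 𝓞 ℚ ≃+* ℤ) ℓ
  rw [this]
  exact Nat.prime_iff_prime_int.mp hℓ

theorem ct_natCast_notMem_sq {ℓ : ℕ} (hℓ : ℓ.Prime) :
    ((ℓ : ℕ) : 𝓞 ℚ) ∉ (Ideal.span {((ℓ : ℕ) : 𝓞 ℚ)}) ^ 2 := by
  rw [Ideal.span_singleton_pow, Ideal.mem_span_singleton]
  intro hdvd
  have h2 := map_dvd (Rat.ringOfIntegersEquiv : 𝓞 ℚ ≃+* ℤ) hdvd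
  rw [map_pow, map_natCast] at h2
  have h3 : ((ℓ : ℤ)) ^ 2 ∣ (ℓ : ℤ) := h2
  have h4 : (ℓ : ℤ) * (ℓ : ℤ) ∣ (ℓ : ℤ) * 1 := by rwa [mul_one, ← sq]
  have hℓ0 : (ℓ : ℤ) ≠ 0 := Int.natCast_ne_zero.mpr hℓ.ne_zero
  have h5 : (ℓ : ℤ) ∣ 1 := (mul_dvd_mul_iff_left hℓ0).mp h4
  have h6 : ℓ ∣ 1 := Int.natCast_dvd_natCast.mp (by exact_mod_cast h5)
  exact hℓ.one_lt.ne' (Nat.dvd_one.mp h6)

theorem ct_absNorm_span_natCast (ℓ : ℕ) :
    Ideal.absNorm (Ideal.span {((ℓ : ℕ) : 𝓞 ℚ)}) = ℓ := by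
  rw [Ideal.absNorm_span_singleton]
  have h1 : ((ℓ : ℕ) : 𝓞 ℚ) = algebraMap ℤ (𝓞 ℚ) (ℓ : ℤ) := by
    rw [eq_intCast, Int.cast_natCast]
  rw [h1, Algebra.norm_algebraMap, RingOfIntegers.rank, Module.finrank_self, pow_one,
    Int.natAbs_natCast]

end RatPrime

section Main

variable {ℓ : ℕ} [Fact ℓ.Prime] (H : Subgroup (ZMod ℓ)ˣ)

/-- On `cycloField ℓ H` the value `g w` only depends on the class of `χ g` modulo `H`. -/
theorem ct_apply_eq_of_mem {w : Qb} (hw : w ∈ cycloField ℓ H) {g g' : GQ}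
    (h : (cycloChar ℓ g)⁻¹ * cycloChar ℓ g' ∈ H) : g' w = g w := by
  have h1 : (g⁻¹ * g') w = w :=
    (mem_cycloField_iff.mp hw) (g⁻¹ * g') (by rw [map_mul, map_inv]; exact h)
  calc g' w = (g * (g⁻¹ * g')) w := by rw [mul_inv_cancel_left]
    _ = g ((g⁻¹ * g') w) := rfl
    _ = g w := by rw [h1]

/-- `j ↦ σ^j w` is periodic of period `[E : ℚ]`. -/
theorem ct_pow_apply_periodic {w : Qb} (hw : w ∈ cycloField ℓ H) (σ : GQ) (j : ℕ) :
    (σ ^ (j + H.index)) w = (σ ^ j) w := by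
  have h1 : (σ ^ H.index) w = w :=
    (mem_cycloField_iff.mp hw) (σ ^ H.index)
      (by rw [map_pow]; exact Subgroup.pow_index_mem H _)
  calc (σ ^ (j + H.index)) w = (σ ^ j * σ ^ H.index) w := by rw [pow_add]
    _ = (σ ^ j) ((σ ^ H.index) w) := rfl
    _ = (σ ^ j) w := by rw [h1]

/-- The partial norm `∏_{i < [E:ℚ]} σ^i w` of `w ∈ E = cycloField ℓ H` is rational. -/
theorem ct_exists_rat {w : Qb} (hw : w ∈ cycloField ℓ H) (hw0 : w ≠ 0) (σ : GQ)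
    (hσ : Subgroup.zpowers (cycloChar ℓ σ) = ⊤) :
    ∃ b : ℚ, algebraMap ℚ Qb b = ∏ i ∈ Finset.range H.index, (σ ^ i) w := by
  have hmem : (∏ i ∈ Finset.range H.index, (σ ^ i) w) ∈ Set.range (algebraMap ℚ Qb) := by
    rw [InfiniteGalois.mem_range_algebraMap_iff_fixed]
    intro τ
    have hτ : cycloChar ℓ τ ∈ Submonoid.powers (cycloChar ℓ σ) := by
      rw [mem_powers_iff_mem_zpowers, hσ]; exact Subgroup.mem_top _
    obtain ⟨t, ht⟩ := (Submonoid.mem_powers_iff _ _).mp hτ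
    rw [map_prod]
    have key : ∀ i, τ ((σ ^ i) w) = (σ ^ (t + i)) w := by
      intro i
      have : (τ * σ ^ i) w = (σ ^ (t + i)) w := by
        refine ct_apply_eq_of_mem H hw (g := σ ^ (t + i)) (g' := τ * σ ^ i) ?_
        rw [map_mul, map_pow, map_pow, ← ht, pow_add, inv_mul_cancel]
        exact H.one_mem
      exact this
    rw [Finset.prod_congr rfl (fun i _ => key i)]
    exact ct_prod_range_shift (fun j => (σ ^ j) w) H.index
      (fun j => ct_pow_apply_periodic H hw σ j)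
      (fun j => (map_ne_zero_iff _ (σ ^ j).injective).mpr hw0) t
  obtain ⟨b, hb⟩ := hmem
  exact ⟨b, hb⟩

omit [Fact ℓ.Prime] in
theorem ct_orderOf [Fact ℓ.Prime] {γ : (ZMod ℓ)ˣ} (hγ : Subgroup.zpowers γ = ⊤) :
    orderOf γ = ℓ - 1 := by
  rw [orderOf_eq_card_of_forall_mem_zpowers (fun x => hγ ▸ Subgroup.mem_top x),
    Nat.card_eq_fintype_card, ZMod.card_units]

/-- The norm from `ℚ(ζ_ℓ)` as a product over the powers of `σ`. -/
theorem ct_norm_eq {ζ : Qb} (hζ : IsPrimitiveRoot ζ ℓ) (σ : GQ)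
    (hσ : Subgroup.zpowers (cycloChar ℓ σ) = ⊤) (w' : IntermediateField.adjoin ℚ {ζ}) :
    algebraMap ℚ Qb (Algebra.norm ℚ w') = ∏ j ∈ Finset.range (ℓ - 1), (σ ^ j) (w' : Qb) := by
  have hp : ℓ.Prime := Fact.out
  have : NeZero ℓ := ⟨hp.ne_zero⟩
  have hζint : IsIntegral ℚ ζ := (hζ.isIntegral hp.pos).tower_top
  have : FiniteDimensional ℚ (IntermediateField.adjoin ℚ {ζ}) :=
    IntermediateField.adjoin.finiteDimensional hζint
  have : IsCyclotomicExtension {ℓ} ℚ (IntermediateField.adjoin ℚ {ζ}) :=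
    hζ.intermediateField_adjoin_isCyclotomicExtension ℚ
  rw [Algebra.norm_eq_prod_embeddings ℚ Qb w']
  set e : Fin (ℓ - 1) → (IntermediateField.adjoin ℚ {ζ} →ₐ[ℚ] Qb) := fun j =>
    ((σ ^ (j : ℕ) : GQ) : Qb →ₐ[ℚ] Qb).comp (IntermediateField.adjoin ℚ {ζ}).val with he
  have hord : orderOf (cycloChar ℓ σ) = ℓ - 1 := ct_orderOf hσ
  have hinj : Function.Injective e := by
    intro i j hij
    have h1 := congrArg
      (fun φ : IntermediateField.adjoin ℚ {ζ} →ₐ[ℚ] Qb =>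
        φ ⟨ζ, IntermediateField.mem_adjoin_simple_self ℚ ζ⟩) hij
    have h2 : (σ ^ (i : ℕ)) ζ = (σ ^ (j : ℕ)) ζ := h1
    have h3 : cycloChar ℓ ((σ ^ (j : ℕ))⁻¹ * σ ^ (i : ℕ)) = 1 := by
      rw [cycloChar_eq_one_iff ℓ _ hζ]
      show (σ ^ (j : ℕ))⁻¹ ((σ ^ (i : ℕ)) ζ) = ζ
      rw [h2]
      exact AlgEquiv.symm_apply_apply _ ζ
    rw [map_mul, map_inv, map_pow, map_pow, inv_mul_eq_one] at h3
    have := pow_injOn_Iio_orderOf (x := cycloChar ℓ σ)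
      (by rw [Set.mem_Iio, hord]; exact j.2) (by rw [Set.mem_Iio, hord]; exact i.2) h3
    exact Fin.ext this.symm
  have hbij : Function.Bijective e := by
    rw [Fintype.bijective_iff_injective_and_card]
    refine ⟨hinj, ?_⟩
    rw [Fintype.card_fin, AlgHom.card,
      IsCyclotomicExtension.finrank (IntermediateField.adjoin ℚ {ζ})
        (Polynomial.cyclotomic.irreducible_rat hp.pos), Nat.totient_prime hp]
  rw [← Function.Bijective.prod_comp hbij (fun φ => φ w'),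
    ← Fin.prod_univ_eq_prod_range (fun j => (σ ^ j) (w' : Qb))]
  rfl

/-- **(GLOB-TAME)** For `w ∈ cycloField ℓ H`, `w ≠ 0`, and `σ` with `χ_ℓ(σ)` a generator of
`(ZMod ℓ)ˣ`, the partial norm `∏_{i < H.index} σ^i w` is a rational number whose `ℓ`-unit part
lies in `H` modulo `ℓ`. -/
theorem cycloField_norm_tame (hℓ2 : ℓ ≠ 2) (H : Subgroup (ZMod ℓ)ˣ) {w : Qb}
    (hw : w ∈ cycloField ℓ H) (hw0 : w ≠ 0) (σ : GQ)
    (hσ : Subgroup.zpowers (cycloChar ℓ σ) = ⊤) :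
    ∃ (b : ℚ) (k m n : ℤ), algebraMap ℚ Qb b = ∏ i ∈ Finset.range H.index, (σ ^ i) w ∧
      ¬ (ℓ : ℤ) ∣ m ∧ ¬ (ℓ : ℤ) ∣ n ∧ b * n = (ℓ : ℚ) ^ k * m ∧
      ∃ u ∈ H, (u : ZMod ℓ) * n = m := by
  have hp : ℓ.Prime := Fact.out
  have : NeZero ℓ := ⟨hp.ne_zero⟩
  obtain ⟨ζ, hζ⟩ := exists_primitiveRoot_Qbar ℓ
  obtain ⟨b, hb⟩ := ct_exists_rat H hw hw0 σ hσ
  set r := Nat.card H with hr
  have hr0 : 0 < r := Nat.card_pos
  have hdr : H.index * r = ℓ - 1 := by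
    rw [hr, Subgroup.index_mul_card, Nat.card_eq_fintype_card, ZMod.card_units]
  have hζint : IsIntegral ℚ ζ := (hζ.isIntegral hp.pos).tower_top
  have : FiniteDimensional ℚ (IntermediateField.adjoin ℚ {ζ}) :=
    IntermediateField.adjoin.finiteDimensional hζint
  have : IsCyclotomicExtension {ℓ} ℚ (IntermediateField.adjoin ℚ {ζ}) :=
    hζ.intermediateField_adjoin_isCyclotomicExtension ℚ
  set w' : IntermediateField.adjoin ℚ {ζ} := ⟨w, cycloField_le_adjoin ℓ H hζ hw⟩ with hw'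
  have hw'0 : w' ≠ 0 := fun h => hw0 (congrArg Subtype.val h)
  have hnorm : Algebra.norm ℚ w' = b ^ r := by
    apply (algebraMap ℚ Qb).injective
    rw [ct_norm_eq hζ σ hσ w', map_pow, hb, ← hdr]
    exact ct_prod_range_mul (fun j => (σ ^ j) w) H.index
      (fun j => ct_pow_apply_periodic H hw σ j) r
  have hb0 : b ≠ 0 := by
    rintro rfl
    rw [zero_pow hr0.ne'] at hnorm
    exact hw'0 (Algebra.norm_eq_zero_iff.mp hnorm)
  have : (Ideal.span {((ℓ : ℕ) : 𝓞 ℚ)}).IsPrime :=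
    (Ideal.span_singleton_prime (Nat.cast_ne_zero.mpr hp.ne_zero)).mpr (ct_prime_natCast hp)
  obtain ⟨j, k, u, v, hu, hv, h⟩ := Fermat.Agent.CFT.Recip.norm_cyclo_local hℓ2
    (Ideal.span {((ℓ : ℕ) : 𝓞 ℚ)}) (Ideal.mem_span_singleton_self _) (ct_natCast_notMem_sq hp)
    (ct_absNorm_span_natCast ℓ) w' hw'0
  rw [hnorm] at h
  obtain ⟨t, m, n, hm, hn, hbmn, hpow⟩ := tn_core (Ideal.span {((ℓ : ℕ) : 𝓞 ℚ)})
    (Ideal.mem_span_singleton_self _) b hb0 r j k u v hu hv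
    h
  refine ⟨b, t, m, n, hb, hm, hn, hbmn, ?_⟩
  refine inH_of_pow_eq r H ?_ m n hn hm hpow
  intro x hx
  have hxp : x ∈ Submonoid.powers (cycloChar ℓ σ) := by
    rw [mem_powers_iff_mem_zpowers, hσ]; exact Subgroup.mem_top _
  obtain ⟨s, rfl⟩ := (Submonoid.mem_powers_iff _ _).mp hxp
  rw [← pow_mul] at hx
  have h1 : H.index * r ∣ s * r := by
    rw [hdr, ← ct_orderOf hσ]
    exact orderOf_dvd_of_pow_eq_one hx
  have h2 : H.index ∣ s := (Nat.mul_dvd_mul_iff_right hr0).mp h1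
  obtain ⟨c, rfl⟩ := h2
  rw [pow_mul]
  exact H.pow_mem (Subgroup.pow_index_mem H _) c

end Main

end Fermat.Agent.PT.G
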