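/-
PT / G : the local half of (B4) — carry classes of a cyclic extension `E/ℚ` on the decomposition
groups (`Γ = G_ℚ`, coefficients `Additive ℚ̄ˣ`, relative vocabulary of `PT/Br`).

* `cobOn₂_carryCoc_decomp_iff` (LOC): the carry cocycle of `b ∈ ℚˣ` is a level coboundary on
  `D_A` iff `b ^ j` is a norm from `Fix(D_A ⊓ G_E)` (`gcd (j, m) = 1`, `m` the local degree);
* `cobOn₂_carryCoc_decomp_iff_dvd`, `cobOn₂_carryCoc_cycloField_iff` (LOC-q + D3): at an
  unramified place this happens iff the local degree divides `v_q(b)`;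
* `tame_of_cobOn₂_carryCoc` (LOC-ℓ): at `ℓ`, for `E ⊆ ℚ(ζ_ℓ)`, it forces the tame condition;
* `cobOn₂_inf_of_lines` (Q0): a `p`-torsion level class on `D_A` dies on `D_A ⊓ G_E` when the
  unramified local degree of `E` is divisible by `p` (from the "lines" property of `D_A`).
-/
import Fermat.Agent.PT.G.CarryRes
import Fermat.Agent.PT.G.HasseLoc
import Fermat.Agent.PT.G.CycloField
import Fermat.Agent.PT.G.CycloTame
import Fermat.Agent.PT.G.RatRecip
import Fermat.Agent.PT.G.TameNorm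
import Fermat.Agent.PT.Local.UnramQbar
import Fermat.Agent.PT.Br.Kummer

set_option autoImplicit false
set_option linter.unusedSectionVars false
set_option linter.unusedVariables false

namespace Fermat.Agent.PT.G.CarryLocal

local notation "Qb" => AlgebraicClosure ℚ
local notation "GQ" => (AlgebraicClosure ℚ ≃ₐ[ℚ] AlgebraicClosure ℚ)

open Fermat.Agent.PT.Br Fermat.Agent.PT.Br.MulBridge Finset
open Fermat.Agent.PT.G

attribute [local instance] additiveAction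

/-! ### Valuations of rational numbers and of the decomposition field -/

/-- The valuation of a nonzero rational number at a place over `q`. -/
theorem valuation_ratCast_eq {q : ℕ} (hq : q.Prime) (A : ValuationSubring Qb)
    (hA : A.LiesOverPrime q) (r : ℚ) (hr : r ≠ 0) :
    A.valuation (algebraMap ℚ Qb r) = A.valuation ((q : Qb) ^ padicValRat q r) := by
  have : Fact q.Prime := ⟨hq⟩
  have hvq : A.valuation ((q : ℕ) : Qb) < 1 := A.mem_nonunits_iff.mp hA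
  obtain ⟨k, m, n, hm, hn, h⟩ := tn_exists_rat_decomp q hq r hr
  have hm0 : (m : ℚ) ≠ 0 := by
    rintro h0
    apply hm
    have : m = 0 := by exact_mod_cast h0
    rw [this]; exact dvd_zero _
  have hn0 : (n : ℚ) ≠ 0 := by
    rintro h0
    apply hn
    have : n = 0 := by exact_mod_cast h0
    rw [this]; exact dvd_zero _
  have hq0 : (q : ℚ) ≠ 0 := Nat.cast_ne_zero.mpr hq.ne_zero
  have hk : padicValRat q r = k := by
    have h1 := congrArg (padicValRat q) h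
    rw [padicValRat.mul hr hn0, padicValRat.mul (zpow_ne_zero k hq0) hm0, padicValRat.zpow,
      padicValRat.self hq.one_lt, padicValRat.of_int, padicValRat.of_int,
      padicValInt.eq_zero_of_not_dvd hn, padicValInt.eq_zero_of_not_dvd hm] at h1
    simpa using h1
  have h2 := congrArg (algebraMap ℚ Qb) h
  rw [map_mul, map_mul, map_zpow₀, map_intCast, map_intCast, map_natCast] at h2
  have h3 := congrArg A.valuation h2
  rw [map_mul, map_mul, Fermat.Agent.Lib.FrobeniusExists.val_intCast_eq_one _ hq hvq hn,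
    Fermat.Agent.Lib.FrobeniusExists.val_intCast_eq_one _ hq hvq hm, mul_one, mul_one] at h3
  rw [h3, hk]

/-- **The decomposition field is unramified over `ℚ`**: a nonzero element fixed by the
decomposition group of `A` (over `q`) has the valuation of a power of `q`. -/
theorem exists_zpow_valuation_eq_of_fixed {q : ℕ} (hq : q.Prime) (A : ValuationSubring Qb)
    (hA : A.LiesOverPrime q) (c : Qb) (hc0 : c ≠ 0)
    (hc : ∀ g ∈ A.decompositionSubgroup ℚ, g c = c) :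
    ∃ k : ℤ, A.valuation c = A.valuation ((q : Qb) ^ k) := by
  obtain ⟨y, hy, hy0, hval⟩ := exists_div_sub_one_le A hq hA ⊥ c hc0 (fun g hg _ => hc g hg) 1
  rw [IntermediateField.mem_bot] at hy
  obtain ⟨r, rfl⟩ := hy
  have hr : r ≠ 0 := by
    rintro rfl
    exact hy0 (map_zero _)
  refine ⟨padicValRat q r, ?_⟩
  rw [← valuation_ratCast_eq hq A hA r hr]
  have hvq : A.valuation ((q : ℕ) : Qb) < 1 := A.mem_nonunits_iff.mp hA
  have h1 : A.valuation (c / algebraMap ℚ Qb r - 1) < 1 :=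
    lt_of_le_of_lt hval (by rw [pow_one]; exact hvq)
  have h2 : A.valuation (c / algebraMap ℚ Qb r) = 1 := by
    have h3 : c / algebraMap ℚ Qb r = 1 + (c / algebraMap ℚ Qb r - 1) := by ring
    rw [h3]
    exact Valuation.map_one_add_of_lt _ h1
  rw [map_div₀, div_eq_one_iff_eq ((Valuation.ne_zero_iff _).mpr hy0)] at h2
  exact h2

/-! ### (LOC): the local norm criterion for a global carry class -/

/-- The local cyclic datum on `D_A` cut out by a finite normal `E`. -/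
theorem exists_cycData_decomp (E : IntermediateField ℚ Qb)
    (hEn : ∀ g : GQ, ∀ n ∈ E.fixingSubgroup, g * n * g⁻¹ ∈ E.fixingSubgroup)
    (A : ValuationSubring Qb) {σ' : GQ} (hσ' : σ' ∈ A.decompositionSubgroup ℚ) {m : ℕ}
    (hm : 1 < m)
    (hgen : ∀ g ∈ A.decompositionSubgroup ℚ, ∃ i : ℕ, (σ' ^ i)⁻¹ * g ∈ E.fixingSubgroup)
    (hord : ∀ i : ℕ, σ' ^ i ∈ E.fixingSubgroup ↔ m ∣ i) :
    ∃ e' : GQ → ℕ, CycData (A.decompositionSubgroup ℚ)
      (A.decompositionSubgroup ℚ ⊓ E.fixingSubgroup) m σ' e' := by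
  refine CycData.exists_of_gen ⟨inf_le_left, fun g hg n hn => ?_⟩ hσ' hm (fun g hg => ?_)
    (fun i => ?_)
  · exact ⟨Subgroup.mul_mem _ (Subgroup.mul_mem _ hg hn.1) (Subgroup.inv_mem _ hg),
      hEn g n hn.2⟩
  · obtain ⟨i, hi⟩ := hgen g hg
    exact ⟨i, Subgroup.mul_mem _ (Subgroup.inv_mem _ (Subgroup.pow_mem _ hσ' i)) hg, hi⟩
  · rw [← hord i]
    exact ⟨fun h => h.2, fun h => ⟨Subgroup.pow_mem _ hσ' i, h⟩⟩

/-- **(LOC).**  `E/ℚ` finite with `G_ℚ/G_E` cyclic of order `d` (datum `he`), `A` a place with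
`D_A/(D_A ⊓ G_E)` cyclic of order `m > 1` generated by `σ'`, `b ∈ ℚˣ`.  Then the carry cocycle
of `b` is a level coboundary on `D_A` iff `b ^ j` is a norm from `Fix(D_A ⊓ G_E)`, where
`j * d = m * e σ'`, `gcd (j, m) = 1`. -/
theorem cobOn₂_carryCoc_decomp_iff (E : IntermediateField ℚ Qb) [FiniteDimensional ℚ E]
    {d : ℕ} {σ : GQ} {e : GQ → ℕ}
    (he : CycData (⊤ : Subgroup GQ) E.fixingSubgroup d σ e)
    (A : ValuationSubring Qb) {σ' : GQ} (hσ' : σ' ∈ A.decompositionSubgroup ℚ) {m : ℕ}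
    (hm : 1 < m)
    (hgen : ∀ g ∈ A.decompositionSubgroup ℚ, ∃ i : ℕ, (σ' ^ i)⁻¹ * g ∈ E.fixingSubgroup)
    (hord : ∀ i : ℕ, σ' ^ i ∈ E.fixingSubgroup ↔ m ∣ i)
    (b : Qb) (hb : b ≠ 0) (hbQ : ∀ g : GQ, g b = b) :
    ∃ j : ℕ, j * d = m * e σ' ∧ Nat.Coprime j m ∧
      ((∃ F : IntermediateField ℚ Qb, FiniteDimensional ℚ F ∧
          CobOn₂ (A.decompositionSubgroup ℚ) (A.decompositionSubgroup ℚ ⊓ F.fixingSubgroup)
            (carryCoc d e (ofQb b hb))) ↔
        ∃ y : Qb, y ≠ 0 ∧ (∀ n ∈ A.decompositionSubgroup ℚ ⊓ E.fixingSubgroup, n y = y) ∧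
          ∏ i ∈ Finset.range m, (σ' ^ i) y = b ^ j) := by
  obtain ⟨e', he'⟩ := exists_cycData_decomp E
    (fun g n hn => he.normal.conj g (Subgroup.mem_top g) n hn) A hσ' hm hgen hord
  have ha : ∀ g ∈ (⊤ : Subgroup GQ), g • ofQb b hb = ofQb b hb := fun g _ => by
    rw [smul_eq_iff_apply, toQb_ofQb]
    exact hbQ g
  obtain ⟨j, hj1, hj2, hiff⟩ := CarryRes.exists_cobOn₂_carryCoc_res_iff he le_top he' ha
  refine ⟨j, hj1, hj2, ?_⟩
  constructor
  · rintro ⟨F, hF, hc⟩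
    have hle1 : (F ⊔ E).fixingSubgroup ≤ F.fixingSubgroup :=
      IntermediateField.fixingSubgroup_antitone le_sup_left
    have hle2 : (F ⊔ E).fixingSubgroup ≤ E.fixingSubgroup :=
      IntermediateField.fixingSubgroup_antitone le_sup_right
    have hH : H90On (Additive Qbˣ) (A.decompositionSubgroup ℚ ⊓ E.fixingSubgroup)
        (A.decompositionSubgroup ℚ ⊓ (F ⊔ E).fixingSubgroup) :=
      h90On_Qb _ _ (fixingSubgroup_fixedField_decomp_inf A E) (F ⊔ E)
        (fun g hg => ⟨hg.1.1, hg.2⟩)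
    obtain ⟨y, hy, hjy⟩ := (hiff _ (inf_le_inf_left _ hle2) hH).1
      (hc.mono (inf_le_inf_left _ hle1))
    refine ⟨toQb y, toQb_ne_zero y, fun n hn => (smul_eq_iff_apply n y).1 (hy n hn), ?_⟩
    have := congrArg toQb hjy
    rw [toQb_nsmul, toQb_ofQb, toQb_partialNm] at this
    exact this.symm
  · rintro ⟨y, hy0, hy, hprod⟩
    refine ⟨E, inferInstance, ?_⟩
    have hH : H90On (Additive Qbˣ) (A.decompositionSubgroup ℚ ⊓ E.fixingSubgroup)
        (A.decompositionSubgroup ℚ ⊓ E.fixingSubgroup) :=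
      h90On_Qb _ _ (fixingSubgroup_fixedField_decomp_inf A E) E (fun g hg => hg.1)
    refine (hiff _ le_rfl hH).2 ⟨ofQb y hy0, fun n hn => ?_, ?_⟩
    · rw [smul_eq_iff_apply, toQb_ofQb]
      exact hy n hn
    · apply toQb_injective
      rw [toQb_nsmul, toQb_ofQb, toQb_partialNm, toQb_ofQb]
      exact hprod.symm

/-! ### (LOC-q) + (D3): unramified places -/

/-- **(LOC-q) + (D3).**  `E/ℚ` finite Galois with `G_ℚ/G_E` cyclic (datum `he`), unramified at
the place `A` over `q`, with `D_A/(D_A ⊓ G_E)` cyclic of order `m` generated by `σ'`.  For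
`b ∈ ℚˣ` the carry cocycle of `b` is a level coboundary on `D_A` iff `m ∣ v_q(b)`. -/
theorem cobOn₂_carryCoc_decomp_iff_dvd (E : IntermediateField ℚ Qb) [FiniteDimensional ℚ E]
    [Normal ℚ E] {d : ℕ} {σ : GQ} {e : GQ → ℕ}
    (he : CycData (⊤ : Subgroup GQ) E.fixingSubgroup d σ e)
    {q : ℕ} (hq : q.Prime) (A : ValuationSubring Qb) (hA : A.LiesOverPrime q)
    (hI : A.inertiaSubgroupIn ℚ ≤ E.fixingSubgroup)
    {σ' : GQ} (hσ' : σ' ∈ A.decompositionSubgroup ℚ) {m : ℕ} (hm : 0 < m)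
    (hgen : ∀ g ∈ A.decompositionSubgroup ℚ, ∃ i : ℕ, (σ' ^ i)⁻¹ * g ∈ E.fixingSubgroup)
    (hord : ∀ i : ℕ, σ' ^ i ∈ E.fixingSubgroup ↔ m ∣ i)
    (b : ℚ) (hb : algebraMap ℚ Qb b ≠ 0) :
    (∃ F : IntermediateField ℚ Qb, FiniteDimensional ℚ F ∧
        CobOn₂ (A.decompositionSubgroup ℚ) (A.decompositionSubgroup ℚ ⊓ F.fixingSubgroup)
          (carryCoc d e (ofQb (algebraMap ℚ Qb b) hb))) ↔
      (m : ℤ) ∣ padicValRat q b := by
  have hb0 : b ≠ 0 := by
    rintro rfl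
    exact hb (map_zero _)
  have hq0 : ((q : ℕ) : Qb) ≠ 0 := Nat.cast_ne_zero.mpr hq.ne_zero
  have hvq0 : A.valuation ((q : ℕ) : Qb) ≠ 0 := (Valuation.ne_zero_iff _).mpr hq0
  have hvq1 : A.valuation ((q : ℕ) : Qb) < 1 := A.mem_nonunits_iff.mp hA
  rcases Nat.lt_or_ge 1 m with hm1 | hm1
  swap
  · -- the split case `m = 1`
    have hm' : m = 1 := by omega
    subst hm'
    have hD : A.decompositionSubgroup ℚ ≤ E.fixingSubgroup := by
      intro g hg
      obtain ⟨i, hi⟩ := hgen g hg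
      have h1 : σ' ^ i ∈ E.fixingSubgroup := (hord i).2 (one_dvd i)
      have : g = σ' ^ i * ((σ' ^ i)⁻¹ * g) := by group
      rw [this]
      exact Subgroup.mul_mem _ h1 hi
    constructor
    · intro _
      rw [Nat.cast_one]
      exact one_dvd _
    · intro _
      exact ⟨E, inferInstance, CarryRes.cobOn₂_carryCoc_of_le he hD _ _⟩
  · obtain ⟨j, hj1, hj2, hiff⟩ := cobOn₂_carryCoc_decomp_iff E he A hσ' hm1 hgen hord
      (algebraMap ℚ Qb b) hb (fun g => g.commutes b)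
    rw [hiff]
    have hK : (⊥ : IntermediateField ℚ Qb).fixingSubgroup = ⊤ :=
      IntermediateField.fixingSubgroup_bot
    have hmem : ∀ g : GQ, g ∈ A.decompositionSubgroup ℚ ⊓
        (⊥ : IntermediateField ℚ Qb).fixingSubgroup ↔ g ∈ A.decompositionSubgroup ℚ :=
      fun g => by rw [hK, inf_top_eq]
    have hbj0 : algebraMap ℚ Qb b ^ j ≠ 0 := pow_ne_zero _ hb
    have h33 := Fermat.Agent.PT.Local.exists_prod_pow_eq_iff_of_unramified_rat hq A hA ⊥ E hI σ'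
      ((hmem σ').2 hσ') m hm (fun g hg => hgen g ((hmem g).1 hg)) hord
      (algebraMap ℚ Qb b ^ j) hbj0 (fun g _ => by rw [map_pow, g.commutes])
    have hL : (∃ y : Qb, y ≠ 0 ∧
        (∀ n ∈ A.decompositionSubgroup ℚ ⊓ E.fixingSubgroup, n y = y) ∧
          ∏ i ∈ Finset.range m, (σ' ^ i) y = algebraMap ℚ Qb b ^ j) ↔
        (∃ y : Qb, y ≠ 0 ∧
        (∀ n ∈ A.decompositionSubgroup ℚ ⊓ (⊥ : IntermediateField ℚ Qb).fixingSubgroup ⊓
          E.fixingSubgroup, n y = y) ∧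
          ∏ i ∈ Finset.range m, (σ' ^ i) y = algebraMap ℚ Qb b ^ j) := by
      rw [hK, inf_top_eq]
    rw [hL, h33]
    have hinj : ∀ a c : ℤ, A.valuation ((q : ℕ) : Qb) ^ a = A.valuation ((q : ℕ) : Qb) ^ c →
        a = c := fun a c h => zpow_right_injective₀ (zero_lt_iff.mpr hvq0) hvq1.ne h
    constructor
    · rintro ⟨c, hc0, hc, hval⟩
      obtain ⟨k, hk⟩ := exists_zpow_valuation_eq_of_fixed hq A hA c hc0
        (fun g hg => hc g ((hmem g).2 hg))
      rw [map_pow, valuation_ratCast_eq hq A hA b hb0, hk, map_zpow₀, map_zpow₀,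
        ← zpow_natCast, ← zpow_natCast, ← zpow_mul, ← zpow_mul] at hval
      have h1 := hinj _ _ hval
      have h2 : (m : ℤ) ∣ (j : ℤ) * padicValRat q b := ⟨k, by rw [mul_comm, h1, mul_comm]⟩
      exact (Nat.isCoprime_iff_coprime.mpr hj2).symm.dvd_of_dvd_mul_left h2
    · rintro ⟨k, hk⟩
      refine ⟨(q : Qb) ^ ((j : ℤ) * k), zpow_ne_zero _ hq0,
        fun g _ => by rw [map_zpow₀, map_natCast], ?_⟩
      rw [map_pow, valuation_ratCast_eq hq A hA b hb0, hk, map_zpow₀, map_zpow₀,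
        ← zpow_natCast, ← zpow_natCast, ← zpow_mul, ← zpow_mul]
      congr 1
      ring

/-! ### The case `E = cycloField ℓ H`, `q ≠ ℓ` -/

/-- The local cyclic datum of `cycloField ℓ H` at a place over `q ≠ ℓ`: `D_A/(D_A ⊓ G_E)` is
generated by a Frobenius element, of order the order of `q` in `(ℤ/ℓ)ˣ ⧸ H`. -/
theorem exists_frobenius_gen {ℓ : ℕ} [Fact ℓ.Prime] (H : Subgroup (ZMod ℓ)ˣ) {q : ℕ}
    (hq : q.Prime) (hqℓ : q ≠ ℓ) (A : ValuationSubring Qb) (hA : A.LiesOverPrime q)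
    (u : (ZMod ℓ)ˣ) (hu : (u : ZMod ℓ) = q) :
    ∃ φ ∈ A.decompositionSubgroup ℚ,
      (∀ g ∈ A.decompositionSubgroup ℚ,
        ∃ i : ℕ, (φ ^ i)⁻¹ * g ∈ (cycloField ℓ H).fixingSubgroup) ∧
      (∀ i : ℕ, φ ^ i ∈ (cycloField ℓ H).fixingSubgroup ↔
        orderOf (QuotientGroup.mk u : (ZMod ℓ)ˣ ⧸ H) ∣ i) := by
  obtain ⟨φ, hφD, hφq, hφgen⟩ := exists_frobenius_cycloChar ℓ hq hqℓ A hA
  have hφu : ExtCitation.cycloChar ℓ φ = u := Units.ext (by rw [hφq, hu])
  refine ⟨φ, hφD, fun g hg => ?_, fun i => ?_⟩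
  · have h1 := hφgen g hg
    rw [← mem_powers_iff_mem_zpowers] at h1
    obtain ⟨i, hi⟩ := h1
    refine ⟨i, ?_⟩
    rw [mem_fixingSubgroup_cycloField_iff, map_mul, map_inv, map_pow]
    have hi' : ExtCitation.cycloChar ℓ φ ^ i = ExtCitation.cycloChar ℓ g := hi
    rw [hi', inv_mul_cancel]
    exact H.one_mem
  · rw [mem_fixingSubgroup_cycloField_iff, map_pow, hφu, orderOf_dvd_iff_pow_eq_one,
      ← QuotientGroup.mk_pow, QuotientGroup.eq_one_iff]

/-- **(LOC-q) + (D3) for `cycloField ℓ H`**, in the shape of `rat_reciprocity_dvd`: for `q ≠ ℓ`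
and `b ∈ ℚˣ`, the carry cocycle of `b` is a level coboundary on `D_A` (`A` over `q`) iff the
order of `q` in `(ℤ/ℓ)ˣ ⧸ H` divides `v_q(b)`. -/
theorem cobOn₂_carryCoc_cycloField_iff {ℓ : ℕ} [Fact ℓ.Prime] (H : Subgroup (ZMod ℓ)ˣ)
    {d : ℕ} {σ : GQ} {e : GQ → ℕ}
    (he : CycData (⊤ : Subgroup GQ) (cycloField ℓ H).fixingSubgroup d σ e)
    {q : ℕ} (hq : q.Prime) (hqℓ : q ≠ ℓ) (A : ValuationSubring Qb) (hA : A.LiesOverPrime q)
    (u : (ZMod ℓ)ˣ) (hu : (u : ZMod ℓ) = q) (b : ℚ) (hb : algebraMap ℚ Qb b ≠ 0) :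
    (∃ F : IntermediateField ℚ Qb, FiniteDimensional ℚ F ∧
        CobOn₂ (A.decompositionSubgroup ℚ) (A.decompositionSubgroup ℚ ⊓ F.fixingSubgroup)
          (carryCoc d e (ofQb (algebraMap ℚ Qb b) hb))) ↔
      (orderOf (QuotientGroup.mk u : (ZMod ℓ)ˣ ⧸ H) : ℤ) ∣ padicValRat q b := by
  obtain ⟨φ, hφD, hgen, hord⟩ := exists_frobenius_gen H hq hqℓ A hA u hu
  exact cobOn₂_carryCoc_decomp_iff_dvd (cycloField ℓ H) he hq A hA
    (inertia_le_fixingSubgroup_cycloField ℓ H hq hqℓ A hA) hφD (orderOf_pos _) hgen hord b hb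

/-- **(LOC-q)** in the shape of hypothesis `hq` of `rat_reciprocity`. -/
theorem inH_of_cobOn₂_carryCoc {ℓ : ℕ} [Fact ℓ.Prime] (H : Subgroup (ZMod ℓ)ˣ)
    {d : ℕ} {σ : GQ} {e : GQ → ℕ}
    (he : CycData (⊤ : Subgroup GQ) (cycloField ℓ H).fixingSubgroup d σ e)
    {q : ℕ} (hq : q.Prime) (hqℓ : q ≠ ℓ) (A : ValuationSubring Qb) (hA : A.LiesOverPrime q)
    (b : ℚ) (hb : algebraMap ℚ Qb b ≠ 0)
    (hc : ∃ F : IntermediateField ℚ Qb, FiniteDimensional ℚ F ∧
        CobOn₂ (A.decompositionSubgroup ℚ) (A.decompositionSubgroup ℚ ⊓ F.fixingSubgroup)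
          (carryCoc d e (ofQb (algebraMap ℚ Qb b) hb))) :
    ∃ u ∈ H, (u : ZMod ℓ) = (q : ZMod ℓ) ^ padicValRat q b := by
  have hℓ : ℓ.Prime := Fact.out
  have hqZ : (q : ZMod ℓ) ≠ 0 := by
    rw [Ne, ZMod.natCast_eq_zero_iff]
    intro hdvd
    exact hqℓ ((Nat.prime_dvd_prime_iff_eq hℓ hq).mp hdvd).symm
  have h := (cobOn₂_carryCoc_cycloField_iff H he hq hqℓ A hA (Units.mk0 (q : ZMod ℓ) hqZ) rfl
    b hb).1 hc
  rw [← zpow_mem_iff_orderOf_dvd] at h
  exact ⟨_, h, by rw [Units.val_zpow_eq_zpow_val, Units.val_mk0]⟩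

end Fermat.Agent.PT.G.CarryLocal
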