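/-
PT / G : the local statements (T1), (T5) of the B4 assembly (report #1886) in their literal
shapes, as corollaries of `PT/G/CarryLocal.lean`.
-/
import Fermat.Agent.PT.G.CarryLocal

set_option autoImplicit false

namespace Fermat.Agent.PT.G.CarryLocal

local notation "Qb" => AlgebraicClosure ℚ
local notation "GQ" => (AlgebraicClosure ℚ ≃ₐ[ℚ] AlgebraicClosure ℚ)

open Fermat.Agent.PT.Br Fermat.Agent.PT.Br.MulBridge Finset
open Fermat.Agent.PT.G

attribute [local instance] additiveAction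

/-- An additive coefficient with rational value is `ofQb` of that rational. -/
theorem eq_ofQb_of_toMul {a : Additive Qbˣ} {b : ℚ}
    (ha : ((Additive.toMul a : Qbˣ) : Qb) = algebraMap ℚ Qb b) :
    ∃ hb : algebraMap ℚ Qb b ≠ 0, a = ofQb (algebraMap ℚ Qb b) hb := by
  have hb : algebraMap ℚ Qb b ≠ 0 := by
    rw [← ha]
    exact (Additive.toMul a).ne_zero
  refine ⟨hb, ?_⟩
  apply toQb_injective
  rw [toQb_ofQb]
  exact ha

/-- **(T1)** [`q ≠ ℓ`, any level]: if the carry cocycle of `b ∈ ℚˣ` for `cycloField ℓ H` is a level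
coboundary on `D_A`, `A` over `q`, then `q ^ v_q(b) ∈ H`. -/
theorem t1_inH {ℓ q : ℕ} (hq : q.Prime) [Fact ℓ.Prime] (hqℓ : q ≠ ℓ)
    (A : ValuationSubring Qb) (hA : A.LiesOverPrime q) (H : Subgroup (ZMod ℓ)ˣ)
    {m : ℕ} {σ : GQ} {e : GQ → ℕ}
    (h : CycData (⊤ : Subgroup GQ) (cycloField ℓ H).fixingSubgroup m σ e)
    (b : ℚ) (a : Additive Qbˣ) (ha : ((Additive.toMul a : Qbˣ) : Qb) = algebraMap ℚ Qb b)
    (F : IntermediateField ℚ Qb) [FiniteDimensional ℚ F]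
    (hcob : CobOn₂ (A.decompositionSubgroup ℚ) (A.decompositionSubgroup ℚ ⊓ F.fixingSubgroup)
      (carryCoc m e a)) :
    ∃ u ∈ H, (u : ZMod ℓ) = (q : ZMod ℓ) ^ padicValRat q b := by
  obtain ⟨hb, rfl⟩ := eq_ofQb_of_toMul ha
  exact inH_of_cobOn₂_carryCoc H h hq hqℓ A hA b hb ⟨F, inferInstance, hcob⟩

/-- **(T5)** [at `q₀`, after `rat_reciprocity_dvd`]: if the order of `q` in `(ℤ/ℓ)ˣ ⧸ H` divides
`v_q(b)`, the carry cocycle of `b` is a coboundary on `D_A` at the level `D_A ⊓ G_E`. -/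
theorem t5_cobOn₂ {ℓ q : ℕ} (hq : q.Prime) [Fact ℓ.Prime] (hqℓ : q ≠ ℓ)
    (A : ValuationSubring Qb) (hA : A.LiesOverPrime q) (H : Subgroup (ZMod ℓ)ˣ)
    {m : ℕ} {σ : GQ} {e : GQ → ℕ}
    (h : CycData (⊤ : Subgroup GQ) (cycloField ℓ H).fixingSubgroup m σ e)
    (b : ℚ) (a : Additive Qbˣ) (ha : ((Additive.toMul a : Qbˣ) : Qb) = algebraMap ℚ Qb b)
    (u₀ : (ZMod ℓ)ˣ) (hu₀ : (u₀ : ZMod ℓ) = q)
    (hdvd : (orderOf (QuotientGroup.mk u₀ : (ZMod ℓ)ˣ ⧸ H) : ℤ) ∣ padicValRat q b) :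
    CobOn₂ (A.decompositionSubgroup ℚ)
      (A.decompositionSubgroup ℚ ⊓ (cycloField ℓ H).fixingSubgroup) (carryCoc m e a) := by
  obtain ⟨hb, rfl⟩ := eq_ofQb_of_toMul ha
  obtain ⟨F, hF, hc⟩ := (cobOn₂_carryCoc_cycloField_iff H h hq hqℓ A hA u₀ hu₀ b hb).2 hdvd
  have := hF
  set E := cycloField ℓ H with hE
  have hle1 : (F ⊔ E).fixingSubgroup ≤ F.fixingSubgroup :=
    IntermediateField.fixingSubgroup_antitone le_sup_left
  have hH : H90On (Additive Qbˣ) (A.decompositionSubgroup ℚ ⊓ E.fixingSubgroup)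
      (A.decompositionSubgroup ℚ ⊓ (F ⊔ E).fixingSubgroup) :=
    h90On_Qb _ _ (fixingSubgroup_fixedField_decomp_inf A E) (F ⊔ E)
      (fun g hg => ⟨hg.1.1, hg.2⟩)
  have hN : NormalIn (A.decompositionSubgroup ℚ ⊓ E.fixingSubgroup)
      (A.decompositionSubgroup ℚ) :=
    ⟨inf_le_left, fun g hg n hn =>
      ⟨Subgroup.mul_mem _ (Subgroup.mul_mem _ hg hn.1) (Subgroup.inv_mem _ hg),
        h.normal.conj g (Subgroup.mem_top g) n hn.2⟩⟩
  have ha' : ∀ g ∈ (⊤ : Subgroup GQ),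
      g • ofQb (algebraMap ℚ Qb b) hb = ofQb (algebraMap ℚ Qb b) hb := fun g _ => by
    rw [smul_eq_iff_apply, toQb_ofQb]
    exact g.commutes b
  have hinf : InflOn₂ (A.decompositionSubgroup ℚ)
      (A.decompositionSubgroup ℚ ⊓ E.fixingSubgroup)
      (carryCoc m e (ofQb (algebraMap ℚ Qb b) hb)) :=
    ((h.inflOn₂_carryCoc ha').mono_left le_top).mono inf_le_right
  exact cobOn₂_of_cobOn₂_of_inflOn₂ hN hH hinf (hc.mono (inf_le_inf_left _ hle1))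

end Fermat.Agent.PT.G.CarryLocal
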