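/-
PT / G : the local statement (T3) of the B4 assembly (report #1886): at `ℓ`, a carry class of
`cycloField ℓ H` which is a level coboundary on `D_A` (`A` over `ℓ`) forces the tame condition
(hypothesis `hℓ` of `rat_reciprocity`).
-/
import Fermat.Agent.PT.G.CarryLocalT

set_option autoImplicit false

namespace Fermat.Agent.PT.G.CarryLocal

local notation "Qb" => AlgebraicClosure ℚ
local notation "GQ" => (AlgebraicClosure ℚ ≃ₐ[ℚ] AlgebraicClosure ℚ)

open Fermat.Agent.PT.Br Fermat.Agent.PT.Br.MulBridge Finset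
open Fermat.Agent.PT.G
open Fermat.Agent.Lib.GalQbar

attribute [local instance] additiveAction isAlgClosure_rat isGalois_rat
  Fermat.Agent.Lib.GalQbar.isAlgebraic_rat

/-- The index of `N` is the order of the cyclic quotient described by a `CycData ⊤ N m σ e`. -/
theorem index_eq_of_cycData {Γ : Type*} [Group Γ] {N : Subgroup Γ} {m : ℕ} {σ : Γ} {e : Γ → ℕ}
    (h : CycData (⊤ : Subgroup Γ) N m σ e) : N.index = m := by
  have hwd : ∀ a b : Γ, QuotientGroup.leftRel N a b →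
      (⟨e a, h.e_lt a (Subgroup.mem_top a)⟩ : Fin m) = ⟨e b, h.e_lt b (Subgroup.mem_top b)⟩ := by
    intro a b hab
    rw [QuotientGroup.leftRel_apply] at hab
    have h1 := h.e_mul_right (Subgroup.mem_top a) hab
    rw [mul_inv_cancel_left] at h1
    exact Fin.ext h1.symm
  let f : Γ ⧸ N → Fin m := Quotient.lift (s := QuotientGroup.leftRel N)
    (fun g => (⟨e g, h.e_lt g (Subgroup.mem_top g)⟩ : Fin m)) hwd
  have hf : ∀ g : Γ, f (QuotientGroup.mk g) = ⟨e g, h.e_lt g (Subgroup.mem_top g)⟩ :=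
    fun g => rfl
  have hbij : Function.Bijective f := by
    constructor
    · intro x y hxy
      obtain ⟨a, rfl⟩ := QuotientGroup.mk_surjective x
      obtain ⟨b, rfl⟩ := QuotientGroup.mk_surjective y
      rw [hf, hf] at hxy
      have hab : e a = e b := congrArg Fin.val hxy
      exact QuotientGroup.eq.2
        (CycData_inv_mul_mem h (Subgroup.mem_top a) (Subgroup.mem_top b) hab)
    · intro i
      refine ⟨QuotientGroup.mk (σ ^ (i : ℕ)), ?_⟩
      rw [hf]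
      apply Fin.ext
      show e (σ ^ (i : ℕ)) = i
      rw [h.e_pow, Nat.mod_eq_of_lt i.2]
  rw [Subgroup.index, Nat.card_eq_of_bijective f hbij, Nat.card_fin]

/-- A rational number which is `≡ 1` at a place over `ℓ` is `m₁ / n₁` with `m₁ ≡ n₁ ≢ 0`
modulo `ℓ`. -/
theorem exists_int_of_valuation_sub_one_lt {ℓ : ℕ} (hℓ : ℓ.Prime) (A : ValuationSubring Qb)
    (hA : A.LiesOverPrime ℓ) (r : ℚ) (hr : A.valuation (algebraMap ℚ Qb r - 1) < 1) :
    ∃ m₁ n₁ : ℤ, ¬ (ℓ : ℤ) ∣ m₁ ∧ ¬ (ℓ : ℤ) ∣ n₁ ∧ r * n₁ = m₁ ∧ (m₁ : ZMod ℓ) = n₁ := by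
  have hvℓ : A.valuation ((ℓ : ℕ) : Qb) < 1 := A.mem_nonunits_iff.mp hA
  have hℓ0 : ((ℓ : ℕ) : Qb) ≠ 0 := Nat.cast_ne_zero.mpr hℓ.ne_zero
  have hvℓ0 : A.valuation ((ℓ : ℕ) : Qb) ≠ 0 := (Valuation.ne_zero_iff _).mpr hℓ0
  have hr0 : r ≠ 0 := by
    rintro rfl
    rw [map_zero, zero_sub, Valuation.map_neg, map_one] at hr
    exact lt_irrefl _ hr
  have hvr : A.valuation (algebraMap ℚ Qb r) = 1 := by
    have h3 : algebraMap ℚ Qb r = 1 + (algebraMap ℚ Qb r - 1) := by ring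
    rw [h3]
    exact Valuation.map_one_add_of_lt _ hr
  obtain ⟨k, m₁, n₁, hm₁, hn₁, h⟩ := tn_exists_rat_decomp ℓ hℓ r hr0
  have h2 := congrArg (algebraMap ℚ Qb) h
  rw [map_mul, map_mul, map_zpow₀, map_intCast, map_intCast, map_natCast] at h2
  have h3 := congrArg A.valuation h2
  rw [map_mul, map_mul, Fermat.Agent.Lib.FrobeniusExists.val_intCast_eq_one _ hℓ hvℓ hn₁,
    Fermat.Agent.Lib.FrobeniusExists.val_intCast_eq_one _ hℓ hvℓ hm₁, mul_one, mul_one, hvr,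
    map_zpow₀] at h3
  have hk : k = 0 := by
    have h4 : A.valuation ((ℓ : ℕ) : Qb) ^ k = A.valuation ((ℓ : ℕ) : Qb) ^ (0 : ℤ) := by
      rw [← h3, zpow_zero]
    exact zpow_right_injective₀ (zero_lt_iff.mpr hvℓ0) hvℓ.ne h4
  rw [hk, zpow_zero, one_mul] at h
  refine ⟨m₁, n₁, hm₁, hn₁, h, ?_⟩
  -- `ℓ ∣ m₁ - n₁`
  have h5 : (algebraMap ℚ Qb r - 1) * (n₁ : Qb) = ((m₁ - n₁ : ℤ) : Qb) := by
    have h6 := congrArg (algebraMap ℚ Qb) h
    rw [map_mul, map_intCast, map_intCast] at h6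
    rw [sub_mul, one_mul, h6]
    push_cast
    ring
  have h7 : A.valuation (((m₁ - n₁ : ℤ) : Qb)) < 1 := by
    rw [← h5, map_mul, Fermat.Agent.Lib.FrobeniusExists.val_intCast_eq_one _ hℓ hvℓ hn₁, mul_one]
    exact hr
  have h8 : (ℓ : ℤ) ∣ m₁ - n₁ := by
    by_contra hnd
    rw [Fermat.Agent.Lib.FrobeniusExists.val_intCast_eq_one _ hℓ hvℓ hnd] at h7
    exact lt_irrefl _ h7
  exact ((ZMod.intCast_eq_intCast_iff_dvd_sub n₁ m₁ ℓ).2 h8).symm

/-- **(T3)** [at `ℓ`]: `A` over `ℓ`, global cyclic datum of `cycloField ℓ H` with generator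
`σ ∈ D_A`, `χ_ℓ(σ)` a generator of `(ℤ/ℓ)ˣ`.  If the carry cocycle of `b ∈ ℚˣ` is a level
coboundary on `D_A`, then `b` satisfies the tame condition at `ℓ` (hypothesis `hℓ` of
`rat_reciprocity`). -/
theorem t3_tame {ℓ : ℕ} [Fact ℓ.Prime] (hℓ2 : ℓ ≠ 2) (A : ValuationSubring Qb)
    (hA : A.LiesOverPrime ℓ) (H : Subgroup (ZMod ℓ)ˣ) {m : ℕ} {σ : GQ} {e : GQ → ℕ}
    (h : CycData (⊤ : Subgroup GQ) (cycloField ℓ H).fixingSubgroup m σ e)
    (hσA : σ ∈ A.decompositionSubgroup ℚ)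
    (hσ : Subgroup.zpowers (ExtCitation.cycloChar ℓ σ) = ⊤)
    (b : ℚ) (a : Additive Qbˣ) (ha : ((Additive.toMul a : Qbˣ) : Qb) = algebraMap ℚ Qb b)
    (F : IntermediateField ℚ Qb) [FiniteDimensional ℚ F]
    (hcob : CobOn₂ (A.decompositionSubgroup ℚ) (A.decompositionSubgroup ℚ ⊓ F.fixingSubgroup)
      (carryCoc m e a)) :
    ∃ (k m' n : ℤ), ¬ (ℓ : ℤ) ∣ m' ∧ ¬ (ℓ : ℤ) ∣ n ∧ b * n = (ℓ : ℚ) ^ k * m' ∧
      ∃ u ∈ H, (u : ZMod ℓ) * n = m' := by
  have hℓ : ℓ.Prime := Fact.out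
  have hℓint : Prime (ℓ : ℤ) := Nat.prime_iff_prime_int.mp hℓ
  set E := cycloField ℓ H with hE
  set D := A.decompositionSubgroup ℚ with hD
  -- `m = H.index`
  have hm : H.index = m := by
    rw [← finrank_cycloField ℓ H, IntermediateField.finrank_eq_fixingSubgroup_index]
    exact index_eq_of_cycData h
  -- the local cyclic datum
  have hloc : CycData D (D ⊓ E.fixingSubgroup) m σ e := by
    have := cycData_inf h D ⟨hσA, Subgroup.mem_top σ⟩ h.e_σ
    rwa [inf_top_eq] at this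
  have hafix : ∀ g ∈ D, g • a = a := fun g _ => by
    rw [smul_eq_iff_apply]
    show g ((Additive.toMul a : Qbˣ) : Qb) = ((Additive.toMul a : Qbˣ) : Qb)
    rw [ha]
    exact g.commutes b
  have hle1 : (F ⊔ E).fixingSubgroup ≤ F.fixingSubgroup :=
    IntermediateField.fixingSubgroup_antitone le_sup_left
  have hle2 : (F ⊔ E).fixingSubgroup ≤ E.fixingSubgroup :=
    IntermediateField.fixingSubgroup_antitone le_sup_right
  have hH : H90On (Additive Qbˣ) (D ⊓ E.fixingSubgroup) (D ⊓ (F ⊔ E).fixingSubgroup) :=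
    h90On_Qb _ _ (fixingSubgroup_fixedField_decomp_inf A E) (F ⊔ E)
      (fun g hg => ⟨hg.1.1, hg.2⟩)
  obtain ⟨y, hy, hay⟩ := (hloc.cobOn₂_carryCoc_iff (inf_le_inf_left _ hle2) hH hafix).1
    (hcob.mono (inf_le_inf_left _ hle1))
  -- density
  obtain ⟨w, hwE, hw0, hw⟩ := exists_prod_div_sub_one_le A hℓ hA E hσA m (toQb y)
    (toQb_ne_zero y) (fun g hgD hgE => (smul_eq_iff_apply g y).1 (hy g ⟨hgD, hgE⟩)) 1
  have hprod : ∏ i ∈ Finset.range m, (σ ^ i) (toQb y) = algebraMap ℚ Qb b := by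
    rw [← toQb_partialNm, ← hay]
    exact ha
  rw [hprod] at hw
  -- the global norm
  obtain ⟨b', k, m', n, hb', hm', hn, hb'mn, u, hu, hun⟩ := cycloField_norm_tame hℓ2 H hwE hw0 σ hσ
  rw [hm] at hb'
  rw [← hb', ← map_div₀, pow_one] at hw
  have hvℓ : A.valuation ((ℓ : ℕ) : Qb) < 1 := A.mem_nonunits_iff.mp hA
  obtain ⟨m₁, n₁, hm₁, hn₁, hr, hmn₁⟩ := exists_int_of_valuation_sub_one_lt hℓ A hA (b / b')
    (lt_of_le_of_lt hw hvℓ)
  have hb'0 : b' ≠ 0 := by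
    rintro rfl
    rw [map_zero] at hb'
    have : ∏ i ∈ Finset.range m, (σ ^ i) w ≠ 0 :=
      Finset.prod_ne_zero_iff.mpr fun i _ => (map_ne_zero _).mpr hw0
    exact this hb'.symm
  refine ⟨k, m' * m₁, n * n₁, ?_, ?_, ?_, u, hu, ?_⟩
  · intro hd
    rcases hℓint.dvd_or_dvd hd with h1 | h1
    · exact hm' h1
    · exact hm₁ h1
  · intro hd
    rcases hℓint.dvd_or_dvd hd with h1 | h1
    · exact hn h1
    · exact hn₁ h1
  · have e1 : b = b / b' * b' := by field_simp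
    push_cast
    calc b * ((n : ℚ) * n₁) = (b' * n) * (b / b' * n₁) := by
          rw [e1]; field_simp
      _ = (ℓ : ℚ) ^ k * ((m' : ℚ) * m₁) := by rw [hb'mn, hr]; ring
  · push_cast
    rw [← mul_assoc, hun, hmn₁]

end Fermat.Agent.PT.G.CarryLocal
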