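/-
PT / G : assembly of (B4) — "no coordinate line" for `H²(G_{ℚ,S}; μ_p) → ⊕_{q ∈ S} H²(D_q; μ_p)`.

A class of `H²(G_{ℚ,S}; 𝔽_p(χ_cyc))` which is locally trivial at all places of `S` but `q₀` is
locally trivial at `q₀`.  Route (cyclic algebras over `ℚ`, no invariant map):

* `Z = ζ ^ z` is a `ℚ̄ˣ`-valued level 2-cocycle of `G_ℚ`, `p`-torsion;
* auxiliary prime `ℓ ∉ S` and `E = cycloField ℓ H` cyclic of `p`-power degree over `ℚ` in which
  `q₀` has residue degree divisible by `p` (`AuxSubgroup`);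
* `Z` restricted to `Gal(ℚ̄/E(ζ_p))` is locally trivial everywhere (hypothesis at `S ∖ {q₀}`,
  transported to all places by conjugation; unramified at `ℓ`; `p ∣` local degree at `q₀`), hence
  a coboundary by the Hasse principle (`hasse_principle_mu`), hence a coboundary on `Gal(ℚ̄/E)`
  (Sylow);
* so `Z ~ carryCoc (b)`, `b ∈ ℚˣ` (BR3); the local conditions at `q ≠ q₀` and reciprocity over `ℚ`
  (`rat_reciprocity_dvd`) force the local condition at `q₀`, i.e. `Z` is a coboundary on `D_{q₀}`;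
* Kummer theory (BR4) brings this back to `μ_p`-coefficients.

All inputs are theorems: local norm conditions (`CarryLocalT`, `CarryLocalT3`), unramified classes
(`UnrTriv`), splitting at `q₀` (`B4Q0` + the inputs of (B3T)), Hasse norm theorem (`HasseHNT`).
-/
import Fermat.Agent.PT.G.B4Conj
import Fermat.Agent.PT.G.HasseLoc
import Fermat.Agent.PT.G.HasseBridge
import Fermat.Agent.PT.G.AuxSubgroup
import Fermat.Agent.PT.G.RatRecip
import Fermat.Agent.PT.G.UnrTriv
import Fermat.Agent.PT.G.B4Q0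
import Fermat.Agent.PT.G.CarryLocalT3
import Fermat.Agent.PT.G.HasseHNT
import Fermat.Agent.PT.Br.B3Done
import Fermat.Agent.PT.Base.B5
import Fermat.Agent.PT.Base.Elem
import Fermat.Agent.PT.Base.Interfaces

set_option autoImplicit false
set_option linter.style.haveILetI false
set_option linter.unusedSectionVars false
set_option linter.unusedVariables false

namespace Fermat.Agent.PT.G

local notation "Qb" => AlgebraicClosure ℚ
local notation "GQ" => (AlgebraicClosure ℚ ≃ₐ[ℚ] AlgebraicClosure ℚ)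

open Fermat.Agent.PT.Br Fermat.Agent.PT.Br.MulBridge Finset ExtCitation
open Fermat.Agent.Lib.GalQbar
open scoped Pointwise

attribute [local instance] additiveAction isAlgClosure_rat isGalois_rat
  Fermat.Agent.Lib.GalQbar.isAlgebraic_rat

/-! ### Level coboundaries on a subgroup (all finite levels) -/

/-- `z` is, on `M`, the coboundary of a 1-cochain of some finite level. -/
def LocCob (M : Subgroup GQ) (z : GQ × GQ → Additive Qbˣ) : Prop :=
  ∃ F : IntermediateField ℚ Qb, FiniteDimensional ℚ F ∧ CobOn₂ M (M ⊓ F.fixingSubgroup) z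

namespace LocCob

variable {M M' : Subgroup GQ} {z z' : GQ × GQ → Additive Qbˣ}

lemma sup_le_left (M : Subgroup GQ) (F F' : IntermediateField ℚ Qb) :
    M ⊓ (F ⊔ F').fixingSubgroup ≤ M ⊓ F.fixingSubgroup :=
  inf_le_inf_left _ (IntermediateField.fixingSubgroup_antitone le_sup_left)

lemma sup_le_right (M : Subgroup GQ) (F F' : IntermediateField ℚ Qb) :
    M ⊓ (F ⊔ F').fixingSubgroup ≤ M ⊓ F'.fixingSubgroup :=
  inf_le_inf_left _ (IntermediateField.fixingSubgroup_antitone le_sup_right)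

lemma add (h : LocCob M z) (h' : LocCob M z') : LocCob M (z + z') := by
  obtain ⟨F, hF, hc⟩ := h
  obtain ⟨F', hF', hc'⟩ := h'
  exact ⟨F ⊔ F', IntermediateField.finiteDimensional_sup F F',
    (hc.mono (sup_le_left M F F')).add (hc'.mono (sup_le_right M F F'))⟩

lemma sub (h : LocCob M z) (h' : LocCob M z') : LocCob M (z - z') := by
  obtain ⟨F, hF, hc⟩ := h
  obtain ⟨F', hF', hc'⟩ := h'
  exact ⟨F ⊔ F', IntermediateField.finiteDimensional_sup F F',
    (hc.mono (sup_le_left M F F')).sub (hc'.mono (sup_le_right M F F'))⟩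

lemma zsmul (h : LocCob M z) (c : ℤ) : LocCob M (c • z) := by
  obtain ⟨F, hF, hc⟩ := h
  exact ⟨F, hF, hc.zsmul c⟩

lemma congr (h : LocCob M z) (he : ∀ g ∈ M, ∀ k ∈ M, z' (g, k) = z (g, k)) : LocCob M z' := by
  obtain ⟨F, hF, hc⟩ := h
  exact ⟨F, hF, hc.congr he⟩

lemma mono_left (h : LocCob M z) (hM : M' ≤ M) : LocCob M' z := by
  obtain ⟨F, hF, hc⟩ := h
  exact ⟨F, hF, (hc.mono_left hM).mono (inf_le_inf_right _ hM)⟩

/-- A global coboundary of level `G_F` is a level coboundary on every subgroup. -/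
lemma of_global (F : IntermediateField ℚ Qb) [hF : FiniteDimensional ℚ F]
    (h : CobOn₂ (⊤ : Subgroup GQ) F.fixingSubgroup z) (M : Subgroup GQ) : LocCob M z :=
  ⟨F, hF, (h.mono_left le_top).mono inf_le_right⟩

/-- The shape consumed by `hasse_principle_mu`. -/
lemma hasse_shape (A : ValuationSubring Qb) (K : IntermediateField ℚ Qb) [FiniteDimensional ℚ K]
    (h : LocCob (A.decompositionSubgroup ℚ ⊓ K.fixingSubgroup) z) :
    ∃ F : IntermediateField ℚ Qb, FiniteDimensional ℚ F ∧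
      CobOn₂ (A.decompositionSubgroup ℚ ⊓ K.fixingSubgroup)
        (A.decompositionSubgroup ℚ ⊓ F.fixingSubgroup) z := by
  obtain ⟨F, hF, hc⟩ := h
  refine ⟨F ⊔ K, IntermediateField.finiteDimensional_sup F K, hc.mono ?_⟩
  intro g hg
  exact ⟨⟨hg.1, IntermediateField.fixingSubgroup_antitone le_sup_right hg.2⟩,
    IntermediateField.fixingSubgroup_antitone le_sup_left hg.2⟩

end LocCob

/-! ### Small tools -/

/-- Torsion elements of `ℚ̄ˣ` are units at every place. -/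
lemma b4_valuation_eq_one (A : ValuationSubring Qb) {n : ℕ} (hn : 0 < n) (a : Additive Qbˣ)
    (ha : n • a = 0) : A.valuation (toQb a) = 1 := by
  have h1 : toQb a ^ n = 1 := by rw [← toQb_nsmul, ha, toQb_zero]
  refine eq_of_pow_eq_pow₀ hn.ne' one_ne_zero ?_
  rw [← map_pow, h1, map_one, one_pow]

/-- A `G_ℚ`-fixed element of `ℚ̄ˣ` is rational. -/
lemma b4_exists_rat (a : Additive Qbˣ) (ha : ∀ g : GQ, g • a = a) :
    ∃ b : ℚ, toQb a = algebraMap ℚ Qb b := by
  have hmem : toQb a ∈ Set.range (algebraMap ℚ Qb) := by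
    rw [InfiniteGalois.mem_range_algebraMap_iff_fixed]
    intro τ
    exact (smul_eq_iff_apply τ a).mp (ha τ)
  obtain ⟨b, hb⟩ := hmem
  exact ⟨b, hb.symm⟩

/-- The decomposition group of a conjugate place. -/
lemma b4_conj_mem_decomp (A : ValuationSubring Qb) (g h : GQ)
    (hh : h ∈ (g • A).decompositionSubgroup ℚ) : g⁻¹ * h * g ∈ A.decompositionSubgroup ℚ := by
  rw [mem_decomp_iff] at hh ⊢
  rw [mul_smul, mul_smul, hh, inv_smul_smul]

/-- **Conjugation transport for level coboundaries**: for a global level 2-cocycle `Z` and a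
normal subgroup `U`, a level coboundary on `D_A ⊓ U` is a level coboundary on `D_{gA} ⊓ U`. -/
lemma b4_locCob_conj {Z : GQ × GQ → Additive Qbˣ} (hZ : CocOn₂ (⊤ : Subgroup GQ) Z)
    (L : IntermediateField ℚ Qb) [FiniteDimensional ℚ L] [Normal ℚ L]
    (hi : InflOn₂ (⊤ : Subgroup GQ) L.fixingSubgroup Z) (A : ValuationSubring Qb) (g : GQ)
    (U : Subgroup GQ) (hU : U.Normal)
    (hc : LocCob (A.decompositionSubgroup ℚ ⊓ U) Z) :
    LocCob ((g • A).decompositionSubgroup ℚ ⊓ U) Z := by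
  obtain ⟨F, hF, hc⟩ := hc
  have hFc : FiniteDimensional ℚ (IntermediateField.normalClosure ℚ F Qb) :=
    normalClosure.is_finiteDimensional ℚ F Qb
  have hFn : Normal ℚ (IntermediateField.normalClosure ℚ F Qb) := normalClosure.normal ℚ F Qb
  set F' : IntermediateField ℚ Qb := IntermediateField.normalClosure ℚ F Qb ⊔ L with hF'
  have hF'fin : FiniteDimensional ℚ F' := IntermediateField.finiteDimensional_sup _ _
  have hF'n : Normal ℚ F' :=
    Fermat.Agent.PT.Bridge.normal_sup_Qbar _ _ hFn inferInstance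
  have hN' : (F'.fixingSubgroup).Normal := Fermat.Agent.PT.Levels.fixingSubgroup_normal F'
  have hLN : (L.fixingSubgroup).Normal := Fermat.Agent.PT.Levels.fixingSubgroup_normal L
  have hF'F : F'.fixingSubgroup ≤ F.fixingSubgroup :=
    IntermediateField.fixingSubgroup_antitone (F.le_normalClosure.trans le_sup_left)
  have hF'L : F'.fixingSubgroup ≤ L.fixingSubgroup :=
    IntermediateField.fixingSubgroup_antitone le_sup_right
  refine ⟨F', hF'fin, b4_cobOn₂_conj hZ hi g hc (fun h hh => ?_) (fun n hn => ?_)⟩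
  · exact ⟨b4_conj_mem_decomp A g h hh.1, hU.conj_mem' h hh.2 g⟩
  · have h1 : g⁻¹ * n * g ∈ F'.fixingSubgroup := hN'.conj_mem' n hn.2 g
    exact ⟨⟨⟨b4_conj_mem_decomp A g n hn.1.1, hU.conj_mem' n hn.1.2 g⟩, hF'F h1⟩, hF'L hn.2,
      hF'L h1⟩

/-- The global cyclic datum of `cycloField ℓ H / ℚ`. -/
theorem b4_exists_cycData (ℓ : ℕ) [Fact ℓ.Prime] (H : Subgroup (ZMod ℓ)ˣ) (hH : 1 < H.index)
    (σ : GQ) (hσ : Subgroup.zpowers (cycloChar ℓ σ) = ⊤) :
    ∃ e : GQ → ℕ, CycData (⊤ : Subgroup GQ) (cycloField ℓ H).fixingSubgroup H.index σ e := by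
  haveI := normal_fixingSubgroup_cycloField ℓ H
  refine CycData.exists_of_gen (NormalIn.of_normal _) (Subgroup.mem_top σ) hH (fun g _ => ?_)
    (fun i => ?_)
  · have hg : cycloChar ℓ g ∈ Submonoid.powers (cycloChar ℓ σ) := by
      rw [mem_powers_iff_mem_zpowers, hσ]; exact Subgroup.mem_top _
    obtain ⟨i, hi⟩ := (Submonoid.mem_powers_iff _ _).mp hg
    refine ⟨i, ?_⟩
    rw [mem_fixingSubgroup_cycloField_iff, map_mul, map_inv, map_pow, hi, inv_mul_cancel]
    exact H.one_mem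
  · rw [mem_fixingSubgroup_cycloField_iff, map_pow]
    have hgen : ∀ x : (ZMod ℓ)ˣ ⧸ H,
        x ∈ Subgroup.zpowers (QuotientGroup.mk (cycloChar ℓ σ) : (ZMod ℓ)ˣ ⧸ H) := by
      intro x
      obtain ⟨y, rfl⟩ := QuotientGroup.mk_surjective x
      have hy : y ∈ Subgroup.zpowers (cycloChar ℓ σ) := hσ ▸ Subgroup.mem_top y
      obtain ⟨k, rfl⟩ := Subgroup.mem_zpowers_iff.mp hy
      exact Subgroup.mem_zpowers_iff.mpr ⟨k, by rw [QuotientGroup.mk_zpow]⟩
    have hord : orderOf (QuotientGroup.mk (cycloChar ℓ σ) : (ZMod ℓ)ˣ ⧸ H) = H.index := by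
      rw [orderOf_eq_card_of_forall_mem_zpowers hgen]
      rfl
    rw [← hord, orderOf_dvd_iff_pow_eq_one, ← QuotientGroup.mk_pow, QuotientGroup.eq_one_iff]


/-! ### Local inputs, packaged -/

/-- **(Q0)**, unconditional: a `p`-torsion global level class restricted to `D_A ⊓ G_E` is a level
coboundary when `p` divides the local degree of `E = cycloField ℓ H` at `A ∣ q₀`. -/
lemma b4_q0 {p : ℕ} [Fact p.Prime] (hp2 : p ≠ 2) {ℓ : ℕ} [Fact ℓ.Prime] (H : Subgroup (ZMod ℓ)ˣ)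
    {q₀ : ℕ} (hq₀ : q₀.Prime) (hq₀ℓ : q₀ ≠ ℓ) (u₀ : (ZMod ℓ)ˣ)
    (hu₀ : (u₀ : ZMod ℓ) = (q₀ : ZMod ℓ))
    (hdvd : p ∣ orderOf (QuotientGroup.mk u₀ : (ZMod ℓ)ˣ ⧸ H))
    (A : ValuationSubring Qb) (hA : A.LiesOverPrime q₀) (Z : GQ × GQ → Additive Qbˣ)
    (hZ : CocOn₂ (⊤ : Subgroup GQ) Z) (L : IntermediateField ℚ Qb) [FiniteDimensional ℚ L]
    [Normal ℚ L] (hi : InflOn₂ (⊤ : Subgroup GQ) L.fixingSubgroup Z)
    (hpZ : ∀ g h, p • Z (g, h) = 0) :
    LocCob (A.decompositionSubgroup ℚ ⊓ (cycloField ℓ H).fixingSubgroup) Z := by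
  have hNI : Conc.NormIdxHyp p (A.decompositionSubgroup ℚ) := by
    have := Inst.normIdxHyp (p := p) ⊥ A hq₀ hA
    rwa [IntermediateField.fixingSubgroup_bot, top_inf_eq] at this
  have hcyc : ∀ s ∈ (cycloField p ⊥).fixingSubgroup, cycloChar p s = 1 := by
    intro s hs
    rw [mem_fixingSubgroup_cycloField_iff, Subgroup.mem_bot] at hs
    exact hs
  have hLines : Conc.LinesOn p (A.decompositionSubgroup ℚ) :=
    Conc.linesOn_decomp A (Inst.normIdxHyp (cycloField p ⊥) A hq₀ hA)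
      (Inst.kummerHyp hp2 (cycloField p ⊥) hcyc A)
  obtain ⟨F', hF', hc⟩ := cobOn₂_inf_cycloField_of_dvd hp2 H hq₀ hq₀ℓ u₀ hu₀ hdvd A hA Z
    (hZ.mono le_top) L ((hi.mono_left le_top).mono inf_le_right) hpZ hLines hNI
  exact ⟨F', hF', hc.mono (inf_le_inf_right _ inf_le_left)⟩

/-- **(UNR)**: a torsion global class of level `L` is a level coboundary on `D_A` when `L` is
unramified at `A`. -/
lemma b4_unr {p : ℕ} (hp : 0 < p) {q : ℕ} (hq : q.Prime) (A : ValuationSubring Qb)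
    (hA : A.LiesOverPrime q) (Z : GQ × GQ → Additive Qbˣ) (hZ : CocOn₂ (⊤ : Subgroup GQ) Z)
    (L : IntermediateField ℚ Qb) [FiniteDimensional ℚ L] [Normal ℚ L]
    (hL : A.inertiaSubgroupIn ℚ ≤ L.fixingSubgroup)
    (hi : InflOn₂ (⊤ : Subgroup GQ) L.fixingSubgroup Z) (hpZ : ∀ g h, p • Z (g, h) = 0) :
    LocCob (A.decompositionSubgroup ℚ) Z := by
  obtain ⟨F', hF', -, -, hc⟩ := cobOn₂_decomp_of_unramified_normal hq A hA L hL Z
    (hZ.mono le_top) ((hi.mono_left le_top).mono inf_le_right) p hp (fun g _ h _ => hpZ g h)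
  exact ⟨F', hF', hc⟩

/-! ### The core: no coordinate line for `p`-torsion Brauer classes of `ℚ` -/

/-- **(B4), Brauer form.**  A `p`-torsion `S`-level 2-cocycle of `G_ℚ` with values in `ℚ̄ˣ` which
is a level coboundary on the decomposition groups at all `q ∈ S ∖ {q₀}` is a level coboundary
on the decomposition group at `q₀`. -/
theorem b4_core (p : ℕ) [Fact p.Prime] (hp2 : p ≠ 2) (S : Finset Nat.Primes) (q₀ : Nat.Primes)
    (Z : GQ × GQ → Additive Qbˣ) (hZ : CocOn₂ (⊤ : Subgroup GQ) Z)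
    (L : IntermediateField ℚ Qb) (hL : L.IsUnramifiedOutside S) [Normal ℚ L]
    (hi : InflOn₂ (⊤ : Subgroup GQ) L.fixingSubgroup Z) (hpZ : ∀ g h, p • Z (g, h) = 0)
    (hloc : ∀ q ∈ S, q ≠ q₀ → LocCob ((primeLocalPlace q).decompositionSubgroup ℚ) Z) :
    LocCob ((primeLocalPlace q₀).decompositionSubgroup ℚ) Z := by
  have hp : p.Prime := Fact.out
  haveI hLfin : FiniteDimensional ℚ L := hL.1
  -- the auxiliary prime and the cyclic field
  obtain ⟨ℓ, hℓf, H, u₀, c, hℓT, hℓp, hℓq₀, hℓ2, hneg, hidx, hu₀, hdvd⟩ :=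
    exists_aux_prime_subgroup hp2 q₀.2 (S.image (fun q : Nat.Primes => (q : ℕ)))
  haveI := hℓf
  have hℓ : ℓ.Prime := Fact.out
  have hℓS : (⟨ℓ, hℓ⟩ : Nat.Primes) ∉ S := fun h => hℓT (Finset.mem_image.mpr ⟨_, h, rfl⟩)
  have hq₀ℓ : (q₀ : ℕ) ≠ ℓ := fun h => hℓq₀ h.symm
  have hH1 : 1 < H.index := by
    have h1 : orderOf (QuotientGroup.mk u₀ : (ZMod ℓ)ˣ ⧸ H) ∣ H.index :=
      orderOf_dvd_natCard (QuotientGroup.mk u₀ : (ZMod ℓ)ˣ ⧸ H)
    have h2 : p ∣ H.index := hdvd.trans h1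
    have h3 : H.index ≠ 0 := Subgroup.index_ne_zero_of_finite
    have h4 := Nat.le_of_dvd (Nat.pos_of_ne_zero h3) h2
    have h5 := hp.two_le
    omega
  have hAℓo : (primeLocalPlace ⟨ℓ, hℓ⟩).LiesOverPrime ℓ :=
    Fermat.Agent.PT.Base.liesOverPrime_primeLocalPlace ⟨ℓ, hℓ⟩
  -- a generator of `Gal(E/ℚ)` in the inertia group at `ℓ`
  obtain ⟨γ, hγ⟩ := isCyclic_iff_exists_zpowers_eq_top.mp (inferInstance : IsCyclic (ZMod ℓ)ˣ)
  obtain ⟨σ, hσI, hσγ⟩ := exists_inertia_cycloChar_eq ℓ (primeLocalPlace ⟨ℓ, hℓ⟩) hAℓo γ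
  have hσ : Subgroup.zpowers (cycloChar ℓ σ) = ⊤ := by rw [hσγ]; exact hγ
  have hσD : σ ∈ (primeLocalPlace ⟨ℓ, hℓ⟩).decompositionSubgroup ℚ :=
    ((Fermat.Agent.PT.Levels.mem_inertiaSubgroupIn_iff _ σ).mp hσI).1
  obtain ⟨e, hcyc⟩ := b4_exists_cycData ℓ H hH1 σ hσ
  -- the level `L'` for `S ∪ {ℓ}`
  have hES' : (cycloField ℓ H).IsUnramifiedOutside (insert ⟨ℓ, hℓ⟩ S) :=
    isUnramifiedOutside_cycloField ℓ H _ (Finset.mem_insert_self _ _)
  have hLS' : L.IsUnramifiedOutside (insert ⟨ℓ, hℓ⟩ S) := hL.mono (Finset.subset_insert _ _)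
  obtain ⟨L', hle, hL'S, hL'n⟩ := Fermat.Agent.PT.Levels.exists_normal_level_ge (hLS'.sup hES')
  haveI := hL'n
  haveI hL'fin : FiniteDimensional ℚ L' := hL'S.1
  have hLL' : L ≤ L' := le_sup_left.trans hle
  have hEL' : cycloField ℓ H ≤ L' := le_sup_right.trans hle
  have hGL : L'.fixingSubgroup ≤ L.fixingSubgroup :=
    IntermediateField.fixingSubgroup_antitone hLL'
  have hGE : L'.fixingSubgroup ≤ (cycloField ℓ H).fixingSubgroup :=
    IntermediateField.fixingSubgroup_antitone hEL'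
  have hi' : InflOn₂ (⊤ : Subgroup GQ) L'.fixingSubgroup Z := hi.mono hGL
  -- local triviality of `Z` at all places over `S ∖ {q₀}` (conjugation) and outside `S`
  have hZS : ∀ q ∈ S, q ≠ q₀ → ∀ A : ValuationSubring Qb, A.LiesOverPrime (q : ℕ) →
      LocCob (A.decompositionSubgroup ℚ) Z := by
    intro q hq hne A hA
    obtain ⟨g, rfl⟩ := exists_smul_eq q.2 (primeLocalPlace q) A
      (Fermat.Agent.PT.Base.liesOverPrime_primeLocalPlace q) hA
    have h1 := b4_locCob_conj hZ L hi (primeLocalPlace q) g ⊤ inferInstance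
      ((hloc q hq hne).mono_left inf_le_left)
    exact h1.mono_left (le_inf le_rfl le_top)
  have hZunr : ∀ q : Nat.Primes, q ∉ S → ∀ A : ValuationSubring Qb, A.LiesOverPrime (q : ℕ) →
      LocCob (A.decompositionSubgroup ℚ) Z := fun q hq A hA =>
    b4_unr hp.pos q.2 A hA Z hZ L (hL.2 q hq A hA) hi hpZ
  -- Hasse principle over `E`
  have hHasse : CobOn₂ (cycloField ℓ H).fixingSubgroup L'.fixingSubgroup Z := by
    refine hasse_principle_mu p (insert ⟨ℓ, hℓ⟩ S) (hntStatement p hp2 _) (cycloField ℓ H) L' hEL'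
      hL'S Z (hZ.mono le_top) (hi'.mono_left le_top) (fun g _ h _ => hpZ g h) ?_
    intro q hq A hA
    apply LocCob.hasse_shape
    rcases Finset.mem_insert.mp hq with rfl | hqS
    · exact (hZunr _ hℓS A hA).mono_left inf_le_left
    · by_cases hq0 : q = q₀
      · subst hq0
        exact b4_q0 hp2 H q.2 hq₀ℓ u₀ hu₀ hdvd A hA Z hZ L hi hpZ
      · exact (hZS q hqS hq0 A hA).mono_left inf_le_left
  -- BR3: `Z` is cohomologous to a carry cocycle of a rational number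
  haveI hnE := normal_fixingSubgroup_cycloField ℓ H
  haveI hnL' : (L'.fixingSubgroup).Normal := Fermat.Agent.PT.Levels.fixingSubgroup_normal L'
  obtain ⟨a, ha, hcob⟩ := hcyc.exists_carryCoc_of_res_cob (NormalIn.of_normal _) hGE
    (Conc.h90On_fixingSubgroup (cycloField ℓ H) L' _ inf_le_right) hZ hi' hHasse
  obtain ⟨b, hb⟩ := b4_exists_rat a (fun g => ha g (Subgroup.mem_top g))
  have hab : ((Additive.toMul a : Qbˣ) : Qb) = algebraMap ℚ Qb b := hb
  have hcarry : ∀ M : Subgroup GQ, LocCob M Z → LocCob M (carryCoc H.index e a) := by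
    intro M hM
    refine (hM.sub (LocCob.of_global L' hcob M)).congr fun g _ k _ => ?_
    simp only [Pi.sub_apply]
    abel
  -- reciprocity over `ℚ`
  have hrec : (orderOf (QuotientGroup.mk u₀ : (ZMod ℓ)ˣ ⧸ H) : ℤ) ∣ padicValRat q₀ b := by
    refine rat_reciprocity_dvd ℓ H hneg b q₀ q₀.2 hq₀ℓ ?_ ?_ u₀ hu₀
    · intro q hq hqℓ hqq₀
      have hA := Fermat.Agent.PT.Base.liesOverPrime_primeLocalPlace ⟨q, hq⟩
      have hZq : LocCob ((primeLocalPlace ⟨q, hq⟩).decompositionSubgroup ℚ) Z := by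
        by_cases hqS : (⟨q, hq⟩ : Nat.Primes) ∈ S
        · exact hloc _ hqS (fun h => hqq₀ (congrArg Subtype.val h))
        · exact hZunr _ hqS _ hA
      obtain ⟨F, hF, hc⟩ := hcarry _ hZq
      haveI := hF
      exact CarryLocal.t1_inH hq hqℓ (primeLocalPlace ⟨q, hq⟩) hA H hcyc b a hab F hc
    · obtain ⟨F, hF, hc⟩ := hcarry _ (hZunr _ hℓS _ hAℓo)
      haveI := hF
      exact CarryLocal.t3_tame hℓ2 (primeLocalPlace ⟨ℓ, hℓ⟩) hAℓo H hcyc hσD hσ b a hab F hc
  -- back at `q₀`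
  have hA₀ := Fermat.Agent.PT.Base.liesOverPrime_primeLocalPlace q₀
  have h5 := CarryLocal.t5_cobOn₂ q₀.2 hq₀ℓ (primeLocalPlace q₀) hA₀ H hcyc b a hab u₀ hu₀ hrec
  have h5' : LocCob ((primeLocalPlace q₀).decompositionSubgroup ℚ) (carryCoc H.index e a) :=
    ⟨cycloField ℓ H, inferInstance, h5⟩
  refine ((LocCob.of_global L' hcob _).add h5').congr fun g _ k _ => ?_
  simp only [Pi.add_apply, Pi.sub_apply]
  abel

/-! ### The bridge to `𝔽_p(χ_cyc)`-coefficients -/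

section Bridge

open Fermat.Agent.PT.Bridge Fermat.Agent.PT.Base Fermat.Agent.PT.Levels

variable (p : ℕ) [Fact p.Prime] {ζ : Qb} (hζ : IsPrimitiveRoot ζ p)

/-- **Bridge in**: a level coboundary with `𝔽_p(χ_cyc)`-coefficients on `D` gives a level
coboundary of `Z = ζ ^ z` with `ℚ̄ˣ`-coefficients. -/
lemma b4_locCob_of_cochain {z : GQ × GQ → ZMod p} (D : Subgroup GQ) (y : D → ZMod p)
    (hy : (levD D).IsLevelConst (to₁ y))
    (h : ∀ g h : D, z (D.subtype g, D.subtype h) =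
      chiRep (cycloChar p) (D.subtype g) (y h) - y (g * h) + y g) :
    LocCob D (fun x => Conc.zetaHom p hζ (z x)) := by
  obtain ⟨F, hF, hyF⟩ := (isLevelConst_levD_iff D y).mp hy
  haveI := hF
  have hp : p.Prime := Fact.out
  have hζint : IsIntegral ℚ ζ := (hζ.isIntegral hp.pos).tower_top
  haveI hK₀ : FiniteDimensional ℚ (IntermediateField.adjoin ℚ {ζ}) :=
    IntermediateField.adjoin.finiteDimensional hζint
  refine ⟨F ⊔ IntermediateField.adjoin ℚ {ζ}, IntermediateField.finiteDimensional_sup _ _,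
    ext₁ D (Conc.zetaHom p hζ) y, ⟨fun g hg n hn => ?_, fun g hg n hn => ?_⟩,
    fun g hg k hk => ?_⟩
  · have hnF : n ∈ F.fixingSubgroup :=
      IntermediateField.fixingSubgroup_antitone le_sup_left hn.2
    have e1 : ext₁ D (Conc.zetaHom p hζ) y (g * n) =
        Conc.zetaHom p hζ (y (⟨g, hg⟩ * ⟨n, hn.1⟩)) :=
      ext₁_coe (Conc.zetaHom p hζ) y (⟨g, hg⟩ * ⟨n, hn.1⟩)
    have e2 : ext₁ D (Conc.zetaHom p hζ) y g = Conc.zetaHom p hζ (y ⟨g, hg⟩) :=
      ext₁_coe (Conc.zetaHom p hζ) y ⟨g, hg⟩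
    rw [e1, e2, hyF ⟨g, hg⟩ ⟨n, hn.1⟩ hnF]
  · have hnK : n ∈ (IntermediateField.adjoin ℚ {ζ}).fixingSubgroup :=
      IntermediateField.fixingSubgroup_antitone le_sup_right hn.2
    have e2 : ext₁ D (Conc.zetaHom p hζ) y g = Conc.zetaHom p hζ (y ⟨g, hg⟩) :=
      ext₁_coe (Conc.zetaHom p hζ) y ⟨g, hg⟩
    rw [e2, Conc.smul_zetaHom, cycloChar_eq_one_of_mem_fixingSubgroup p hζ hnK, Units.val_one,
      one_mul]
  · have e1 : ext₁ D (Conc.zetaHom p hζ) y g = Conc.zetaHom p hζ (y ⟨g, hg⟩) :=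
      ext₁_coe (Conc.zetaHom p hζ) y ⟨g, hg⟩
    have e2 : ext₁ D (Conc.zetaHom p hζ) y k = Conc.zetaHom p hζ (y ⟨k, hk⟩) :=
      ext₁_coe (Conc.zetaHom p hζ) y ⟨k, hk⟩
    have e3 : ext₁ D (Conc.zetaHom p hζ) y (g * k) =
        Conc.zetaHom p hζ (y (⟨g, hg⟩ * ⟨k, hk⟩)) :=
      ext₁_coe (Conc.zetaHom p hζ) y (⟨g, hg⟩ * ⟨k, hk⟩)
    have e5 : z (g, k) = ((cycloChar p g : (ZMod p)ˣ) : ZMod p) * y ⟨k, hk⟩
        - y (⟨g, hg⟩ * ⟨k, hk⟩) + y ⟨g, hg⟩ := h ⟨g, hg⟩ ⟨k, hk⟩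
    show Conc.zetaHom p hζ (z (g, k)) = d1 (ext₁ D (Conc.zetaHom p hζ) y) (g, k)
    rw [d1_apply, e1, e2, e3, Conc.smul_zetaHom, e5, map_add, map_sub]

/-- **Bridge out** (Kummer): a level coboundary of `Z = ζ ^ z` with `ℚ̄ˣ`-coefficients on a closed
subgroup `D` comes from a level cochain with `𝔽_p(χ_cyc)`-coefficients. -/
lemma b4_cochain_of_locCob {z : GQ × GQ → ZMod p} (D : Subgroup GQ)
    (hD : IsClosed (D : Set GQ)) (hc : LocCob D (fun x => Conc.zetaHom p hζ (z x))) :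
    ∃ y : D → ZMod p, (levD D).IsLevelConst (to₁ y) ∧
      ∀ g h : D, z (D.subtype g, D.subtype h) =
        chiRep (cycloChar p) (D.subtype g) (y h) - y (g * h) + y g := by
  have hp : p.Prime := Fact.out
  obtain ⟨F, hF, hc⟩ := hc
  haveI := hF
  haveI hFnfin : FiniteDimensional ℚ (IntermediateField.normalClosure ℚ F Qb) :=
    normalClosure.is_finiteDimensional ℚ F Qb
  have hFnn : Normal ℚ (IntermediateField.normalClosure ℚ F Qb) := normalClosure.normal ℚ F Qb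
  have hN : IsLev D (levD D) (D ⊓ (IntermediateField.normalClosure ℚ F Qb).fixingSubgroup) :=
    Conc.isLev_inf_fixingSubgroup D _ hFnn
  have hc' : CobOn₂ D (D ⊓ (IntermediateField.normalClosure ℚ F Qb).fixingSubgroup)
      (ext₂ D (Conc.zetaHom p hζ) (fun x : D × D => z (x.1, x.2))) := by
    refine (hc.mono (inf_le_inf_left _
      (IntermediateField.fixingSubgroup_antitone F.le_normalClosure))).congr fun g hg k hk => ?_
    exact ext₂_coe (Conc.zetaHom p hζ) (fun x : D × D => z (x.1, x.2)) ⟨g, hg⟩ ⟨k, hk⟩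
  obtain ⟨y, hy, hd⟩ := exists_level_cochain_of_cobOn₂ p
    (ρ := (chiRep (cycloChar p)).comp D.subtype)
    (fun g t => by rw [Conc.smul_zetaHom]; rfl)
    (Conc.zetaHom_injective p hζ) (Conc.zetaHom_surj p hζ)
    (fun N hN => Conc.h90On_isLev hD N hN) (Conc.exists_root_level D p hp.pos) hN hc'
  refine ⟨y, hy, fun g h => ?_⟩
  exact ((dLin_to₁_eq_to₂_iff ((chiRep (cycloChar p)).comp D.subtype) y
    (fun x : D × D => z (x.1, x.2))).mp hd g h).symm

/-- **(B4)** [G2 "⊆" over `ℚ`]: a class of `H²(G_{ℚ,S}; 𝔽_p(χ_cyc))` which is locally trivial at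
all places of `S` but one is locally trivial at that one, too (`p` odd). -/
theorem b4 (p : ℕ) [Fact p.Prime] (S : Finset Nat.Primes) (hp2 : p ≠ 2)
    (hpS : pPrime p ∈ S) : Fermat.Agent.PT.Base.B4 p S hpS := by
  intro q₀ x hx
  have hp : p.Prime := Fact.out
  obtain ⟨z, hz, rfl⟩ := Elem.exists_cls₂ (levS S) (chiRep (cycloChar p))
    (isSmooth_T p S hpS) x
  obtain ⟨ζ, hζ⟩ := exists_primitiveRoot_Qbar p
  -- `Z = ζ ^ z` is a `p`-torsion level 2-cocycle of `G_ℚ`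
  have hZ : CocOn₂ (⊤ : Subgroup GQ) (fun x => Conc.zetaHom p hζ (z x)) := by
    intro g _ h _ j _
    have e0 : ((cycloChar p g : (ZMod p)ˣ) : ZMod p) * z (h, j) - z (g * h, j) + z (g, h * j)
        - z (g, h) = 0 := hz.coc g h j
    have e := congrArg (Conc.zetaHom p hζ) e0
    simp only [map_sub, map_add, map_zero] at e
    rw [← Conc.smul_zetaHom] at e
    show Conc.zetaHom p hζ (z (g * h, j)) + Conc.zetaHom p hζ (z (g, h)) =
      g • Conc.zetaHom p hζ (z (h, j)) + Conc.zetaHom p hζ (z (g, h * j))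
    linear_combination (norm := abel) -e
  obtain ⟨N, hN, hzN⟩ := (Elem.isLevelConst_to₂_iff (levS S) z).mp hz.lev
  obtain ⟨L₀, hL₀, hL₀n, rfl⟩ := hN
  have hζS := isUnramifiedOutside_adjoin_primitiveRoot p S hpS hζ
  obtain ⟨L, hle, hL, hLn⟩ := exists_normal_level_ge (hL₀.sup hζS)
  haveI := hLn
  have hLL₀ : L.fixingSubgroup ≤ L₀.fixingSubgroup :=
    IntermediateField.fixingSubgroup_antitone (le_sup_left.trans hle)
  have hLζ : L.fixingSubgroup ≤ (IntermediateField.adjoin ℚ {ζ}).fixingSubgroup :=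
    IntermediateField.fixingSubgroup_antitone (le_sup_right.trans hle)
  have hi : InflOn₂ (⊤ : Subgroup GQ) L.fixingSubgroup
      (fun x => Conc.zetaHom p hζ (z x)) := by
    refine ⟨fun g _ k _ n hn n' hn' => ?_, fun g _ k _ n hn => ?_⟩
    · show Conc.zetaHom p hζ (z (g * n, k * n')) = Conc.zetaHom p hζ (z (g, k))
      rw [hzN g k n (hLL₀ hn) n' (hLL₀ hn')]
    · show n • Conc.zetaHom p hζ (z (g, k)) = Conc.zetaHom p hζ (z (g, k))
      rw [Conc.smul_zetaHom, cycloChar_eq_one_of_mem_fixingSubgroup p hζ (hLζ hn),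
        Units.val_one, one_mul]
  have hpZ : ∀ g h, p • (fun x => Conc.zetaHom p hζ (z x)) (g, h) = 0 := by
    intro g h
    show p • Conc.zetaHom p hζ (z (g, h)) = 0
    have h0 : p • z (g, h) = 0 := by rw [nsmul_eq_mul, CharP.cast_eq_zero, zero_mul]
    rw [← map_nsmul, h0, map_zero]
  -- the local hypotheses
  have hloc : ∀ q ∈ S, q ≠ q₀.1 → LocCob ((primeLocalPlace q).decompositionSubgroup ℚ)
      (fun x => Conc.zetaHom p hζ (z x)) := by
    intro q hq hne
    have h := hx ⟨q, hq⟩ (fun h => hne (congrArg Subtype.val h))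
    obtain ⟨y, hy, hyz⟩ := (Elem.res_cls₂_eq_zero_iff (levS S) (chiRep (cycloChar p))
      (isSmooth_T p S hpS) (levD _) (isCts_subtype S _) _ hz).mp h
    exact b4_locCob_of_cochain p hζ _ y hy hyz
  have hcore := b4_core p hp2 S q₀.1 _ hZ L hL hi hpZ hloc
  obtain ⟨y, hy, hyz⟩ := b4_cochain_of_locCob p hζ _ (isClosed_decompositionSubgroup _) hcore
  exact (Elem.res_cls₂_eq_zero_iff (levS S) (chiRep (cycloChar p)) (isSmooth_T p S hpS)
    (levD _) (isCts_subtype S _) _ hz).mpr ⟨y, hy, hyz⟩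

end Bridge

end Fermat.Agent.PT.G
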