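import Fermat.Agent.PT.Br.StepSplit
import Fermat.Agent.PT.Br.Concrete
import Fermat.Agent.PT.G.CycloField

/-!
# PT / G layer: (L2-RES) = (Q0) for (B4)

`A` a place of `ℚ̄` over `q₀ ≠ ℓ`, `Δ = D_A` its decomposition group, `E = cycloField ℓ H` with
`p ∣ ord(q₀ mod H)` (so `p` divides the local degree of `E` at `q₀`).  Under the hypotheses of the
lines theorem for `Δ` (`LineHyp`), every `p`-torsion level 2-class of `Δ` with values in `ℚ̄ˣ`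
restricts to a level coboundary on `Δ ⊓ Gal(ℚ̄/E)`.

NOTE: `LineHyp` at a full decomposition group `Δ = D_A` is not available in general (its Kummer
clause needs `μ_p` in the fixed field); the form of (Q0) consumed by the (B4) assembly is in
`PT/G/B4Q0.lean` (inputs `Conc.LinesOn p Δ` and `Conc.NormIdxHyp p Δ`).  The part of this file
used there is `exists_cycData_decomp_cycloField`.
-/

set_option autoImplicit false

namespace Fermat.Agent.PT.G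

open ExtCitation Fermat.Agent.PT.Br

local notation "Qb" => AlgebraicClosure ℚ
local notation "GQ" => (AlgebraicClosure ℚ ≃ₐ[ℚ] AlgebraicClosure ℚ)

attribute [local instance] MulBridge.additiveAction

/-- A cyclic step of degree `p` of `D_A` above `D_A ⊓ Gal(ℚ̄/cycloField ℓ H)`, when `p` divides
the order of `q₀` in `(ℤ/ℓ)ˣ/H`. -/
theorem exists_cycData_decomp_cycloField {p : ℕ} (hp : p.Prime) {ℓ : ℕ} [Fact ℓ.Prime]
    (H : Subgroup (ZMod ℓ)ˣ) {q₀ : ℕ} (hq₀ : q₀.Prime) (hq₀ℓ : q₀ ≠ ℓ) (u₀ : (ZMod ℓ)ˣ)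
    (hu₀ : (u₀ : ZMod ℓ) = (q₀ : ZMod ℓ))
    (hdvd : p ∣ orderOf (QuotientGroup.mk u₀ : (ZMod ℓ)ˣ ⧸ H))
    (A : ValuationSubring Qb) (hA : A.LiesOverPrime q₀) :
    ∃ (V : Subgroup GQ) (σ : GQ) (e : GQ → ℕ),
      A.decompositionSubgroup ℚ ⊓ (cycloField ℓ H).fixingSubgroup ≤ V ∧
        CycData (A.decompositionSubgroup ℚ) V p σ e := by
  set χ : GQ →* (ZMod ℓ)ˣ ⧸ H := (QuotientGroup.mk' H).comp (cycloChar ℓ) with hχ
  have hker : χ.ker = (cycloField ℓ H).fixingSubgroup := by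
    ext g
    rw [MonoidHom.mem_ker, mem_fixingSubgroup_cycloField_iff]
    exact QuotientGroup.eq_one_iff _
  obtain ⟨φ, hφD, hφq, -⟩ := exists_frobenius_cycloChar ℓ hq₀ hq₀ℓ A hA
  have hφu : cycloChar ℓ φ = u₀ := Units.ext (hφq.trans hu₀.symm)
  have hφo : p ∣ orderOf (χ φ) := by
    show p ∣ orderOf (QuotientGroup.mk (cycloChar ℓ φ) : (ZMod ℓ)ˣ ⧸ H)
    rw [hφu]
    exact hdvd
  obtain ⟨V, σ, e, hle, h⟩ := exists_step_of_hom (C := (ZMod ℓ)ˣ ⧸ H) χ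
    (A.decompositionSubgroup ℚ) hp ⟨φ, hφD, hφo⟩
  exact ⟨V, σ, e, by rw [← hker]; exact hle, h⟩

/-- **(L2-RES) = (Q0).**  A `p`-torsion level class of `D_A` (`A ∣ q₀`) is a level coboundary on
`D_A ⊓ Gal(ℚ̄/cycloField ℓ H)` as soon as `p` divides the order of `q₀` in `(ℤ/ℓ)ˣ/H`. -/
theorem levCob_inf_cycloField {p : ℕ} (hp : p.Prime) {ℓ : ℕ} [Fact ℓ.Prime]
    (H : Subgroup (ZMod ℓ)ˣ) {q₀ : ℕ} (hq₀ : q₀.Prime) (hq₀ℓ : q₀ ≠ ℓ) (u₀ : (ZMod ℓ)ˣ)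
    (hu₀ : (u₀ : ZMod ℓ) = (q₀ : ZMod ℓ))
    (hdvd : p ∣ orderOf (QuotientGroup.mk u₀ : (ZMod ℓ)ˣ ⧸ H))
    (A : ValuationSubring Qb) (hA : A.LiesOverPrime q₀)
    (HL : LineHyp (Additive Qbˣ) p (A.decompositionSubgroup ℚ)
      (Conc.levSet (A.decompositionSubgroup ℚ)))
    {Z : GQ × GQ → Additive Qbˣ} (hz : CocOn₂ (A.decompositionSubgroup ℚ) Z)
    (hi : LevInfl (Conc.levSet (A.decompositionSubgroup ℚ)) (A.decompositionSubgroup ℚ) Z)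
    (hpz : LevCob (Conc.levSet (A.decompositionSubgroup ℚ)) (A.decompositionSubgroup ℚ)
      ((p : ℤ) • Z)) :
    LevCob (Conc.levSet (A.decompositionSubgroup ℚ))
      (A.decompositionSubgroup ℚ ⊓ (cycloField ℓ H).fixingSubgroup) Z := by
  obtain ⟨V, σ, e, hle, h⟩ := exists_cycData_decomp_cycloField hp H hq₀ hq₀ℓ u₀ hu₀ hdvd A hA
  have hlevE : ∃ N ∈ Conc.levSet (A.decompositionSubgroup ℚ),
      N ≤ A.decompositionSubgroup ℚ ⊓ (cycloField ℓ H).fixingSubgroup :=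
    ⟨_, Conc.isLev_inf_fixingSubgroup (A.decompositionSubgroup ℚ) (cycloField ℓ H) inferInstance,
      le_rfl⟩
  have hV : ∃ N ∈ Conc.levSet (A.decompositionSubgroup ℚ), N ≤ V := by
    obtain ⟨N, hN, hNE⟩ := hlevE
    exact ⟨N, hN, hNE.trans hle⟩
  exact (HL.levCob_of_cycData hp le_rfl h hV hz hi hpz).res HL hle hlevE

/-- (Q0), unfolded: there is a finite Galois `F/ℚ` with `Z` a coboundary on `D_A ⊓ G_E` at level
`D_A ⊓ G_F`. -/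
theorem exists_cobOn₂_inf_cycloField {p : ℕ} (hp : p.Prime) {ℓ : ℕ} [Fact ℓ.Prime]
    (H : Subgroup (ZMod ℓ)ˣ) {q₀ : ℕ} (hq₀ : q₀.Prime) (hq₀ℓ : q₀ ≠ ℓ) (u₀ : (ZMod ℓ)ˣ)
    (hu₀ : (u₀ : ZMod ℓ) = (q₀ : ZMod ℓ))
    (hdvd : p ∣ orderOf (QuotientGroup.mk u₀ : (ZMod ℓ)ˣ ⧸ H))
    (A : ValuationSubring Qb) (hA : A.LiesOverPrime q₀)
    (HL : LineHyp (Additive Qbˣ) p (A.decompositionSubgroup ℚ)
      (Conc.levSet (A.decompositionSubgroup ℚ)))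
    {Z : GQ × GQ → Additive Qbˣ} (hz : CocOn₂ (A.decompositionSubgroup ℚ) Z)
    (hi : LevInfl (Conc.levSet (A.decompositionSubgroup ℚ)) (A.decompositionSubgroup ℚ) Z)
    (hpz : LevCob (Conc.levSet (A.decompositionSubgroup ℚ)) (A.decompositionSubgroup ℚ)
      ((p : ℤ) • Z)) :
    ∃ F : IntermediateField ℚ Qb, FiniteDimensional ℚ F ∧ Normal ℚ F ∧
      A.decompositionSubgroup ℚ ⊓ F.fixingSubgroup ≤
        A.decompositionSubgroup ℚ ⊓ (cycloField ℓ H).fixingSubgroup ∧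
      CobOn₂ (A.decompositionSubgroup ℚ ⊓ (cycloField ℓ H).fixingSubgroup)
        (A.decompositionSubgroup ℚ ⊓ F.fixingSubgroup) Z := by
  obtain ⟨N, hN, hNE, hc⟩ := levCob_inf_cycloField hp H hq₀ hq₀ℓ u₀ hu₀ hdvd A hA HL hz hi hpz
  obtain ⟨F, hF, hFn, rfl⟩ := (Conc.mem_levSet_iff _ N).1 hN
  exact ⟨F, hF, hFn, hNE, hc⟩

/-- (Q0) from raw hypotheses: `Z` a 2-cocycle on `D_A`, inflated from the level `D_A ⊓ G_{F₀}`
(`F₀/ℚ` finite Galois), with `p • Z = 0` pointwise on `D_A`. -/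
theorem exists_cobOn₂_inf_cycloField_of_torsion {p : ℕ} (hp : p.Prime) {ℓ : ℕ} [Fact ℓ.Prime]
    (H : Subgroup (ZMod ℓ)ˣ) {q₀ : ℕ} (hq₀ : q₀.Prime) (hq₀ℓ : q₀ ≠ ℓ) (u₀ : (ZMod ℓ)ˣ)
    (hu₀ : (u₀ : ZMod ℓ) = (q₀ : ZMod ℓ))
    (hdvd : p ∣ orderOf (QuotientGroup.mk u₀ : (ZMod ℓ)ˣ ⧸ H))
    (A : ValuationSubring Qb) (hA : A.LiesOverPrime q₀)
    (HL : LineHyp (Additive Qbˣ) p (A.decompositionSubgroup ℚ)
      (Conc.levSet (A.decompositionSubgroup ℚ)))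
    {Z : GQ × GQ → Additive Qbˣ} (hz : CocOn₂ (A.decompositionSubgroup ℚ) Z)
    (F₀ : IntermediateField ℚ Qb) [FiniteDimensional ℚ F₀] [Normal ℚ F₀]
    (hi : InflOn₂ (A.decompositionSubgroup ℚ) (A.decompositionSubgroup ℚ ⊓ F₀.fixingSubgroup) Z)
    (hp0 : ∀ g ∈ A.decompositionSubgroup ℚ, ∀ k ∈ A.decompositionSubgroup ℚ,
      (p : ℤ) • Z (g, k) = 0) :
    ∃ F : IntermediateField ℚ Qb, FiniteDimensional ℚ F ∧ Normal ℚ F ∧
      A.decompositionSubgroup ℚ ⊓ F.fixingSubgroup ≤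
        A.decompositionSubgroup ℚ ⊓ (cycloField ℓ H).fixingSubgroup ∧
      CobOn₂ (A.decompositionSubgroup ℚ ⊓ (cycloField ℓ H).fixingSubgroup)
        (A.decompositionSubgroup ℚ ⊓ F.fixingSubgroup) Z := by
  have hlev : A.decompositionSubgroup ℚ ⊓ F₀.fixingSubgroup ∈
      Conc.levSet (A.decompositionSubgroup ℚ) :=
    Conc.isLev_inf_fixingSubgroup (A.decompositionSubgroup ℚ) F₀ inferInstance
  refine exists_cobOn₂_inf_cycloField hp H hq₀ hq₀ℓ u₀ hu₀ hdvd A hA HL hz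
    ⟨_, hlev, inf_le_left, hi⟩ ⟨_, hlev, inf_le_left, ?_⟩
  exact (cobOn₂_zero _ _).congr fun g hg k hk => by
    rw [Pi.smul_apply, hp0 g hg k hk]
    rfl

end Fermat.Agent.PT.G
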