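import Fermat.Agent.PT.Br.StepRes
import Fermat.Agent.PT.G.Q0Res

/-!
# PT / G layer: (Q0) for (B4), in the provable form

`A` a place of `ℚ̄` over `q₀ ≠ ℓ`, `Δ = D_A`, `E = cycloField ℓ H` with `p ∣ ord(q₀ mod H)`.
A pointwise `p`-torsion level 2-cocycle `Z` of `Δ` with values in `ℚ̄ˣ` is a level coboundary on
`Δ ⊓ Gal(ℚ̄/E)`, given the "lines" dependence `Conc.LinesOn p Δ` and the norm index statement
`Conc.NormIdxHyp p Δ` (the inputs of `Conc.cobOn₂_of_cycData`).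
-/

set_option autoImplicit false
set_option linter.unusedVariables false

namespace Fermat.Agent.PT.G

open ExtCitation Fermat.Agent.PT.Br

local notation "Qb" => AlgebraicClosure ℚ
local notation "GQ" => (AlgebraicClosure ℚ ≃ₐ[ℚ] AlgebraicClosure ℚ)

attribute [local instance] MulBridge.additiveAction

/-- **(Q0), strong form.**  The splitting level can be taken `D_A ⊓ G_{F'}` with `F'/ℚ` finite
Galois, inside both `D_A ⊓ G_E` (`E = cycloField ℓ H`) and the level `D_A ⊓ G_F` of `Z`. -/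
theorem exists_cobOn₂_inf_cycloField_of_linesOn {p : ℕ} [Fact p.Prime] {ℓ : ℕ} [Fact ℓ.Prime]
    (H : Subgroup (ZMod ℓ)ˣ) {q₀ : ℕ} (hq₀ : q₀.Prime) (hq₀ℓ : q₀ ≠ ℓ) (u₀ : (ZMod ℓ)ˣ)
    (hu₀ : (u₀ : ZMod ℓ) = (q₀ : ZMod ℓ))
    (hdvd : p ∣ orderOf (QuotientGroup.mk u₀ : (ZMod ℓ)ˣ ⧸ H))
    (A : ValuationSubring Qb) (hA : A.LiesOverPrime q₀) (Z : GQ × GQ → Additive Qbˣ)
    (hZ : CocOn₂ (A.decompositionSubgroup ℚ) Z) (F : IntermediateField ℚ Qb)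
    [FiniteDimensional ℚ F] [Normal ℚ F]
    (hi : InflOn₂ (A.decompositionSubgroup ℚ) (A.decompositionSubgroup ℚ ⊓ F.fixingSubgroup) Z)
    (hpZ : ∀ g ∈ A.decompositionSubgroup ℚ, ∀ h ∈ A.decompositionSubgroup ℚ, p • Z (g, h) = 0)
    (hLines : Conc.LinesOn p (A.decompositionSubgroup ℚ))
    (hNI : Conc.NormIdxHyp p (A.decompositionSubgroup ℚ)) :
    ∃ F' : IntermediateField ℚ Qb, FiniteDimensional ℚ F' ∧ Normal ℚ F' ∧
      A.decompositionSubgroup ℚ ⊓ F'.fixingSubgroup ≤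
        A.decompositionSubgroup ℚ ⊓ (cycloField ℓ H).fixingSubgroup ∧
      A.decompositionSubgroup ℚ ⊓ F'.fixingSubgroup ≤
        A.decompositionSubgroup ℚ ⊓ F.fixingSubgroup ∧
      CobOn₂ (A.decompositionSubgroup ℚ ⊓ (cycloField ℓ H).fixingSubgroup)
        (A.decompositionSubgroup ℚ ⊓ F'.fixingSubgroup) Z := by
  have hp : p.Prime := Fact.out
  obtain ⟨V, σ, e, hle, h⟩ := exists_cycData_decomp_cycloField hp H hq₀ hq₀ℓ u₀ hu₀ hdvd A hA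
  have hE : A.decompositionSubgroup ℚ ⊓ (cycloField ℓ H).fixingSubgroup ∈
      Conc.levSet (A.decompositionSubgroup ℚ) :=
    Conc.isLev_inf_fixingSubgroup (A.decompositionSubgroup ℚ) (cycloField ℓ H) inferInstance
  have hV : ∃ N ∈ Conc.levSet (A.decompositionSubgroup ℚ), N ≤ V := ⟨_, hE, hle⟩
  have hN₀ : A.decompositionSubgroup ℚ ⊓ F.fixingSubgroup ∈
      Conc.levSet (A.decompositionSubgroup ℚ) :=
    Conc.isLev_inf_fixingSubgroup (A.decompositionSubgroup ℚ) F inferInstance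
  obtain ⟨N, hN, -, hc⟩ := Conc.cobOn₂_of_cycData (isClosed_decompositionSubgroup A) hLines hNI
    hV h hZ hN₀ hi hpZ
  obtain ⟨N₁, hN₁, h1N, h1E⟩ := IsLev.exists_le hN hE
  obtain ⟨N₂, hN₂, h21, h2F⟩ := IsLev.exists_le hN₁ hN₀
  obtain ⟨F', hF', hF'n, rfl⟩ := (Conc.mem_levSet_iff _ N₂).1 hN₂
  exact ⟨F', hF', hF'n, h21.trans h1E, h2F, (hc.mono_left hle).mono (h21.trans h1N)⟩

/-- **(Q0)** (the literal target of the (B4) assembly, with the extra input `hNI`). -/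
theorem cobOn₂_inf_cycloField_of_dvd {p : ℕ} [Fact p.Prime] (hp2 : p ≠ 2) {ℓ : ℕ}
    [Fact ℓ.Prime] (H : Subgroup (ZMod ℓ)ˣ) {q₀ : ℕ} (hq₀ : q₀.Prime) (hq₀ℓ : q₀ ≠ ℓ)
    (u₀ : (ZMod ℓ)ˣ) (hu₀ : (u₀ : ZMod ℓ) = (q₀ : ZMod ℓ))
    (hdvd : p ∣ orderOf (QuotientGroup.mk u₀ : (ZMod ℓ)ˣ ⧸ H))
    (A : ValuationSubring Qb) (hA : A.LiesOverPrime q₀) (Z : GQ × GQ → Additive Qbˣ)
    (hZ : CocOn₂ (A.decompositionSubgroup ℚ) Z) (F : IntermediateField ℚ Qb)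
    [FiniteDimensional ℚ F] [Normal ℚ F]
    (hi : InflOn₂ (A.decompositionSubgroup ℚ) (A.decompositionSubgroup ℚ ⊓ F.fixingSubgroup) Z)
    (hpZ : ∀ g h, p • Z (g, h) = 0)
    (hLines : Conc.LinesOn p (A.decompositionSubgroup ℚ))
    (hNI : Conc.NormIdxHyp p (A.decompositionSubgroup ℚ)) :
    ∃ F' : IntermediateField ℚ Qb, FiniteDimensional ℚ F' ∧
      CobOn₂ (A.decompositionSubgroup ℚ ⊓ (cycloField ℓ H).fixingSubgroup)
        (A.decompositionSubgroup ℚ ⊓ F'.fixingSubgroup) Z := by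
  obtain ⟨F', hF', -, -, -, hc⟩ := exists_cobOn₂_inf_cycloField_of_linesOn H hq₀ hq₀ℓ u₀ hu₀
    hdvd A hA Z hZ F hi (fun g _ h _ => hpZ g h) hLines hNI
  exact ⟨F', hF', hc⟩

/-- **(Q0)** with the three arithmetic inputs at `D_A` explicit: norm index on `D_A`, norm index
and Kummer on `Gal(ℚ̄/ℚ(ζ_p)) ⊓ D_A`. -/
theorem cobOn₂_inf_cycloField_of_dvd' {p : ℕ} [Fact p.Prime] {ℓ : ℕ}
    [Fact ℓ.Prime] (H : Subgroup (ZMod ℓ)ˣ) {q₀ : ℕ} (hq₀ : q₀.Prime) (hq₀ℓ : q₀ ≠ ℓ)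
    (u₀ : (ZMod ℓ)ˣ) (hu₀ : (u₀ : ZMod ℓ) = (q₀ : ZMod ℓ))
    (hdvd : p ∣ orderOf (QuotientGroup.mk u₀ : (ZMod ℓ)ˣ ⧸ H))
    (A : ValuationSubring Qb) (hA : A.LiesOverPrime q₀) (Z : GQ × GQ → Additive Qbˣ)
    (hZ : CocOn₂ (A.decompositionSubgroup ℚ) Z) (F : IntermediateField ℚ Qb)
    [FiniteDimensional ℚ F] [Normal ℚ F]
    (hi : InflOn₂ (A.decompositionSubgroup ℚ) (A.decompositionSubgroup ℚ ⊓ F.fixingSubgroup) Z)
    (hpZ : ∀ g ∈ A.decompositionSubgroup ℚ, ∀ h ∈ A.decompositionSubgroup ℚ, p • Z (g, h) = 0)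
    (hNI : Conc.NormIdxHyp p (A.decompositionSubgroup ℚ))
    (hNI' : Conc.NormIdxHyp p ((cycloField p ⊥).fixingSubgroup ⊓ A.decompositionSubgroup ℚ))
    (hKum' : Conc.KummerHyp p ((cycloField p ⊥).fixingSubgroup ⊓ A.decompositionSubgroup ℚ)) :
    ∃ F' : IntermediateField ℚ Qb, FiniteDimensional ℚ F' ∧ Normal ℚ F' ∧
      A.decompositionSubgroup ℚ ⊓ F'.fixingSubgroup ≤
        A.decompositionSubgroup ℚ ⊓ (cycloField ℓ H).fixingSubgroup ∧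
      A.decompositionSubgroup ℚ ⊓ F'.fixingSubgroup ≤
        A.decompositionSubgroup ℚ ⊓ F.fixingSubgroup ∧
      CobOn₂ (A.decompositionSubgroup ℚ ⊓ (cycloField ℓ H).fixingSubgroup)
        (A.decompositionSubgroup ℚ ⊓ F'.fixingSubgroup) Z :=
  exists_cobOn₂_inf_cycloField_of_linesOn H hq₀ hq₀ℓ u₀ hu₀ hdvd A hA Z hZ F hi hpZ
    (Conc.linesOn_decomp A hNI' hKum') hNI

end Fermat.Agent.PT.G
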