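/-
PT / G : the local statement (T2) of the B4 assembly (report #1886): at a place `A` over
`q ≠ ℓ`, if a unit-valued cochain `Z` differs on `D_A` from the carry cocycle of `b ∈ ℚˣ` (for
`cycloField ℓ H`) by the coboundary of a cochain of unramified level, then `q ^ v_q(b) ∈ H`.
No local triviality of `Z` is needed: only valuations of "Frobenius sums".
-/
import Fermat.Agent.PT.G.CarryLocalT

set_option autoImplicit false

namespace Fermat.Agent.PT.G.CarryLocal

local notation "Qb" => AlgebraicClosure ℚ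
local notation "GQ" => (AlgebraicClosure ℚ ≃ₐ[ℚ] AlgebraicClosure ℚ)

open Fermat.Agent.PT.Br Fermat.Agent.PT.Br.MulBridge Finset
open Fermat.Agent.PT.G
open Fermat.Agent.Lib.GalQbar

attribute [local instance] additiveAction isAlgClosure_rat isGalois_rat
  Fermat.Agent.Lib.GalQbar.isAlgebraic_rat

/-- **(VAL)** The fixed field of `D_A ⊓ G_L` has value group `q ^ ℤ` when `L/ℚ` is finite Galois
and unramified at `A`. -/
theorem exists_zpow_valuation_eq_of_fixed_inf {q : ℕ} (hq : q.Prime) (A : ValuationSubring Qb)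
    (hA : A.LiesOverPrime q) (L : IntermediateField ℚ Qb) [FiniteDimensional ℚ L] [Normal ℚ L]
    (hL : A.inertiaSubgroupIn ℚ ≤ L.fixingSubgroup) (y : Qb) (hy0 : y ≠ 0)
    (hy : ∀ g ∈ A.decompositionSubgroup ℚ ⊓ L.fixingSubgroup, g y = y) :
    ∃ n : ℤ, A.valuation y = A.valuation ((q : Qb) ^ n) := by
  obtain ⟨y', hy'L, hy'0, hval⟩ := exists_div_sub_one_le A hq hA L y hy0
    (fun g hgD hgL => hy g ⟨hgD, hgL⟩) 1
  obtain ⟨n, hn⟩ := Fermat.Agent.PT.Kummer.exists_zpow_valuation_eq L hq A hA hL hy'L hy'0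
  refine ⟨n, ?_⟩
  rw [← hn]
  have hvq : A.valuation ((q : ℕ) : Qb) < 1 := A.mem_nonunits_iff.mp hA
  have h1 : A.valuation (y / y' - 1) < 1 :=
    lt_of_le_of_lt hval (by rw [pow_one]; exact hvq)
  have h2 : A.valuation (y / y') = 1 := by
    have h3 : y / y' = 1 + (y / y' - 1) := by ring
    rw [h3]
    exact Valuation.map_one_add_of_lt _ h1
  rw [map_div₀, div_eq_one_iff_eq ((Valuation.ne_zero_iff _).mpr hy'0)] at h2
  exact h2

/-- **(T2)** [`q ∉ S ∪ {ℓ}`]. -/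
theorem t2_inH {ℓ q : ℕ} (hq : q.Prime) [Fact ℓ.Prime] (hqℓ : q ≠ ℓ)
    (A : ValuationSubring Qb) (hA : A.LiesOverPrime q) (H : Subgroup (ZMod ℓ)ˣ)
    {m : ℕ} {σ : GQ} {e : GQ → ℕ}
    (h : CycData (⊤ : Subgroup GQ) (cycloField ℓ H).fixingSubgroup m σ e)
    (b : ℚ) (a : Additive Qbˣ) (ha : ((Additive.toMul a : Qbˣ) : Qb) = algebraMap ℚ Qb b)
    (L : IntermediateField ℚ Qb) [FiniteDimensional ℚ L] [Normal ℚ L]
    (hL : A.inertiaSubgroupIn ℚ ≤ L.fixingSubgroup) (Z : GQ × GQ → Additive Qbˣ)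
    (hZ : ∀ g ∈ A.decompositionSubgroup ℚ, ∀ k ∈ A.decompositionSubgroup ℚ,
      A.valuation ((Additive.toMul (Z (g, k)) : Qbˣ) : Qb) = 1)
    (hcob : CobOn₂ (A.decompositionSubgroup ℚ) (A.decompositionSubgroup ℚ ⊓ L.fixingSubgroup)
      (Z - carryCoc m e a)) :
    ∃ u ∈ H, (u : ZMod ℓ) = (q : ZMod ℓ) ^ padicValRat q b := by
  have hℓ : ℓ.Prime := Fact.out
  set E := cycloField ℓ H with hE
  set D := A.decompositionSubgroup ℚ with hD
  have hb : algebraMap ℚ Qb b ≠ 0 := by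
    rw [← ha]
    exact (Additive.toMul a).ne_zero
  have hb0 : b ≠ 0 := by
    rintro rfl
    exact hb (map_zero _)
  have hqZ : (q : ZMod ℓ) ≠ 0 := by
    rw [Ne, ZMod.natCast_eq_zero_iff]
    intro hdvd
    exact hqℓ ((Nat.prime_dvd_prime_iff_eq hℓ hq).mp hdvd).symm
  set u : (ZMod ℓ)ˣ := Units.mk0 (q : ZMod ℓ) hqZ with hu
  suffices hdvd : (orderOf (QuotientGroup.mk u : (ZMod ℓ)ˣ ⧸ H) : ℤ) ∣ padicValRat q b by
    rw [← zpow_mem_iff_orderOf_dvd] at hdvd
    exact ⟨_, hdvd, by rw [Units.val_zpow_eq_zpow_val, hu, Units.val_mk0]⟩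
  obtain ⟨φ, hφD, hgen, hord⟩ := exists_frobenius_gen H hq hqℓ A hA u rfl
  set m₀ := orderOf (QuotientGroup.mk u : (ZMod ℓ)ˣ ⧸ H) with hm₀
  have hm₀pos : 0 < m₀ := orderOf_pos _
  rcases Nat.lt_or_ge 1 m₀ with hm1 | hm1
  swap
  · have : m₀ = 1 := by omega
    rw [this, Nat.cast_one]
    exact one_dvd _
  -- the local cyclic datum and the carry count along `φ`
  obtain ⟨e', he'⟩ := exists_cycData_decomp E
    (fun g n hn => h.normal.conj g (Subgroup.mem_top g) n hn) A hφD hm1 hgen hord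
  obtain ⟨hj1, hj2⟩ := CarryRes.sum_carry_spec h le_top he'
  set j := ∑ l ∈ range m₀, carry m e (φ ^ l) φ with hj
  have hmpos : 0 < m := lt_trans Nat.zero_lt_one h.one_lt
  -- a power of `φ` in `G_L`
  have := Fermat.Agent.PT.DevissageGQ.finiteIndex_fixingSubgroup L
  obtain ⟨f, hf0, -, hfL⟩ := Subgroup.exists_pow_mem_of_index_ne_zero
    (H := L.fixingSubgroup) Subgroup.FiniteIndex.index_ne_zero φ
  set N := m₀ * f with hN
  have hφN_L : φ ^ N ∈ D ⊓ L.fixingSubgroup := by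
    refine ⟨Subgroup.pow_mem _ hφD N, ?_⟩
    rw [hN, mul_comm, pow_mul]
    exact Subgroup.pow_mem _ hfL m₀
  have hφN_E : φ ^ N ∈ E.fixingSubgroup := (hord N).2 (Dvd.intro f rfl)
  -- the carry count over `N` steps
  set C := ∑ i ∈ range N, carry m e (φ ^ i) φ with hC
  have hCount : C = f * j := by
    have h1 := CarryRes.e_pow_add_sum_carry h (Subgroup.mem_top φ) N
    rw [h.e_N _ hφN_E, zero_add] at h1
    have h2 : m * C = m * (f * j) := by
      rw [h1, hN]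
      calc m₀ * f * e φ = f * (m₀ * e φ) := by ring
        _ = f * (j * m) := by rw [hj1]
        _ = m * (f * j) := by ring
    exact Nat.eq_of_mul_eq_mul_left hmpos h2
  -- the Frobenius sum
  obtain ⟨g, hg, hge⟩ := hcob
  have hsum : ∑ i ∈ range N, Z (φ ^ i, φ) - C • a = partialNm φ N (g φ) := by
    have h1 : ∑ i ∈ range N, (Z - carryCoc m e a) (φ ^ i, φ) = ∑ i ∈ range N, d1 g (φ ^ i, φ) :=
      Finset.sum_congr rfl fun i _ => hge _ (Subgroup.pow_mem _ hφD i) _ hφD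
    rw [sum_d1_pow] at h1
    have h3 : g (φ ^ N) = g 1 := by
      have := hg.1 1 (Subgroup.one_mem _) (φ ^ N) hφN_L
      rwa [one_mul] at this
    rw [h3] at h1
    have h4 : ∑ i ∈ range N, (Z - carryCoc m e a) (φ ^ i, φ) =
        ∑ i ∈ range N, Z (φ ^ i, φ) - C • a := by
      simp only [Pi.sub_apply, Finset.sum_sub_distrib, carryCoc_apply, hC, Finset.sum_smul]
    rw [← h4, h1]
    abel
  -- valuations
  have hq0 : ((q : ℕ) : Qb) ≠ 0 := Nat.cast_ne_zero.mpr hq.ne_zero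
  have hvq0 : A.valuation ((q : ℕ) : Qb) ≠ 0 := (Valuation.ne_zero_iff _).mpr hq0
  have hvq1 : A.valuation ((q : ℕ) : Qb) < 1 := A.mem_nonunits_iff.mp hA
  have hvZ : A.valuation (toQb (∑ i ∈ range N, Z (φ ^ i, φ))) = 1 := by
    rw [toQb_sum, map_prod]
    exact Finset.prod_eq_one fun i _ => hZ _ (Subgroup.pow_mem _ hφD i) _ hφD
  have hgφfix : ∀ n ∈ D ⊓ L.fixingSubgroup, n (toQb (g φ)) = toQb (g φ) := fun n hn =>
    (smul_eq_iff_apply n (g φ)).1 (hg.2 φ hφD n hn)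
  obtain ⟨k, hk⟩ := exists_zpow_valuation_eq_of_fixed_inf hq A hA L hL (toQb (g φ))
    (toQb_ne_zero _) hgφfix
  have hvNm : A.valuation (toQb (partialNm φ N (g φ))) = A.valuation (toQb (g φ)) ^ N := by
    rw [toQb_partialNm, map_prod]
    rw [Finset.prod_congr rfl fun i _ =>
      valuation_apply_eq_of_mem_decomp (Subgroup.pow_mem _ hφD i) (toQb (g φ))]
    simp
  have hva : A.valuation (toQb a) = A.valuation ((q : ℕ) : Qb) ^ padicValRat q b := by
    show A.valuation ((Additive.toMul a : Qbˣ) : Qb) = _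
    rw [ha, valuation_ratCast_eq hq A hA b hb0, map_zpow₀]
  have hval : A.valuation (toQb (∑ i ∈ range N, Z (φ ^ i, φ) - C • a)) =
      A.valuation (toQb (partialNm φ N (g φ))) := by rw [hsum]
  rw [toQb_sub, map_div₀, hvZ, toQb_nsmul, map_pow, hvNm, hva, hk, map_zpow₀, ← zpow_natCast,
    ← zpow_natCast, ← zpow_mul, ← zpow_mul, one_div, ← zpow_neg] at hval
  have hexp : -(padicValRat q b * (C : ℤ)) = k * (N : ℤ) :=
    zpow_right_injective₀ (zero_lt_iff.mpr hvq0) hvq1.ne hval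
  -- conclusion
  have hfZ : (f : ℤ) ≠ 0 := by exact_mod_cast hf0.ne'
  have h5 : (j : ℤ) * padicValRat q b = (m₀ : ℤ) * (-k) := by
    have h6 : (f : ℤ) * ((j : ℤ) * padicValRat q b) = (f : ℤ) * ((m₀ : ℤ) * (-k)) := by
      have hC' : (C : ℤ) = (f : ℤ) * j := by exact_mod_cast hCount
      have hN' : (N : ℤ) = (m₀ : ℤ) * f := by exact_mod_cast hN
      rw [hC', hN'] at hexp
      linear_combination (-1 : ℤ) * hexp
    exact mul_left_cancel₀ hfZ h6
  have h7 : (m₀ : ℤ) ∣ (j : ℤ) * padicValRat q b := ⟨-k, h5⟩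
  exact (Nat.isCoprime_iff_coprime.mpr hj2).symm.dvd_of_dvd_mul_left h7

end Fermat.Agent.PT.G.CarryLocal
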