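import Mathlib
import Fermat.Agent.PT.G.CycloField
import Fermat.Agent.PT.Br.MulBridge
import Fermat.Agent.PT.Br.CycAux
import Fermat.Agent.PT.Local.UnramQbar
import Fermat.Agent.PT.G.KumLocal
import Fermat.Agent.PT.G.KumUnram
import Fermat.Agent.PT.G.KumH90
import Fermat.Agent.PT.G.CycloTame
import Fermat.Agent.PT.G.CarryRes
import Fermat.Agent.PT.G.UnrTriv

/-!
# Local norm conditions for the carry cocycles of subfields of `ℚ(ζ_ℓ)` (PT, layer G, for B4)

Vocabulary of `PT/Br`: `Γ = Gal(ℚ̄/ℚ)`, coefficients `Additive ℚ̄ˣ`; `A` a valuation subring of `ℚ̄`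
over a prime, `D_A` its decomposition group, `E = cycloField ℓ H`.
-/

set_option autoImplicit false

namespace Fermat.Agent.PT.G

open ExtCitation Fermat.Agent.PT.Br Fermat.Agent.Lib.FrobeniusExists

local notation "Qb" => AlgebraicClosure ℚ
local notation "GQ" => (AlgebraicClosure ℚ ≃ₐ[ℚ] AlgebraicClosure ℚ)

attribute [local instance] MulBridge.additiveAction isAlgClosure_rat isGalois_rat

namespace LocNorm

/-- Hilbert 90 for `Gal(ℚ̄/M)`, `M` arbitrary, at every finite level, in the vocabulary of `PT/Br`: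
the level only needs to be seen inside `Gal(ℚ̄/M)`. -/
theorem h90On_of_le (M : IntermediateField ℚ Qb) (F : IntermediateField ℚ Qb)
    [FiniteDimensional ℚ F] (N₀ : Subgroup GQ) (hN₀ : M.fixingSubgroup ⊓ F.fixingSubgroup ≤ N₀) :
    H90On (Additive Qbˣ) M.fixingSubgroup N₀ := by
  intro u hu hinv
  obtain ⟨b, hb⟩ := Fermat.Agent.PT.Kummer.hilbert90_units M (fun g => (u g).toMul)
    (fun g hg k hk => by
      have := hu g hg k hk
      show (u (g * k)).toMul = (u g).toMul * g • (u k).toMul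
      rw [this, mul_comm]
      rfl) F
    (fun g hg s hs hsF => by
      show (u (g * s)).toMul = (u g).toMul
      rw [hinv g hg s (hN₀ ⟨hs, hsF⟩)])
  refine ⟨Additive.ofMul b, fun n hn => ?_⟩
  have := hb n hn
  show u n = Additive.ofMul (n • b / b)
  rw [← this]
  rfl

end LocNorm

open LocNorm

section H90

/-- **(H90-glob)** Hilbert 90 for `Gal(ℚ̄/K)` at every finite level. -/
theorem h90On_fixingSubgroup (K F : IntermediateField ℚ Qb) [FiniteDimensional ℚ F] :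
    H90On (Additive Qbˣ) K.fixingSubgroup F.fixingSubgroup :=
  h90On_of_le K F _ inf_le_right

/-- **(H90-loc)** Hilbert 90 for the local groups `D_A ⊓ Gal(ℚ̄/K)` at every finite level. -/
theorem h90On_decomp (A : ValuationSubring Qb) (K F : IntermediateField ℚ Qb)
    [FiniteDimensional ℚ F] :
    H90On (Additive Qbˣ) (A.decompositionSubgroup ℚ ⊓ K.fixingSubgroup)
      (A.decompositionSubgroup ℚ ⊓ F.fixingSubgroup) := by
  have h := h90On_of_le (Fermat.Agent.PT.Kummer.decompField K A) F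
    (A.decompositionSubgroup ℚ ⊓ F.fixingSubgroup)
    (by
      rw [Fermat.Agent.PT.Kummer.fixingSubgroup_decompField]
      exact fun s hs => ⟨hs.1.1, hs.2⟩)
  rwa [Fermat.Agent.PT.Kummer.fixingSubgroup_decompField] at h

/-- Hilbert 90 for the full decomposition group. -/
theorem h90On_decomp_top (A : ValuationSubring Qb) (F : IntermediateField ℚ Qb)
    [FiniteDimensional ℚ F] :
    H90On (Additive Qbˣ) (A.decompositionSubgroup ℚ)
      (A.decompositionSubgroup ℚ ⊓ F.fixingSubgroup) := by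
  have h := h90On_decomp A ⊥ F
  rwa [IntermediateField.fixingSubgroup_bot, inf_top_eq] at h

end H90

section Basic

/-- **(VAL)** An element fixed by `D_A ⊓ Gal(ℚ̄/F)`, `F/ℚ` finite Galois and unramified at `A`, has
the valuation of a power of `q`. -/
theorem exists_zpow_valuation_eq_of_fixed {q : ℕ} (hq : q.Prime) (A : ValuationSubring Qb)
    (hA : A.LiesOverPrime q) (F : IntermediateField ℚ Qb) [FiniteDimensional ℚ F] [Normal ℚ F]
    (hF : A.inertiaSubgroupIn ℚ ≤ F.fixingSubgroup) (y : Qb) (hy0 : y ≠ 0)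
    (hy : ∀ g ∈ A.decompositionSubgroup ℚ ⊓ F.fixingSubgroup, g y = y) :
    ∃ n : ℤ, A.valuation y = A.valuation ((q : Qb) ^ n) := by
  obtain ⟨w, hw, hw0, hle⟩ :=
    Fermat.Agent.PT.Kummer.exists_mem_valuation_div_sub_one_le F hq A hA y hy0 hy 1
  have hvq : A.valuation (q : Qb) < 1 := A.mem_nonunits_iff.mp hA
  have hlt : A.valuation (y / w - 1) < 1 := lt_of_le_of_lt hle (by rwa [pow_one])
  have h1 : A.valuation (y / w) = 1 := by
    have e : y / w = 1 + (y / w - 1) := by ring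
    rw [e]
    exact Valuation.map_one_add_of_lt (v := A.valuation) hlt
  obtain ⟨n, hn⟩ := Fermat.Agent.PT.Kummer.exists_zpow_valuation_eq F hq A hA hF hw hw0
  refine ⟨n, ?_⟩
  rw [← hn]
  rw [map_div₀] at h1
  exact (div_eq_one_iff_eq ((Valuation.ne_zero_iff _).mpr hw0)).mp h1

/-- **(GEN-ℓ)** The inertia group at `ℓ` contains an element whose mod `ℓ` cyclotomic character
generates `(ℤ/ℓ)ˣ`. -/
theorem exists_inertia_zpowers_cycloChar_eq_top (ℓ : ℕ) [Fact ℓ.Prime] (A : ValuationSubring Qb)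
    (hA : A.LiesOverPrime ℓ) :
    ∃ σ ∈ A.inertiaSubgroupIn ℚ, Subgroup.zpowers (cycloChar ℓ σ) = ⊤ := by
  obtain ⟨u, hu⟩ := IsCyclic.exists_generator (α := (ZMod ℓ)ˣ)
  obtain ⟨σ, hσ, hσu⟩ := exists_inertia_cycloChar_eq ℓ A hA u
  exact ⟨σ, hσ, by rw [hσu]; exact (Subgroup.eq_top_iff' _).mpr hu⟩

namespace LocNorm

/-- Powers of a generator of `(ℤ/ℓ)ˣ` lying in `H`. -/
theorem pow_mem_iff_index_dvd {ℓ : ℕ} [Fact ℓ.Prime] (H : Subgroup (ZMod ℓ)ˣ) (u : (ZMod ℓ)ˣ)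
    (hu : Subgroup.zpowers u = ⊤) (i : ℕ) : u ^ i ∈ H ↔ H.index ∣ i := by
  have h1 : u ^ i ∈ H ↔ (QuotientGroup.mk u : (ZMod ℓ)ˣ ⧸ H) ^ i = 1 := by
    rw [← QuotientGroup.mk_pow, QuotientGroup.eq_one_iff]
  rw [h1, ← orderOf_dvd_iff_pow_eq_one]
  have h2 : orderOf (QuotientGroup.mk u : (ZMod ℓ)ˣ ⧸ H) = H.index := by
    rw [Subgroup.index, ← orderOf_eq_card_of_forall_mem_zpowers]
    intro x
    obtain ⟨y, rfl⟩ := QuotientGroup.mk_surjective x
    have hy : y ∈ Subgroup.zpowers u := by rw [hu]; trivial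
    obtain ⟨k, rfl⟩ := Subgroup.mem_zpowers_iff.mp hy
    exact Subgroup.mem_zpowers_iff.mpr ⟨k, by rw [QuotientGroup.mk_zpow]⟩
  rw [h2]

end LocNorm

/-- **(CYC-E)** The cyclic datum of `Gal(E/ℚ)`, `E = cycloField ℓ H`, for a generator. -/
theorem exists_cycData_cycloField (ℓ : ℕ) [Fact ℓ.Prime] (H : Subgroup (ZMod ℓ)ˣ) (hH : H ≠ ⊤)
    (σ : GQ) (hσ : Subgroup.zpowers (cycloChar ℓ σ) = ⊤) :
    ∃ e : GQ → ℕ, CycData (⊤ : Subgroup GQ) (cycloField ℓ H).fixingSubgroup H.index σ e := by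
  have hidx : 1 < H.index := by
    have h0 : H.index ≠ 0 := Subgroup.index_ne_zero_of_finite
    have h1 : H.index ≠ 1 := fun h => hH (Subgroup.index_eq_one.mp h)
    omega
  haveI := normal_fixingSubgroup_cycloField ℓ H
  refine CycData.exists_of_gen (NormalIn.of_normal _) (Subgroup.mem_top σ) hidx
    (fun g _ => ?_) (fun i => ?_)
  · have hg : cycloChar ℓ g ∈ Subgroup.zpowers (cycloChar ℓ σ) := by rw [hσ]; trivial
    rw [← mem_powers_iff_mem_zpowers] at hg
    obtain ⟨i, hi⟩ := hg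
    have hi' : cycloChar ℓ σ ^ i = cycloChar ℓ g := hi
    refine ⟨i, ?_⟩
    rw [mem_fixingSubgroup_cycloField_iff, map_mul, map_inv, map_pow, hi', inv_mul_cancel]
    exact H.one_mem
  · rw [mem_fixingSubgroup_cycloField_iff, map_pow]
    exact pow_mem_iff_index_dvd H _ hσ i

end Basic

namespace LocNorm

section Abstract

variable {Γ B : Type*} [Group Γ] [AddCommGroup B] [DistribMulAction Γ B]

open Finset

/-- Telescoping of the carries along the powers of `τ`. -/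
lemma sum_carry_pow {M N : Subgroup Γ} {m : ℕ} {σ : Γ} {e : Γ → ℕ} (h : CycData M N m σ e)
    {τ : Γ} (hτ : τ ∈ M) (k : ℕ) :
    (∑ i ∈ range k, carry m e (τ ^ i) τ) * m + e (τ ^ k) = k * e τ := by
  induction k with
  | zero => simp [h.e_one]
  | succ k ih =>
    rw [sum_range_succ, pow_succ, h.e_mul _ (M.pow_mem hτ k) _ hτ]
    have h1 := Nat.div_add_mod (e (τ ^ k) + e τ) m
    have h2 : carry m e (τ ^ k) τ = (e (τ ^ k) + e τ) / m := rfl
    rw [h2, add_mul]
    have h3 : (e (τ ^ k) + e τ) / m * m = m * ((e (τ ^ k) + e τ) / m) := mul_comm _ _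
    rw [h3]
    linarith

/-- Telescoping of a coboundary along the powers of `τ`. -/
lemma sum_d1_pow (f : Γ → B) (τ : Γ) (k : ℕ) :
    ∑ i ∈ range k, d1 f (τ ^ i, τ) = partialNm τ k (f τ) - f (τ ^ k) + f 1 := by
  induction k with
  | zero => simp [partialNm]
  | succ k ih =>
    rw [sum_range_succ, ih, d1_apply, ← pow_succ]
    have h1 : partialNm τ (k + 1) (f τ) = partialNm τ k (f τ) + τ ^ k • f τ := by
      unfold partialNm
      rw [sum_range_succ]
    rw [h1]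
    abel

/-- **Sum formula.**  If `z - carryCoc m e a = d1 f` on `M' ≤ M` with `f` inflated from `M'/N'`,
`N' ≤ N`, then for `τ ∈ M'` with `τ ^ k ∈ N'`: `∑_{i<k} z (τ^i, τ) - c • a = N_k (f τ)` where
`c * m = k * e τ`. -/
lemma exists_sum_sub_nsmul_eq_partialNm {M N M' N' : Subgroup Γ} {m : ℕ} {σ : Γ} {e : Γ → ℕ}
    (h : CycData M N m σ e) (hM' : M' ≤ M) (hN' : N' ≤ N) {z : Γ × Γ → B} {a : B} {f : Γ → B}
    (hf : InflOn₁ M' N' f)
    (he : ∀ g ∈ M', ∀ k ∈ M', (z - carryCoc m e a) (g, k) = d1 f (g, k))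
    {τ : Γ} (hτ : τ ∈ M') {k : ℕ} (hk : τ ^ k ∈ N') :
    ∃ c : ℕ, c * m = k * e τ ∧ ∑ i ∈ range k, z (τ ^ i, τ) - c • a = partialNm τ k (f τ) := by
  refine ⟨∑ i ∈ range k, carry m e (τ ^ i) τ, ?_, ?_⟩
  · have h1 := sum_carry_pow h (hM' hτ) k
    rw [h.e_N _ (hN' hk), add_zero] at h1
    exact h1
  · have h1 : ∑ i ∈ range k, (z - carryCoc m e a) (τ ^ i, τ) = ∑ i ∈ range k, d1 f (τ ^ i, τ) :=
      sum_congr rfl fun i _ => he _ (M'.pow_mem hτ i) _ hτ
    rw [sum_d1_pow] at h1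
    have h2 : f (τ ^ k) = f 1 := by
      have := hf.1 1 M'.one_mem _ hk
      rwa [one_mul] at this
    rw [h2, sub_add_cancel] at h1
    rw [← h1, sum_smul, ← sum_sub_distrib]
    exact sum_congr rfl fun i _ => rfl

end Abstract

section Val

/-- The valuation of `A` as an additive map on `Additive ℚ̄ˣ`. -/
noncomputable def valAdd (A : ValuationSubring Qb) : Additive Qbˣ →+ Additive (A.ValueGroup)ˣ :=
  MonoidHom.toAdditive (Units.map (A.valuation : Qb →* A.ValueGroup))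

theorem valAdd_eq_iff (A : ValuationSubring Qb) (x y : Additive Qbˣ) :
    valAdd A x = valAdd A y ↔
      A.valuation ((Additive.toMul x : Qbˣ) : Qb) = A.valuation ((Additive.toMul y : Qbˣ) : Qb) := by
  constructor
  · intro h
    have h1 : Additive.toMul (valAdd A x) = Additive.toMul (valAdd A y) := congrArg _ h
    exact congrArg Units.val h1
  · intro h
    apply Additive.toMul.injective
    exact Units.ext h

theorem valAdd_eq_zero_iff (A : ValuationSubring Qb) (x : Additive Qbˣ) :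
    valAdd A x = 0 ↔ A.valuation ((Additive.toMul x : Qbˣ) : Qb) = 1 := by
  have h := valAdd_eq_iff A x 0
  rw [map_zero] at h
  rw [h]
  simp

theorem valAdd_smul {A : ValuationSubring Qb} {g : GQ} (hg : g ∈ A.decompositionSubgroup ℚ)
    (x : Additive Qbˣ) : valAdd A (g • x) = valAdd A x := by
  rw [valAdd_eq_iff]
  exact valuation_apply_eq_of_mem_decomp hg _

theorem valAdd_partialNm {A : ValuationSubring Qb} {g : GQ} (hg : g ∈ A.decompositionSubgroup ℚ)
    (k : ℕ) (x : Additive Qbˣ) : valAdd A (partialNm g k x) = k • valAdd A x := by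
  unfold partialNm
  rw [map_sum, Finset.sum_congr rfl fun i _ => valAdd_smul (Subgroup.pow_mem _ hg i) x,
    Finset.sum_const, Finset.card_range]

end Val

section Rat

/-- The `A`-valuation of a nonzero natural number. -/
theorem valuation_natCast_eq_pow {q : ℕ} (hq : q.Prime) (A : ValuationSubring Qb)
    (hA : A.LiesOverPrime q) {n : ℕ} (hn : n ≠ 0) :
    A.valuation (n : Qb) = A.valuation (q : Qb) ^ padicValNat q n := by
  haveI : Fact q.Prime := ⟨hq⟩
  obtain ⟨e, n', hn', rfl⟩ := Nat.exists_eq_pow_mul_and_not_dvd hn q hq.ne_one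
  have hn'0 : n' ≠ 0 := by rintro rfl; exact hn' (dvd_zero _)
  have h1 : A.valuation (n' : Qb) = 1 := by
    have h2 : ((n' : ℤ) : Qb) ∉ A.nonunits :=
      Fermat.Agent.Lib.ValuationIntegral.intCast_notMem_nonunits A hq hA (c := (n' : ℤ))
        (by exact_mod_cast hn')
    have h3 : A.valuation ((n' : ℤ) : Qb) ≤ 1 :=
      (A.valuation_le_one_iff _).mpr (intCast_mem A n')
    rw [A.mem_nonunits_iff, not_lt] at h2
    have := le_antisymm h3 h2
    simpa using this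
  rw [padicValNat.mul (pow_ne_zero _ hq.ne_zero) hn'0, padicValNat.prime_pow,
    padicValNat.eq_zero_of_not_dvd hn', add_zero]
  push_cast
  rw [map_mul, map_pow, h1, mul_one]

/-- The `A`-valuation of a nonzero rational number. -/
theorem valuation_ratCast_eq_zpow {q : ℕ} (hq : q.Prime) (A : ValuationSubring Qb)
    (hA : A.LiesOverPrime q) {b : ℚ} (hb : b ≠ 0) :
    A.valuation (algebraMap ℚ Qb b) = A.valuation (q : Qb) ^ padicValRat q b := by
  have hq0 : A.valuation (q : Qb) ≠ 0 :=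
    (Valuation.ne_zero_iff _).mpr (Nat.cast_ne_zero.mpr hq.ne_zero)
  have hnum : b.num.natAbs ≠ 0 := Int.natAbs_ne_zero.mpr (Rat.num_ne_zero.mpr hb)
  have h1 : A.valuation ((b.num : ℤ) : Qb) = A.valuation (q : Qb) ^ padicValInt q b.num := by
    have h2 : A.valuation ((b.num : ℤ) : Qb) = A.valuation ((b.num.natAbs : ℕ) : Qb) := by
      rcases Int.natAbs_eq b.num with h | h
      · conv_lhs => rw [h]
        simp
      · conv_lhs => rw [h]
        rw [Int.cast_neg, Valuation.map_neg]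
        simp
    rw [h2, valuation_natCast_eq_pow hq A hA hnum]
    rfl
  have h2 := valuation_natCast_eq_pow hq A hA b.den_nz
  rw [eq_ratCast, Rat.cast_def, map_div₀, h1, h2]
  unfold padicValRat
  rw [zpow_sub₀ hq0, zpow_natCast, zpow_natCast]

/-- The class of the prime `q` in `Additive ℚ̄ˣ`. -/
noncomputable def primeElt (q : ℕ) [Fact q.Prime] : Additive Qbˣ :=
  Additive.ofMul (Units.mk0 (q : Qb) (Nat.cast_ne_zero.mpr (Fact.out : q.Prime).ne_zero))

theorem zsmul_valAdd_primeElt_injective {q : ℕ} [Fact q.Prime] (A : ValuationSubring Qb)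
    (hA : A.LiesOverPrime q) {i j : ℤ} (h : i • valAdd A (primeElt q) = j • valAdd A (primeElt q)) :
    i = j := by
  have hq : q.Prime := Fact.out
  have hvq : A.valuation (q : Qb) < 1 := A.mem_nonunits_iff.mp hA
  have hq0 : A.valuation (q : Qb) ≠ 0 :=
    (Valuation.ne_zero_iff _).mpr (Nat.cast_ne_zero.mpr hq.ne_zero)
  rw [← map_zsmul, ← map_zsmul, valAdd_eq_iff] at h
  have h1 : ∀ k : ℤ, A.valuation ((Additive.toMul (k • primeElt q) : Qbˣ) : Qb) =
      A.valuation (q : Qb) ^ k := by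
    intro k
    rw [toMul_zsmul, Units.val_zpow_eq_zpow_val, map_zpow₀]
    rfl
  rw [h1, h1] at h
  exact zpow_right_injective₀ (zero_lt_iff.mpr hq0) hvq.ne h

/-- `valAdd` of a rational number. -/
theorem valAdd_of_rat {q : ℕ} [Fact q.Prime] (A : ValuationSubring Qb) (hA : A.LiesOverPrime q)
    {b : ℚ} {a : Additive Qbˣ} (ha : ((Additive.toMul a : Qbˣ) : Qb) = algebraMap ℚ Qb b) :
    valAdd A a = padicValRat q b • valAdd A (primeElt q) := by
  have hq : q.Prime := Fact.out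
  have hb : b ≠ 0 := by
    rintro rfl
    rw [map_zero] at ha
    exact (Additive.toMul a).ne_zero ha
  rw [← map_zsmul, valAdd_eq_iff, ha, valuation_ratCast_eq_zpow hq A hA hb, toMul_zsmul,
    Units.val_zpow_eq_zpow_val, map_zpow₀]
  rfl

/-- `valAdd` of an element fixed by `D_A ⊓ Gal(ℚ̄/F)`, `F` unramified at `A`. -/
theorem exists_valAdd_eq_zsmul {q : ℕ} [Fact q.Prime] (A : ValuationSubring Qb)
    (hA : A.LiesOverPrime q) (F : IntermediateField ℚ Qb) [FiniteDimensional ℚ F] [Normal ℚ F]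
    (hF : A.inertiaSubgroupIn ℚ ≤ F.fixingSubgroup) (y : Additive Qbˣ)
    (hy : ∀ g ∈ A.decompositionSubgroup ℚ ⊓ F.fixingSubgroup, g • y = y) :
    ∃ n : ℤ, valAdd A y = n • valAdd A (primeElt q) := by
  have hq : q.Prime := Fact.out
  obtain ⟨n, hn⟩ := exists_zpow_valuation_eq_of_fixed hq A hA F hF
    ((Additive.toMul y : Qbˣ) : Qb) (Additive.toMul y).ne_zero
    (fun g hg => by
      have := hy g hg
      exact congrArg (fun t : Additive Qbˣ => ((Additive.toMul t : Qbˣ) : Qb)) this)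
  refine ⟨n, ?_⟩
  rw [← map_zsmul, valAdd_eq_iff, hn, toMul_zsmul, Units.val_zpow_eq_zpow_val]
  rfl

end Rat

section Core

/-- The character of a cyclic step on integer powers. -/
lemma chi_zpow {Γ : Type*} [Group Γ] {M N : Subgroup Γ} {m : ℕ} {σ : Γ} {e : Γ → ℕ}
    (h : CycData M N m σ e) {g : Γ} (hg : g ∈ M) (v : ℤ) :
    ((e (g ^ v) : ℕ) : ZMod m) = (v : ZMod m) * (e g : ZMod m) := by
  obtain ⟨k, rfl | rfl⟩ := Int.eq_nat_or_neg v
  · rw [zpow_natCast, h.chi_pow hg, Int.cast_natCast]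
  · rw [zpow_neg, zpow_natCast, h.chi_inv (M.pow_mem hg k), h.chi_pow hg, Int.cast_neg,
      Int.cast_natCast, neg_mul]

/-- **Final step**: if `m ∣ e φ * v` then `χ_ℓ(φ) ^ v ∈ H`. -/
lemma exists_mem_eq_zpow_of_dvd {ℓ : ℕ} [Fact ℓ.Prime] (H : Subgroup (ZMod ℓ)ˣ) {m : ℕ} {σ : GQ}
    {e : GQ → ℕ} (h : CycData (⊤ : Subgroup GQ) (cycloField ℓ H).fixingSubgroup m σ e) (φ : GQ)
    (x : ZMod ℓ) (hφ : ((cycloChar ℓ φ : (ZMod ℓ)ˣ) : ZMod ℓ) = x) (v : ℤ)
    (hv : (m : ℤ) ∣ (e φ : ℤ) * v) : ∃ u ∈ H, (u : ZMod ℓ) = x ^ v := by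
  have h1 : φ ^ v ∈ (cycloField ℓ H).fixingSubgroup := by
    rw [h.mem_iff_chi (Subgroup.mem_top _), chi_zpow h (Subgroup.mem_top _)]
    have h2 : (((e φ : ℤ) * v : ℤ) : ZMod m) = 0 :=
      (ZMod.intCast_zmod_eq_zero_iff_dvd _ _).mpr hv
    rw [mul_comm]
    push_cast at h2
    exact h2
  rw [mem_fixingSubgroup_cycloField_iff, map_zpow] at h1
  exact ⟨_, h1, by rw [Units.val_zpow_eq_zpow_val, hφ]⟩

/-- **Core computation**: valuations in the sum formula. -/
lemma dvd_mul_padicValRat_of_eq_d1 {q ℓ : ℕ} [Fact q.Prime] [Fact ℓ.Prime]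
    (A : ValuationSubring Qb) (hA : A.LiesOverPrime q) (H : Subgroup (ZMod ℓ)ˣ) {m : ℕ} {σ : GQ}
    {e : GQ → ℕ} (h : CycData (⊤ : Subgroup GQ) (cycloField ℓ H).fixingSubgroup m σ e)
    (b : ℚ) (a : Additive Qbˣ) (ha : ((Additive.toMul a : Qbˣ) : Qb) = algebraMap ℚ Qb b)
    (N' : Subgroup GQ) (hN' : N' ≤ (cycloField ℓ H).fixingSubgroup)
    (Z : GQ × GQ → Additive Qbˣ)
    (hZ : ∀ g ∈ A.decompositionSubgroup ℚ, ∀ k ∈ A.decompositionSubgroup ℚ,
      valAdd A (Z (g, k)) = 0)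
    (f : GQ → Additive Qbˣ) (hf : InflOn₁ (A.decompositionSubgroup ℚ) N' f)
    (he : ∀ g ∈ A.decompositionSubgroup ℚ, ∀ k ∈ A.decompositionSubgroup ℚ,
      (Z - carryCoc m e a) (g, k) = d1 f (g, k))
    (φ : GQ) (hφ : φ ∈ A.decompositionSubgroup ℚ) (k : ℕ) (hk0 : 0 < k) (hk : φ ^ k ∈ N')
    (n : ℤ) (hn : valAdd A (f φ) = n • valAdd A (primeElt q)) :
    (m : ℤ) ∣ (e φ : ℤ) * padicValRat q b := by
  obtain ⟨c, hc, hsum⟩ := exists_sum_sub_nsmul_eq_partialNm h le_top hN' hf he hφ hk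
  have h1 := congrArg (valAdd A) hsum
  rw [map_sub, map_sum, Finset.sum_eq_zero (fun i _ => hZ _ (Subgroup.pow_mem _ hφ i) _ hφ),
    map_nsmul, valAdd_of_rat A hA ha, valAdd_partialNm hφ, hn, zero_sub, ← natCast_zsmul,
    smul_smul, ← neg_smul, ← natCast_zsmul (n • valAdd A (primeElt q)), smul_smul] at h1
  have h3 := zsmul_valAdd_primeElt_injective A hA h1
  have hc' : (c : ℤ) * m = k * e φ := by exact_mod_cast hc
  refine ⟨-n, ?_⟩
  have hk0' : (k : ℤ) ≠ 0 := by exact_mod_cast hk0.ne'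
  apply mul_left_cancel₀ hk0'
  linear_combination (-(padicValRat q b)) * hc' - (m : ℤ) * h3

end Core

end LocNorm

section T12

/-- **(T2)** At a prime `q ≠ ℓ` where the level `L` is unramified and `Z` has unit values: if
`Z - carryCoc m e a` is a level-`L` coboundary on `D_A` then `q ^ v_q(b) ∈ H`. -/
theorem inH_of_cobOn₂_sub_carryCoc {q ℓ : ℕ} (hq : q.Prime) [Fact ℓ.Prime] (hqℓ : q ≠ ℓ)
    (A : ValuationSubring Qb) (hA : A.LiesOverPrime q)
    (H : Subgroup (ZMod ℓ)ˣ) {m : ℕ} {σ : GQ} {e : GQ → ℕ}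
    (h : CycData (⊤ : Subgroup GQ) (cycloField ℓ H).fixingSubgroup m σ e)
    (b : ℚ) (a : Additive Qbˣ) (ha : ((Additive.toMul a : Qbˣ) : Qb) = algebraMap ℚ Qb b)
    (L : IntermediateField ℚ Qb) [FiniteDimensional ℚ L] [Normal ℚ L]
    (hL : A.inertiaSubgroupIn ℚ ≤ L.fixingSubgroup)
    (Z : GQ × GQ → Additive Qbˣ)
    (hZ : ∀ g ∈ A.decompositionSubgroup ℚ, ∀ k ∈ A.decompositionSubgroup ℚ,
      A.valuation ((Additive.toMul (Z (g, k)) : Qbˣ) : Qb) = 1)
    (hcob : CobOn₂ (A.decompositionSubgroup ℚ) (A.decompositionSubgroup ℚ ⊓ L.fixingSubgroup)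
      (Z - carryCoc m e a)) :
    ∃ u ∈ H, (u : ZMod ℓ) = (q : ZMod ℓ) ^ padicValRat q b := by
  haveI : Fact q.Prime := ⟨hq⟩
  obtain ⟨φ, hφD, hφq, -⟩ := exists_frobenius_cycloChar ℓ hq hqℓ A hA
  obtain ⟨f, hf, he⟩ := hcob
  -- a power of `φ` in `G_L ⊓ G_E`
  have hLfi : L.fixingSubgroup.FiniteIndex := ⟨by
    rw [← IntermediateField.finrank_eq_fixingSubgroup_index]
    exact Module.finrank_pos.ne'⟩
  have hEfi : (cycloField ℓ H).fixingSubgroup.FiniteIndex := ⟨by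
    rw [← IntermediateField.finrank_eq_fixingSubgroup_index]
    exact Module.finrank_pos.ne'⟩
  obtain ⟨k, hk0, -, hφk⟩ := Subgroup.exists_pow_mem_of_index_ne_zero
    (H := L.fixingSubgroup ⊓ (cycloField ℓ H).fixingSubgroup) Subgroup.FiniteIndex.index_ne_zero φ
  obtain ⟨n, hn⟩ := exists_valAdd_eq_zsmul A hA L hL (f φ) (fun g hg => hf.2 φ hφD g hg)
  have hdvd := dvd_mul_padicValRat_of_eq_d1 A hA H h b a ha
    (A.decompositionSubgroup ℚ ⊓ L.fixingSubgroup ⊓ (cycloField ℓ H).fixingSubgroup)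
    inf_le_right Z (fun g hg k hk => (valAdd_eq_zero_iff A _).mpr (hZ g hg k hk)) f
    (hf.mono inf_le_left) he φ hφD k hk0
    ⟨⟨Subgroup.pow_mem _ hφD k, hφk.1⟩, hφk.2⟩ n hn
  exact exists_mem_eq_zpow_of_dvd H h φ _ hφq _ hdvd

/-- **(T1)** At a prime `q ≠ ℓ`: if the carry cocycle of the rational number `b` is a coboundary
on `D_A` at some finite level, then `q ^ v_q(b) ∈ H`. -/
theorem inH_of_cobOn₂_carryCoc {q ℓ : ℕ} (hq : q.Prime) [Fact ℓ.Prime] (hqℓ : q ≠ ℓ)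
    (A : ValuationSubring Qb) (hA : A.LiesOverPrime q)
    (H : Subgroup (ZMod ℓ)ˣ) {m : ℕ} {σ : GQ} {e : GQ → ℕ}
    (h : CycData (⊤ : Subgroup GQ) (cycloField ℓ H).fixingSubgroup m σ e)
    (b : ℚ) (a : Additive Qbˣ) (ha : ((Additive.toMul a : Qbˣ) : Qb) = algebraMap ℚ Qb b)
    (F : IntermediateField ℚ Qb) [FiniteDimensional ℚ F]
    (hcob : CobOn₂ (A.decompositionSubgroup ℚ) (A.decompositionSubgroup ℚ ⊓ F.fixingSubgroup)
      (carryCoc m e a)) :
    ∃ u ∈ H, (u : ZMod ℓ) = (q : ZMod ℓ) ^ padicValRat q b := by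
  haveI : Fact q.Prime := ⟨hq⟩
  have haGQ : ∀ g ∈ (⊤ : Subgroup GQ), g • a = a := by
    intro g _
    apply Additive.toMul.injective
    apply Units.ext
    show g ((Additive.toMul a : Qbˣ) : Qb) = ((Additive.toMul a : Qbˣ) : Qb)
    rw [ha, AlgEquiv.commutes]
  haveI := normal_fixingSubgroup_cycloField ℓ H
  have hNorm : NormalIn (A.decompositionSubgroup ℚ ⊓ (cycloField ℓ H).fixingSubgroup)
      (A.decompositionSubgroup ℚ) :=
    ⟨inf_le_left, fun g hg n hn =>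
      ⟨Subgroup.mul_mem _ (Subgroup.mul_mem _ hg hn.1) (Subgroup.inv_mem _ hg),
        (NormalIn.of_normal (cycloField ℓ H).fixingSubgroup).conj g (Subgroup.mem_top g) n hn.2⟩⟩
  have hinfl : InflOn₂ (A.decompositionSubgroup ℚ)
      (A.decompositionSubgroup ℚ ⊓ (cycloField ℓ H).fixingSubgroup) (carryCoc m e a) :=
    ((h.inflOn₂_carryCoc haGQ).mono_left le_top).mono inf_le_right
  obtain ⟨f, hf, he⟩ := cobOn₂_of_cobOn₂_of_inflOn₂ hNorm
    (h90On_decomp A (cycloField ℓ H) F) hinfl hcob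
  obtain ⟨φ, hφD, hφq, -⟩ := exists_frobenius_cycloChar ℓ hq hqℓ A hA
  obtain ⟨n, hn⟩ := exists_valAdd_eq_zsmul A hA (cycloField ℓ H)
    (inertia_le_fixingSubgroup_cycloField ℓ H hq hqℓ A hA) ((-f) φ)
    (fun g hg => by
      show g • (-(f φ)) = -(f φ)
      rw [smul_neg, hf.2 φ hφD g hg])
  have hdvd := dvd_mul_padicValRat_of_eq_d1 A hA H h b a ha
    (A.decompositionSubgroup ℚ ⊓ (cycloField ℓ H).fixingSubgroup)
    inf_le_right 0 (fun g _ k _ => by simp) (-f) hf.neg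
    (fun g hg k hk => by
      rw [d1_neg, ← he g hg k hk]
      simp) φ hφD m (lt_trans Nat.zero_lt_one h.one_lt)
    ⟨Subgroup.pow_mem _ hφD m, h.pow_mem_N (Subgroup.mem_top φ)⟩ n hn
  exact exists_mem_eq_zpow_of_dvd H h φ _ hφq _ hdvd

end T12

namespace LocNorm

section Tame

/-- A finite product of elements `≡ 1` modulo the maximal ideal of `A` is `≡ 1`. -/
theorem prod_sub_one_mem_nonunits (A : ValuationSubring Qb) {ι : Type*} (s : Finset ι)
    (x : ι → Qb) (hx : ∀ i ∈ s, x i - 1 ∈ A.nonunits) : ∏ i ∈ s, x i - 1 ∈ A.nonunits := by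
  classical
  induction s using Finset.induction_on with
  | empty =>
    simp only [Finset.prod_empty, sub_self]
    rw [A.mem_nonunits_iff, map_zero]
    exact zero_lt_one
  | insert i s hi ih =>
    rw [Finset.prod_insert hi]
    have h1 := hx i (Finset.mem_insert_self i s)
    have h2 := ih fun j hj => hx j (Finset.mem_insert_of_mem hj)
    have hP : ∏ j ∈ s, x j ∈ A := by
      have e : ∏ j ∈ s, x j = (∏ j ∈ s, x j - 1) + 1 := by ring
      rw [e]
      exact add_mem (A.nonunits_le h2) (one_mem A)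
    have e : x i * ∏ j ∈ s, x j - 1 = (x i - 1) * ∏ j ∈ s, x j + (∏ j ∈ s, x j - 1) := by ring
    rw [e]
    exact A.nonunits.add_mem (Fermat.Agent.Lib.ValuationIntegral.mul_mem_nonunits A h1 hP) h2

/-- A rational number `≡ 1` modulo the maximal ideal of a place over `ℓ` has numerator and
denominator prime to `ℓ` and congruent modulo `ℓ`. -/
theorem rat_of_sub_one_mem_nonunits {ℓ : ℕ} (hℓ : ℓ.Prime) (A : ValuationSubring Qb)
    (hA : A.LiesOverPrime ℓ) (r : ℚ) (hr : algebraMap ℚ Qb r - 1 ∈ A.nonunits) :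
    ¬ (ℓ : ℤ) ∣ r.num ∧ ¬ (ℓ : ℤ) ∣ (r.den : ℤ) ∧ (r.num : ZMod ℓ) = ((r.den : ℤ) : ZMod ℓ) := by
  have hD0 : ((r.den : ℕ) : Qb) ≠ 0 := Nat.cast_ne_zero.mpr r.den_nz
  have hrc : algebraMap ℚ Qb r = (r.num : Qb) / (r.den : Qb) := by
    rw [eq_ratCast, Rat.cast_def]
  have hND : ((r.num : ℤ) : Qb) - ((r.den : ℕ) : Qb) = (algebraMap ℚ Qb r - 1) * (r.den : Qb) := by
    rw [hrc]
    field_simp
  have hdiff : ((r.num : ℤ) : Qb) - ((r.den : ℕ) : Qb) ∈ A.nonunits := by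
    rw [hND]
    exact Fermat.Agent.Lib.ValuationIntegral.mul_mem_nonunits A hr (natCast_mem A _)
  have key : ∀ c : ℤ, (c : Qb) ∈ A.nonunits → (ℓ : ℤ) ∣ c := by
    intro c hc
    by_contra hcon
    exact Fermat.Agent.Lib.ValuationIntegral.intCast_notMem_nonunits A hℓ hA hcon hc
  have hDℓ : ¬ (ℓ : ℤ) ∣ (r.den : ℤ) := by
    intro hdvd
    obtain ⟨D', hD'⟩ := hdvd
    have hDm : ((r.den : ℕ) : Qb) ∈ A.nonunits := by
      have e : ((r.den : ℕ) : Qb) = (ℓ : Qb) * (D' : Qb) := by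
        have := congrArg (Int.cast : ℤ → Qb) hD'
        push_cast at this
        exact this
      rw [e]
      exact Fermat.Agent.Lib.ValuationIntegral.mul_mem_nonunits A hA (intCast_mem A _)
    have hNm : ((r.num : ℤ) : Qb) ∈ A.nonunits := by
      have e : ((r.num : ℤ) : Qb) = (((r.num : ℤ) : Qb) - ((r.den : ℕ) : Qb)) + ((r.den : ℕ) : Qb) := by
        ring
      rw [e]
      exact A.nonunits.add_mem hdiff hDm
    have h1 : (ℓ : ℤ) ∣ r.num := key _ hNm
    have h2 : ℓ ∣ r.num.natAbs := Int.natCast_dvd.mp h1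
    have h3 : ℓ ∣ r.den := Int.natCast_dvd_natCast.mp ⟨D', hD'⟩
    have h4 := Nat.dvd_gcd h2 h3
    rw [r.reduced.gcd_eq_one] at h4
    exact hℓ.one_lt.ne' (Nat.dvd_one.mp h4)
  have hdvd : (ℓ : ℤ) ∣ r.num - (r.den : ℤ) := by
    apply key
    push_cast
    exact hdiff
  refine ⟨fun h => hDℓ ?_, hDℓ, ?_⟩
  · have := dvd_sub h hdvd
    rwa [sub_sub_cancel] at this
  · have h1 : ((r.num - (r.den : ℤ) : ℤ) : ZMod ℓ) = 0 :=
      (ZMod.intCast_zmod_eq_zero_iff_dvd _ _).mpr hdvd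
    rw [Int.cast_sub] at h1
    exact sub_eq_zero.mp h1

/-- `partialNm` in `ℚ̄`. -/
theorem toMul_partialNm (σ : GQ) (k : ℕ) (x : Additive Qbˣ) :
    ((Additive.toMul (partialNm σ k x) : Qbˣ) : Qb) =
      ∏ i ∈ Finset.range k, (σ ^ i) ((Additive.toMul x : Qbˣ) : Qb) := by
  unfold partialNm
  rw [toMul_sum, Units.coe_prod]
  rfl

/-- The degree of a cyclic datum for `cycloField ℓ H` is the index of `H`. -/
theorem cycData_eq_index {ℓ : ℕ} [Fact ℓ.Prime] (H : Subgroup (ZMod ℓ)ˣ) {m : ℕ} {σ : GQ}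
    {e : GQ → ℕ} (h : CycData (⊤ : Subgroup GQ) (cycloField ℓ H).fixingSubgroup m σ e)
    (hσ : Subgroup.zpowers (cycloChar ℓ σ) = ⊤) : m = H.index := by
  have hord : ∀ i : ℕ, σ ^ i ∈ (cycloField ℓ H).fixingSubgroup ↔ H.index ∣ i := by
    intro i
    rw [mem_fixingSubgroup_cycloField_iff, map_pow]
    exact pow_mem_iff_index_dvd H _ hσ i
  have h1 : H.index ∣ m := (hord m).mp h.pow_m_mem
  have h2 : m ∣ H.index := by
    have h3 := (hord H.index).mpr dvd_rfl
    have h4 := h.e_N _ h3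
    rw [h.e_pow] at h4
    exact Nat.dvd_of_mod_eq_zero h4
  exact Nat.dvd_antisymm h2 h1

/-- **(LN-ℓ)** A partial norm, along a generator `σ ∈ D_A`, of an element fixed by
`D_A ⊓ Gal(ℚ̄/E)` which is rational has the tame shape at `ℓ`. -/
theorem tame_of_prod_eq {ℓ : ℕ} [Fact ℓ.Prime] (hℓ2 : ℓ ≠ 2) (A : ValuationSubring Qb)
    (hA : A.LiesOverPrime ℓ) (H : Subgroup (ZMod ℓ)ˣ) (σ : GQ)
    (hσA : σ ∈ A.decompositionSubgroup ℚ) (hσ : Subgroup.zpowers (cycloChar ℓ σ) = ⊤)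
    (b : ℚ) (y : Qb) (hy0 : y ≠ 0)
    (hy : ∀ g ∈ A.decompositionSubgroup ℚ ⊓ (cycloField ℓ H).fixingSubgroup, g y = y)
    (hb : algebraMap ℚ Qb b = ∏ i ∈ Finset.range H.index, (σ ^ i) y) :
    ∃ (k m' n : ℤ), ¬ (ℓ : ℤ) ∣ m' ∧ ¬ (ℓ : ℤ) ∣ n ∧ b * n = (ℓ : ℚ) ^ k * m' ∧
      ∃ u ∈ H, (u : ZMod ℓ) * n = m' := by
  have hℓ : ℓ.Prime := Fact.out
  obtain ⟨w, hw, hw0, hle⟩ := Fermat.Agent.PT.Kummer.exists_mem_valuation_div_sub_one_le
    (cycloField ℓ H) hℓ A hA y hy0 hy 1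
  have hvℓ : A.valuation (ℓ : Qb) < 1 := A.mem_nonunits_iff.mp hA
  have hlt : A.valuation (y / w - 1) < 1 := lt_of_le_of_lt hle (by rwa [pow_one])
  obtain ⟨b', k, m', n, hb', hm', hn', hbmn, u, hu, hun⟩ :=
    cycloField_norm_tame hℓ2 H hw hw0 σ hσ
  have hb'0 : b' ≠ 0 := by
    rintro rfl
    rw [map_zero] at hb'
    have := Finset.prod_eq_zero_iff.mp hb'.symm
    obtain ⟨i, -, hi⟩ := this
    exact hw0 ((map_eq_zero_iff _ (σ ^ i).injective).mp hi)
  -- the ratio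
  set r : ℚ := b / b' with hr
  have hrQ : algebraMap ℚ Qb r = ∏ i ∈ Finset.range H.index, (σ ^ i) (y / w) := by
    rw [hr, map_div₀, hb, hb', ← Finset.prod_div_distrib]
    exact Finset.prod_congr rfl fun i _ => (map_div₀ _ _ _).symm
  have hr1 : algebraMap ℚ Qb r - 1 ∈ A.nonunits := by
    rw [hrQ]
    apply prod_sub_one_mem_nonunits
    intro i _
    rw [A.mem_nonunits_iff]
    have e : (σ ^ i) (y / w) - 1 = (σ ^ i) (y / w - 1) := by
      rw [map_sub, map_one]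
    rw [e, valuation_apply_eq_of_mem_decomp (Subgroup.pow_mem _ hσA i)]
    exact hlt
  obtain ⟨hN, hD, hND⟩ := rat_of_sub_one_mem_nonunits hℓ A hA r hr1
  have hℓZ : Prime (ℓ : ℤ) := Nat.prime_iff_prime_int.mp hℓ
  refine ⟨k, m' * r.num, n * (r.den : ℤ), ?_, ?_, ?_, u, hu, ?_⟩
  · intro hdvd
    rcases hℓZ.dvd_or_dvd hdvd with h1 | h1
    · exact hm' h1
    · exact hN h1
  · intro hdvd
    rcases hℓZ.dvd_or_dvd hdvd with h1 | h1
    · exact hn' h1
    · exact hD h1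
  · have hbr : b = b' * r := by
      rw [hr]
      field_simp
    have hrd : r * (r.den : ℚ) = (r.num : ℚ) := Rat.mul_den_eq_num r
    push_cast
    rw [hbr]
    linear_combination (r * (r.den : ℚ)) * hbmn + ((ℓ : ℚ) ^ k * m') * hrd
  · push_cast
    rw [← mul_assoc, hun, hND]
    push_cast
    ring

end Tame

end LocNorm

section T3

/-- **(T3)** At `ℓ`: if the carry cocycle of the rational number `b`, for a generator `σ ∈ D_A`
of `Gal(E/ℚ)`, is a coboundary on `D_A` at some finite level, then `b` has the tame shape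
consumed by `rat_reciprocity`. -/
theorem tame_of_cobOn₂_carryCoc {ℓ : ℕ} [Fact ℓ.Prime] (hℓ2 : ℓ ≠ 2)
    (A : ValuationSubring Qb) (hA : A.LiesOverPrime ℓ)
    (H : Subgroup (ZMod ℓ)ˣ) {m : ℕ} {σ : GQ} {e : GQ → ℕ}
    (h : CycData (⊤ : Subgroup GQ) (cycloField ℓ H).fixingSubgroup m σ e)
    (hσA : σ ∈ A.decompositionSubgroup ℚ) (hσ : Subgroup.zpowers (cycloChar ℓ σ) = ⊤)
    (b : ℚ) (a : Additive Qbˣ) (ha : ((Additive.toMul a : Qbˣ) : Qb) = algebraMap ℚ Qb b)
    (F : IntermediateField ℚ Qb) [FiniteDimensional ℚ F]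
    (hcob : CobOn₂ (A.decompositionSubgroup ℚ) (A.decompositionSubgroup ℚ ⊓ F.fixingSubgroup)
      (carryCoc m e a)) :
    ∃ (k m' n : ℤ), ¬ (ℓ : ℤ) ∣ m' ∧ ¬ (ℓ : ℤ) ∣ n ∧ b * n = (ℓ : ℚ) ^ k * m' ∧
      ∃ u ∈ H, (u : ZMod ℓ) * n = m' := by
  have haGQ : ∀ g ∈ (⊤ : Subgroup GQ), g • a = a := by
    intro g _
    apply Additive.toMul.injective
    apply Units.ext
    show g ((Additive.toMul a : Qbˣ) : Qb) = ((Additive.toMul a : Qbˣ) : Qb)
    rw [ha, AlgEquiv.commutes]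
  have hloc := h.restrict (A.decompositionSubgroup ℚ) le_top hσA
  have hinfl : InflOn₂ (A.decompositionSubgroup ℚ)
      (A.decompositionSubgroup ℚ ⊓ (cycloField ℓ H).fixingSubgroup) (carryCoc m e a) :=
    ((h.inflOn₂_carryCoc haGQ).mono_left le_top).mono inf_le_right
  obtain ⟨f, hf, he⟩ := cobOn₂_of_cobOn₂_of_inflOn₂ hloc.normal
    (h90On_decomp A (cycloField ℓ H) F) hinfl hcob
  obtain ⟨h1, h2⟩ := hloc.eq_Nm_of_carryCoc_eq_d1 hf he
  have hm : m = H.index := cycData_eq_index H h hσ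
  refine tame_of_prod_eq hℓ2 A hA H σ hσA hσ b ((Additive.toMul (f σ) : Qbˣ) : Qb)
    (Additive.toMul (f σ)).ne_zero (fun g hg => ?_) ?_
  · have := h2 g hg
    exact congrArg (fun t : Additive Qbˣ => ((Additive.toMul t : Qbˣ) : Qb)) this
  · rw [← ha, h1, toMul_partialNm, hm]

end T3

namespace LocNorm

section Norm

/-- The fixing subgroup of a normal extension is normal. -/
theorem normal_fixingSubgroup_of_normal (F : IntermediateField ℚ Qb) [Normal ℚ F] :
    F.fixingSubgroup.Normal := by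
  refine ⟨fun n hn g => ?_⟩
  rw [IntermediateField.mem_fixingSubgroup_iff] at hn ⊢
  intro z hz
  have h1 : g⁻¹ z ∈ F :=
    (IntermediateField.normal_iff_forall_map_le'.mp ‹Normal ℚ F›) g⁻¹ ⟨z, hz, rfl⟩
  show g (n (g⁻¹ z)) = z
  rw [hn _ h1]
  exact g.apply_symm_apply z

/-- `D_A ⊓ Gal(ℚ̄/F)` is normal in `D_A` for `F/ℚ` normal. -/
theorem normalIn_decomp_inf (A : ValuationSubring Qb) (F : IntermediateField ℚ Qb) [Normal ℚ F] :
    NormalIn (A.decompositionSubgroup ℚ ⊓ F.fixingSubgroup) (A.decompositionSubgroup ℚ) := by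
  haveI := normal_fixingSubgroup_of_normal F
  exact ⟨inf_le_left, fun g hg n hn =>
    ⟨Subgroup.mul_mem _ (Subgroup.mul_mem _ hg hn.1) (Subgroup.inv_mem _ hg),
      (NormalIn.of_normal F.fixingSubgroup).conj g (Subgroup.mem_top g) n hn.2⟩⟩

/-- **(NORM)** The unramified norm criterion in the vocabulary of `PT/Br`: for a cyclic datum of
`D_A` over `D_A ⊓ Gal(ℚ̄/F)`, `F` finite Galois and unramified at `A`, the carry cocycle of a
`D_A`-fixed `a` whose valuation is a multiple of the degree is a coboundary. -/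
theorem cobOn₂_carryCoc_of_valAdd {q : ℕ} [Fact q.Prime] (A : ValuationSubring Qb)
    (hA : A.LiesOverPrime q) (F : IntermediateField ℚ Qb) [FiniteDimensional ℚ F] [Normal ℚ F]
    (hF : A.inertiaSubgroupIn ℚ ≤ F.fixingSubgroup) {k : ℕ} {φ : GQ} {e' : GQ → ℕ}
    (hloc : CycData (A.decompositionSubgroup ℚ) (A.decompositionSubgroup ℚ ⊓ F.fixingSubgroup)
      k φ e')
    (a : Additive Qbˣ) (ha : ∀ g ∈ A.decompositionSubgroup ℚ, g • a = a) (c : ℤ)
    (hc : valAdd A a = ((k : ℤ) * c) • valAdd A (primeElt q)) :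
    CobOn₂ (A.decompositionSubgroup ℚ) (A.decompositionSubgroup ℚ ⊓ F.fixingSubgroup)
      (carryCoc k e' a) := by
  have hq : q.Prime := Fact.out
  have hk0 : 0 < k := lt_trans Nat.zero_lt_one hloc.one_lt
  have hbot : (⊥ : IntermediateField ℚ Qb).fixingSubgroup = ⊤ :=
    IntermediateField.fixingSubgroup_bot
  have hval : A.valuation ((Additive.toMul a : Qbˣ) : Qb) =
      A.valuation ((q : Qb) ^ ((k : ℤ) * c)) := by
    rw [← map_zsmul, valAdd_eq_iff] at hc
    rw [hc, toMul_zsmul, Units.val_zpow_eq_zpow_val]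
    rfl
  obtain ⟨y, hy0, hyfix, hprod⟩ :=
    Fermat.Agent.PT.Local.exists_prod_pow_eq_of_valuation_eq_zpow_rat hq A hA ⊥ F hF φ
      ⟨hloc.σ_mem, by rw [hbot]; trivial⟩ k hk0
      (fun g hg => ⟨e' g, (hloc.e_spec g hg.1).2⟩)
      (fun i => by
        constructor
        · intro hi
          have h1 := hloc.e_N _ ⟨Subgroup.pow_mem _ hloc.σ_mem i, hi⟩
          rw [hloc.e_pow] at h1
          exact Nat.dvd_of_mod_eq_zero h1
        · rintro ⟨t, rfl⟩
          rw [pow_mul]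
          exact (Subgroup.pow_mem _ hloc.pow_m_mem t).2)
      ((Additive.toMul a : Qbˣ) : Qb) (Additive.toMul a).ne_zero
      (fun g hg => by
        have := ha g hg.1
        exact congrArg (fun t : Additive Qbˣ => ((Additive.toMul t : Qbˣ) : Qb)) this)
      c hval
  set y' : Additive Qbˣ := Additive.ofMul (Units.mk0 y hy0) with hy'
  have hy'fix : ∀ n ∈ A.decompositionSubgroup ℚ ⊓ F.fixingSubgroup, n • y' = y' := by
    intro n hn
    apply Additive.toMul.injective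
    apply Units.ext
    exact hyfix n ⟨⟨hn.1, by rw [hbot]; trivial⟩, hn.2⟩
  have haN : a = partialNm φ k y' := by
    apply Additive.toMul.injective
    apply Units.ext
    rw [toMul_partialNm]
    exact hprod.symm
  rw [haN]
  exact hloc.cobOn₂_carryCoc_Nm hy'fix

end Norm

end LocNorm

section T45

/-- **(T5)** At a prime `q ≠ ℓ`: if the order of `q` in `(ℤ/ℓ)ˣ ⧸ H` divides `v_q(b)`, the carry
cocycle of the rational number `b` is a coboundary on `D_A` at the level of `E`. -/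
theorem cobOn₂_carryCoc_of_dvd {q ℓ : ℕ} (hq : q.Prime) [Fact ℓ.Prime] (hqℓ : q ≠ ℓ)
    (A : ValuationSubring Qb) (hA : A.LiesOverPrime q)
    (H : Subgroup (ZMod ℓ)ˣ) {m : ℕ} {σ : GQ} {e : GQ → ℕ}
    (h : CycData (⊤ : Subgroup GQ) (cycloField ℓ H).fixingSubgroup m σ e)
    (b : ℚ) (a : Additive Qbˣ) (ha : ((Additive.toMul a : Qbˣ) : Qb) = algebraMap ℚ Qb b)
    (u₀ : (ZMod ℓ)ˣ) (hu₀ : (u₀ : ZMod ℓ) = q)
    (hdvd : (orderOf (QuotientGroup.mk u₀ : (ZMod ℓ)ˣ ⧸ H) : ℤ) ∣ padicValRat q b) :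
    CobOn₂ (A.decompositionSubgroup ℚ)
      (A.decompositionSubgroup ℚ ⊓ (cycloField ℓ H).fixingSubgroup) (carryCoc m e a) := by
  haveI : Fact q.Prime := ⟨hq⟩
  have haGQ : ∀ g ∈ (⊤ : Subgroup GQ), g • a = a := by
    intro g _
    apply Additive.toMul.injective
    apply Units.ext
    show g ((Additive.toMul a : Qbˣ) : Qb) = ((Additive.toMul a : Qbˣ) : Qb)
    rw [ha, AlgEquiv.commutes]
  obtain ⟨φ, hφD, hφq, hφgen⟩ := exists_frobenius_cycloChar ℓ hq hqℓ A hA
  have hφu : cycloChar ℓ φ = u₀ := Units.ext (by rw [hφq, hu₀])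
  set k := orderOf (QuotientGroup.mk u₀ : (ZMod ℓ)ˣ ⧸ H) with hk
  have hk0 : 0 < k := orderOf_pos _
  have hgen : ∀ g ∈ A.decompositionSubgroup ℚ, ∃ i : ℕ,
      (φ ^ i)⁻¹ * g ∈ A.decompositionSubgroup ℚ ⊓ (cycloField ℓ H).fixingSubgroup := by
    intro g hg
    have h1 := hφgen g hg
    rw [← mem_powers_iff_mem_zpowers] at h1
    obtain ⟨i, hi⟩ := h1
    have hi' : cycloChar ℓ φ ^ i = cycloChar ℓ g := hi
    refine ⟨i, Subgroup.mul_mem _ (Subgroup.inv_mem _ (Subgroup.pow_mem _ hφD i)) hg, ?_⟩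
    show (φ ^ i)⁻¹ * g ∈ (cycloField ℓ H).fixingSubgroup
    rw [mem_fixingSubgroup_cycloField_iff, map_mul, map_inv, map_pow, hi', inv_mul_cancel]
    exact H.one_mem
  have hord : ∀ i : ℕ,
      φ ^ i ∈ A.decompositionSubgroup ℚ ⊓ (cycloField ℓ H).fixingSubgroup ↔ k ∣ i := by
    intro i
    rw [Subgroup.mem_inf, mem_fixingSubgroup_cycloField_iff, map_pow, hφu, hk,
      orderOf_dvd_iff_pow_eq_one, ← QuotientGroup.mk_pow, QuotientGroup.eq_one_iff]
    exact ⟨fun h => h.2, fun h => ⟨Subgroup.pow_mem _ hφD i, h⟩⟩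
  rcases Nat.lt_or_ge 1 k with hk1 | hk1
  · -- the local extension is non-trivial
    obtain ⟨e', hloc⟩ := CycData.exists_of_gen (normalIn_decomp_inf A (cycloField ℓ H)) hφD hk1
      hgen hord
    obtain ⟨j, hj, -, hsub⟩ := CarryRes.exists_cobOn₂_carryCoc_sub h le_top hloc haGQ
    obtain ⟨c, hc⟩ := hdvd
    have hnorm := cobOn₂_carryCoc_of_valAdd A hA (cycloField ℓ H)
      (inertia_le_fixingSubgroup_cycloField ℓ H hq hqℓ A hA) hloc (j • a)
      (fun g hg => by rw [smul_comm, haGQ g (Subgroup.mem_top g)]) ((j : ℤ) * c)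
      (by
        rw [map_nsmul, valAdd_of_rat A hA ha, hc, ← natCast_zsmul, smul_smul]
        congr 1
        ring)
    refine (hsub.add hnorm).congr fun g _ k' _ => ?_
    simp only [Pi.add_apply, Pi.sub_apply]
    abel
  · -- the place splits completely
    have hk1' : k = 1 := by omega
    have hφE : φ ∈ A.decompositionSubgroup ℚ ⊓ (cycloField ℓ H).fixingSubgroup := by
      have := (hord 1).mpr (by rw [hk1'])
      rwa [pow_one] at this
    have hDE : A.decompositionSubgroup ℚ ≤ (cycloField ℓ H).fixingSubgroup := by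
      intro g hg
      obtain ⟨i, hi⟩ := hgen g hg
      have e1 : g = φ ^ i * ((φ ^ i)⁻¹ * g) := by group
      rw [e1]
      exact Subgroup.mul_mem _ (Subgroup.pow_mem _ hφE.2 i) hi.2
    exact CarryRes.cobOn₂_carryCoc_of_le h hDE a _

/-- **(T4)** "Unramified implies locally trivial": a unit-valued 2-cocycle on `D_A` inflated from
a finite Galois level `F` unramified at `A` is a coboundary at the same level. -/
theorem cobOn₂_of_unramified {q : ℕ} (hq : q.Prime) (A : ValuationSubring Qb)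
    (hA : A.LiesOverPrime q) (F : IntermediateField ℚ Qb) [FiniteDimensional ℚ F] [Normal ℚ F]
    (hF : A.inertiaSubgroupIn ℚ ≤ F.fixingSubgroup)
    (Z : GQ × GQ → Additive Qbˣ) (hZ : CocOn₂ (A.decompositionSubgroup ℚ) Z)
    (hi : InflOn₂ (A.decompositionSubgroup ℚ) (A.decompositionSubgroup ℚ ⊓ F.fixingSubgroup) Z)
    (hu : ∀ g ∈ A.decompositionSubgroup ℚ, ∀ k ∈ A.decompositionSubgroup ℚ,
      A.valuation ((Additive.toMul (Z (g, k)) : Qbˣ) : Qb) = 1) :
    CobOn₂ (A.decompositionSubgroup ℚ) (A.decompositionSubgroup ℚ ⊓ F.fixingSubgroup) Z := by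
  haveI : Fact q.Prime := ⟨hq⟩
  obtain ⟨φ, hφ⟩ := exists_isFrobeniusAt_of_liesOverPrime hq A hA
  have hφD : φ ∈ A.decompositionSubgroup ℚ := hφ.mem_decompositionSubgroup
  haveI hFn := normal_fixingSubgroup_of_normal F
  have hFfi : F.fixingSubgroup.FiniteIndex := ⟨by
    rw [← IntermediateField.finrank_eq_fixingSubgroup_index]
    exact Module.finrank_pos.ne'⟩
  haveI : Finite (GQ ⧸ F.fixingSubgroup) := Subgroup.finite_quotient_of_finiteIndex
  set k := orderOf (QuotientGroup.mk φ : GQ ⧸ F.fixingSubgroup) with hk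
  have hk0 : 0 < k := orderOf_pos _
  have hgen : ∀ g ∈ A.decompositionSubgroup ℚ, ∃ i : ℕ,
      (φ ^ i)⁻¹ * g ∈ A.decompositionSubgroup ℚ ⊓ F.fixingSubgroup := by
    intro g hg
    obtain ⟨i, hi⟩ := exists_pow_inv_mul_mem_fixingSubgroup hq A hA hφ F hF hg
    exact ⟨i, Subgroup.mul_mem _ (Subgroup.inv_mem _ (Subgroup.pow_mem _ hφD i)) hg, hi⟩
  have hord : ∀ i : ℕ, φ ^ i ∈ A.decompositionSubgroup ℚ ⊓ F.fixingSubgroup ↔ k ∣ i := by
    intro i
    rw [Subgroup.mem_inf, hk, orderOf_dvd_iff_pow_eq_one, ← QuotientGroup.mk_pow,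
      QuotientGroup.eq_one_iff]
    exact ⟨fun h => h.2, fun h => ⟨Subgroup.pow_mem _ hφD i, h⟩⟩
  rcases Nat.lt_or_ge 1 k with hk1 | hk1
  · obtain ⟨e', hloc⟩ := CycData.exists_of_gen (normalIn_decomp_inf A F) hφD hk1 hgen hord
    obtain ⟨a, ha, hcob⟩ := hloc.exists_carryCoc_cohomologous hZ hi
    obtain ⟨f, hf, he⟩ := hcob
    obtain ⟨c, hc, hsum⟩ := exists_sum_sub_nsmul_eq_partialNm hloc le_rfl le_rfl hf he hφD
      hloc.pow_m_mem
    have hc1 : c = 1 := by
      rw [hloc.e_σ, mul_one] at hc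
      exact Nat.eq_of_mul_eq_mul_right hk0 (by rw [hc, one_mul])
    obtain ⟨n, hn⟩ := exists_valAdd_eq_zsmul A hA F hF (f φ) (fun g hg => hf.2 φ hφD g hg)
    have hva : valAdd A a = ((k : ℤ) * (-n)) • valAdd A (primeElt q) := by
      have h1 := congrArg (valAdd A) hsum
      rw [map_sub, map_sum, Finset.sum_eq_zero (fun i _ =>
        (valAdd_eq_zero_iff A _).mpr (hu _ (Subgroup.pow_mem _ hφD i) _ hφD)), hc1, one_smul,
        valAdd_partialNm hφD, hn, zero_sub] at h1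
      rw [mul_neg, neg_smul, ← smul_smul, natCast_zsmul, ← h1, neg_neg]
    have hnorm := cobOn₂_carryCoc_of_valAdd A hA F hF hloc a ha (-n) hva
    have hcob' : CobOn₂ (A.decompositionSubgroup ℚ)
        (A.decompositionSubgroup ℚ ⊓ F.fixingSubgroup) (Z - carryCoc k e' a) := ⟨f, hf, he⟩
    refine (hcob'.add hnorm).congr fun g _ k' _ => ?_
    simp only [Pi.add_apply, Pi.sub_apply]
    abel
  · -- `D_A ≤ Gal(ℚ̄/F)`: the cocycle is constant
    have hk1' : k = 1 := by omega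
    have hφF : φ ∈ A.decompositionSubgroup ℚ ⊓ F.fixingSubgroup := by
      have := (hord 1).mpr (by rw [hk1'])
      rwa [pow_one] at this
    have hDF : ∀ g ∈ A.decompositionSubgroup ℚ,
        g ∈ A.decompositionSubgroup ℚ ⊓ F.fixingSubgroup := by
      intro g hg
      obtain ⟨i, hi⟩ := hgen g hg
      have e1 : g = φ ^ i * ((φ ^ i)⁻¹ * g) := by group
      rw [e1]
      exact Subgroup.mul_mem _ (Subgroup.pow_mem _ hφF i) hi
    have h1 := (A.decompositionSubgroup ℚ).one_mem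
    refine ⟨fun _ => Z (1, 1), ⟨fun _ _ _ _ => rfl, fun g _ n hn => hi.2 1 h1 1 h1 n hn⟩,
      fun g hg k' hk' => ?_⟩
    have e1 : Z (g, k') = Z (1, 1) := by
      have := hi.1 1 h1 1 h1 g (hDF g hg) k' (hDF k' hk')
      rwa [one_mul, one_mul] at this
    rw [e1, d1_apply, hi.2 1 h1 1 h1 g (hDF g hg)]
    abel

end T45

end Fermat.Agent.PT.G
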