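import Mathlib
import Fermat.Agent.CFT.Recip.Defs
import Fermat.Agent.CFT.Recip.DivDefs

/-!
# PT, layer G: elementary cyclotomic reciprocity

`K` a number field, `ℓ` a prime.  For `x ∈ K^×` let

  `primeToNormProd ℓ x = ∏_{v ∤ ℓ} (N v) ^ (ord_v x)  ∈ (ℤ/ℓ)^×`

(the "Artin symbol" of the prime-to-`ℓ` part of the ideal `(x)` in the `ℓ`-th cyclotomic
extension: the Frobenius at `v ∤ ℓ` raises an `ℓ`-th root of unity to the power `N v`).

* `primeToNormProd_algebraMap`: for `0 ≠ c ∈ 𝓞 K` it is the prime-to-`ℓ` part of `|N_{K/ℚ}(c)|`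
  modulo `ℓ` (product formula);
* `primeToNormProd_norm`: `primeToNormProd_K (N_{L/K} y) = primeToNormProd_L y`;
* `primeToNormProd_sq_eq_one`: if `u ≡ 1` modulo `ℓ` at all primes above `ℓ` then
  `primeToNormProd ℓ u ^ 2 = 1`;
* `exists_aut_pow_absNorm`: for a Galois extension `Ω/L` containing an `ℓ`-th root of unity `ζ`
  and a prime `v ∤ ℓ` of `L` some `σ ∈ Gal(Ω/L)` has `σ ζ = ζ ^ (N v)`;
* `cyclo_reciprocity`: if `x = N_{L/K}(y) · u` with `u ≡ 1` modulo `ℓ` at all primes above `ℓ`,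
  then `ζ ↦ ζ ^ (primeToNormProd ℓ x ^ 2)` is induced by an element of `Gal(Ω/L)`.
-/

set_option autoImplicit false

open NumberField IsDedekindDomain

open scoped nonZeroDivisors

namespace Fermat.Agent.PT.G

open Fermat.Agent.CFT.Recip

variable (ℓ : ℕ) [Fact ℓ.Prime]

/-! ### The prime-to-`ℓ` part of a natural number modulo `ℓ` -/

/-- The prime-to-`ℓ` part of `n`, reduced modulo `ℓ`. -/
noncomputable def rho : ℕ →* ZMod ℓ where
  toFun n := ((n / ℓ ^ n.factorization ℓ : ℕ) : ZMod ℓ)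
  map_one' := by simp
  map_mul' a b := by
    rw [Nat.ordCompl_mul]
    push_cast
    rfl

theorem rho_apply (n : ℕ) : rho ℓ n = ((n / ℓ ^ n.factorization ℓ : ℕ) : ZMod ℓ) := rfl

theorem rho_ne_zero {n : ℕ} (hn : n ≠ 0) : rho ℓ n ≠ 0 := by
  have hℓ : ℓ.Prime := Fact.out
  rw [rho_apply, Ne, ZMod.natCast_eq_zero_iff]
  exact (Nat.Prime.coprime_iff_not_dvd hℓ).mp (Nat.coprime_ordCompl hℓ hn)

theorem rho_of_not_dvd {n : ℕ} (h : ¬ ℓ ∣ n) : rho ℓ n = (n : ZMod ℓ) := by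
  rw [rho_apply, Nat.factorization_eq_zero_of_not_dvd h, pow_zero, Nat.div_one]

theorem rho_self_pow (k : ℕ) : rho ℓ (ℓ ^ k) = 1 := by
  have hℓ : ℓ.Prime := Fact.out
  rw [rho_apply, Nat.ordCompl_self_pow hℓ, Nat.cast_one]

/-! ### The prime-to-`ℓ` norm product -/

section Prod

variable {K : Type*} [Field K] [NumberField K]

/-- The local factor at `v`: `N v` modulo `ℓ` for `v ∤ ℓ`, and `1` for `v ∣ ℓ`. -/
noncomputable def locFactor (v : HeightOneSpectrum (𝓞 K)) : ZMod ℓ :=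
  rho ℓ (Ideal.absNorm v.asIdeal)

theorem locFactor_ne_zero (v : HeightOneSpectrum (𝓞 K)) : locFactor ℓ v ≠ 0 := by
  apply rho_ne_zero
  rw [Ne, Ideal.absNorm_eq_zero_iff]
  exact v.ne_bot

/-- `∏_{v ∤ ℓ} (N v) ^ (ord_v x)` in `ℤ/ℓ`. -/
noncomputable def primeToNormProd (x : K) : ZMod ℓ :=
  ∏ᶠ v : HeightOneSpectrum (𝓞 K), locFactor ℓ v ^ (ord v x)

theorem hasFiniteMulSupport_locFactor (x : K) :
    Function.HasFiniteMulSupport
      (fun v : HeightOneSpectrum (𝓞 K) => locFactor ℓ v ^ (ord v x)) := by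
  refine (ord_finite_support x).subset (fun v hv => ?_)
  rw [Function.mem_mulSupport] at hv
  intro h0
  apply hv
  show locFactor ℓ v ^ ord v x = 1
  rw [h0, zpow_zero]

theorem primeToNormProd_one : primeToNormProd ℓ (1 : K) = 1 := by
  unfold primeToNormProd
  simp [ord_one]

theorem primeToNormProd_mul {x y : K} (hx : x ≠ 0) (hy : y ≠ 0) :
    primeToNormProd ℓ (x * y) = primeToNormProd ℓ x * primeToNormProd ℓ y := by
  unfold primeToNormProd
  rw [← finprod_mul_distrib (hasFiniteMulSupport_locFactor ℓ x)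
    (hasFiniteMulSupport_locFactor ℓ y)]
  refine finprod_congr (fun v => ?_)
  rw [ord_mul v hx hy, zpow_add₀ (locFactor_ne_zero ℓ v)]

theorem primeToNormProd_ne_zero (x : K) : primeToNormProd ℓ x ≠ 0 := by
  unfold primeToNormProd
  refine finprod_induction (fun a : ZMod ℓ => a ≠ 0) one_ne_zero
    (fun a b ha hb => mul_ne_zero ha hb) (fun v => zpow_ne_zero _ (locFactor_ne_zero ℓ v))

theorem primeToNormProd_div {x y : K} (hx : x ≠ 0) (hy : y ≠ 0) :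
    primeToNormProd ℓ (x / y) = primeToNormProd ℓ x / primeToNormProd ℓ y := by
  have h := primeToNormProd_mul ℓ (div_ne_zero hx hy) hy
  rw [div_mul_cancel₀ x hy] at h
  rw [h, mul_div_cancel_right₀ _ (primeToNormProd_ne_zero ℓ y)]

/-- `ord_v` of an integer is the multiplicity of `v` in the ideal it generates. -/
theorem ord_algebraMap_eq_count (v : HeightOneSpectrum (𝓞 K)) {c : 𝓞 K} (hc : c ≠ 0) :
    ord v (algebraMap (𝓞 K) K c) =
      ((Associates.mk v.asIdeal).count (Associates.mk (Ideal.span {c})).factors : ℤ) := by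
  have hJ : (Ideal.span {c} : Ideal (𝓞 K)) ≠ 0 := by
    rw [Ne, Ideal.zero_eq_bot, Ideal.span_singleton_eq_bot]
    exact hc
  unfold ord
  rw [← FractionalIdeal.coeIdeal_span_singleton, FractionalIdeal.count_coe K v hJ]

/-- **Product formula.** For a nonzero integer `c` of `K`, `∏_{v ∤ ℓ} (N v) ^ (ord_v c)` is the
prime-to-`ℓ` part of the absolute norm of `(c)`, modulo `ℓ`. -/
theorem primeToNormProd_algebraMap {c : 𝓞 K} (hc : c ≠ 0) :
    primeToNormProd ℓ (algebraMap (𝓞 K) K c) = rho ℓ (Ideal.absNorm (Ideal.span {c})) := by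
  have hJ : (Ideal.span {c} : Ideal (𝓞 K)) ≠ 0 := by
    rw [Ne, Ideal.zero_eq_bot, Ideal.span_singleton_eq_bot]
    exact hc
  have h1 := Ideal.finprod_heightOneSpectrum_factorization hJ
  have h2 := MonoidHom.map_finprod ((rho ℓ).comp (Ideal.absNorm (S := 𝓞 K)).toMonoidHom)
    (Ideal.hasFiniteMulSupport hJ)
  rw [h1] at h2
  show _ = ((rho ℓ).comp (Ideal.absNorm (S := 𝓞 K)).toMonoidHom) (Ideal.span {c})
  rw [h2]
  unfold primeToNormProd
  refine finprod_congr (fun v => ?_)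
  rw [ord_algebraMap_eq_count v hc, zpow_natCast]
  show rho ℓ (Ideal.absNorm v.asIdeal) ^ _ = rho ℓ (Ideal.absNorm (v.maxPowDividing _))
  rw [HeightOneSpectrum.maxPowDividing, map_pow, map_pow]

end Prod

/-! ### The local factors -/

section Local

variable {K : Type*} [Field K] [NumberField K]

/-- The absolute norm of a prime is a power of its residue characteristic. -/
theorem absNorm_eq_prime_pow (v : HeightOneSpectrum (𝓞 K)) :
    ∃ q f : ℕ, q.Prime ∧ Ideal.absNorm v.asIdeal = q ^ f ∧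
      ((ℓ : 𝓞 K) ∈ v.asIdeal ↔ q = ℓ) := by
  have hℓ : ℓ.Prime := Fact.out
  haveI : NeZero v.asIdeal := ⟨v.ne_bot⟩
  have hq := Nat.absNorm_under_prime v.asIdeal
  refine ⟨_, _, hq, Ideal.absNorm_eq_pow_inertiaDeg' v.asIdeal hq, ?_⟩
  have h := Int.cast_mem_ideal_iff (I := v.asIdeal) (d := (ℓ : ℤ))
  rw [Int.cast_natCast, Int.natCast_dvd_natCast] at h
  rw [h, Nat.prime_dvd_prime_iff_eq hq hℓ]

theorem locFactor_of_mem {v : HeightOneSpectrum (𝓞 K)} (h : (ℓ : 𝓞 K) ∈ v.asIdeal) :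
    locFactor ℓ v = 1 := by
  obtain ⟨q, f, -, hN, hiff⟩ := absNorm_eq_prime_pow ℓ v
  rw [locFactor, hN, hiff.mp h, rho_self_pow]

theorem not_dvd_absNorm_of_notMem {v : HeightOneSpectrum (𝓞 K)} (h : (ℓ : 𝓞 K) ∉ v.asIdeal) :
    ¬ ℓ ∣ Ideal.absNorm v.asIdeal := by
  have hℓ : ℓ.Prime := Fact.out
  obtain ⟨q, f, hq, hN, hiff⟩ := absNorm_eq_prime_pow ℓ v
  rw [hN]
  intro hdvd
  exact h (hiff.mpr ((Nat.prime_dvd_prime_iff_eq hℓ hq).mp (hℓ.dvd_of_dvd_pow hdvd)).symm)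

theorem locFactor_of_notMem {v : HeightOneSpectrum (𝓞 K)} (h : (ℓ : 𝓞 K) ∉ v.asIdeal) :
    locFactor ℓ v = (Ideal.absNorm v.asIdeal : ZMod ℓ) :=
  rho_of_not_dvd ℓ (not_dvd_absNorm_of_notMem ℓ h)

open Classical in
/-- `primeToNormProd` in explicit form. -/
theorem primeToNormProd_eq (x : K) :
    primeToNormProd ℓ x = ∏ᶠ v : HeightOneSpectrum (𝓞 K),
      if (ℓ : 𝓞 K) ∈ v.asIdeal then (1 : ZMod ℓ)
      else (Ideal.absNorm v.asIdeal : ZMod ℓ) ^ (ord v x) := by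
  unfold primeToNormProd
  refine finprod_congr (fun v => ?_)
  split_ifs with h
  · rw [locFactor_of_mem ℓ h, one_zpow]
  · rw [locFactor_of_notMem ℓ h]

end Local

/-! ### Norms of integers modulo `ℓ` -/

section Norm

variable {K : Type*} [Field K] [NumberField K]

/-- `N(x + ℓ y) ≡ N(x)` modulo `ℓ`. -/
theorem norm_add_mul_cast (x y : 𝓞 K) :
    ((Algebra.norm ℤ (x + (ℓ : 𝓞 K) * y) : ℤ) : ZMod ℓ) = ((Algebra.norm ℤ x : ℤ) : ZMod ℓ) := by
  classical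
  have h1 : ∀ M : Matrix (Module.Free.ChooseBasisIndex ℤ (𝓞 K))
      (Module.Free.ChooseBasisIndex ℤ (𝓞 K)) ℤ,
      ((M.det : ℤ) : ZMod ℓ) = ((Int.castRingHom (ZMod ℓ)).mapMatrix M).det :=
    fun M => RingHom.map_det (Int.castRingHom (ZMod ℓ)) M
  rw [Algebra.norm_eq_matrix_det (RingOfIntegers.basis K),
    Algebra.norm_eq_matrix_det (RingOfIntegers.basis K), h1, h1]
  congr 1
  rw [map_add, map_mul, map_natCast, map_add, map_mul, map_natCast]
  have h0 : ((ℓ : ℕ) : Matrix (Module.Free.ChooseBasisIndex ℤ (𝓞 K))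
      (Module.Free.ChooseBasisIndex ℤ (𝓞 K)) (ZMod ℓ)) = 0 := by
    ext i j
    rw [Matrix.natCast_apply]
    simp
  rw [h0, zero_mul, add_zero]

/-- An integer of `K` outside all primes above `ℓ` has norm prime to `ℓ`. -/
theorem norm_cast_ne_zero {b : 𝓞 K}
    (hb : ∀ v : HeightOneSpectrum (𝓞 K), (ℓ : 𝓞 K) ∈ v.asIdeal → b ∉ v.asIdeal) :
    ((Algebra.norm ℤ b : ℤ) : ZMod ℓ) ≠ 0 := by
  have hℓ : ℓ.Prime := Fact.out
  have htop : Ideal.span {b} ⊔ Ideal.span {(ℓ : 𝓞 K)} = ⊤ := by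
    by_contra hne
    obtain ⟨M, hM, hle⟩ := Ideal.exists_le_maximal _ hne
    have hℓM : (ℓ : 𝓞 K) ∈ M := hle (Ideal.mem_sup_right (Ideal.mem_span_singleton_self _))
    have hbM : b ∈ M := hle (Ideal.mem_sup_left (Ideal.mem_span_singleton_self _))
    have hM0 : M ≠ ⊥ := by
      rintro rfl
      rw [Ideal.mem_bot] at hℓM
      exact (Nat.cast_ne_zero.mpr hℓ.ne_zero) hℓM
    exact hb ⟨M, hM.isPrime, hM0⟩ hℓM hbM
  obtain ⟨b', r, h⟩ : ∃ b' r : 𝓞 K, b * b' + (ℓ : 𝓞 K) * r = 1 := by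
    have h1 : (1 : 𝓞 K) ∈ Ideal.span {b} ⊔ Ideal.span {(ℓ : 𝓞 K)} := by
      rw [htop]
      trivial
    obtain ⟨x, hx, y, hy, hxy⟩ := Submodule.mem_sup.mp h1
    obtain ⟨b', rfl⟩ := Ideal.mem_span_singleton'.mp hx
    obtain ⟨r, rfl⟩ := Ideal.mem_span_singleton'.mp hy
    exact ⟨b', r, by rw [← hxy]; ring⟩
  intro h0
  have h2 := norm_add_mul_cast ℓ (b * b') r
  rw [h, map_one, map_mul] at h2
  push_cast at h2
  rw [h0, zero_mul] at h2
  exact one_ne_zero h2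

/-- For an integer `b` outside all primes above `ℓ`: `primeToNormProd ℓ b ^ 2 = N(b) ^ 2`. -/
theorem primeToNormProd_algebraMap_sq {b : 𝓞 K}
    (hb : ∀ v : HeightOneSpectrum (𝓞 K), (ℓ : 𝓞 K) ∈ v.asIdeal → b ∉ v.asIdeal) :
    primeToNormProd ℓ (algebraMap (𝓞 K) K b) ^ 2 = ((Algebra.norm ℤ b : ℤ) : ZMod ℓ) ^ 2 := by
  have hN := norm_cast_ne_zero ℓ hb
  have hb0 : b ≠ 0 := by
    rintro rfl
    apply hN
    rw [Algebra.norm_zero, Int.cast_zero]
  rw [primeToNormProd_algebraMap ℓ hb0, Ideal.absNorm_span_singleton]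
  have hnd : ¬ ℓ ∣ (Algebra.norm ℤ b).natAbs := by
    intro hdvd
    apply hN
    rw [ZMod.intCast_zmod_eq_zero_iff_dvd]
    exact Int.natCast_dvd.mpr hdvd
  rw [rho_of_not_dvd ℓ hnd]
  have h3 : (((Algebra.norm ℤ b).natAbs : ℕ) : ℤ) ^ 2 = (Algebra.norm ℤ b) ^ 2 :=
    Int.natAbs_sq (Algebra.norm ℤ b)
  rw [← Int.cast_natCast, ← Int.cast_pow, h3, Int.cast_pow]

/-- **Congruence.** If `u ≡ 1` modulo `ℓ` at all primes above `ℓ`, then
`primeToNormProd ℓ u ^ 2 = 1`. -/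
theorem primeToNormProd_sq_eq_one {u : K} (hu0 : u ≠ 0)
    (hu : ∀ v : HeightOneSpectrum (𝓞 K), (ℓ : 𝓞 K) ∈ v.asIdeal →
      v.valuation K (u - 1) ≤ v.valuation K (ℓ : K)) :
    primeToNormProd ℓ u ^ 2 = 1 := by
  classical
  have hℓ : ℓ.Prime := Fact.out
  have hℓK : (ℓ : K) ≠ 0 := Nat.cast_ne_zero.mpr hℓ.ne_zero
  have hℓO : (ℓ : 𝓞 K) ≠ 0 := Nat.cast_ne_zero.mpr hℓ.ne_zero
  set t : K := (u - 1) / ℓ with ht
  have htv : ∀ v : HeightOneSpectrum (𝓞 K), (ℓ : 𝓞 K) ∈ v.asIdeal → v.valuation K t ≤ 1 := by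
    intro v hv
    rw [ht, map_div₀]
    exact (div_le_one₀ (zero_lt_iff.mpr ((Valuation.ne_zero_iff _).mpr hℓK))).mpr (hu v hv)
  -- the ideal of denominators of `t`
  let D : Ideal (𝓞 K) :=
    { carrier := {b | ∃ a : 𝓞 K, t * algebraMap (𝓞 K) K b = algebraMap (𝓞 K) K a}
      add_mem' := by
        rintro b b' ⟨a, ha⟩ ⟨a', ha'⟩
        exact ⟨a + a', by rw [map_add, map_add, mul_add, ha, ha']⟩
      zero_mem' := ⟨0, by simp⟩
      smul_mem' := by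
        rintro r b ⟨a, ha⟩
        refine ⟨r * a, ?_⟩
        rw [smul_eq_mul, map_mul, map_mul, ← ha]
        ring }
  have hfin : {v : HeightOneSpectrum (𝓞 K) | (ℓ : 𝓞 K) ∈ v.asIdeal}.Finite := by
    have hI : (Ideal.span {(ℓ : 𝓞 K)} : Ideal (𝓞 K)) ≠ 0 := by
      rw [Ne, Ideal.zero_eq_bot, Ideal.span_singleton_eq_bot]
      exact hℓO
    refine (Ideal.finite_factors hI).subset (fun v hv => ?_)
    exact Ideal.dvd_span_singleton.mpr hv
  -- a denominator outside all primes above `ℓ`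
  obtain ⟨b, ⟨a, hab⟩, hb0, hbv⟩ : ∃ b ∈ D, b ≠ 0 ∧ ∀ v : HeightOneSpectrum (𝓞 K),
      (ℓ : 𝓞 K) ∈ v.asIdeal → b ∉ v.asIdeal := by
    by_cases hne : hfin.toFinset.Nonempty
    · obtain ⟨v₀, hv₀⟩ := hne
      have hnot : ¬ ((D : Set (𝓞 K)) ⊆ ⋃ v ∈ (hfin.toFinset : Set (HeightOneSpectrum (𝓞 K))),
          (v.asIdeal : Set (𝓞 K))) := by
        rw [Ideal.subset_union_prime v₀ v₀ (fun v _ _ _ => v.isPrime)]
        rintro ⟨v, hv, hle⟩
        have hv' : (ℓ : 𝓞 K) ∈ v.asIdeal := by simpa using hv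
        obtain ⟨n, d, hnd⟩ := v.exists_primeCompl_mul_eq_of_integer t (htv v hv')
        exact d.2 (hle ⟨n, hnd⟩)
      rw [Set.not_subset] at hnot
      obtain ⟨b, hbD, hbU⟩ := hnot
      have hbv : ∀ v : HeightOneSpectrum (𝓞 K), (ℓ : 𝓞 K) ∈ v.asIdeal → b ∉ v.asIdeal := by
        intro v hv hbv
        apply hbU
        simp only [Set.mem_iUnion, Set.Finite.mem_toFinset, Set.mem_ofPred_eq,
          SetLike.mem_coe, exists_prop]
        exact ⟨v, hv, hbv⟩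
      refine ⟨b, hbD, ?_, hbv⟩
      rintro rfl
      have hv₀' : (ℓ : 𝓞 K) ∈ v₀.asIdeal := by simpa using hv₀
      exact hbv v₀ hv₀' (Ideal.zero_mem _)
    · obtain ⟨a₀, s₀, hs₀, hts⟩ := IsFractionRing.div_surjective (A := 𝓞 K) t
      have hs0 : s₀ ≠ 0 := nonZeroDivisors.ne_zero hs₀
      have hs' : algebraMap (𝓞 K) K s₀ ≠ 0 := by
        simpa using (IsFractionRing.injective (𝓞 K) K).ne hs0
      refine ⟨s₀, ⟨a₀, ?_⟩, hs0, fun v hv => ?_⟩
      · rw [← hts, div_mul_cancel₀ _ hs']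
      · exfalso
        apply hne
        exact ⟨v, by simpa using hv⟩
  have hb' : algebraMap (𝓞 K) K b ≠ 0 := by
    simpa using (IsFractionRing.injective (𝓞 K) K).ne hb0
  -- `u = c / b` with `c = b + ℓ a`
  set c : 𝓞 K := b + (ℓ : 𝓞 K) * a with hc
  have hub : u * algebraMap (𝓞 K) K b = algebraMap (𝓞 K) K c := by
    have h1 : u = 1 + (ℓ : K) * t := by
      rw [ht]
      field_simp
      ring
    rw [hc, map_add, map_mul, map_natCast, ← hab, h1]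
    ring
  have hc' : algebraMap (𝓞 K) K c ≠ 0 := by
    rw [← hub]
    exact mul_ne_zero hu0 hb'
  have hcv : ∀ v : HeightOneSpectrum (𝓞 K), (ℓ : 𝓞 K) ∈ v.asIdeal → c ∉ v.asIdeal := by
    intro v hv hcv
    apply hbv v hv
    have : b = c - (ℓ : 𝓞 K) * a := by rw [hc]; ring
    rw [this]
    exact Ideal.sub_mem _ hcv (Ideal.mul_mem_right _ _ hv)
  have hu_eq : u = algebraMap (𝓞 K) K c / algebraMap (𝓞 K) K b := by
    rw [← hub, mul_div_cancel_right₀ _ hb']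
  rw [hu_eq, primeToNormProd_div ℓ hc' hb', div_pow, primeToNormProd_algebraMap_sq ℓ hcv,
    primeToNormProd_algebraMap_sq ℓ hbv, hc, norm_add_mul_cast]
  exact div_self (pow_ne_zero 2 (norm_cast_ne_zero ℓ hbv))

end Norm

/-! ### Compatibility with relative norms -/

section Tower

variable {K L : Type*} [Field K] [NumberField K] [Field L] [NumberField L] [Algebra K L]

theorem absNorm_span_norm (c : 𝓞 L) :
    Ideal.absNorm (Ideal.span {RingOfIntegers.norm K c}) = Ideal.absNorm (Ideal.span {c}) := by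
  rw [Ideal.absNorm_span_singleton, Ideal.absNorm_span_singleton]
  congr 1
  have h : ((Algebra.norm ℤ (RingOfIntegers.norm K c) : ℤ) : ℚ) = ((Algebra.norm ℤ c : ℤ) : ℚ) := by
    rw [Algebra.coe_norm_int, Algebra.coe_norm_int, RingOfIntegers.coe_norm, Algebra.norm_norm]
  exact_mod_cast h

/-- **Norm compatibility.** `primeToNormProd_K (N_{L/K} y) = primeToNormProd_L y`. -/
theorem primeToNormProd_norm {y : L} (hy : y ≠ 0) :
    primeToNormProd ℓ (Algebra.norm K y) = primeToNormProd ℓ y := by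
  obtain ⟨c, b, hb, rfl⟩ := IsFractionRing.div_surjective (A := 𝓞 L) y
  have hb0 : b ≠ 0 := nonZeroDivisors.ne_zero hb
  have hb' : algebraMap (𝓞 L) L b ≠ 0 := by
    simpa using (IsFractionRing.injective (𝓞 L) L).ne hb0
  have hc' : algebraMap (𝓞 L) L c ≠ 0 := by
    intro h
    apply hy
    rw [h, zero_div]
  have hc0 : c ≠ 0 := by
    rintro rfl
    exact hc' (map_zero _)
  have hNc : Algebra.norm K (algebraMap (𝓞 L) L c)
      = algebraMap (𝓞 K) K (RingOfIntegers.norm K c) := rfl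
  have hNb : Algebra.norm K (algebraMap (𝓞 L) L b)
      = algebraMap (𝓞 K) K (RingOfIntegers.norm K b) := rfl
  have hnc' : algebraMap (𝓞 K) K (RingOfIntegers.norm K c) ≠ 0 := by
    rw [← hNc]
    exact Algebra.norm_ne_zero_iff.mpr hc'
  have hnb' : algebraMap (𝓞 K) K (RingOfIntegers.norm K b) ≠ 0 := by
    rw [← hNb]
    exact Algebra.norm_ne_zero_iff.mpr hb'
  have hnc0 : RingOfIntegers.norm K c ≠ 0 := by
    intro h0
    exact hnc' (by rw [h0, map_zero])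
  have hnb0 : RingOfIntegers.norm K b ≠ 0 := by
    intro h0
    exact hnb' (by rw [h0, map_zero])
  have hdiv : Algebra.norm K (algebraMap (𝓞 L) L c / algebraMap (𝓞 L) L b)
      = algebraMap (𝓞 K) K (RingOfIntegers.norm K c)
        / algebraMap (𝓞 K) K (RingOfIntegers.norm K b) := by
    rw [eq_div_iff hnb', ← hNb, ← map_mul, div_mul_cancel₀ _ hb', hNc]
  rw [hdiv, primeToNormProd_div ℓ hnc' hnb', primeToNormProd_algebraMap ℓ hnc0,
    primeToNormProd_algebraMap ℓ hnb0, absNorm_span_norm, absNorm_span_norm,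
    primeToNormProd_div ℓ hc' hb', primeToNormProd_algebraMap ℓ hc0,
    primeToNormProd_algebraMap ℓ hb0]

end Tower

/-! ### Frobenius elements and roots of unity -/

section Frob

variable (L : Type*) {Ω : Type*} [Field L] [NumberField L] [Field Ω] [NumberField Ω] [Algebra L Ω]
  [IsGalois L Ω]

/-- **Frobenius.** For a prime `v ∤ ℓ` of `L` and an `ℓ`-th root of unity `ζ` in a Galois
extension `Ω` of `L`, some element of `Gal(Ω/L)` raises `ζ` to the power `N v`. -/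
theorem exists_aut_pow_absNorm {ζ : Ω} (hζ : ζ ^ ℓ = 1) (v : HeightOneSpectrum (𝓞 L))
    (hv : (ℓ : 𝓞 L) ∉ v.asIdeal) :
    ∃ σ : Ω ≃ₐ[L] Ω, σ ζ = ζ ^ (Ideal.absNorm v.asIdeal) := by
  have hℓ : ℓ.Prime := Fact.out
  have hint : IsIntegral ℤ ζ :=
    ⟨Polynomial.X ^ ℓ - 1, Polynomial.monic_X_pow_sub_C 1 hℓ.ne_zero, by simp [hζ]⟩
  let ζ' : 𝓞 Ω := ⟨ζ, hint⟩
  obtain ⟨⟨P, hP, hPv⟩⟩ : Nonempty (v.asIdeal.primesOver (𝓞 Ω)) := inferInstance
  have hPne : P ≠ ⊥ := Ideal.ne_bot_of_liesOver_of_ne_bot v.ne_bot P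
  have : Finite (𝓞 Ω ⧸ P) := Ideal.finiteQuotientOfFreeOfNeBot P hPne
  obtain ⟨σ, hσ⟩ := IsArithFrobAt.exists_of_isInvariant (𝓞 L) (Ω ≃ₐ[L] Ω) P
  refine ⟨σ, ?_⟩
  have hℓP : ((ℓ : ℕ) : 𝓞 Ω) ∉ P := by
    intro h
    apply hv
    have h' : (ℓ : 𝓞 L) ∈ P.under (𝓞 L) := by
      rw [Ideal.under_def, Ideal.mem_comap, map_natCast]
      exact h
    rwa [← hPv.over] at h'
  have hζ' : ζ' ^ ℓ = 1 := by
    apply RingOfIntegers.ext
    exact hζ
  have h1 := hσ.apply_of_pow_eq_one hζ' hℓP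
  have h2 : Nat.card (𝓞 L ⧸ P.under (𝓞 L)) = Ideal.absNorm v.asIdeal := by
    rw [← hPv.over, Ideal.absNorm_apply, Submodule.cardQuot_apply]
  rw [h2] at h1
  have h3 := congrArg (fun z : 𝓞 Ω => (z : Ω)) h1
  exact h3

/-- `ζ ↦ ζ ^ a` (`a ∈ ℤ/ℓ`) is induced by an element of `Gal(Ω/L)`. -/
def IsCycloExp (ζ : Ω) (a : ZMod ℓ) : Prop :=
  ∃ (σ : Ω ≃ₐ[L] Ω) (m : ℕ), σ ζ = ζ ^ m ∧ (m : ZMod ℓ) = a

variable {L}

theorem isCycloExp_one (ζ : Ω) : IsCycloExp ℓ L ζ 1 :=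
  ⟨1, 1, by simp, by simp⟩

theorem IsCycloExp.mul {ζ : Ω} {a b : ZMod ℓ} (ha : IsCycloExp ℓ L ζ a)
    (hb : IsCycloExp ℓ L ζ b) : IsCycloExp ℓ L ζ (a * b) := by
  obtain ⟨σ, m, hσ, rfl⟩ := ha
  obtain ⟨τ, n, hτ, rfl⟩ := hb
  refine ⟨σ * τ, m * n, ?_, by push_cast; rfl⟩
  rw [AlgEquiv.mul_apply, hτ, map_pow, hσ, ← pow_mul]

theorem IsCycloExp.pow {ζ : Ω} {a : ZMod ℓ} (ha : IsCycloExp ℓ L ζ a) (n : ℕ) :
    IsCycloExp ℓ L ζ (a ^ n) := by
  induction n with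
  | zero => rw [pow_zero]; exact isCycloExp_one ℓ ζ
  | succ n ih => rw [pow_succ]; exact ih.mul ℓ ha

theorem IsCycloExp.inv {ζ : Ω} {a : ZMod ℓ} (ha : IsCycloExp ℓ L ζ a) (ha0 : a ≠ 0) :
    IsCycloExp ℓ L ζ a⁻¹ := by
  have hℓ : ℓ.Prime := Fact.out
  have h1 : a⁻¹ = a ^ (ℓ - 2) := by
    apply inv_eq_of_mul_eq_one_right
    rw [← pow_succ']
    have : ℓ - 2 + 1 = ℓ - 1 := by
      have := hℓ.two_le
      omega
    rw [this]
    exact ZMod.pow_card_sub_one_eq_one ha0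
  rw [h1]
  exact ha.pow ℓ _

theorem IsCycloExp.zpow {ζ : Ω} {a : ZMod ℓ} (ha : IsCycloExp ℓ L ζ a) (ha0 : a ≠ 0) (n : ℤ) :
    IsCycloExp ℓ L ζ (a ^ n) := by
  rcases n with n | n
  · rw [Int.ofNat_eq_natCast, zpow_natCast]
    exact ha.pow ℓ n
  · rw [zpow_negSucc, ← inv_pow]
    exact (ha.inv ℓ ha0).pow ℓ _

theorem isCycloExp_locFactor {ζ : Ω} (hζ : ζ ^ ℓ = 1) (v : HeightOneSpectrum (𝓞 L)) :
    IsCycloExp ℓ L ζ (locFactor ℓ v) := by
  by_cases hv : (ℓ : 𝓞 L) ∈ v.asIdeal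
  · rw [locFactor_of_mem ℓ hv]
    exact isCycloExp_one ℓ ζ
  · rw [locFactor_of_notMem ℓ hv]
    obtain ⟨σ, hσ⟩ := exists_aut_pow_absNorm ℓ L hζ v hv
    exact ⟨σ, _, hσ, rfl⟩

/-- **Artin symbol of a principal ideal.** For every `y ∈ L`, the map
`ζ ↦ ζ ^ (∏_{v ∤ ℓ} (N v) ^ (ord_v y))` is induced by an element of `Gal(Ω/L)`. -/
theorem isCycloExp_primeToNormProd {ζ : Ω} (hζ : ζ ^ ℓ = 1) (y : L) :
    IsCycloExp ℓ L ζ (primeToNormProd ℓ y) := by
  unfold primeToNormProd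
  exact finprod_induction (fun a : ZMod ℓ => IsCycloExp ℓ L ζ a) (isCycloExp_one ℓ ζ)
    (fun a b ha hb => ha.mul ℓ hb)
    (fun v => (isCycloExp_locFactor ℓ hζ v).zpow ℓ (locFactor_ne_zero ℓ v) _)

end Frob

/-! ### Elementary cyclotomic reciprocity -/

section Main

variable {K L Ω : Type*} [Field K] [NumberField K] [Field L] [NumberField L] [Algebra K L]
  [Field Ω] [NumberField Ω] [Algebra L Ω] [IsGalois L Ω]

/-- **Elementary cyclotomic reciprocity.** Let `K ⊆ L` be number fields, `Ω/L` a Galois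
extension containing an `ℓ`-th root of unity `ζ`.  If `x ∈ K^×` is, modulo `ℓ` at all primes of
`K` above `ℓ`, the norm of some `y ∈ L^×`, then the "Artin symbol" of the prime-to-`ℓ` part of
`(x)`, squared, `ζ ↦ ζ ^ ((∏_{v ∤ ℓ} (N v) ^ (ord_v x)) ^ 2)`, is induced by an element of
`Gal(Ω/L)`. -/
theorem cyclo_reciprocity {ζ : Ω} (hζ : ζ ^ ℓ = 1) {x : K} (hx : x ≠ 0) {y : L} (hy : y ≠ 0)
    (hu : ∀ v : HeightOneSpectrum (𝓞 K), (ℓ : 𝓞 K) ∈ v.asIdeal →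
      v.valuation K (x / Algebra.norm K y - 1) ≤ v.valuation K (ℓ : K)) :
    IsCycloExp ℓ L ζ (primeToNormProd ℓ x ^ 2) := by
  have hN : Algebra.norm K y ≠ 0 := Algebra.norm_ne_zero_iff.mpr hy
  have hu0 : x / Algebra.norm K y ≠ 0 := div_ne_zero hx hN
  have h1 := primeToNormProd_sq_eq_one ℓ hu0 hu
  have h2 : primeToNormProd ℓ x = primeToNormProd ℓ (x / Algebra.norm K y) * primeToNormProd ℓ y := by
    rw [← primeToNormProd_norm ℓ (K := K) hy, ← primeToNormProd_mul ℓ hu0 hN,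
      div_mul_cancel₀ x hN]
  rw [h2, mul_pow, h1, one_mul]
  exact (isCycloExp_primeToNormProd ℓ hζ y).pow ℓ 2

end Main

end Fermat.Agent.PT.G
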