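/-
PT, G3-GE, "(C0) radical closure": adjoining to a level `K` for `S ∋ p` an element `x` with
`x ^ (p ^ n) ∈ K` whose valuations outside `S` are integral (powers of the valuation of `q`)
gives again a level.  In particular `K(μ_{p^n})` is a level.
-/
import Fermat.Agent.PT.G.GeIdeal

set_option autoImplicit false

namespace Fermat.Agent.PT.GeIdeal

local notation "Qb" => AlgebraicClosure ℚ
local notation "GQ" => (AlgebraicClosure ℚ ≃ₐ[ℚ] AlgebraicClosure ℚ)

open Fermat.Agent.PT.Kummer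

variable (p : ℕ) [Fact p.Prime] (S : Finset Nat.Primes)

/-- **(C0) radical closure.** Let `K` be a level for `S ∋ p` and `x ∈ ℚ̄ˣ` with
`x ^ (p ^ n) ∈ K` such that, at every place `A` over `q ∉ S`, the valuation of `x` is that of a
power of `q`.  Then `K(x)` is a level for `S`. -/
theorem isUnramifiedOutside_sup_adjoin_pow_root (hpS : ExtCitation.pPrime p ∈ S)
    {K : IntermediateField ℚ Qb} (hK : K.IsUnramifiedOutside S) (n : ℕ) :
    ∀ {x : Qb}, x ≠ 0 → x ^ (p ^ n) ∈ K →
      (∀ q : Nat.Primes, q ∉ S → ∀ A : ValuationSubring Qb, A.LiesOverPrime q →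
        ∃ m : ℤ, A.valuation x = A.valuation (((q : ℕ) : Qb) ^ m)) →
      (K ⊔ IntermediateField.adjoin ℚ {x}).IsUnramifiedOutside S := by
  induction n with
  | zero =>
    intro x _ hxK _
    rw [pow_zero, pow_one] at hxK
    have : K ⊔ IntermediateField.adjoin ℚ {x} = K :=
      sup_eq_left.mpr (IntermediateField.adjoin_simple_le_iff.mpr hxK)
    rw [this]
    exact hK
  | succ n ih =>
    intro x hx0 hxK h
    have hy0 : x ^ p ≠ 0 := pow_ne_zero p hx0
    have hyK : (x ^ p) ^ (p ^ n) ∈ K := by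
      rw [← pow_mul, ← pow_succ']
      exact hxK
    have hy : ∀ q : Nat.Primes, q ∉ S → ∀ A : ValuationSubring Qb, A.LiesOverPrime q →
        ∃ m : ℤ, A.valuation (x ^ p) = A.valuation (((q : ℕ) : Qb) ^ ((p : ℤ) * m)) := by
      intro q hq A hA
      obtain ⟨m, hm⟩ := h q hq A hA
      exact ⟨m, by rw [map_pow, hm, ← map_pow, mul_comm, zpow_mul, zpow_natCast]⟩
    have h1 := ih hy0 hyK fun q hq A hA => by
      obtain ⟨m, hm⟩ := hy q hq A hA
      exact ⟨_, hm⟩
    have hymem : x ^ p ∈ K ⊔ IntermediateField.adjoin ℚ {x ^ p} :=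
      (le_sup_right : IntermediateField.adjoin ℚ {x ^ p} ≤ _)
        (IntermediateField.mem_adjoin_simple_self ℚ (x ^ p))
    have h2 := isUnramifiedOutside_sup_adjoin_root' p S hpS h1 hymem hy0 rfl hy
    exact IntermediateField.IsUnramifiedOutside.of_le
      (sup_le (le_sup_left.trans le_sup_left) le_sup_right) h2

/-- `K(ζ)` is a level for `S ∋ p` when `ζ` is a root of unity of `p`-power order. -/
theorem isUnramifiedOutside_sup_adjoin_pow_rootOfUnity (hpS : ExtCitation.pPrime p ∈ S)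
    {K : IntermediateField ℚ Qb} (hK : K.IsUnramifiedOutside S) (n : ℕ) {ζ : Qb}
    (hζ : ζ ^ (p ^ n) = 1) : (K ⊔ IntermediateField.adjoin ℚ {ζ}).IsUnramifiedOutside S := by
  have hp : p.Prime := Fact.out
  have hζ0 : ζ ≠ 0 := by
    rintro rfl
    rw [zero_pow (pow_pos hp.pos n).ne'] at hζ
    exact zero_ne_one hζ
  refine isUnramifiedOutside_sup_adjoin_pow_root p S hpS hK n hζ0 (by rw [hζ]; exact one_mem K)
    fun q _ A _ => ⟨0, ?_⟩
  rw [zpow_zero, map_one]
  have h1 : A.valuation ζ ^ (p ^ n) = A.valuation (1 : Qb) ^ (p ^ n) := by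
    rw [← map_pow, hζ, map_one, one_pow]
  rw [valuation_eq_of_pow_eq A (pow_pos hp.pos n).ne' h1, map_one]

end Fermat.Agent.PT.GeIdeal
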