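/-
PT, G3-GE, "(C3) core": the Hilbert 90 step of the independence argument.

Let `K`, `F` be levels for `S`, `U = Gal(ℚ̄/K)`, `γ ∈ ℚ̄ˣ`, and `c` a `ℚ̄ˣ`-valued `1`-cocycle on
`U`, constant modulo `Gal(ℚ̄/F)`, with `c(g) ^ p = g γ / γ` on `U`.  Then `c = dδ` with `δ` in the
level `F ⊔ K`, `a₁ := γ / δ ^ p ∈ Kˣ`, and the valuations of `γ / a₁ = δ ^ p` outside `S` are
`p`-divisible.
-/
import Fermat.Agent.PT.G.GeRad

set_option autoImplicit false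

namespace Fermat.Agent.PT.GeIdeal

local notation "Qb" => AlgebraicClosure ℚ
local notation "GQ" => (AlgebraicClosure ℚ ≃ₐ[ℚ] AlgebraicClosure ℚ)

open Fermat.Agent.PT.Kummer

variable (p : ℕ) (S : Finset Nat.Primes)

/-- A level-constant cocycle on `Gal(ℚ̄/K)` is the coboundary of an element of the level
`F ⊔ K`. -/
theorem hilbert90_mem_sup (K : IntermediateField ℚ Qb) (c : GQ → Qb)
    (hc0 : ∀ g ∈ K.fixingSubgroup, c g ≠ 0)
    (hc : ∀ g ∈ K.fixingSubgroup, ∀ h ∈ K.fixingSubgroup, c (g * h) = c g * g (c h))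
    (F : IntermediateField ℚ Qb) [FiniteDimensional ℚ F]
    (hF : ∀ g ∈ K.fixingSubgroup, ∀ s ∈ K.fixingSubgroup, s ∈ F.fixingSubgroup →
      c (g * s) = c g) :
    ∃ δ : Qb, δ ≠ 0 ∧ δ ∈ F ⊔ K ∧ ∀ g ∈ K.fixingSubgroup, c g = g δ / δ := by
  obtain ⟨δ, hδ0, hδ⟩ := hilbert90 K c hc0 hc F hF
  refine ⟨δ, hδ0, ?_, hδ⟩
  rw [mem_iff_forall_apply_eq, IntermediateField.fixingSubgroup_sup]
  rintro s ⟨hsF, hsK⟩
  have h1 : c 1 = 1 := by
    have h := hc 1 K.fixingSubgroup.one_mem 1 K.fixingSubgroup.one_mem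
    rw [mul_one, AlgEquiv.one_apply] at h
    have h0 := hc0 1 K.fixingSubgroup.one_mem
    exact (mul_eq_left₀ h0).mp h.symm
  have h2 : c s = 1 := by
    have := hF 1 K.fixingSubgroup.one_mem s hsK hsF
    rwa [one_mul, h1] at this
  have h3 := hδ s hsK
  rw [h2] at h3
  exact ((div_eq_one_iff_eq hδ0).mp h3.symm)

/-- **(C3) core.** See the file header. -/
theorem exists_mem_valuation_of_cocycle {K F : IntermediateField ℚ Qb}
    (hK : K.IsUnramifiedOutside S) (hF : F.IsUnramifiedOutside S) {γ : Qb} (hγ0 : γ ≠ 0)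
    (c : GQ → Qb) (hc0 : ∀ g ∈ K.fixingSubgroup, c g ≠ 0)
    (hc : ∀ g ∈ K.fixingSubgroup, ∀ h ∈ K.fixingSubgroup, c (g * h) = c g * g (c h))
    (hcF : ∀ g ∈ K.fixingSubgroup, ∀ s ∈ K.fixingSubgroup, s ∈ F.fixingSubgroup →
      c (g * s) = c g)
    (hcp : ∀ g ∈ K.fixingSubgroup, c g ^ p = g γ / γ) :
    ∃ a₁ : Qb, a₁ ∈ K ∧ a₁ ≠ 0 ∧
      ∀ q : Nat.Primes, q ∉ S → ∀ A : ValuationSubring Qb, A.LiesOverPrime q →
        ∃ m : ℤ, A.valuation (γ / a₁) = A.valuation (((q : ℕ) : Qb) ^ ((p : ℤ) * m)) := by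
  have := hF.1
  obtain ⟨δ, hδ0, hδL, hδ⟩ := hilbert90_mem_sup K c hc0 hc F hcF
  have hL : (F ⊔ K).IsUnramifiedOutside S := hF.sup hK
  have hδp0 : δ ^ p ≠ 0 := pow_ne_zero p hδ0
  refine ⟨γ / δ ^ p, ?_, div_ne_zero hγ0 hδp0, fun q hq A hA => ?_⟩
  · rw [mem_iff_forall_apply_eq]
    intro g hg
    have h1 := hcp g hg
    rw [hδ g hg, div_pow, ← map_pow] at h1
    rw [map_div₀]
    have hgγ : g γ ≠ 0 := by
      rw [Ne, map_eq_zero_iff g g.injective]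
      exact hγ0
    have hgδ : g (δ ^ p) ≠ 0 := by
      rw [Ne, map_eq_zero_iff g g.injective]
      exact hδp0
    field_simp
    field_simp at h1
    linear_combination -h1
  · obtain ⟨m, hm⟩ := exists_zpow_valuation_eq_of_level hL hδL hδ0 q hq A hA
    refine ⟨m, ?_⟩
    rw [div_div_cancel₀ hγ0, map_pow, hm, ← map_pow, mul_comm, zpow_mul, zpow_natCast]

end Fermat.Agent.PT.GeIdeal
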