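import Mathlib
import Fermat.Agent.PT.G.KumH90
import Fermat.Agent.PT.G.KumUnram
import Fermat.Agent.PT.Base.Defs

/-!
# PT, G3 "≥": the Kummer classes of radical elements in `Ш²(G_K; 𝔽_p)`

`K` a base field for `(p, S)` (`ζ_p ∈ K`), `U = Gal(ℚ̄/K)`.  For `γ ∈ ℚ̄ˣ` with `γ ^ (p ^ e) ∈ K`
whose valuations outside `S` are integral powers of the residue characteristic (`γ` "generates an
`S`-ideal of `K`"), choose `p`-th roots `b g` of `g γ / γ` (`g ∈ U`).  Then
`ζ ^ c(g, h) = b g * g (b h) / b (g h)` defines an `S`-level `2`-cocycle `c` on `U` with values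
in `𝔽_p` which is the coboundary of an all-level `1`-cochain; so its class lies in `Ш²`.
If the classes of `γ` and `γ'` agree, then `γ / γ' = a₁ * δ ^ p` with `a₁ ∈ Kˣ` and `δ` in an
`S`-level (Hilbert 90), so that the valuations of `γ / γ' / a₁` outside `S` are divisible by `p`.
-/

set_option autoImplicit false
set_option linter.style.haveILetI false

namespace Fermat.Agent.PT.HasseGe

local notation "Qb" => AlgebraicClosure ℚ
local notation "GQ" => (AlgebraicClosure ℚ ≃ₐ[ℚ] AlgebraicClosure ℚ)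

open Fermat.Agent.Lib.FrobeniusExists Fermat.Agent.PT.Levels Fermat.Agent.PT.Kummer

attribute [local instance] isAlgClosure_rat isGalois_rat

/-! ### Radical extensions of levels -/

/-- **Radical extensions of levels.** If `x ^ (p ^ n)` lies in the level `L` (`p ∈ S`) and the
valuations of `x` outside `S` are integral powers of the residue characteristic, then `L(x)` is a
level. -/
theorem isUnramifiedOutside_sup_adjoin_radical (p : ℕ) [Fact p.Prime] (S : Finset Nat.Primes)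
    (hpS : ExtCitation.pPrime p ∈ S) (n : ℕ) :
    ∀ {L : IntermediateField ℚ Qb}, L.IsUnramifiedOutside S → ∀ {x : Qb}, x ≠ 0 →
      x ^ (p ^ n) ∈ L →
      (∀ q : Nat.Primes, q ∉ S → ∀ A : ValuationSubring Qb, A.LiesOverPrime q →
        ∃ m : ℤ, A.valuation x = A.valuation (((q : ℕ) : Qb) ^ m)) →
      (L ⊔ IntermediateField.adjoin ℚ {x}).IsUnramifiedOutside S := by
  induction n with
  | zero =>
    intro L hL x _ hx _
    rw [pow_zero, pow_one] at hx
    have : L ⊔ IntermediateField.adjoin ℚ {x} = L := by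
      apply sup_eq_left.mpr
      rw [IntermediateField.adjoin_simple_le_iff]
      exact hx
    rw [this]
    exact hL
  | succ n ih =>
    intro L hL x hx0 hx h
    have hx' : (x ^ p) ^ (p ^ n) ∈ L := by
      rw [← pow_mul, ← pow_succ']
      exact hx
    have h1 := ih hL (pow_ne_zero p hx0) hx' (fun q hq A hA => by
      obtain ⟨m, hm⟩ := h q hq A hA
      exact ⟨p * m, by rw [map_pow, hm, ← map_pow, mul_comm, zpow_mul, zpow_natCast]⟩)
    have h2 := isUnramifiedOutside_sup_adjoin_root' p S hpS h1 (a := x ^ p) (α := x)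
      (le_sup_right (a := L) (IntermediateField.mem_adjoin_simple_self ℚ _)) (pow_ne_zero p hx0) rfl
      (fun q hq A hA => by
        obtain ⟨m, hm⟩ := h q hq A hA
        exact ⟨m, by rw [map_pow, hm, ← map_pow, mul_comm, zpow_mul, zpow_natCast]⟩)
    exact IntermediateField.IsUnramifiedOutside.of_le
      (sup_le (le_sup_left.trans le_sup_left) le_sup_right) h2

/-! ### Kummer data -/

section Kum

variable (p : ℕ) [Fact p.Prime] (S : Finset Nat.Primes) (K : IntermediateField ℚ Qb) (ζ : Qb)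

/-- **Kummer data.** `c` is a Kummer `2`-cochain of `γ` on `U = Gal(ℚ̄/K)`: there are `p`-th roots
`b g` of `g γ / γ` (`g ∈ U`), constant modulo an `S`-level `F ⊇ K`, with
`ζ ^ c(g, h) = b g * g (b h) / b (g h)` on `U`. -/
def IsKum (γ : Qb) (c : GQ → GQ → ZMod p) : Prop :=
  γ ≠ 0 ∧ ∃ (b : GQ → Qb) (F : IntermediateField ℚ Qb), F.IsUnramifiedOutside S ∧ K ≤ F ∧
    (∀ g ∈ K.fixingSubgroup, b g ^ p = g γ / γ) ∧
    (∀ g ∈ K.fixingSubgroup, ∀ s ∈ F.fixingSubgroup, b (g * s) = b g) ∧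
    (∀ g ∈ K.fixingSubgroup, ∀ h ∈ K.fixingSubgroup,
      ζ ^ (c g h).val = b g * g (b h) / b (g * h))

variable {p S K ζ}

/-- Kummer data are multiplicative: quotient of the elements, difference of the cochains. -/
theorem IsKum.div {γ γ' : Qb} {c c' : GQ → GQ → ZMod p} (hζ : IsPrimitiveRoot ζ p)
    (h : IsKum p S K ζ γ c) (h' : IsKum p S K ζ γ' c') :
    IsKum p S K ζ (γ / γ') (fun g h => c g h - c' g h) := by
  have hp : p.Prime := Fact.out
  obtain ⟨hγ, b, F, hF, hKF, hb, hbF, hc⟩ := h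
  obtain ⟨hγ', b', F', hF', -, hb', hbF', hc'⟩ := h'
  refine ⟨div_ne_zero hγ hγ', fun g => b g / b' g, F ⊔ F', hF.sup hF', hKF.trans le_sup_left,
    ?_, ?_, ?_⟩
  · intro g hg
    show (b g / b' g) ^ p = g (γ / γ') / (γ / γ')
    rw [div_pow, hb g hg, hb' g hg, map_div₀]
    simp only [div_eq_mul_inv, mul_inv, inv_inv]
    ring
  · intro g hg s hs
    rw [IntermediateField.fixingSubgroup_sup] at hs
    show b (g * s) / b' (g * s) = b g / b' g
    rw [hbF g hg s hs.1, hbF' g hg s hs.2]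
  · intro g hg h hh
    have h1 : ζ ^ (c g h - c' g h).val * ζ ^ (c' g h).val = ζ ^ (c g h).val := by
      rw [← zeta_pow_val_add p hζ.pow_eq_one, sub_add_cancel]
    have h2 : ζ ^ (c' g h).val ≠ 0 := pow_ne_zero _ (hζ.ne_zero hp.ne_zero)
    show ζ ^ (c g h - c' g h).val = b g / b' g * g (b h / b' h) / (b (g * h) / b' (g * h))
    rw [eq_div_of_mul_eq h2 h1, hc g hg h hh, hc' g hg h hh, map_div₀]
    simp only [div_eq_mul_inv, mul_inv, inv_inv]
    ring

/-- **Independence.** If a Kummer cochain of `γ` is the coboundary of an `S`-level `1`-cochain on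
`U`, then `γ = a₁ * δ ^ p` with `a₁ ∈ Kˣ` and `δ` in an `S`-level; in particular the valuations
of `γ / a₁` outside `S` are `p`-th powers of the valuations of the residue characteristics. -/
theorem IsKum.exists_of_eq_coboundary {γ : Qb} {c : GQ → GQ → ZMod p}
    (hζ : IsPrimitiveRoot ζ p) (hζK : ζ ∈ K) (h : IsKum p S K ζ γ c) (y : GQ → ZMod p)
    (L₀ : IntermediateField ℚ Qb) (hL₀ : L₀.IsUnramifiedOutside S)
    (hy : ∀ g ∈ K.fixingSubgroup, ∀ s ∈ K.fixingSubgroup, s ∈ L₀.fixingSubgroup →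
      y (g * s) = y g)
    (hcy : ∀ g ∈ K.fixingSubgroup, ∀ h ∈ K.fixingSubgroup, c g h = y h - y (g * h) + y g) :
    ∃ a₁ ∈ K, a₁ ≠ 0 ∧ ∀ q : Nat.Primes, q ∉ S → ∀ A : ValuationSubring Qb,
      A.LiesOverPrime q →
      ∃ m : ℤ, A.valuation (γ / a₁) = A.valuation (((q : ℕ) : Qb) ^ ((p : ℤ) * m)) := by
  have hp : p.Prime := Fact.out
  obtain ⟨hγ, b, F, hF, hKF, hb, hbF, hc⟩ := h
  have hζ0 : ζ ≠ 0 := hζ.ne_zero hp.ne_zero
  have hgζ : ∀ g ∈ K.fixingSubgroup, g ζ = ζ := fun g hg =>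
    (mem_iff_forall_apply_eq K ζ).mp hζK g hg
  have hgγ0 : ∀ g : GQ, g γ ≠ 0 := fun g => (map_ne_zero g).mpr hγ
  have hb0 : ∀ g ∈ K.fixingSubgroup, b g ≠ 0 := by
    intro g hg h0
    have h1 := hb g hg
    rw [h0, zero_pow hp.ne_zero] at h1
    exact (div_ne_zero (hgγ0 g) hγ) h1.symm
  haveI := hF.1
  haveI := hL₀.1
  haveI : FiniteDimensional ℚ (F ⊔ L₀ : IntermediateField ℚ Qb) :=
    IntermediateField.finiteDimensional_sup F L₀
  obtain ⟨δ, hδ0, hδ⟩ := hilbert90 K (fun g => b g / ζ ^ (y g).val)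
    (fun g hg => div_ne_zero (hb0 g hg) (pow_ne_zero _ hζ0))
    (fun g hg h hh => by
      show b (g * h) / ζ ^ (y (g * h)).val = b g / ζ ^ (y g).val * g (b h / ζ ^ (y h).val)
      have h1 := hc g hg h hh
      rw [hcy g hg h hh] at h1
      have h2 : ζ ^ (y h - y (g * h) + y g).val * ζ ^ (y (g * h)).val
          = ζ ^ (y h).val * ζ ^ (y g).val := by
        rw [← zeta_pow_val_add p hζ.pow_eq_one, ← zeta_pow_val_add p hζ.pow_eq_one]
        congr 2
        ring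
      rw [h1] at h2
      rw [map_div₀, map_pow, hgζ g hg]
      have hbgh := hb0 (g * h) (mul_mem hg hh)
      have hz1 : ζ ^ (y (g * h)).val ≠ 0 := pow_ne_zero _ hζ0
      have hz2 : ζ ^ (y g).val ≠ 0 := pow_ne_zero _ hζ0
      have hz3 : ζ ^ (y h).val ≠ 0 := pow_ne_zero _ hζ0
      field_simp
      field_simp at h2
      linear_combination -h2)
    (F ⊔ L₀)
    (fun g hg s hs hsF => by
      rw [IntermediateField.fixingSubgroup_sup] at hsF
      show b (g * s) / ζ ^ (y (g * s)).val = b g / ζ ^ (y g).val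
      rw [hbF g hg s hsF.1, hy g hg s hs hsF.2])
  have hδU : ∀ g ∈ K.fixingSubgroup, g δ = b g / ζ ^ (y g).val * δ := fun g hg => by
    rw [hδ g hg, div_mul_cancel₀ _ hδ0]
  have hb'p : ∀ g ∈ K.fixingSubgroup, (b g / ζ ^ (y g).val) ^ p = g γ / γ := by
    intro g hg
    rw [div_pow, hb g hg, ← pow_mul, mul_comm, pow_mul, hζ.pow_eq_one, one_pow, div_one]
  refine ⟨γ / δ ^ p, ?_, div_ne_zero hγ (pow_ne_zero p hδ0), fun q hq A hA => ?_⟩
  · rw [mem_iff_forall_apply_eq]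
    intro g hg
    rw [map_div₀, map_pow, hδU g hg, mul_pow, hb'p g hg]
    have := hgγ0 g
    field_simp
  · have e : γ / (γ / δ ^ p) = δ ^ p := by
      field_simp
    rw [e]
    have hδmem : δ ∈ F ⊔ L₀ := by
      rw [mem_iff_forall_apply_eq]
      intro s hs
      have hsK : s ∈ K.fixingSubgroup :=
        IntermediateField.fixingSubgroup_antitone (hKF.trans le_sup_left) hs
      have hs' := hs
      rw [IntermediateField.fixingSubgroup_sup] at hs'
      have e1 := hbF 1 (one_mem _) s hs'.1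
      have e2 := hy 1 (one_mem _) s hsK hs'.2
      rw [one_mul] at e1 e2
      have e3 := hδ 1 (one_mem _)
      rw [AlgEquiv.one_apply, div_self hδ0] at e3
      rw [hδU s hsK, e1, e2, e3, one_mul]
    obtain ⟨m, hm⟩ := exists_zpow_valuation_eq_of_level (hF.sup hL₀) hδmem hδ0 q hq A hA
    exact ⟨m, by rw [map_pow, hm, ← map_pow, mul_comm, zpow_mul, zpow_natCast]⟩

/-- The valuation of a root of unity is `1`. -/
theorem valuation_eq_one_of_pow_eq_one (A : ValuationSubring Qb) {x : Qb} {n : ℕ} (hn : n ≠ 0)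
    (hx : x ^ n = 1) : A.valuation x = 1 := by
  have h1 : A.valuation x ^ n = 1 := by rw [← map_pow, hx, map_one]
  rcases lt_trichotomy (A.valuation x) 1 with h2 | h2 | h2
  · exact absurd h1 (ne_of_lt (pow_lt_one₀ zero_le h2 hn))
  · exact h2
  · exact absurd h1 (ne_of_gt (one_lt_pow₀ h2 hn))

/-- **Existence of Kummer cocycles.** For `γ ≠ 0` with `γ ^ (p ^ e) ∈ K` whose valuations outside
`S` are integral powers of the residue characteristic, there is a Kummer cochain `c` of `γ` which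
is an `S`-level `2`-cocycle on `U = Gal(ℚ̄/K)` and the coboundary of a `1`-cochain which is
constant modulo a finite level. -/
theorem exists_isKum (hpS : ExtCitation.pPrime p ∈ S) (hK : K.IsUnramifiedOutside S)
    (hζ : IsPrimitiveRoot ζ p) (hζK : ζ ∈ K) {γ : Qb} (hγ : γ ≠ 0) (e : ℕ)
    (hγe : γ ^ (p ^ e) ∈ K)
    (hv : ∀ q : Nat.Primes, q ∉ S → ∀ A : ValuationSubring Qb, A.LiesOverPrime q →
      ∃ m : ℤ, A.valuation γ = A.valuation (((q : ℕ) : Qb) ^ m)) :
    ∃ c : GQ → GQ → ZMod p, IsKum p S K ζ γ c ∧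
      (∃ F : IntermediateField ℚ Qb, F.IsUnramifiedOutside S ∧
        ∀ g ∈ K.fixingSubgroup, ∀ h ∈ K.fixingSubgroup, ∀ s ∈ F.fixingSubgroup,
          ∀ s' ∈ F.fixingSubgroup, c (g * s) (h * s') = c g h) ∧
      (∀ g ∈ K.fixingSubgroup, ∀ h ∈ K.fixingSubgroup, ∀ k ∈ K.fixingSubgroup,
        c h k - c (g * h) k + c g (h * k) - c g h = 0) ∧
      (∃ (y : GQ → ZMod p) (F' : IntermediateField ℚ Qb), FiniteDimensional ℚ F' ∧
        (∀ g s : GQ, s ∈ F'.fixingSubgroup → y (g * s) = y g) ∧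
        ∀ g ∈ K.fixingSubgroup, ∀ h ∈ K.fixingSubgroup, c g h = y h - y (g * h) + y g) := by
  classical
  have hp : p.Prime := Fact.out
  have hζ0 : ζ ≠ 0 := hζ.ne_zero hp.ne_zero
  have hgζ : ∀ g ∈ K.fixingSubgroup, g ζ = ζ := fun g hg =>
    (mem_iff_forall_apply_eq K ζ).mp hζK g hg
  have hgγ0 : ∀ g : GQ, g γ ≠ 0 := fun g => (map_ne_zero g).mpr hγ
  -- a `p`-th root function
  have hroot : ∀ x : Qb, ∃ r : Qb, r ^ p = x := fun x => IsAlgClosed.exists_pow_nat_eq x hp.pos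
  choose r hr using hroot
  -- a discrete logarithm on `μ_p`
  have hdl : ∀ x : Qb, ∃ a : ZMod p, x ^ p = 1 → ζ ^ a.val = x := by
    intro x
    by_cases hx : x ^ p = 1
    · obtain ⟨i, -, hi⟩ := hζ.eq_pow_of_pow_eq_one hx
      exact ⟨(i : ZMod p), fun _ => by rw [zeta_pow_natCast_val p hζ.pow_eq_one, hi]⟩
    · exact ⟨0, fun h => absurd h hx⟩
  choose dlog hdlog using hdl
  -- a primitive `p ^ (e + 1)`-th root of unity
  haveI : NeZero (p ^ (e + 1)) := ⟨pow_ne_zero _ hp.ne_zero⟩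
  obtain ⟨ξ, hξ⟩ := HasEnoughRootsOfUnity.exists_primitiveRoot Qb (p ^ (e + 1))
  -- the level `F = K(γ, ξ)`
  have hF₁ : (K ⊔ IntermediateField.adjoin ℚ {γ}).IsUnramifiedOutside S :=
    isUnramifiedOutside_sup_adjoin_radical p S hpS e hK hγ hγe hv
  have hF : ((K ⊔ IntermediateField.adjoin ℚ {γ}) ⊔
      IntermediateField.adjoin ℚ {ξ}).IsUnramifiedOutside S :=
    isUnramifiedOutside_sup_adjoin_radical p S hpS (e + 1) hF₁
      (hξ.ne_zero (pow_ne_zero _ hp.ne_zero))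
      (by rw [hξ.pow_eq_one]; exact one_mem _)
      (fun q _ A _ => ⟨0, by
        rw [zpow_zero, map_one]
        exact valuation_eq_one_of_pow_eq_one A (pow_ne_zero (e + 1) hp.ne_zero) hξ.pow_eq_one⟩)
  obtain ⟨F, hFdef⟩ : ∃ F : IntermediateField ℚ Qb,
      F = (K ⊔ IntermediateField.adjoin ℚ {γ}) ⊔ IntermediateField.adjoin ℚ {ξ} := ⟨_, rfl⟩
  rw [← hFdef] at hF
  have hKF : K ≤ F := by
    rw [hFdef]
    exact le_sup_left.trans le_sup_left
  have hγF : γ ∈ F := by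
    rw [hFdef]
    exact (le_sup_right.trans le_sup_left :
      IntermediateField.adjoin ℚ {γ} ≤ (K ⊔ IntermediateField.adjoin ℚ {γ}) ⊔
        IntermediateField.adjoin ℚ {ξ}) (IntermediateField.mem_adjoin_simple_self ℚ γ)
  have hξF : ξ ∈ F := by
    rw [hFdef]
    exact (le_sup_right : IntermediateField.adjoin ℚ {ξ} ≤ (K ⊔ IntermediateField.adjoin ℚ {γ}) ⊔
        IntermediateField.adjoin ℚ {ξ}) (IntermediateField.mem_adjoin_simple_self ℚ ξ)
  have hμF : ∀ x : Qb, x ^ (p ^ (e + 1)) = 1 → x ∈ F := by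
    intro x hx
    obtain ⟨i, -, hi⟩ := hξ.eq_pow_of_pow_eq_one hx
    rw [← hi]
    exact pow_mem hξF i
  have hfixF : ∀ s ∈ F.fixingSubgroup, ∀ x ∈ F, s x = x := fun s hs x hx =>
    (IntermediateField.mem_fixingSubgroup_iff F s).mp hs x hx
  -- the roots `b g`
  obtain ⟨b, hbdef⟩ : ∃ b : GQ → Qb, ∀ g, b g = r (g γ / γ) := ⟨fun g => r (g γ / γ), fun _ => rfl⟩
  have hb : ∀ g, b g ^ p = g γ / γ := fun g => by rw [hbdef, hr]
  have hgγ : ∀ g ∈ K.fixingSubgroup, (g γ / γ) ^ (p ^ e) = 1 := by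
    intro g hg
    rw [div_pow, ← map_pow, (mem_iff_forall_apply_eq K _).mp hγe g hg,
      div_self (pow_ne_zero _ hγ)]
  have hbμ : ∀ g ∈ K.fixingSubgroup, b g ^ (p ^ (e + 1)) = 1 := by
    intro g hg
    rw [pow_succ', pow_mul, hb, hgγ g hg]
  have hbF : ∀ g ∈ K.fixingSubgroup, b g ∈ F := fun g hg => hμF _ (hbμ g hg)
  have hgγF : ∀ g ∈ K.fixingSubgroup, g γ ∈ F := by
    intro g hg
    have h1 : g γ / γ ∈ F := hμF _ (by rw [pow_succ, pow_mul, hgγ g hg, one_pow])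
    have h2 : g γ = g γ / γ * γ := (div_mul_cancel₀ _ hγ).symm
    rw [h2]
    exact mul_mem h1 hγF
  have hb0 : ∀ g, b g ≠ 0 := by
    intro g h0
    have h1 := hb g
    rw [h0, zero_pow hp.ne_zero] at h1
    exact (div_ne_zero (hgγ0 g) hγ) h1.symm
  have hbs : ∀ g : GQ, ∀ s ∈ F.fixingSubgroup, b (g * s) = b g := by
    intro g s hs
    rw [hbdef, hbdef, AlgEquiv.mul_apply, hfixF s hs γ hγF]
  -- the cochain
  obtain ⟨t, htdef⟩ : ∃ t : GQ → GQ → Qb, ∀ g h, t g h = b g * g (b h) / b (g * h) :=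
    ⟨fun g h => b g * g (b h) / b (g * h), fun _ _ => rfl⟩
  have htp : ∀ g ∈ K.fixingSubgroup, ∀ h ∈ K.fixingSubgroup, t g h ^ p = 1 := by
    intro g hg h hh
    rw [htdef, div_pow, mul_pow, ← map_pow, hb, hb, hb, AlgEquiv.mul_apply, map_div₀]
    have h1 := hgγ0 g
    have h2 := hgγ0 (g * h)
    rw [AlgEquiv.mul_apply] at h2
    field_simp
  have hc : ∀ g ∈ K.fixingSubgroup, ∀ h ∈ K.fixingSubgroup, ζ ^ (dlog (t g h)).val = t g h :=
    fun g hg h hh => hdlog _ (htp g hg h hh)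
  refine ⟨fun g h => dlog (t g h), ⟨hγ, b, F, hF, hKF, fun g _ => hb g, fun g _ s hs => hbs g s hs,
    fun g hg h hh => by rw [hc g hg h hh, htdef]⟩, ⟨F, hF, ?_⟩, ?_, ?_⟩
  · intro g _ h hh s hs s' hs'
    show dlog (t (g * s) (h * s')) = dlog (t g h)
    congr 1
    rw [htdef, htdef, hbs g s hs, hbs h s' hs', AlgEquiv.mul_apply, hfixF s hs _ (hbF h hh)]
    congr 1
    rw [hbdef, hbdef]
    congr 2
    rw [AlgEquiv.mul_apply, AlgEquiv.mul_apply, AlgEquiv.mul_apply, AlgEquiv.mul_apply,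
      hfixF s' hs' γ hγF, hfixF s hs _ (hgγF h hh)]
  · intro g hg h hh k hk
    have h1 : g (t h k) = t h k := by rw [← hc h hh k hk, map_pow, hgζ g hg]
    have h2 : g (t h k) * t g (h * k) = t (g * h) k * t g h := by
      rw [htdef, htdef, htdef, htdef, map_div₀, map_mul, mul_assoc g h k, AlgEquiv.mul_apply]
      have e1 := hb0 (g * (h * k))
      have e2 := hb0 (g * h)
      have e3 := (map_ne_zero g).mpr (hb0 (h * k))
      field_simp
    rw [h1] at h2
    have h3 : dlog (t h k) + dlog (t g (h * k)) = dlog (t (g * h) k) + dlog (t g h) := by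
      apply zeta_pow_val_injective p hζ
      rw [zeta_pow_val_add p hζ.pow_eq_one, zeta_pow_val_add p hζ.pow_eq_one, hc h hh k hk,
        hc g hg (h * k) (mul_mem hh hk), hc (g * h) (mul_mem hg hh) k hk, hc g hg h hh, h2]
    show dlog (t h k) - dlog (t (g * h) k) + dlog (t g (h * k)) - dlog (t g h) = 0
    linear_combination h3
  · have hγ'0 : r γ ≠ 0 := by
      intro h0
      have h1 := hr γ
      rw [h0, zero_pow hp.ne_zero] at h1
      exact hγ h1.symm
    obtain ⟨u, hudef⟩ : ∃ u : GQ → Qb, ∀ g, u g = b g * r γ / g (r γ) :=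
      ⟨fun g => b g * r γ / g (r γ), fun _ => rfl⟩
    have hgγ'0 : ∀ g : GQ, g (r γ) ≠ 0 := fun g => (map_ne_zero g).mpr hγ'0
    have hup : ∀ g ∈ K.fixingSubgroup, u g ^ p = 1 := by
      intro g _
      rw [hudef, div_pow, mul_pow, hb, ← map_pow, hr]
      have h1 := hgγ0 g
      field_simp
    have hy : ∀ g ∈ K.fixingSubgroup, ζ ^ (dlog (u g)).val = u g := fun g hg =>
      hdlog _ (hup g hg)
    haveI : FiniteDimensional ℚ (IntermediateField.adjoin ℚ {r γ}) :=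
      IntermediateField.adjoin.finiteDimensional (Algebra.IsIntegral.isIntegral (r γ))
    refine ⟨fun g => dlog (u g), IntermediateField.adjoin ℚ {r γ}, inferInstance, ?_, ?_⟩
    · intro g s hs
      have hsγ' : s (r γ) = r γ := (IntermediateField.mem_fixingSubgroup_iff _ s).mp hs _
        (IntermediateField.mem_adjoin_simple_self ℚ (r γ))
      have hsγ : s γ = γ := by
        conv_lhs => rw [← hr γ]
        rw [map_pow, hsγ', hr]
      show dlog (u (g * s)) = dlog (u g)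
      congr 1
      rw [hudef, hudef, hbdef, hbdef, AlgEquiv.mul_apply, AlgEquiv.mul_apply, hsγ, hsγ']
    · intro g hg h hh
      have h1 : g (u h) = u h := by rw [← hy h hh, map_pow, hgζ g hg]
      have h2 : t g h * u (g * h) = g (u h) * u g := by
        rw [htdef, hudef, hudef, hudef, map_div₀, map_mul, AlgEquiv.mul_apply]
        have e1 := hb0 (g * h)
        have e2 := hgγ'0 g
        have e3 := hgγ'0 (g * h)
        rw [AlgEquiv.mul_apply] at e3
        field_simp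
      rw [h1] at h2
      have h3 : dlog (t g h) + dlog (u (g * h)) = dlog (u h) + dlog (u g) := by
        apply zeta_pow_val_injective p hζ
        rw [zeta_pow_val_add p hζ.pow_eq_one, zeta_pow_val_add p hζ.pow_eq_one, hc g hg h hh,
          hy _ (mul_mem hg hh), hy h hh, hy g hg, h2]
      show dlog (t g h) = dlog (u h) - dlog (u (g * h)) + dlog (u g)
      linear_combination h3

end Kum

/-! ### The classes in `Ш²(U; 𝔽_p)` -/

section Classes

open Fermat.Agent.PT.Bridge Fermat.Agent.PT.Base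

variable (p : ℕ) [Fact p.Prime] (S : Finset Nat.Primes) (K : IntermediateField ℚ Qb) (ζ : Qb)

/-- `x ∈ H²(U; 𝔽_p)` (`S`-levels) is the class of a Kummer cocycle of `γ`. -/
def IsKumClass (γ : Qb) (x : (CU p S K.fixingSubgroup).H 2) : Prop :=
  ∃ (c : GQ → GQ → ZMod p) (z : (CU p S K.fixingSubgroup).X 2)
    (hz : (CU p S K.fixingSubgroup).d 2 z = 0), IsKum p S K ζ γ c ∧
    (∀ g : Fin 2 → K.fixingSubgroup, z.1 g = c (g 0) (g 1)) ∧
    x = (CU p S K.fixingSubgroup).cls 2 z hz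

variable {p S K ζ}

/-- **Existence**: every radical element `γ` whose valuations outside `S` are integral has a
Kummer class, and this class lies in `Ш²(U; 𝔽_p)`. -/
theorem exists_isKumClass (hpS : ExtCitation.pPrime p ∈ S) (hK : K.IsUnramifiedOutside S)
    (hζ : IsPrimitiveRoot ζ p) (hζK : ζ ∈ K) {γ : Qb} (hγ : γ ≠ 0) (e : ℕ)
    (hγe : γ ^ (p ^ e) ∈ K)
    (hv : ∀ q : Nat.Primes, q ∉ S → ∀ A : ValuationSubring Qb, A.LiesOverPrime q →
      ∃ m : ℤ, A.valuation γ = A.valuation (((q : ℕ) : Qb) ^ m)) :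
    ∃ x : (CU p S K.fixingSubgroup).H 2, x ∈ Sha2 p S K.fixingSubgroup ∧
      IsKumClass p S K ζ γ x := by
  obtain ⟨c, hKum, ⟨F, hF, hcF⟩, hcoc, y, F', hF', hyF', hcy⟩ :=
    exists_isKum hpS hK hζ hζK hγ e hγe hv
  have hzf : ((levS S).sub K.fixingSubgroup).IsLevelConst
      (to₂ (fun g : K.fixingSubgroup × K.fixingSubgroup => c g.1 g.2)) := by
    obtain ⟨L, hFL, hL, hLn⟩ := exists_normal_level_ge hF
    refine ⟨L.fixingSubgroup.subgroupOf K.fixingSubgroup,
      LevelSys.mem_sub_lev ⟨L, hL, hLn, rfl⟩, fun g g' hgg' => ?_⟩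
    have h0 : ((g 0 : GQ))⁻¹ * (g' 0 : GQ) ∈ F.fixingSubgroup :=
      IntermediateField.fixingSubgroup_antitone hFL (Subgroup.mem_subgroupOf.mp (hgg' 0))
    have h1 : ((g 1 : GQ))⁻¹ * (g' 1 : GQ) ∈ F.fixingSubgroup :=
      IntermediateField.fixingSubgroup_antitone hFL (Subgroup.mem_subgroupOf.mp (hgg' 1))
    have h2 := hcF (g 0) (g 0).2 (g 1) (g 1).2 _ h0 _ h1
    rw [mul_inv_cancel_left, mul_inv_cancel_left] at h2
    exact h2.symm
  have hz : (CU p S K.fixingSubgroup).d 2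
      ⟨to₂ (fun g : K.fixingSubgroup × K.fixingSubgroup => c g.1 g.2), hzf⟩ = 0 := by
    apply Subtype.ext
    have hd := dLin_to₂ (Representation.trivial (ZMod p) K.fixingSubgroup (ZMod p))
      (fun g : K.fixingSubgroup × K.fixingSubgroup => c g.1 g.2)
    refine hd.trans ?_
    funext g
    exact hcoc (g 0) (g 0).2 (g 1) (g 1).2 (g 2) (g 2).2
  refine ⟨(CU p S K.fixingSubgroup).cls 2 _ hz, ?_, c, _, hz, hKum, fun g => rfl, rfl⟩
  rw [mem_Sha2]
  intro A _
  rw [Cx.Hom.mapH_cls, Cx.cls_eq_zero_iff, Cx.mem_B_succ]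
  have hyl : (levD (K.fixingSubgroup ⊓ decomp A)).IsLevelConst
      (to₁ (fun v : ↥(K.fixingSubgroup ⊓ decomp A) => y (v : GQ))) :=
    (isLevelConst_levD_iff _ _).mpr ⟨F', hF', fun g s hs => hyF' _ _ hs⟩
  refine ⟨⟨_, hyl⟩, ?_⟩
  apply Subtype.ext
  have hd := dLin_to₁
    (Representation.trivial (ZMod p) ↥(K.fixingSubgroup ⊓ decomp A) (ZMod p))
    (fun v : ↥(K.fixingSubgroup ⊓ decomp A) => y (v : GQ))
  refine hd.trans ?_
  funext g
  exact (hcy (g 0) (g 0).2.1 (g 1) (g 1).2.1).symm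

/-- **Independence**: if `γ` and `γ'` have the same Kummer class, then `γ / γ' = a₁ * δ ^ p` with
`a₁ ∈ Kˣ` and the valuations of `δ` outside `S` integral. -/
theorem exists_of_isKumClass_eq (hζ : IsPrimitiveRoot ζ p) (hζK : ζ ∈ K) {γ γ' : Qb}
    {x : (CU p S K.fixingSubgroup).H 2} (h : IsKumClass p S K ζ γ x)
    (h' : IsKumClass p S K ζ γ' x) :
    ∃ a₁ ∈ K, a₁ ≠ 0 ∧ ∀ q : Nat.Primes, q ∉ S → ∀ A : ValuationSubring Qb,
      A.LiesOverPrime q →
      ∃ m : ℤ, A.valuation (γ / γ' / a₁) = A.valuation (((q : ℕ) : Qb) ^ ((p : ℤ) * m)) := by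
  classical
  obtain ⟨c, z, hz, hKum, hzc, rfl⟩ := h
  obtain ⟨c', z', hz', hKum', hzc', heq⟩ := h'
  rw [Cx.cls_eq_cls_iff, Cx.mem_B_succ] at heq
  obtain ⟨y₀, hy₀⟩ := heq
  obtain ⟨_, ⟨_, ⟨L₀, hL₀, -, rfl⟩, rfl⟩, hN⟩ := y₀.2
  refine (hKum.div hζ hKum').exists_of_eq_coboundary hζ hζK
    (fun g => if h : g ∈ K.fixingSubgroup then y₀.1 (fun _ => ⟨g, h⟩) else 0) L₀ hL₀ ?_ ?_
  · intro g hg s hs hsL
    rw [dif_pos hg, dif_pos (mul_mem hg hs)]
    refine (hN _ _ fun _ => ?_).symm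
    rw [Subgroup.mem_subgroupOf]
    show (g : GQ)⁻¹ * (g * s) ∈ L₀.fixingSubgroup
    rw [inv_mul_cancel_left]
    exact hsL
  · intro g hg h hh
    rw [dif_pos hg, dif_pos hh, dif_pos (mul_mem hg hh)]
    have h1 : ((CU p S K.fixingSubgroup).d 1 y₀).1 ![⟨g, hg⟩, ⟨h, hh⟩]
        = (z - z').1 ![⟨g, hg⟩, ⟨h, hh⟩] := by rw [hy₀]
    have h2 : ((CU p S K.fixingSubgroup).d 1 y₀).1
        = dLin (Representation.trivial (ZMod p) K.fixingSubgroup (ZMod p)) 1
          (to₁ (from₁ y₀.1)) := by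
      rw [to₁_from₁]
      rfl
    rw [h2, dLin_to₁] at h1
    have h3 : (z - z').1 ![⟨g, hg⟩, ⟨h, hh⟩] = c g h - c' g h := by
      show z.1 _ - z'.1 _ = _
      rw [hzc, hzc']
      rfl
    rw [h3] at h1
    exact h1.symm

/-- **G3 "≥", abstract form.** Let `rep x γ` be a relation between the elements `x` of a set `X`
and radical elements `γ` such that every `x` is represented by some `γ` with integral valuations
outside `S`, and such that `x = y` as soon as representatives `γ`, `γ'` satisfy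
`γ / γ' = a₁ * δ ^ p` (`a₁ ∈ Kˣ`, valuations of `δ` outside `S` integral).  Then `X` injects into
`Ш²(U; 𝔽_p)`. -/
theorem exists_injective_Sha2 (hpS : ExtCitation.pPrime p ∈ S) (hK : K.IsUnramifiedOutside S)
    (hζ : IsPrimitiveRoot ζ p) (hζK : ζ ∈ K) {X : Type*} (rep : X → Qb → Prop)
    (hex : ∀ x : X, ∃ γ : Qb, rep x γ ∧ γ ≠ 0 ∧ (∃ e : ℕ, γ ^ (p ^ e) ∈ K) ∧
      ∀ q : Nat.Primes, q ∉ S → ∀ A : ValuationSubring Qb, A.LiesOverPrime q →
        ∃ m : ℤ, A.valuation γ = A.valuation (((q : ℕ) : Qb) ^ m))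
    (hinj : ∀ (x y : X) (γ γ' : Qb), rep x γ → rep y γ' →
      (∃ a₁ ∈ K, a₁ ≠ 0 ∧ ∀ q : Nat.Primes, q ∉ S → ∀ A : ValuationSubring Qb,
        A.LiesOverPrime q →
        ∃ m : ℤ, A.valuation (γ / γ' / a₁) = A.valuation (((q : ℕ) : Qb) ^ ((p : ℤ) * m))) →
      x = y) :
    ∃ Φ : X → Sha2 p S K.fixingSubgroup, Function.Injective Φ := by
  choose γ hrep hγ0 hγe hγv using hex
  have hcl : ∀ x : X, ∃ c : (CU p S K.fixingSubgroup).H 2, c ∈ Sha2 p S K.fixingSubgroup ∧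
      IsKumClass p S K ζ (γ x) c := fun x => by
    obtain ⟨e, he⟩ := hγe x
    exact exists_isKumClass hpS hK hζ hζK (hγ0 x) e he (hγv x)
  choose cl hclS hclK using hcl
  refine ⟨fun x => ⟨cl x, hclS x⟩, fun x y hxy => ?_⟩
  have hxy' : cl x = cl y := congrArg Subtype.val hxy
  have h1 := hclK x
  rw [hxy'] at h1
  exact hinj x y (γ x) (γ y) (hrep x) (hrep y) (exists_of_isKumClass_eq hζ hζK h1 (hclK y))

/-- A base field contains a primitive `p`-th root of unity. -/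
theorem exists_primitiveRoot_mem (hK : IsBaseField p S K) :
    ∃ ζ : Qb, IsPrimitiveRoot ζ p ∧ ζ ∈ K := by
  obtain ⟨ζ, hζ⟩ := exists_primitiveRoot_Qbar p
  refine ⟨ζ, hζ, (mem_iff_forall_apply_eq K ζ).mpr fun g hg => ?_⟩
  exact (cycloChar_eq_one_iff p g hζ).mp (hK.cyc g hg)

/-- **G3 "≥" for a base field**, abstract form: see `exists_injective_Sha2`. -/
theorem exists_injective_Sha2_of_isBaseField (hpS : ExtCitation.pPrime p ∈ S)
    (hK : IsBaseField p S K) {X : Type*} (rep : X → Qb → Prop)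
    (hex : ∀ x : X, ∃ γ : Qb, rep x γ ∧ γ ≠ 0 ∧ (∃ e : ℕ, γ ^ (p ^ e) ∈ K) ∧
      ∀ q : Nat.Primes, q ∉ S → ∀ A : ValuationSubring Qb, A.LiesOverPrime q →
        ∃ m : ℤ, A.valuation γ = A.valuation (((q : ℕ) : Qb) ^ m))
    (hinj : ∀ (x y : X) (γ γ' : Qb), rep x γ → rep y γ' →
      (∃ a₁ ∈ K, a₁ ≠ 0 ∧ ∀ q : Nat.Primes, q ∉ S → ∀ A : ValuationSubring Qb,
        A.LiesOverPrime q →
        ∃ m : ℤ, A.valuation (γ / γ' / a₁) = A.valuation (((q : ℕ) : Qb) ^ ((p : ℤ) * m))) →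
      x = y) :
    ∃ Φ : X → Sha2 p S K.fixingSubgroup, Function.Injective Φ := by
  obtain ⟨ζ, hζ, hζK⟩ := exists_primitiveRoot_mem hK
  exact exists_injective_Sha2 hpS hK.unram hζ hζK rep hex hinj

/-- **G3 "≥" for a base field**, dimension form: if `#X = p ^ c` then `c ≤ dim Ш²(U; 𝔽_p)`. -/
theorem le_finrank_Sha2 (hpS : ExtCitation.pPrime p ∈ S)
    (hK : IsBaseField p S K) {X : Type*} (rep : X → Qb → Prop)
    (hex : ∀ x : X, ∃ γ : Qb, rep x γ ∧ γ ≠ 0 ∧ (∃ e : ℕ, γ ^ (p ^ e) ∈ K) ∧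
      ∀ q : Nat.Primes, q ∉ S → ∀ A : ValuationSubring Qb, A.LiesOverPrime q →
        ∃ m : ℤ, A.valuation γ = A.valuation (((q : ℕ) : Qb) ^ m))
    (hinj : ∀ (x y : X) (γ γ' : Qb), rep x γ → rep y γ' →
      (∃ a₁ ∈ K, a₁ ≠ 0 ∧ ∀ q : Nat.Primes, q ∉ S → ∀ A : ValuationSubring Qb,
        A.LiesOverPrime q →
        ∃ m : ℤ, A.valuation (γ / γ' / a₁) = A.valuation (((q : ℕ) : Qb) ^ ((p : ℤ) * m))) →
      x = y)
    (c : ℕ) (hc : Nat.card X = p ^ c) [Module.Finite (ZMod p) (Sha2 p S K.fixingSubgroup)] :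
    c ≤ Module.finrank (ZMod p) (Sha2 p S K.fixingSubgroup) := by
  have hp : p.Prime := Fact.out
  obtain ⟨Φ, hΦ⟩ := exists_injective_Sha2_of_isBaseField hpS hK rep hex hinj
  haveI : Finite (Sha2 p S K.fixingSubgroup) := Module.finite_of_finite (ZMod p)
  have h1 := Nat.card_le_card_of_injective Φ hΦ
  rw [hc, Module.natCard_eq_pow_finrank (K := ZMod p), Nat.card_zmod] at h1
  exact (Nat.pow_le_pow_iff_right hp.one_lt).mp h1

end Classes

end Fermat.Agent.PT.HasseGe
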