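import Fermat.Agent.PT.G.HasseGe
import Fermat.Agent.PT.G.GeIdeal

/-!
# PT, G3 "≥": `Cl_S(K) / p` injects into `Ш²(G_K; 𝔽_p)`

`K` a base field for `(p, S)`, `p ∈ S`, `U = Gal(ℚ̄/K)`, `S_K = primesOver K S`.  Assembly of the
ideal-theoretic half (`PT/G/GeIdeal.lean`: radical representatives of ideal classes) with the
cohomological half (`PT/G/HasseGe.lean`: Kummer classes of radical elements):

* `exists_injective_ClSMod_Sha2` : an injection `Cl_S / p ↪ Ш²(U; 𝔽_p)`;
* `card_ClSMod_le_card_Sha2`, `le_finrank_Sha2_of_card_ClSMod` : the resulting inequalities.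
-/

set_option autoImplicit false
set_option linter.style.haveILetI false

namespace Fermat.Agent.PT.HasseGe

local notation "Qb" => AlgebraicClosure ℚ
local notation "GQ" => (AlgebraicClosure ℚ ≃ₐ[ℚ] AlgebraicClosure ℚ)

open IsDedekindDomain NumberField Fermat.Agent.PT.KumBridge Fermat.Agent.PT.SelmerSeq
  Fermat.Agent.PT.GeIdeal Fermat.Agent.PT.Base
open scoped nonZeroDivisors

variable (p : ℕ) [Fact p.Prime] (S : Finset Nat.Primes) (K : IntermediateField ℚ Qb)
  [NumberField K]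

/-- **G3 "≥".** For a base field `K` (`p ∈ S`), the group `Cl_S(K) / p` injects into
`Ш²(G_K; 𝔽_p)`. -/
theorem exists_injective_ClSMod_Sha2 (hpS : ExtCitation.pPrime p ∈ S)
    (hK : IsBaseField p S K) :
    ∃ Φ : ClSMod K (primesOver K S) p → Sha2 p S K.fixingSubgroup, Function.Injective Φ := by
  refine exists_injective_Sha2_of_isBaseField hpS hK
    (fun (x : ClSMod K (primesOver K S) p) (γ : Qb) =>
      ∃ I : (FractionalIdeal (𝓞 K)⁰ K)ˣ,
        (QuotientGroup.mk (QuotientGroup.mk I : ClS K (primesOver K S)) :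
          ClSMod K (primesOver K S) p) = x ∧ RadRep K S γ I) ?_ ?_
  · intro x
    obtain ⟨I, γ, e, hγ0, hγK, hx, hrep⟩ := exists_radRep_mod p hK.unram x
    exact ⟨γ, ⟨I, hx, hrep⟩, hγ0, ⟨e, hγK⟩, fun q hq A hA => hrep.exists_zpow q hq A hA⟩
  · rintro x y γ γ' ⟨I, hx, hrep⟩ ⟨I', hy, hrep'⟩ ⟨a₁, ha₁, ha₁0, h⟩
    rw [← hx, ← hy]
    exact mk_mk_eq_of_valuation p hK.unram hrep hrep' a₁ ha₁ ha₁0 h

/-- **G3 "≥", cardinality form.** -/
theorem card_ClSMod_le_card_Sha2 (hpS : ExtCitation.pPrime p ∈ S) (hK : IsBaseField p S K)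
    [Finite (Sha2 p S K.fixingSubgroup)] :
    Nat.card (ClSMod K (primesOver K S) p) ≤ Nat.card (Sha2 p S K.fixingSubgroup) := by
  obtain ⟨Φ, hΦ⟩ := exists_injective_ClSMod_Sha2 p S K hpS hK
  exact Nat.card_le_card_of_injective Φ hΦ

/-- **G3 "≥", dimension form**: if `#(Cl_S / p) = p ^ c`, then `c ≤ dim Ш²(G_K; 𝔽_p)`. -/
theorem le_finrank_Sha2_of_card_ClSMod (hpS : ExtCitation.pPrime p ∈ S)
    (hK : IsBaseField p S K) (c : ℕ) (hc : Nat.card (ClSMod K (primesOver K S) p) = p ^ c)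
    [Module.Finite (ZMod p) (Sha2 p S K.fixingSubgroup)] :
    c ≤ Module.finrank (ZMod p) (Sha2 p S K.fixingSubgroup) := by
  have hp : p.Prime := Fact.out
  haveI : Finite (Sha2 p S K.fixingSubgroup) := Module.finite_of_finite (ZMod p)
  have h1 := card_ClSMod_le_card_Sha2 p S K hpS hK
  rw [hc, Module.natCard_eq_pow_finrank (K := ZMod p), Nat.card_zmod] at h1
  exact (Nat.pow_le_pow_iff_right hp.one_lt).mp h1

end Fermat.Agent.PT.HasseGe
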