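/-
PT, (G3-LE), final form: `Ш²(G_K; 𝔽_p)` injects into `Cl_S(K) / p` for every base field `K`
(the literal `Base.G3LeHyp p S`), unconditionally for odd `p ∈ S`:
`g3Le_of_hnt` (PT/G/HasseKer.lean) fed with the cyclic Hasse norm theorem `hntStatement`
(PT/G/HasseHNT.lean, i.e. `hnt_Qb` of PT/G/HasseBridge.lean).
-/
import Fermat.Agent.PT.G.HasseKer
import Fermat.Agent.PT.G.HasseHNT

set_option autoImplicit false

namespace Fermat.Agent.PT.G

/-- **(G3-LE)**: `Ш²(G_K; 𝔽_p)` injects into `Cl_S(K) / p` for every base field `K`. -/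
theorem g3LeHyp {p : ℕ} [Fact p.Prime] {S : Finset Nat.Primes} (hp2 : p ≠ 2)
    (hpS : ExtCitation.pPrime p ∈ S) : Fermat.Agent.PT.Base.G3LeHyp p S :=
  g3Le_of_hnt p S hpS (hntStatement p hp2 S)

end Fermat.Agent.PT.G
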