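import Mathlib
import Fermat.Agent.CFT.LocNorm.NumberField
import Fermat.Agent.PT.G.KumBridge
import Fermat.Agent.PT.G.KumHens
import Fermat.Agent.PT.G.KumDense
import Fermat.Agent.PT.G.ValConj

/-!
# Norms from the henselisation are congruence norms (PT, layer G, G3-ASM (c))

`E ≤ M` number fields inside `ℚ̄`, `M / E` Galois of prime degree `p`, `A` a valuation subring of
`ℚ̄` over the rational prime `q`, `σ` an element of the decomposition group of `A` fixing `E` but
not `M` (so the prime of `E` below `A` does not split in `M`).  If `a ∈ Eˣ` is a norm from the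
"henselisation" of `M` at `A`, i.e. `a = ∏_{i < p} σ^i b` with `b ∈ ℚ̄ˣ` fixed by `D_A ∩ G_M`,
then `a` is congruent to a norm from `M` modulo every power of the prime `v` of `E` below `A`:
`a ∈ HNT.normCongr M v`.

The arithmetic input is the density of `M` in the fixed field of `D_A ∩ G_M` for the valuation
of `A` (`KumDense`, transported to an arbitrary `A` over `q` by conjugacy, `ValConj`).
-/

set_option autoImplicit false

namespace Fermat.Agent.PT.G

local notation "Qb" => AlgebraicClosure ℚ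
local notation "GQ" => (AlgebraicClosure ℚ ≃ₐ[ℚ] AlgebraicClosure ℚ)

open IsDedekindDomain NumberField WithZero Fermat.Agent.PT.KumBridge Fermat.Agent.CFT
  Fermat.Agent.Lib.FrobeniusExists

open scoped Pointwise

section Valuation

variable (A : ValuationSubring Qb)

/-- The valuation of a valuation subring of `ℚ̄` over `q` has rank one: every nonzero element
has valuation at least that of a power of `q`. -/
theorem exists_pow_valuation_le {q : ℕ} (hq : q.Prime) (hA : A.LiesOverPrime q) (b : Qb)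
    (hb : b ≠ 0) : ∃ k : ℕ, A.valuation ((q : Qb) ^ k) ≤ A.valuation b := by
  have hvq : A.valuation ((q : ℕ) : Qb) < 1 := A.mem_nonunits_iff.mp hA
  obtain ⟨m, hm0, hm⟩ := (isAlgebraic_int b⁻¹).exists_integral_multiple
  have hfin : FiniteMultiplicity (q : ℤ) m := by
    rw [Int.finiteMultiplicity_iff]
    exact ⟨by simpa using hq.ne_one, hm0⟩
  obtain ⟨c, hc, hqc⟩ := hfin.exists_eq_pow_mul_and_not_dvd
  refine ⟨multiplicity (q : ℤ) m, ?_⟩
  have h1 : A.valuation ((m : ℤ) • b⁻¹) ≤ 1 := val_le_one_of_isIntegral _ hm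
  have hc1 : A.valuation ((c : ℤ) : Qb) = 1 := val_intCast_eq_one _ hq hvq hqc
  have h2 : ((m : ℤ) • b⁻¹ : Qb) = (q : Qb) ^ multiplicity (q : ℤ) m * (c : Qb) * b⁻¹ := by
    rw [zsmul_eq_mul]
    conv_lhs => rw [hc]
    push_cast
    ring
  rw [h2, map_mul, map_mul, hc1, mul_one, map_inv₀] at h1
  have hb0 : 0 < A.valuation b := zero_lt_iff.mpr ((Valuation.ne_zero_iff _).mpr hb)
  rwa [← div_eq_mul_inv, div_le_one₀ hb0] at h1

/-- Elements of the decomposition group preserve the relation `v x ≤ v (q ^ n)`. -/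
theorem valuation_apply_le_natCast_pow_iff {g : GQ} (hg : g ∈ A.decompositionSubgroup ℚ)
    (x : Qb) (q n : ℕ) (hq : q ≠ 0) :
    A.valuation (g x) ≤ A.valuation ((q : Qb) ^ n) ↔
      A.valuation x ≤ A.valuation ((q : Qb) ^ n) := by
  have hc0 : ((q : Qb) ^ n) ≠ 0 := pow_ne_zero _ (Nat.cast_ne_zero.mpr hq)
  have hv0 : 0 < A.valuation ((q : Qb) ^ n) := zero_lt_iff.mpr ((Valuation.ne_zero_iff _).mpr hc0)
  have hgc : g ((q : Qb) ^ n) = (q : Qb) ^ n := by rw [map_pow, map_natCast]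
  have h1 := Kummer.valuation_apply_le_one_iff_of_mem_decompositionSubgroup A hg (x / (q : Qb) ^ n)
  rw [map_div₀, hgc, map_div₀, map_div₀, div_le_one₀ hv0, div_le_one₀ hv0] at h1
  exact h1

/-- `padicPlace q` lies over `q`. -/
theorem liesOverPrime_padicPlace (q : ℕ) [Fact q.Prime] : (padicPlace q).LiesOverPrime q := by
  unfold ValuationSubring.LiesOverPrime
  rw [ValuationSubring.mem_nonunits_iff_or]
  right
  rw [Fermat.Agent.PT.LocDec.mem_padicPlace_iff_nq]
  have h1 : Fermat.Agent.PT.LocDec.nq q ((q : Qb)⁻¹) = (q : ℝ) := by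
    have := Fermat.Agent.PT.LocDec.nq_zpow q (q : Qb) (-1)
    rw [zpow_neg_one, zpow_neg_one, Fermat.Agent.PT.LocDec.nq_natCast_self, inv_inv] at this
    exact this
  rw [h1, not_le]
  exact_mod_cast (Fact.out : q.Prime).one_lt

/-- **Density of a field in its henselisation**, at an arbitrary valuation subring `A` of `ℚ̄`
over `q`: every element fixed by `D_A ∩ G_K` is congruent to an element of `K` modulo `q ^ c`
at `A`, for every `c`.  (`K` is any intermediate field.) -/
theorem exists_valuation_sub_le_of_fixed {q : ℕ} (hq : q.Prime) (hA : A.LiesOverPrime q)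
    (K : IntermediateField ℚ Qb) (x : Qb)
    (hx : ∀ g ∈ A.decompositionSubgroup ℚ, g ∈ K.fixingSubgroup → g x = x) (c : ℕ) :
    ∃ y ∈ K, A.valuation (x - y) ≤ A.valuation ((q : Qb) ^ c) := by
  have : Fact q.Prime := ⟨hq⟩
  obtain ⟨g, rfl⟩ := exists_smul_eq hq (padicPlace q) A (liesOverPrime_padicPlace q) hA
  obtain ⟨y, hyK, hy⟩ := Kummer.exists_sub_div_mem_smul_padicPlace q g K hx c
  refine ⟨y, hyK, ?_⟩
  have hq0 : (0 : _) < (g • padicPlace q).valuation ((q : Qb) ^ c) :=
    zero_lt_iff.mpr ((Valuation.ne_zero_iff _).mpr (pow_ne_zero c (by exact_mod_cast hq.ne_zero)))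
  rw [← ValuationSubring.valuation_le_one_iff, map_div₀] at hy
  exact (div_le_one₀ hq0).mp hy

/-- Multiplicative form of density: nonzero elements of the field fixed by `D_A ∩ G_M` are
approximated multiplicatively by elements of `M`. -/
theorem exists_div_sub_one_le {q : ℕ} (hq : q.Prime) (hA : A.LiesOverPrime q)
    (M : IntermediateField ℚ Qb) (b : Qb) (hb0 : b ≠ 0)
    (hbfix : ∀ g ∈ A.decompositionSubgroup ℚ, g ∈ M.fixingSubgroup → g b = b) (n : ℕ) :
    ∃ y ∈ M, y ≠ 0 ∧ A.valuation (b / y - 1) ≤ A.valuation ((q : Qb) ^ n) := by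
  have hvq : A.valuation ((q : ℕ) : Qb) < 1 := A.mem_nonunits_iff.mp hA
  have hq0 : ((q : ℕ) : Qb) ≠ 0 := Nat.cast_ne_zero.mpr hq.ne_zero
  have ht0 : 0 < A.valuation ((q : ℕ) : Qb) := zero_lt_iff.mpr ((Valuation.ne_zero_iff _).mpr hq0)
  obtain ⟨k, hk⟩ := exists_pow_valuation_le A hq hA b hb0
  obtain ⟨y, hyM, hy⟩ := exists_valuation_sub_le_of_fixed A hq hA M b hbfix (n + (k + 1))
  have hvb0 : 0 < A.valuation b := zero_lt_iff.mpr ((Valuation.ne_zero_iff _).mpr hb0)
  -- `v (q ^ (n + (k+1))) ≤ v (q ^ n) * v (q ^ (k+1))` and `v (q ^ (k+1)) < v b`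
  have h1 : A.valuation ((q : Qb) ^ (k + 1)) < A.valuation b := by
    refine lt_of_lt_of_le ?_ hk
    rw [map_pow, map_pow, pow_succ]
    exact mul_lt_of_lt_one_right (pow_pos ht0 k) hvq
  have h2 : A.valuation ((q : Qb) ^ (n + (k + 1))) ≤ A.valuation ((q : Qb) ^ (k + 1)) := by
    rw [pow_add, map_mul]
    refine mul_le_of_le_one_left zero_le ?_
    rw [map_pow]
    exact pow_le_one₀ zero_le hvq.le
  have hlt : A.valuation (b - y) < A.valuation b := lt_of_le_of_lt (hy.trans h2) h1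
  have hyb : A.valuation y = A.valuation b := by
    have h3 := Valuation.map_sub_eq_of_lt_left A.valuation hlt
    rwa [sub_sub_cancel] at h3
  have hy0 : y ≠ 0 := by
    rintro rfl
    rw [map_zero] at hyb
    exact (ne_of_gt hvb0) hyb.symm
  refine ⟨y, hyM, hy0, ?_⟩
  have e : b / y - 1 = (b - y) / y := by
    field_simp
  rw [e, map_div₀, hyb, div_le_iff₀ hvb0]
  calc A.valuation (b - y) ≤ A.valuation ((q : Qb) ^ (n + (k + 1))) := hy
    _ = A.valuation ((q : Qb) ^ n) * A.valuation ((q : Qb) ^ (k + 1)) := by rw [pow_add, map_mul]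
    _ ≤ A.valuation ((q : Qb) ^ n) * A.valuation b := mul_le_mul_right h1.le _

/-- Comparison of the valuation of `A` with the adic valuation of the prime below `A`:
`v_A x ≤ v_A (q ^ n)` implies `v x ≤ exp (-n)`. -/
theorem primeOf_valuation_le_exp (K : IntermediateField ℚ Qb) [NumberField K] {q : ℕ}
    (hq : q ≠ 0) (hA : A.LiesOverPrime q) (x : K) (n : ℕ)
    (h : A.valuation (algebraMap K Qb x) ≤ A.valuation ((q : Qb) ^ n)) :
    (primeOf K A hq hA).valuation K x ≤ exp (-(n : ℤ)) := by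
  rcases eq_or_ne x 0 with rfl | hx
  · simp
  set v := primeOf K A hq hA with hv
  obtain ⟨π, hπ⟩ := v.valuation_exists_uniformizer K
  have hπ0 : π ≠ 0 := by
    rintro rfl
    rw [map_zero] at hπ
    exact WithZero.coe_ne_zero hπ.symm
  have hπ0' : algebraMap K Qb π ≠ 0 := by
    rwa [Ne, map_eq_zero_iff _ (FaithfulSMul.algebraMap_injective K Qb)]
  set t := A.valuation (algebraMap K Qb π) with ht
  have ht0 : 0 < t := zero_lt_iff.mpr ((Valuation.ne_zero_iff _).mpr hπ0')
  have hqK0 : ((q : ℕ) : K) ≠ 0 := by exact_mod_cast hq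
  have hvq : A.valuation ((q : ℕ) : Qb) < 1 := A.mem_nonunits_iff.mp hA
  have h1 := valuation_eq_zpow_uniformizer K A hq hA hπ (Units.mk0 _ hqK0)
  rw [Units.val_mk0, map_natCast, ← ht] at h1
  set e := SelmerSeq.ordK K v (Units.mk0 _ hqK0) with he
  have ht1 : t ≤ 1 := valuation_le_one_of_primeOf K A hq hA π (by
    rw [hπ, ← WithZero.exp_zero, WithZero.exp_le_exp]; norm_num)
  have ht1' : t < 1 := by
    refine lt_of_le_of_ne ht1 fun h => ?_
    rw [h, one_zpow] at h1
    exact (ne_of_lt hvq) h1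
  have he1 : 0 < e := by
    rw [h1] at hvq
    exact (zpow_lt_one_iff_right_of_lt_one₀ ht0 ht1').mp hvq
  have h2 := valuation_eq_zpow_uniformizer K A hq hA hπ (Units.mk0 x hx)
  rw [Units.val_mk0, ← ht, ← hv] at h2
  rw [h2, map_pow, h1, ← zpow_natCast, ← zpow_mul,
    zpow_le_zpow_iff_right_of_lt_one₀ ht0 ht1'] at h
  have h3 : (n : ℤ) ≤ SelmerSeq.ordK K v (Units.mk0 x hx) := by
    refine le_trans ?_ h
    nlinarith [Int.natCast_nonneg n]
  rw [SelmerSeq.ordK_eq_neg_log, Units.val_mk0] at h3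
  have hvx : v.valuation K x ≠ 0 := (Valuation.ne_zero_iff _).mpr hx
  rw [← log_le_iff_le_exp hvx]
  omega

end Valuation

section Restrict

variable (E M : IntermediateField ℚ Qb) [Algebra E M] [IsScalarTower E M Qb]

/-- An element of `G_ℚ` fixing `E` restricts to an `E`-automorphism of a normal extension `M`
of `E` inside `ℚ̄`. -/
theorem exists_algEquiv_restrict [Normal E M] (σ : GQ) (hσE : σ ∈ E.fixingSubgroup) :
    ∃ τ : M ≃ₐ[E] M, ∀ y : M, algebraMap M Qb (τ y) = σ (algebraMap M Qb y) := by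
  refine ⟨(IntermediateField.fixingSubgroupEquiv E ⟨σ, hσE⟩).restrictNormal M, fun y => ?_⟩
  rw [AlgEquiv.restrictNormal_commutes]
  rfl

omit [IsScalarTower E M Qb] in
theorem algEquiv_restrict_pow (σ : GQ) (τ : M ≃ₐ[E] M)
    (h : ∀ y : M, algebraMap M Qb (τ y) = σ (algebraMap M Qb y)) (j : ℕ) (y : M) :
    algebraMap M Qb ((τ ^ j) y) = (σ ^ j) (algebraMap M Qb y) := by
  induction j with
  | zero => rfl
  | succ j ih =>
    rw [pow_succ', pow_succ', AlgEquiv.mul_apply, AlgEquiv.mul_apply, h, ih]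

end Restrict

section Main

/-- **Approximation of a henselian norm** (the shape of hypothesis `h2` of the Hasse norm theorem
in `ℚ̄`-vocabulary).  Let `A` be a valuation subring of `ℚ̄` over `q`, `σ ∈ D_A`, and `M` an
intermediate field.  For `b ≠ 0` fixed by
`D_A ∩ G_M` the element `∏_{i < p} σ^i b` is congruent, modulo any power of `q` at `A`, to
`∏_{i < p} σ^i y` for some `y ∈ Mˣ`. -/
theorem exists_prod_div_sub_one_le (A : ValuationSubring Qb) {q : ℕ} (hq : q.Prime)
    (hA : A.LiesOverPrime q) (M : IntermediateField ℚ Qb)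
    {σ : GQ} (hσD : σ ∈ A.decompositionSubgroup ℚ) (p : ℕ) (b : Qb) (hb0 : b ≠ 0)
    (hbfix : ∀ g ∈ A.decompositionSubgroup ℚ, g ∈ M.fixingSubgroup → g b = b) (n : ℕ) :
    ∃ y ∈ M, y ≠ 0 ∧
      A.valuation ((∏ i ∈ Finset.range p, (σ ^ i) b) / (∏ i ∈ Finset.range p, (σ ^ i) y) - 1) ≤
        A.valuation ((q : Qb) ^ n) := by
  obtain ⟨y, hyM, hy0, hy⟩ := exists_div_sub_one_le A hq hA M b hb0 hbfix n
  refine ⟨y, hyM, hy0, ?_⟩
  have e : (∏ i ∈ Finset.range p, (σ ^ i) b) / (∏ i ∈ Finset.range p, (σ ^ i) y) =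
      ∏ i ∈ Finset.range p, (σ ^ i) (b / y) := by
    rw [← Finset.prod_div_distrib]
    refine Finset.prod_congr rfl fun i _ => ?_
    rw [map_div₀]
  rw [e]
  have hγ : A.valuation ((q : Qb) ^ n) ≤ 1 := by
    rw [map_pow]
    exact pow_le_one₀ zero_le (A.mem_nonunits_iff.mp hA).le
  refine HNT.val_prod_sub_one_le A.valuation hγ _ _ fun i _ => ?_
  have e2 : (σ ^ i) (b / y) - 1 = (σ ^ i) (b / y - 1) := by rw [map_sub, map_one]
  rw [e2, valuation_apply_le_natCast_pow_iff A (pow_mem hσD i) _ q n hq.ne_zero]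
  exact hy

variable (E M : IntermediateField ℚ Qb) [Algebra E M] [IsScalarTower E M Qb] [IsGalois E M]
  [FiniteDimensional E M]

/-- For `M / E` Galois of prime degree `p` inside `ℚ̄` and `σ ∈ G_E`, `σ ∉ G_M`, the norm of
`y ∈ M` is `∏_{i < p} σ^i y`. -/
theorem algebraMap_norm_eq_prod_pow {p : ℕ} (hp : p.Prime) (hdeg : Module.finrank E M = p)
    (σ : GQ) (hσE : σ ∈ E.fixingSubgroup) (hσM : σ ∉ M.fixingSubgroup) (y : M) :
    algebraMap E Qb (Algebra.norm E y) = ∏ i ∈ Finset.range p, (σ ^ i) (algebraMap M Qb y) := by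
  obtain ⟨τ, hτ⟩ := exists_algEquiv_restrict E M σ hσE
  have hτ1 : τ ≠ 1 := by
    rintro rfl
    apply hσM
    rw [IntermediateField.mem_fixingSubgroup_iff]
    intro z hz
    exact (hτ ⟨z, hz⟩).symm
  rw [IsScalarTower.algebraMap_apply E M Qb, LocNorm.algebraMap_norm_eq_nm hp hdeg τ hτ1,
    LocNorm.nm, map_prod]
  refine Finset.prod_congr rfl fun i _ => ?_
  exact algEquiv_restrict_pow E M σ τ hτ i y

variable [NumberField E] [NumberField M]

/-- **From congruences at `A` to the group of local norms.**  If `a ∈ Eˣ` is congruent, modulo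
every power of `q` at the valuation subring `A`, to `∏_{i < p} σ^i y` for some `y ∈ Mˣ`
(where `σ ∈ G_E`, `σ ∉ G_M`, `M / E` Galois of prime degree `p`), then `a` lies in the group
`HNT.normCongr M v` of local norms at the prime `v` of `E` below `A`. -/
theorem mem_normCongr_of_forall_exists {p : ℕ} (hp : p.Prime) (hdeg : Module.finrank E M = p)
    (A : ValuationSubring Qb) {q : ℕ} (hq : q ≠ 0) (hA : A.LiesOverPrime q)
    (σ : GQ) (hσE : σ ∈ E.fixingSubgroup) (hσM : σ ∉ M.fixingSubgroup) (a : Eˣ)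
    (h : ∀ n : ℕ, ∃ y : Qb, y ∈ M ∧ y ≠ 0 ∧
      A.valuation (algebraMap E Qb (a : E) / ∏ i ∈ Finset.range p, (σ ^ i) y - 1) ≤
        A.valuation ((q : Qb) ^ n)) :
    a ∈ HNT.normCongr M (primeOf E A hq hA) := by
  rw [HNT.mem_normCongr]
  intro n
  obtain ⟨y, hyM, hy0, hy⟩ := h n
  have hyM0 : (⟨y, hyM⟩ : M) ≠ 0 := by
    intro h
    exact hy0 (congrArg Subtype.val h)
  refine ⟨⟨y, hyM⟩, hyM0, primeOf_valuation_le_exp A E hq hA _ n ?_⟩
  rw [map_sub, map_div₀, map_one, algebraMap_norm_eq_prod_pow E M hp hdeg σ hσE hσM]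
  exact hy

/-- **Norms from the henselisation are congruence norms.**  Let `M / E` be a Galois extension of
prime degree `p` of number fields inside `ℚ̄`, `A` a valuation subring of `ℚ̄` over `q`, and
`σ ∈ D_A ∩ G_E`, `σ ∉ G_M`.  If `a ∈ Eˣ` is of the form `∏_{i < p} σ^i b` with `b ≠ 0` fixed by `D_A ∩ G_M`, then `a` is
congruent to a norm from `M` modulo every power of the prime of `E` below `A`. -/
theorem mem_normCongr_of_prod_eq {p : ℕ} (hp : p.Prime) (hdeg : Module.finrank E M = p)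
    (A : ValuationSubring Qb) {q : ℕ} (hq : q.Prime) (hA : A.LiesOverPrime q)
    (σ : GQ) (hσD : σ ∈ A.decompositionSubgroup ℚ) (hσE : σ ∈ E.fixingSubgroup)
    (hσM : σ ∉ M.fixingSubgroup)
    (a : Eˣ) (b : Qb) (hb0 : b ≠ 0)
    (hbfix : ∀ g ∈ A.decompositionSubgroup ℚ, g ∈ M.fixingSubgroup → g b = b)
    (hab : algebraMap E Qb (a : E) = ∏ i ∈ Finset.range p, (σ ^ i) b) :
    a ∈ HNT.normCongr M (primeOf E A hq.ne_zero hA) := by
  refine mem_normCongr_of_forall_exists E M hp hdeg A hq.ne_zero hA σ hσE hσM a fun n => ?_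
  obtain ⟨y, hyM, hy0, hy⟩ :=
    exists_prod_div_sub_one_le A hq hA M hσD p b hb0 hbfix n
  exact ⟨y, hyM, hy0, by rw [hab]; exact hy⟩

end Main

end Fermat.Agent.PT.G
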