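/-
PT / G : restriction to a subgroup of finite index is injective up to the index, in degree 2,
with explicit cochains (no transfer).

* `isMulCoboundary₂_pow_index` : if a multiplicative 2-cocycle `c` on `G` restricts to a
  coboundary on a subgroup `P` of finite index, then `c ^ [G : P]` is a coboundary.
* `isMulCoboundary₂_of_pow_of_pow` : if moreover `c ^ n` is a coboundary with `n` prime to the
  index, then `c` is a coboundary.
-/
import Mathlib

set_option autoImplicit false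
set_option linter.unusedSimpArgs false

namespace Fermat.Agent.PT.G

open groupCohomology

section dOne

variable {G A : Type*} [Group G] [CommGroup A] [MulDistribMulAction G A]

/-- The multiplicative coboundary of a 1-cochain. -/
def dOne (b : G → A) : G × G → A := fun x => x.1 • b x.2 / b (x.1 * x.2) * b x.1

lemma dOne_apply (b : G → A) (g h : G) : dOne b (g, h) = g • b h / b (g * h) * b g := rfl

lemma isMulCoboundary₂_iff (f : G × G → A) : IsMulCoboundary₂ f ↔ ∃ b : G → A, f = dOne b := by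
  constructor
  · rintro ⟨b, hb⟩
    exact ⟨b, funext fun x => (hb x.1 x.2).symm⟩
  · rintro ⟨b, rfl⟩
    exact ⟨b, fun _ _ => rfl⟩

lemma dOne_mul (b b' : G → A) : dOne (b * b') = dOne b * dOne b' := by
  funext x
  simp only [dOne, Pi.mul_apply, smul_mul']
  apply Additive.ofMul.injective
  simp only [ofMul_mul, ofMul_div, ofMul_inv, ofMul_one]
  abel

lemma dOne_one : dOne (1 : G → A) = 1 := by
  funext x
  simp [dOne]

lemma dOne_inv (b : G → A) : dOne b⁻¹ = (dOne b)⁻¹ := by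
  funext x
  simp only [dOne, Pi.inv_apply, smul_inv']
  apply Additive.ofMul.injective
  simp only [ofMul_mul, ofMul_div, ofMul_inv, ofMul_one]
  abel

lemma dOne_pow (b : G → A) (n : ℕ) : dOne (b ^ n) = dOne b ^ n := by
  induction n with
  | zero => simp [dOne_one]
  | succ n ih => rw [pow_succ, pow_succ, dOne_mul, ih]

lemma isMulCocycle₂_dOne (b : G → A) : IsMulCocycle₂ (dOne b) := by
  intro g h j
  simp only [dOne, smul_mul', smul_div', mul_smul, mul_assoc]
  apply Additive.ofMul.injective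
  simp only [ofMul_mul, ofMul_div, ofMul_inv, ofMul_one]
  abel

lemma isMulCocycle₂_mul {c c' : G × G → A} (hc : IsMulCocycle₂ c) (hc' : IsMulCocycle₂ c') :
    IsMulCocycle₂ (c * c') := by
  intro g h j
  simp only [Pi.mul_apply, smul_mul']
  rw [mul_mul_mul_comm, hc g h j, hc' g h j, mul_mul_mul_comm]

lemma isMulCocycle₂_inv {c : G × G → A} (hc : IsMulCocycle₂ c) : IsMulCocycle₂ c⁻¹ := by
  intro g h j
  simp only [Pi.inv_apply, smul_inv']
  rw [← mul_inv, ← mul_inv, hc g h j]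

lemma isMulCoboundary₂_mul {c c' : G × G → A} (hc : IsMulCoboundary₂ c)
    (hc' : IsMulCoboundary₂ c') : IsMulCoboundary₂ (c * c') := by
  rw [isMulCoboundary₂_iff] at hc hc' ⊢
  obtain ⟨b, rfl⟩ := hc
  obtain ⟨b', rfl⟩ := hc'
  exact ⟨b * b', (dOne_mul b b').symm⟩

lemma isMulCoboundary₂_inv {c : G × G → A} (hc : IsMulCoboundary₂ c) :
    IsMulCoboundary₂ c⁻¹ := by
  rw [isMulCoboundary₂_iff] at hc ⊢
  obtain ⟨b, rfl⟩ := hc
  exact ⟨b⁻¹, (dOne_inv b).symm⟩

lemma isMulCoboundary₂_pow {c : G × G → A} (hc : IsMulCoboundary₂ c) (n : ℕ) :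
    IsMulCoboundary₂ (c ^ n) := by
  rw [isMulCoboundary₂_iff] at hc ⊢
  obtain ⟨b, rfl⟩ := hc
  exact ⟨b ^ n, (dOne_pow b n).symm⟩

lemma isMulCoboundary₂_one : IsMulCoboundary₂ (1 : G × G → A) :=
  (isMulCoboundary₂_iff _).2 ⟨1, dOne_one.symm⟩

lemma isMulCoboundary₂_zpow {c : G × G → A} (hc : IsMulCoboundary₂ c) (n : ℤ) :
    IsMulCoboundary₂ (c ^ n) := by
  cases n with
  | ofNat n => simpa using isMulCoboundary₂_pow hc n
  | negSucc n => simpa [zpow_negSucc] using isMulCoboundary₂_inv (isMulCoboundary₂_pow hc (n + 1))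

end dOne

section Index

variable {G A : Type*} [Group G] [CommGroup A] [MulDistribMulAction G A]

/-- Step 2 of the averaging argument: a cocycle with `c (g, n) = 1` for `n ∈ P` has
`c ^ [G : P]` a coboundary. -/
lemma isMulCoboundary₂_pow_index_of_snd (P : Subgroup G) [P.FiniteIndex] (c : G × G → A)
    (hc : IsMulCocycle₂ c) (h1 : ∀ g : G, ∀ n ∈ P, c (g, n) = 1) :
    IsMulCoboundary₂ (c ^ P.index) := by
  classical
  have hfin : Finite (G ⧸ P) := Subgroup.finite_quotient_of_finiteIndex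
  let _ : Fintype (G ⧸ P) := Fintype.ofFinite _
  -- `c (g, ·)` is right `P`-invariant
  have hinv : ∀ g k : G, ∀ n ∈ P, c (g, k * n) = c (g, k) := by
    intro g k n hn
    have := hc g k n
    rw [h1 (g * k) n hn, h1 k n hn, smul_one, one_mul, one_mul] at this
    exact this.symm
  let F : G → G ⧸ P → A := fun g => Quotient.lift (fun k : G => c (g, k)) (by
    intro k k' hkk'
    have hmem : k⁻¹ * k' ∈ P := QuotientGroup.leftRel_apply.1 hkk'
    have : k' = k * (k⁻¹ * k') := by group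
    show c (g, k) = c (g, k')
    rw [this, hinv g k _ hmem])
  have hF : ∀ g k : G, F g (k : G ⧸ P) = c (g, k) := fun g k => rfl
  refine ⟨fun g => ∏ q : G ⧸ P, F g q, fun g h => ?_⟩
  -- product of the cocycle identity over the cosets
  have key : ∀ q : G ⧸ P, F (g * h) q * c (g, h) = g • F h q * F g (h • q) := by
    intro q
    induction q using QuotientGroup.induction_on with
    | H k =>
      have hsm : h • (k : G ⧸ P) = ((h * k : G) : G ⧸ P) := rfl
      rw [hsm, hF, hF, hF]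
      exact hc g h k
  have hprod : (∏ q : G ⧸ P, F (g * h) q) * c (g, h) ^ P.index
      = g • (∏ q : G ⧸ P, F h q) * ∏ q : G ⧸ P, F g q := by
    have h1' : ∏ q : G ⧸ P, (F (g * h) q * c (g, h)) = ∏ q : G ⧸ P, (g • F h q * F g (h • q)) :=
      Finset.prod_congr rfl fun q _ => key q
    rw [Finset.prod_mul_distrib, Finset.prod_mul_distrib, Finset.prod_const, Finset.card_univ,
      ← Nat.card_eq_fintype_card, ← Subgroup.index_eq_card] at h1'
    rw [h1', Finset.smul_prod']
    congr 1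
    exact Fintype.prod_equiv (MulAction.toPerm h) _ _ fun q => rfl
  show g • (∏ q : G ⧸ P, F h q) / (∏ q : G ⧸ P, F (g * h) q) * (∏ q : G ⧸ P, F g q)
    = (c ^ P.index) (g, h)
  rw [Pi.pow_apply, div_mul_eq_mul_div, div_eq_iff_eq_mul, ← hprod, mul_comm]

/-- Step 1: a cocycle which is trivial on `P × P` is cohomologous to one with `c (g, n) = 1` for
all `g` and all `n ∈ P`. -/
lemma exists_dOne_snd_eq_one (P : Subgroup G) (c : G × G → A) (hc : IsMulCocycle₂ c)
    (h1 : ∀ m ∈ P, ∀ n ∈ P, c (m, n) = 1) :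
    ∃ b : G → A, ∀ g : G, ∀ n ∈ P, (c * dOne b) (g, n) = 1 := by
  classical
  let t : G → G := fun g => ((g : G ⧸ P)).out
  have ht : ∀ g : G, (t g)⁻¹ * g ∈ P := fun g => by
    have : ((t g : G) : G ⧸ P) = (g : G ⧸ P) := QuotientGroup.out_eq' _
    exact QuotientGroup.eq.1 this
  have ht' : ∀ g : G, ∀ n ∈ P, t (g * n) = t g := fun g n hn => by
    have : ((g * n : G) : G ⧸ P) = (g : G ⧸ P) := by
      rw [QuotientGroup.eq]
      simpa [mul_assoc] using P.inv_mem hn
    show ((g * n : G) : G ⧸ P).out = ((g : G) : G ⧸ P).out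
    rw [this]
  have htP : ∀ n ∈ P, t n ∈ P := fun n hn => by
    have := ht n
    have h2 : (t n)⁻¹ = (t n)⁻¹ * n * n⁻¹ := by group
    have h3 : (t n)⁻¹ ∈ P := by
      rw [h2]; exact P.mul_mem this (P.inv_mem hn)
    simpa using P.inv_mem h3
  refine ⟨fun g => c (t g, (t g)⁻¹ * g), fun g n hn => ?_⟩
  have hbn : c (t n, (t n)⁻¹ * n) = 1 := h1 _ (htP n hn) _ (ht n)
  have hcoc := hc (t g) ((t g)⁻¹ * g) n
  rw [h1 _ (ht g) n hn, smul_one, one_mul] at hcoc
  have e1 : t g * ((t g)⁻¹ * g) = g := by group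
  have e2 : (t g)⁻¹ * (g * n) = (t g)⁻¹ * g * n := by group
  rw [e1] at hcoc
  show c (g, n) * (g • c (t n, (t n)⁻¹ * n) / c (t (g * n), (t (g * n))⁻¹ * (g * n))
    * c (t g, (t g)⁻¹ * g)) = 1
  rw [hbn, smul_one, ht' g n hn, e2, ← hcoc]
  apply Additive.ofMul.injective
  simp only [ofMul_mul, ofMul_div, ofMul_inv, ofMul_one]
  abel

/-- **Sylow step.** If a 2-cocycle on `G` restricts to a coboundary on a subgroup `P` of finite
index, then its `[G : P]`-th power is a coboundary. -/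
theorem isMulCoboundary₂_pow_index (P : Subgroup G) [P.FiniteIndex] (c : G × G → A)
    (hc : IsMulCocycle₂ c) (hP : IsMulCoboundary₂ (fun x : P × P => c ((x.1 : G), (x.2 : G)))) :
    IsMulCoboundary₂ (c ^ P.index) := by
  classical
  obtain ⟨x₀, hx₀⟩ := hP
  -- extend `x₀` by `1`
  let b₀ : G → A := fun g => if h : g ∈ P then x₀ ⟨g, h⟩ else 1
  have hb₀ : ∀ (g : G) (h : g ∈ P), b₀ g = x₀ ⟨g, h⟩ := fun g h => dif_pos h
  let c₁ : G × G → A := c * (dOne b₀)⁻¹
  have hc₁ : IsMulCocycle₂ c₁ := isMulCocycle₂_mul hc (isMulCocycle₂_inv (isMulCocycle₂_dOne b₀))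
  have h1 : ∀ m ∈ P, ∀ n ∈ P, c₁ (m, n) = 1 := by
    intro m hm n hn
    have := hx₀ ⟨m, hm⟩ ⟨n, hn⟩
    show c (m, n) * (m • b₀ n / b₀ (m * n) * b₀ m)⁻¹ = 1
    rw [hb₀ m hm, hb₀ n hn, hb₀ (m * n) (P.mul_mem hm hn), mul_inv_eq_one]
    exact this.symm
  obtain ⟨b₁, hb₁⟩ := exists_dOne_snd_eq_one P c₁ hc₁ h1
  have hc₂ : IsMulCocycle₂ (c₁ * dOne b₁) := isMulCocycle₂_mul hc₁ (isMulCocycle₂_dOne b₁)
  have h2 := isMulCoboundary₂_pow_index_of_snd P (c₁ * dOne b₁) hc₂ hb₁
  -- `c = (c₁ * dOne b₁) * dOne (b₀ * b₁⁻¹)`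
  have hceq : c = (c₁ * dOne b₁) * dOne (b₀ * b₁⁻¹) := by
    rw [dOne_mul, dOne_inv]
    funext x
    simp only [c₁, Pi.mul_apply, Pi.inv_apply]
    apply Additive.ofMul.injective
    simp only [ofMul_mul, ofMul_div, ofMul_inv, ofMul_one]
    abel
  have h3 : IsMulCoboundary₂ (dOne (b₀ * b₁⁻¹) ^ P.index) :=
    isMulCoboundary₂_pow ((isMulCoboundary₂_iff _).2 ⟨_, rfl⟩) _
  have : c ^ P.index = (c₁ * dOne b₁) ^ P.index * dOne (b₀ * b₁⁻¹) ^ P.index := by
    rw [← mul_pow, ← hceq]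
  rw [this]
  exact isMulCoboundary₂_mul h2 h3

/-- If `c ^ n` is a coboundary, `c` restricts to a coboundary on `P` and `n` is prime to the index
of `P`, then `c` is a coboundary. -/
theorem isMulCoboundary₂_of_pow_of_res (P : Subgroup G) [P.FiniteIndex] (c : G × G → A)
    (hc : IsMulCocycle₂ c) (hP : IsMulCoboundary₂ (fun x : P × P => c ((x.1 : G), (x.2 : G))))
    (n : ℕ) (hn : IsMulCoboundary₂ (c ^ n)) (hcop : Nat.Coprime n P.index) :
    IsMulCoboundary₂ c := by
  have h1 := isMulCoboundary₂_pow_index P c hc hP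
  have hb : (n : ℤ) * Nat.gcdA n P.index + (P.index : ℤ) * Nat.gcdB n P.index = 1 := by
    have := Nat.gcd_eq_gcd_ab n P.index
    rw [hcop.gcd_eq_one] at this
    exact_mod_cast this.symm
  have h2 : c = (c ^ n) ^ (Nat.gcdA n P.index) * (c ^ P.index) ^ (Nat.gcdB n P.index) := by
    rw [← zpow_natCast, ← zpow_natCast, ← zpow_mul, ← zpow_mul, ← zpow_add, hb, zpow_one]
  rw [h2]
  exact isMulCoboundary₂_mul (isMulCoboundary₂_zpow hn _) (isMulCoboundary₂_zpow h1 _)

end Index

end Fermat.Agent.PT.G
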