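import Mathlib
import Fermat.Agent.CFT.Recip.Defs
import Fermat.Agent.CFT.Recip.Transgression
import Fermat.Agent.CFT.Recip.OrdBridge
import Fermat.Agent.CFT.Recip.OmegaRam
import Fermat.Agent.CFT.Recip.OmegaFrob
import Fermat.Agent.CFT.Recip.NormCongr

/-!
# PT layer G, G2-"⊆", step (D1): valuation of a norm from an unramified extension

`K ⊆ L ⊆ Ω` number fields, `L/K` and `Ω/K` Galois, `ζ ∈ Ω` a primitive `ℓ`-th root of unity.

* `exists_fix_of_norm_unramified`: for a prime `𝔓 ∌ ℓ` of `Ω` with trivial inertia group over `K`,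
  above `𝔮`, and `w ∈ Lˣ`, there is `g ∈ Gal(Ω/K)`, trivial on `L`, with `g ζ = ζ ^ m` and
  `m ≡ N(𝔮) ^ ord_𝔮 (N_{L/K} w)` modulo `ℓ` (namely `g = Frob_𝔓 ^ ord`).
* `exists_fix_of_norm_unramified_rat`: the same when `𝔮` has degree one and is unramified over the
  rational prime `q` and `N_{L/K} w = b ∈ ℚ`: `m ≡ q ^ v_q(b)` modulo `ℓ`.
* `inertia_eq_bot_of_primitiveRoot`: `K(ζ)/K` is unramified outside `ℓ`.
* `orderOf_dvd_sum_of_mul_left_invariant`, `ordAt_algebraMap_rat_of_notMem_sq`: tools.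
-/

set_option autoImplicit false
set_option linter.unusedSectionVars false

open NumberField IsDedekindDomain

open scoped Pointwise nonZeroDivisors

namespace Fermat.Agent.PT.G

open Fermat.Agent.CFT.Recip

/-- `G ≃ (G ⧸ Z) × Z`, explicitly: `(c, z) ↦ c.out * z`. -/
noncomputable def cosetProdEquiv {G : Type*} [Group G] (Z : Subgroup G) : (G ⧸ Z) × Z ≃ G where
  toFun x := Quotient.out x.1 * x.2
  invFun g := ((g : G ⧸ Z), ⟨(Quotient.out (g : G ⧸ Z))⁻¹ * g, by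
    rw [← QuotientGroup.eq, QuotientGroup.out_eq']⟩)
  left_inv := by
    rintro ⟨c, z⟩
    have h1 : ((Quotient.out c * (z : G) : G) : G ⧸ Z) = c := by
      rw [QuotientGroup.mk_mul_of_mem _ z.2, QuotientGroup.out_eq']
    apply Prod.ext
    · exact h1
    · apply Subtype.ext
      show (Quotient.out ((Quotient.out c * (z : G) : G) : G ⧸ Z))⁻¹ * (Quotient.out c * z) = z
      rw [h1, inv_mul_cancel_left]
  right_inv := by
    intro g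
    show Quotient.out (g : G ⧸ Z) * ((Quotient.out (g : G ⧸ Z))⁻¹ * g) = g
    rw [mul_inv_cancel_left]

/-- A sum over a finite group of a function invariant under left multiplication by `φ` is
divisible by the order of `φ`. -/
theorem orderOf_dvd_sum_of_mul_left_invariant {G : Type*} [Group G] [Fintype G] (φ : G)
    (A : G → ℤ) (hA : ∀ h, A (φ * h) = A h) : (orderOf φ : ℤ) ∣ ∑ h, A h := by
  classical
  set Z := Subgroup.zpowers φ with hZ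
  have hAnat : ∀ (k : ℕ) (h : G), A (φ ^ k * h) = A h := by
    intro k
    induction k with
    | zero => intro h; rw [pow_zero, one_mul]
    | succ k ih => intro h; rw [pow_succ', mul_assoc, hA, ih]
  have hAZ : ∀ z ∈ Z, ∀ h, A (z * h) = A h := by
    intro z hz h
    obtain ⟨k, rfl⟩ := Subgroup.mem_zpowers_iff.mp hz
    rcases Int.eq_nat_or_neg k with ⟨m, rfl | rfl⟩
    · rw [zpow_natCast]; exact hAnat m h
    · rw [zpow_neg, zpow_natCast]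
      have := hAnat m ((φ ^ m)⁻¹ * h)
      rw [mul_inv_cancel_left] at this
      exact this.symm
  have h1 : ∑ h, A h = ∑ h, A h⁻¹ := (Equiv.sum_comp (Equiv.inv G) A).symm
  rw [h1]
  have h2 : ∑ h : G, A h⁻¹ = ∑ x : (G ⧸ Z) × Z, A (cosetProdEquiv Z x)⁻¹ :=
    (Equiv.sum_comp (cosetProdEquiv Z) (fun h => A h⁻¹)).symm
  rw [h2, Fintype.sum_prod_type]
  have h3 : ∀ c : G ⧸ Z, ∑ z : Z, A (cosetProdEquiv Z (c, z))⁻¹ =
      (orderOf φ : ℤ) * A (Quotient.out c)⁻¹ := by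
    intro c
    have h4 : ∀ z : Z, A (cosetProdEquiv Z (c, z))⁻¹ = A (Quotient.out c)⁻¹ := by
      intro z
      show A (Quotient.out c * (z : G))⁻¹ = _
      rw [mul_inv_rev]
      exact hAZ _ (Z.inv_mem z.2) _
    rw [Finset.sum_congr rfl (fun z _ => h4 z), Finset.sum_const, Finset.card_univ,
      Fintype.card_zpowers, nsmul_eq_mul]
  rw [Finset.sum_congr rfl (fun c _ => h3 c), ← Finset.mul_sum]
  exact dvd_mul_right _ _

section UnramNorm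

variable {K L Ω : Type*} [Field K] [NumberField K] [Field L] [NumberField L] [Algebra K L]
  [IsGalois K L] [Field Ω] [NumberField Ω] [Algebra L Ω] [Algebra K Ω] [IsScalarTower K L Ω]
  [IsGalois K Ω]

/-- If `Ω = K(ζ)` with `ζ` a primitive `ℓ`-th root of unity, then `Ω/K` is unramified at every
prime not containing `ℓ`. -/
theorem inertia_eq_bot_of_primitiveRoot {ℓ : ℕ} (hℓ : ℓ.Prime) (ζ : Ω) (hζ : IsPrimitiveRoot ζ ℓ)
    (hgen : ∀ g : Ω ≃ₐ[K] Ω, g ζ = ζ → g = 1) (P : Ideal (𝓞 Ω)) [P.IsPrime]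
    (hℓP : (ℓ : 𝓞 Ω) ∉ P) : P.inertia (Ω ≃ₐ[K] Ω) = ⊥ := by
  rw [eq_bot_iff]
  intro h hh
  rw [Subgroup.mem_bot]
  apply hgen
  have : NeZero ℓ := ⟨hℓ.ne_zero⟩
  have hζ' : IsPrimitiveRoot hζ.toInteger ℓ := hζ.toInteger_isPrimitiveRoot
  have hmem : h • hζ.toInteger - hζ.toInteger ∈ P := hh hζ.toInteger
  have hpow : (h • hζ.toInteger) ^ ℓ = 1 := by
    rw [← smul_pow', hζ'.pow_eq_one, smul_one]
  obtain ⟨a, -, ha⟩ := hζ'.eq_pow_of_pow_eq_one hpow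
  rw [← ha] at hmem
  have h1 : hζ.toInteger ^ a - hζ.toInteger ^ 1 ∈ P := by
    rw [pow_one]; exact hmem
  have h2 := or_pow_eq_of_sub_mem hℓ hζ' P inferInstance hℓP a 1 h1
  rw [pow_one, ha] at h2
  have h3 := congrArg (fun y : 𝓞 Ω => (y : Ω)) h2
  exact h3

/-- **(D1) Valuation of a norm from an unramified extension, Frobenius form.**  `K ⊆ L ⊆ Ω` Galois
over `K`, `ζ ∈ Ω` a primitive `ℓ`-th root of unity, `𝔓 ∌ ℓ` a prime of `Ω` with trivial inertia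
group over `K`, above `𝔮`.  For `w ∈ Lˣ` there is an automorphism `g` of `Ω/K`, trivial on `L`, with
`g ζ = ζ ^ m` and `m ≡ N(𝔮) ^ ord_𝔮(N_{L/K} w)` modulo `ℓ`. -/
theorem exists_fix_of_norm_unramified (ℓ : ℕ) [Fact ℓ.Prime] (ζ : Ω) (hζ : IsPrimitiveRoot ζ ℓ)
    (𝔮 : HeightOneSpectrum (𝓞 K)) (𝔓 : HeightOneSpectrum (𝓞 Ω)) [𝔓.asIdeal.LiesOver 𝔮.asIdeal]
    (hℓ𝔓 : (ℓ : 𝓞 Ω) ∉ 𝔓.asIdeal) (hin : 𝔓.asIdeal.inertia (Ω ≃ₐ[K] Ω) = ⊥)
    (w : L) (hw : w ≠ 0) :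
    ∃ (g : Ω ≃ₐ[K] Ω) (m : ℕ), (∀ x : L, g (algebraMap L Ω x) = algebraMap L Ω x) ∧
      g ζ = ζ ^ m ∧
      (m : ZMod ℓ) = ((Ideal.absNorm 𝔮.asIdeal : ℕ) : ZMod ℓ) ^ (ordAt 𝔮 (Algebra.norm K w)) := by
  classical
  have hℓ : ℓ.Prime := Fact.out
  have hfin : Finite (𝓞 Ω ⧸ 𝔓.asIdeal) := Ideal.finiteQuotientOfFreeOfNeBot _ 𝔓.ne_bot
  have hprime : 𝔓.asIdeal.IsPrime := 𝔓.isPrime
  obtain ⟨Φ, hΦ⟩ := IsArithFrobAt.exists_of_isInvariant (𝓞 K) (Ω ≃ₐ[K] Ω) 𝔓.asIdeal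
  set φ : L ≃ₐ[K] L := AlgEquiv.restrictNormal Φ L with hφ
  have hΦstab : Φ • 𝔓.asIdeal = 𝔓.asIdeal := hΦ.mem_stabilizer
  set N : ℕ := Ideal.absNorm 𝔮.asIdeal with hN
  set v : ℤ := ordAt 𝔮 (Algebra.norm K w) with hv
  -- the valuations of the conjugates of `w`
  let A : (L ≃ₐ[K] L) → ℤ := fun h => ordAt 𝔓 (algebraMap L Ω (h w))
  have hA : ∀ h, A (φ * h) = A h := by
    intro h
    show ordAt 𝔓 (algebraMap L Ω (φ (h w))) = ordAt 𝔓 (algebraMap L Ω (h w))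
    rw [hφ, AlgEquiv.restrictNormal_commutes]
    exact ordAt_smul_of_smul_eq 𝔓 Φ hΦstab _
  have hdvd := orderOf_dvd_sum_of_mul_left_invariant φ A hA
  have hsum : ∑ h, A h = v := by
    have h1 : algebraMap K L (Algebra.norm K w) = ∏ h : L ≃ₐ[K] L, h w :=
      Algebra.norm_eq_prod_automorphisms K w
    have h2 : algebraMap K Ω (Algebra.norm K w) = ∏ h : L ≃ₐ[K] L, algebraMap L Ω (h w) := by
      rw [IsScalarTower.algebraMap_apply K L Ω, h1, map_prod]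
    have h3 : ordAt 𝔓 (algebraMap K Ω (Algebra.norm K w)) = v := by
      rw [hv, ← ord_eq_ordAt, ← ord_eq_ordAt]
      exact ord_algebraMap_of_inertia_eq_bot 𝔮 𝔓 hin _
    rw [← h3, h2, ordAt_prod]
    intro h _
    rw [Ne, map_eq_zero, map_eq_zero]
    exact hw
  rw [hsum] at hdvd
  -- `φ ^ v = 1`
  have hφv : φ ^ v = 1 := orderOf_dvd_iff_zpow_eq_one.mp hdvd
  -- a natural exponent
  set n : ℕ := orderOf Φ with hn
  have hn0 : 0 < n := orderOf_pos Φ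
  set k : ℕ := (v % (n : ℤ)).toNat with hk
  have hk' : (k : ℤ) = v % (n : ℤ) :=
    Int.toNat_of_nonneg (Int.emod_nonneg _ (by exact_mod_cast hn0.ne'))
  have hΦk : Φ ^ k = Φ ^ v := by
    rw [← zpow_natCast, hk', hn, zpow_mod_orderOf]
  -- action on `ζ`
  have hΦζ : Φ ζ = ζ ^ N := by
    have h1 := frob_apply_zeta (K := K) ℓ 𝔓.asIdeal hℓ𝔓 Φ hΦ ζ hζ.pow_eq_one
    have h2 : 𝔓.asIdeal.under (𝓞 K) = 𝔮.asIdeal := (Ideal.LiesOver.over).symm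
    rw [h2] at h1
    exact h1
  have hΦpow : ∀ j : ℕ, (Φ ^ j) ζ = ζ ^ (N ^ j) := by
    intro j
    induction j with
    | zero => simp
    | succ j ih => rw [pow_succ', AlgEquiv.mul_apply, ih, map_pow, hΦζ, ← pow_mul, ← pow_succ']
  -- `N ^ n = 1` in `ZMod ℓ`
  have hNn : ((N : ℕ) : ZMod ℓ) ^ n = 1 := by
    have h1 := hΦpow n
    rw [hn, pow_orderOf_eq_one, AlgEquiv.one_apply] at h1
    have h2 : N ^ orderOf Φ ≡ 1 [MOD ℓ] := by
      have h3 : ζ ^ (N ^ orderOf Φ) = ζ ^ 1 := by rw [← h1, pow_one]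
      rw [pow_eq_pow_mod (N ^ orderOf Φ) hζ.pow_eq_one, pow_eq_pow_mod 1 hζ.pow_eq_one] at h3
      exact hζ.pow_inj (Nat.mod_lt _ hℓ.pos) (Nat.mod_lt _ hℓ.pos) h3
    have h4 := (ZMod.natCast_eq_natCast_iff _ _ _).mpr h2
    rw [hn]
    exact_mod_cast h4
  have hN0 : ((N : ℕ) : ZMod ℓ) ≠ 0 := by
    intro h0
    rw [h0, zero_pow hn0.ne'] at hNn
    exact zero_ne_one hNn
  refine ⟨Φ ^ k, N ^ k, ?_, hΦpow k, ?_⟩
  · intro x
    have h1 : AlgEquiv.restrictNormal (Φ ^ k) L = 1 := by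
      have h2 : AlgEquiv.restrictNormal (Φ ^ k) L = AlgEquiv.restrictNormalHom L (Φ ^ k) := rfl
      have h3 : φ = AlgEquiv.restrictNormalHom L Φ := rfl
      rw [h2, hΦk, map_zpow, ← h3, hφv]
    have h4 := AlgEquiv.restrictNormal_commutes (Φ ^ k) L x
    rw [h1] at h4
    exact h4.symm
  · rw [Nat.cast_pow]
    have h1 : v = (n : ℤ) * (v / (n : ℤ)) + (k : ℤ) := by
      rw [hk']; exact (Int.mul_ediv_add_emod v n).symm
    rw [h1, zpow_add₀ hN0, zpow_mul, zpow_natCast, hNn, one_zpow, one_mul, zpow_natCast]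

end UnramNorm

section RatVal

variable {K : Type*} [Field K] [NumberField K]

theorem ordAt_neg' (𝔮 : HeightOneSpectrum (𝓞 K)) (x : K) : ordAt 𝔮 (-x) = ordAt 𝔮 x := by
  rw [ordAt_def, ordAt_def, Valuation.map_neg]

/-- The valuation of a natural number at a prime `𝔮` unramified over `q`. -/
theorem ordAt_natCast_of_notMem_sq (𝔮 : HeightOneSpectrum (𝓞 K)) {q : ℕ} (hq : q.Prime)
    (hq𝔮 : (q : 𝓞 K) ∈ 𝔮.asIdeal) (hsq : (q : 𝓞 K) ∉ 𝔮.asIdeal ^ 2) (n : ℕ) (hn : n ≠ 0) :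
    ordAt 𝔮 ((n : ℕ) : K) = padicValNat q n := by
  have : Fact q.Prime := ⟨hq⟩
  have hq0 : (q : 𝓞 K) ≠ 0 := Nat.cast_ne_zero.mpr hq.ne_zero
  have hqK : ((q : ℕ) : K) ≠ 0 := Nat.cast_ne_zero.mpr hq.ne_zero
  -- `ordAt 𝔮 q = 1`
  have h1 : ordAt 𝔮 ((q : ℕ) : K) = 1 := by
    have h2 := (natCast_le_ordAt_algebraMap_iff (F := K) 𝔮 hq0 1).mpr (by simpa using hq𝔮)
    have h3 := (natCast_le_ordAt_algebraMap_iff (F := K) 𝔮 hq0 2).not.mpr hsq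
    simp only [map_natCast, Nat.cast_one, Nat.cast_ofNat] at h2 h3
    omega
  -- `ordAt 𝔮 m = 0` for `q ∤ m`
  have h0 : ∀ m : ℕ, ¬ q ∣ m → ordAt 𝔮 ((m : ℕ) : K) = 0 := by
    intro m hm
    have hm0 : (m : 𝓞 K) ≠ 0 := by
      rw [Nat.cast_ne_zero]
      rintro rfl
      exact hm (dvd_zero q)
    have h2 := ordAt_algebraMap_nonneg (F := K) 𝔮 (m : 𝓞 K)
    have h3 : ¬ ((1 : ℕ) : ℤ) ≤ ordAt 𝔮 (algebraMap (𝓞 K) K (m : 𝓞 K)) := by
      rw [natCast_le_ordAt_algebraMap_iff (F := K) 𝔮 hm0 1, pow_one]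
      intro hmem
      have := int_dvd_of_intCast_mem hq 𝔮.asIdeal hq𝔮 (m : ℤ) (by simpa using hmem)
      exact hm (Int.natCast_dvd_natCast.mp this)
    simp only [map_natCast, Nat.cast_one] at h2 h3
    omega
  obtain ⟨e, m, hm, rfl⟩ := Nat.exists_eq_pow_mul_and_not_dvd hn q hq.ne_one
  have hm0 : m ≠ 0 := by
    rintro rfl
    exact hm (dvd_zero q)
  have hmK : ((m : ℕ) : K) ≠ 0 := Nat.cast_ne_zero.mpr hm0
  rw [Nat.cast_mul, Nat.cast_pow, ordAt_mul 𝔮 (pow_ne_zero e hqK) hmK, ordAt_pow, h1, h0 m hm,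
    padicValNat.mul (pow_ne_zero e hq.ne_zero) hm0, padicValNat.prime_pow,
    padicValNat.eq_zero_of_not_dvd hm]
  push_cast
  ring

/-- The valuation of a rational number at a prime `𝔮` unramified over `q`. -/
theorem ordAt_algebraMap_rat_of_notMem_sq (𝔮 : HeightOneSpectrum (𝓞 K)) {q : ℕ} (hq : q.Prime)
    (hq𝔮 : (q : 𝓞 K) ∈ 𝔮.asIdeal) (hsq : (q : 𝓞 K) ∉ 𝔮.asIdeal ^ 2) (b : ℚ) :
    ordAt 𝔮 (algebraMap ℚ K b) = padicValRat q b := by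
  rcases eq_or_ne b 0 with rfl | hb
  · simp
  have hnum : b.num ≠ 0 := Rat.num_ne_zero.mpr hb
  have hden : b.den ≠ 0 := b.den_ne_zero
  have e1 : algebraMap ℚ K b = ((b.num : ℤ) : K) / ((b.den : ℕ) : K) := by
    rw [eq_ratCast, Rat.cast_def]
  have hnumK : ((b.num : ℤ) : K) ≠ 0 := Int.cast_ne_zero.mpr hnum
  have hdenK : ((b.den : ℕ) : K) ≠ 0 := Nat.cast_ne_zero.mpr hden
  have hnatAbs : ordAt 𝔮 ((b.num : ℤ) : K) = ordAt 𝔮 ((b.num.natAbs : ℕ) : K) := by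
    rcases Int.natAbs_eq b.num with h | h
    · conv_lhs => rw [h]
      simp
    · conv_lhs => rw [h]
      rw [Int.cast_neg, ordAt_neg']
      simp
  rw [e1, ordAt_div 𝔮 hnumK hdenK, hnatAbs,
    ordAt_natCast_of_notMem_sq 𝔮 hq hq𝔮 hsq _ (Int.natAbs_ne_zero.mpr hnum),
    ordAt_natCast_of_notMem_sq 𝔮 hq hq𝔮 hsq _ hden]
  rfl

end RatVal

section UnramNormRat

variable {K L Ω : Type*} [Field K] [NumberField K] [Field L] [NumberField L] [Algebra K L]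
  [IsGalois K L] [Field Ω] [NumberField Ω] [Algebra L Ω] [Algebra K Ω] [IsScalarTower K L Ω]
  [IsGalois K Ω]

/-- **(D1), rational form.**  As `exists_fix_of_norm_unramified`, for `𝔮` of degree one and
unramified over the rational prime `q`, and `N_{L/K} w = b ∈ ℚ`: `m ≡ q ^ v_q(b)` modulo `ℓ`. -/
theorem exists_fix_of_norm_unramified_rat (ℓ : ℕ) [Fact ℓ.Prime] (ζ : Ω)
    (hζ : IsPrimitiveRoot ζ ℓ)
    (𝔮 : HeightOneSpectrum (𝓞 K)) (𝔓 : HeightOneSpectrum (𝓞 Ω)) [𝔓.asIdeal.LiesOver 𝔮.asIdeal]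
    (hℓ𝔓 : (ℓ : 𝓞 Ω) ∉ 𝔓.asIdeal) (hin : 𝔓.asIdeal.inertia (Ω ≃ₐ[K] Ω) = ⊥)
    (q : ℕ) (hq : q.Prime) (hN : Ideal.absNorm 𝔮.asIdeal = q) (hsq : (q : 𝓞 K) ∉ 𝔮.asIdeal ^ 2)
    (w : L) (hw : w ≠ 0) (b : ℚ) (hb : algebraMap ℚ K b = Algebra.norm K w) :
    ∃ (g : Ω ≃ₐ[K] Ω) (m : ℕ), (∀ x : L, g (algebraMap L Ω x) = algebraMap L Ω x) ∧
      g ζ = ζ ^ m ∧ (m : ZMod ℓ) = (q : ZMod ℓ) ^ (padicValRat q b) := by
  obtain ⟨g, m, h1, h2, h3⟩ := exists_fix_of_norm_unramified ℓ ζ hζ 𝔮 𝔓 hℓ𝔓 hin w hw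
  refine ⟨g, m, h1, h2, ?_⟩
  have hq𝔮 : (q : 𝓞 K) ∈ 𝔮.asIdeal := by
    rw [← hN]
    exact Ideal.absNorm_mem _
  rw [h3, hN, ← hb, ordAt_algebraMap_rat_of_notMem_sq 𝔮 hq hq𝔮 hsq]

end UnramNormRat

end Fermat.Agent.PT.G
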